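import Fermat.Agent.FLAT.Tame

/-!
# Residues of integral elements, as a total function

The function is `red`, with the junk value `0` off the integral elements.
-/

set_option autoImplicit false

noncomputable section

open Fermat.EC.Val IsLocalRing

namespace Fermat.FLAT

local notation "ℚbar" => AlgebraicClosure ℚ
local notation "Γℚ" => (AlgebraicClosure ℚ ≃ₐ[ℚ] AlgebraicClosure ℚ)

variable {p : ℕ} {A : ValuationSubring ℚbar}

open Classical in
/-- The residue of an integral element (junk `0` otherwise). -/
def red (A : ValuationSubring ℚbar) (y : ℚbar) : ResidueField A :=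
  if hy : y ∈ A then residue A ⟨y, hy⟩ else 0

/-- The residue of an element of the place. -/
lemma red_of_mem {y : ℚbar} (hy : y ∈ A) : red A y = residue A ⟨y, hy⟩ := dif_pos hy

/-- `red` is additive on integral elements. -/
lemma red_add (h : IsPlace A p) {x y : ℚbar} (hx : Ge A p x 0) (hy : Ge A p y 0) :
    red A (x + y) = red A x + red A y := by
  have hx' := (mem_iff_ge h x).mpr hx
  have hy' := (mem_iff_ge h y).mpr hy
  rw [red_of_mem hx', red_of_mem hy', red_of_mem (add_mem hx' hy'), ← map_add]
  rfl

/-- `red` is multiplicative on integral elements. -/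
lemma red_mul (h : IsPlace A p) {x y : ℚbar} (hx : Ge A p x 0) (hy : Ge A p y 0) :
    red A (x * y) = red A x * red A y := by
  have hx' := (mem_iff_ge h x).mpr hx
  have hy' := (mem_iff_ge h y).mpr hy
  rw [red_of_mem hx', red_of_mem hy', red_of_mem (mul_mem hx' hy'), ← map_mul]
  rfl

/-- The residue of zero. -/
@[simp] lemma red_zero : red A (0 : ℚbar) = 0 := by
  rw [red_of_mem (zero_mem A)]; exact map_zero (residue A)

/-- The residue of one. -/
@[simp] lemma red_one : red A (1 : ℚbar) = 1 := by
  rw [red_of_mem (one_mem A)]; exact map_one (residue A)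

/-- `red` commutes with powers of an integral element. -/
lemma red_pow (h : IsPlace A p) {x : ℚbar} (hx : Ge A p x 0) :
    ∀ n : ℕ, red A (x ^ n) = red A x ^ n
  | 0 => by simp
  | n + 1 => by
    rw [pow_succ, red_mul h (by simpa using hx.pow h n) hx, red_pow h hx n, pow_succ]

/-- The residue of a natural number. -/
lemma red_natCast (n : ℕ) : red A (n : ℚbar) = n := by
  rw [red_of_mem (natCast_mem A n)]; exact map_natCast (residue A) n

/-- `red` commutes with negation of an integral element. -/
lemma red_neg (h : IsPlace A p) {x : ℚbar} (hx : Ge A p x 0) : red A (-x) = -red A x := by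
  refine eq_neg_of_add_eq_zero_left ?_
  rw [← red_add h (hx.neg h) hx, neg_add_cancel, red_zero]

/-- An integral element has residue zero exactly when it has positive order. -/
lemma red_eq_zero_iff (h : IsPlace A p) {x : ℚbar} (hx : Ge A p x 0) :
    red A x = 0 ↔ Gt A p x 0 := by
  rw [red_of_mem ((mem_iff_ge h x).mpr hx), residue_eq_zero_iff, ← A.coe_mem_nonunits_iff,
    nonunit_iff_gt h]

/-- Integral elements have equal residues exactly when their difference has positive order. -/
lemma red_eq_iff (h : IsPlace A p) {x y : ℚbar} (hx : Ge A p x 0) (hy : Ge A p y 0) :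
    red A x = red A y ↔ Gt A p (x - y) 0 := by
  rw [← sub_eq_zero, ← red_eq_zero_iff h (hx.sub h hy), sub_eq_add_neg (red A x),
    ← red_neg h hy, ← red_add h hx (hy.neg h), ← sub_eq_add_neg]

/-- Inert automorphisms act trivially on residues. -/
lemma red_apply (h : IsPlace A p) {σ : Γℚ} (hσ : IsInert A σ) {x : ℚbar} (hx : Ge A p x 0) :
    red A (σ x) = red A x :=
  (red_eq_iff h (hσ.ge_apply h hx) hx).mpr (hσ.gt_sub h hx)

/-- The residue field has characteristic `p`. -/
lemma charP_res (h : IsPlace A p) : CharP (ResidueField A) p :=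
  Fermat.CFT.charP_residueField h.1 h.2

/-- A `(p-1)`-st root of unity in the residue field is a natural number. -/
lemma exists_nat_of_pow_eq_one (h : IsPlace A p) {z : ResidueField A} (hz : z ^ (p - 1) = 1) :
    ∃ r : ℕ, (r : ResidueField A) = z := by
  classical
  have : Fact p.Prime := ⟨h.1⟩
  have := charP_res h
  have hzp : z ^ p = z := by
    conv_lhs => rw [show p = p - 1 + 1 from (Nat.sub_add_cancel h.1.one_le).symm]
    rw [pow_succ, hz, one_mul]
  by_contra hne
  push Not at hne
  set P : Polynomial (ResidueField A) := Polynomial.X ^ p - Polynomial.X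
  set ι : ZMod p →+* ResidueField A := ZMod.castHom dvd_rfl _
  have hP : P ≠ 0 := FiniteField.X_pow_card_sub_X_ne_zero _ h.1.one_lt
  have hsub : (insert z (Finset.univ.image ι)).val ⊆ P.roots := by
    intro w hw
    rw [Polynomial.mem_roots hP, Polynomial.IsRoot, Polynomial.eval_sub, Polynomial.eval_pow,
      Polynomial.eval_X, sub_eq_zero]
    rw [Finset.mem_val, Finset.mem_insert, Finset.mem_image] at hw
    rcases hw with rfl | ⟨a, -, rfl⟩
    · exact hzp
    · rw [← map_pow, ZMod.pow_card]
  have hnot : z ∉ Finset.univ.image ι := fun hm => by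
    obtain ⟨a, -, rfl⟩ := Finset.mem_image.mp hm
    exact hne a.val (by rw [← map_natCast ι, ZMod.natCast_zmod_val])
  have hcard := Polynomial.card_le_degree_of_subset_roots hsub
  rw [Finset.card_insert_of_notMem hnot, Finset.card_image_of_injective _ ι.injective,
    Finset.card_univ, ZMod.card, FiniteField.X_pow_card_sub_X_natDegree_eq _ h.1.one_lt] at hcard
  omega

end Fermat.FLAT
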