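import Fermat.Agent.FLAT.Conn
import Fermat.Agent.FLAT.Red

/-!
# Connected points of pieces of multiplicative type

Inertia acts on points of slope `1 / (p - 1)` through the tame character (`apply_eq_nsmul`), and
`tame` fixes a connected point whose line is stable under inertia (`fixed_of_line`).
-/

set_option autoImplicit false

noncomputable section

open Fermat.EC.Val IsLocalRing

namespace Fermat.FLAT

local notation "ℚbar" => AlgebraicClosure ℚ
local notation "Γℚ" => (AlgebraicClosure ℚ ≃ₐ[ℚ] AlgebraicClosure ℚ)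

variable {p : ℕ} [hp : Fact p.Prime] {A : ValuationSubring ℚbar}
  {H : Subgroup Γℚ} {M : Type*} [AddCommGroup M] [Finite M] {g : Γℚ → AddMonoid.End M}

/-- `p` does not divide `p - 1`. -/
lemma not_dvd_sub_one : ¬ p ∣ p - 1 := fun hd => by
  have := Nat.le_of_dvd (by have := hp.out.two_le; omega) hd
  have := hp.out.two_le
  omega

/-- `p - 1` is nonzero. -/
lemma sub_one_ne_zero' : p - 1 ≠ 0 := by have := hp.out.two_le; omega

/-- `p - 1` cast to `ℚ`. -/
lemma cast_sub_one : ((p - 1 : ℕ) : ℚ) = (p : ℚ) - 1 := by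
  rw [Nat.cast_sub hp.out.one_le, Nat.cast_one]

namespace Model

variable (G : Model A H g) (hM : ∀ x : M, p • x = 0)

/-- Tame-fixed connected points have all orders `≥ 1/(p-1)`. -/
theorem dom_of_fixed (h : IsPlace A p) {π : ℚbar} (hπ : π ^ (p - 1) = (p : ℚbar)) {x : M}
    (hx : x ∈ G.conn h) (hfix : ∀ σ ∈ tame A π, g σ x = x) :
    G.Dom p x (1 / ((p : ℚ) - 1)) := by
  intro f hf hf0
  by_cases h0 : f x = 0
  · exact Or.inl h0
  obtain ⟨k, hk⟩ := exists_int_ord_tame h not_dvd_sub_one hπ h0 fun σ hσ => by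
    rw [← G.equivariant f hf σ (G.inertia_mem hσ.1), hfix σ hσ]
  have hpos : 0 < ord A p (f x) := (hx f hf hf0).resolve_left h0
  refine Or.inr ?_
  rw [hk, cast_sub_one] at hpos ⊢
  have hp1 : (0 : ℚ) < (p : ℚ) - 1 := by
    have : (2 : ℚ) ≤ p := by exact_mod_cast hp.out.two_le
    linarith
  have hk0 : (0 : ℚ) < k := (div_pos_iff_of_pos_right hp1).mp hpos
  have : (1 : ℚ) ≤ k := by exact_mod_cast (show (0 : ℤ) < k by exact_mod_cast hk0)
  exact (div_le_div_iff_of_pos_right hp1).mpr this

include hM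

/-- Connected points of order `≥ 1/(p-1)` are tame-fixed. -/
theorem fixed_of_dom (h : IsPlace A p) {π : ℚbar} (hπ : π ^ (p - 1) = (p : ℚbar)) {x : M}
    (hx : G.Dom p x (1 / ((p : ℚ) - 1))) {σ : Γℚ} (hσ : σ ∈ tame A π) : g σ x = x := by
  refine sub_eq_zero.mp (G.eq_zero_of_sdom hM h (G.sdom_smul_sub h (G.inertia_mem hσ.1)
    fun b hb => ?_))
  obtain ⟨r, hr⟩ := G.exists_apply_zero hb
  have h1 := gt_sub_scaled h sub_one_ne_zero' hπ hσ (k := 1)
    (by rw [Int.cast_one, cast_sub_one]; exact hx _ (G.sub_mem_aug hb hr).1 (G.sub_mem_aug hb hr).2)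
  rw [Pi.sub_apply, Pi.algebraMap_apply, map_sub, algebraMap_Rfix, apply_Rfix (G.inertia_mem hσ.1),
    sub_sub_sub_cancel_right, Int.cast_one, cast_sub_one] at h1
  exact h1

/-- Inertia acts on tame-fixed connected points through the cyclotomic character. -/
theorem apply_eq_nsmul (h : IsPlace A p) {π : ℚbar} (hπ : π ^ (p - 1) = (p : ℚbar)) {x : M}
    (hx : G.Dom p x (1 / ((p : ℚ) - 1))) {γ : Γℚ} (hγ : γ ∈ A.inertiaSubgroupIn ℚ) {r : ℕ}
    (hr : red A (γ π / π) = (r : ResidueField A)) : g γ x = r • x := by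
  classical
  set w : ℚ := 1 / ((p : ℚ) - 1) with hw
  have hw0 : 0 < w := by
    have : (2 : ℚ) ≤ p := by exact_mod_cast hp.out.two_le
    exact div_pos one_pos (by linarith)
  have hγi := isInert_of_mem_inertia hγ
  have hπ1 : Is A p π w := by
    have := is_pi h sub_one_ne_zero' hπ
    rwa [cast_sub_one] at this
  -- `g γ x`, the multiples of `x` and `g γ x - r • x` all have order `≥ w = 1/(p-1)`.
  have hγx : G.Dom p (g γ x) w := fun f hf hf0 => by
    rw [G.equivariant f hf γ (G.inertia_mem hγ)]; exact hγi.ge_apply h (hx f hf hf0)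
  have hn : ∀ n : ℕ, G.Dom p (n • x) w := fun n => by
    induction n with
    | zero => rw [zero_nsmul]; exact G.dom_origin w
    | succ n ih => rw [succ_nsmul]; exact G.dom_add h hw0.le ih hx
  have hnegd : G.Dom p (g γ x - r • x) w := by
    have h2 : ((p - 1) * r) • x + r • x = 0 := by
      rw [← add_nsmul, ← Nat.succ_mul, Nat.succ_eq_add_one, Nat.sub_add_cancel hp.out.one_le,
        mul_nsmul, hM, nsmul_zero]
    rw [sub_eq_add_neg, ← eq_neg_of_add_eq_zero_left h2]
    exact G.dom_add h hw0.le hγx (hn _)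
  -- A point of order `> w` is `0`. Modulo order `> w` functions are additive.
  refine sub_eq_zero.mp (G.eq_zero_of_sdom hM h fun f hf hf0 => ?_)
  have hadd : ∀ n : ℕ, Gt A p (f (n • x) - n * f x) w := by
    intro n
    induction n with
    | zero => simp [hf0, gt_zero]
    | succ n ih =>
      rw [succ_nsmul]
      have := ((G.ge_add_sub h (hn n) hx hf hf0).gt (show w < w + w by linarith)).add h ih
      convert this using 1
      push_cast; ring
  -- The residues of `γ (f x) / π` and `r * f x / π` agree, as `γ π / π` reduces to `r`.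
  have hU : Ge A p (f x / π) 0 := by simpa using (hx f hf hf0).div h hπ1
  have hζ : Ge A p (γ π / π) 0 := by simpa using (hγi.ge_apply h hπ1.ge).div h hπ1
  have hred : red A (γ (f x / π) * (γ π / π)) = red A ((r : ℚbar) * (f x / π)) := by
    rw [red_mul h (hγi.ge_apply h hU) hζ, red_mul h (ge_natCast h r) hU, red_apply h hγi hU,
      hr, red_natCast, mul_comm]
  rw [red_eq_iff h (by simpa using (hγi.ge_apply h hU).mul h hζ)
    (by simpa using (ge_natCast h r).mul h hU)] at hred
  have h1 : Gt A p (γ (f x) - r * f x) w := by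
    have := hred.mul_ge h hπ1.ge
    rw [zero_add, sub_mul, mul_assoc, div_mul_cancel₀ _ hπ1.1, ← map_mul,
      div_mul_cancel₀ _ hπ1.1, mul_assoc, div_mul_cancel₀ _ hπ1.1] at this
    exact this
  -- Hence `f (g γ x - r • x)` has order `> w`.
  have h3 := (G.ge_add_sub h hnegd (hn r) hf hf0).gt (show w < w + w by linarith)
  rw [sub_add_cancel, G.equivariant f hf γ (G.inertia_mem hγ)] at h3
  have := (h1.sub h (hadd r)).sub h h3
  convert this using 1
  ring

/-- An inertia stable connected line is tame-fixed. -/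
theorem fixed_of_line (h : IsPlace A p) {π : ℚbar} (hπ : π ^ (p - 1) = (p : ℚbar)) {c : M}
    (hc : c ∈ G.conn h) (hc0 : c ≠ 0)
    (hst : ∀ σ ∈ A.inertiaSubgroupIn ℚ, g σ c - c ∈ AddSubgroup.zmultiples c) :
    ∀ σ ∈ tame A π, g σ c = c := by
  classical
  have hp1 : (0 : ℚ) < (p : ℚ) - 1 := by
    have : (2 : ℚ) ≤ p := by exact_mod_cast hp.out.two_le
    linarith
  have hord : addOrderOf c = p := addOrderOf_eq_prime (hM c) hc0
  obtain ⟨f, hf, hf0, a, ha0, hale, hfa, hdom, -⟩ := G.exists_min_ord hM h hc0 hc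
  -- the product of `f` over the nonzero multiples of `c` is fixed by inertia, so
  -- `(p - 1) a` is a positive integer
  refine fun σ hσ => G.fixed_of_dom hM h hπ (Dom.mono' G hdom ?_) hσ
  have hmul : ∀ j : ℕ, G.Dom p (j • c) a ∧ Gt A p (f (j • c) - j * f c) a := by
    intro j
    induction j with
    | zero =>
      rw [zero_nsmul, hf0, Nat.cast_zero, zero_mul, sub_zero]
      exact ⟨G.dom_origin a, gt_zero⟩
    | succ j ih =>
      rw [succ_nsmul]
      refine ⟨G.dom_add h ha0.le ih.1 hdom, ?_⟩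
      have := ((G.ge_add_sub h ih.1 hdom hf hf0).gt (show a < a + a by linarith)).add h ih.2
      convert this using 1
      push_cast; ring
  set s : Finset ℕ := Finset.Ico 1 p
  have hs : ∀ j ∈ s, Is A p (f (j • c)) a := by
    intro j hj
    rw [Finset.mem_Ico] at hj
    have hju : Is A p (j : ℚbar) 0 :=
      is_natCast h fun hd => absurd (Nat.le_of_dvd (by omega) hd) (not_le.mpr hj.2)
    have := (hju.mul h hfa).add h (show Gt A p (f (j • c) - j * f c) (0 + a) by
      rw [zero_add]; exact (hmul j).2)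
    rwa [add_sub_cancel, zero_add] at this
  have hfixN : ∀ τ ∈ A.inertiaSubgroupIn ℚ, τ (∏ j ∈ s, f (j • c)) = ∏ j ∈ s, f (j • c) := by
    intro τ hτ
    obtain ⟨m, hm⟩ := AddSubgroup.mem_zmultiples_iff.mp (hst τ hτ)
    have hτc : g τ c = (((m + 1 : ℤ) % (p : ℤ)).toNat) • c := by
      have hp0 : (p : ℤ) ≠ 0 := Int.natCast_ne_zero.mpr hp.out.ne_zero
      rw [← natCast_zsmul, Int.toNat_of_nonneg (Int.emod_nonneg _ hp0)]
      have : g τ c = (m + 1) • c := by rw [add_zsmul, hm, one_zsmul, sub_add_cancel]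
      rw [this]
      conv_lhs => rw [← Int.emod_add_mul_ediv (m + 1) p]
      rw [add_zsmul, mul_comm, mul_zsmul, natCast_zsmul, hM, zsmul_zero, add_zero]
    set t := ((m + 1 : ℤ) % (p : ℤ)).toNat
    have hinjg : Function.Injective (g τ) := G.act_injective (G.inertia_mem hτ)
    have hnp : ∀ i : ℕ, (i % p) • c = i • c := fun i => by
      rw [← hord, mod_addOrderOf_nsmul]
    have hinj : Set.InjOn (fun j => (t * j) % p) (s : Set ℕ) := by
      intro u hu v hv huv
      simp only [s, Finset.coe_Ico, Set.mem_Ico] at hu hv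
      have h1 : g τ (u • c) = g τ (v • c) := by
        rw [map_nsmul, map_nsmul, hτc, ← mul_nsmul, ← mul_nsmul, ← hnp,
          show (t * u) % p = (t * v) % p from huv, hnp]
      have h2 := hinjg h1
      rw [nsmul_eq_nsmul_iff_modEq, hord, Nat.ModEq, Nat.mod_eq_of_lt hu.2,
        Nat.mod_eq_of_lt hv.2] at h2
      exact h2
    have himg : s.image (fun j => (t * j) % p) = s := by
      refine Finset.eq_of_subset_of_card_le (Finset.image_subset_iff.mpr fun j hj => ?_)
        (le_of_eq (Finset.card_image_of_injOn hinj).symm)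
      rw [Finset.mem_Ico] at hj ⊢
      refine ⟨Nat.one_le_iff_ne_zero.mpr fun e0 => ?_, Nat.mod_lt _ hp.out.pos⟩
      have h1 : g τ (j • c) = g τ 0 := by
        rw [map_nsmul, hτc, ← mul_nsmul, map_zero, ← hnp, e0, zero_nsmul]
      have h2 := hinjg h1
      rw [← addOrderOf_dvd_iff_nsmul_eq_zero, hord] at h2
      exact absurd (Nat.le_of_dvd (by omega) h2) (not_le.mpr hj.2)
    rw [map_prod]
    conv_rhs => rw [← himg, Finset.prod_image hinj]
    refine Finset.prod_congr rfl fun j _ => ?_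
    rw [← G.equivariant f hf τ (G.inertia_mem hτ), map_nsmul, hτc, ← mul_nsmul, hnp]
  obtain ⟨k, hk⟩ := exists_int_ord h (Finset.prod_ne_zero_iff.mpr fun j hj => (hs j hj).1) hfixN
  have hI := (Is.prod h (s := s) (f := fun j => f (j • c)) (r := fun _ => a) hs).2
  rw [Finset.sum_const, Nat.card_Ico, nsmul_eq_mul, hk, cast_sub_one] at hI
  have hk0 : (0 : ℚ) < k := hI ▸ mul_pos hp1 ha0
  have h1 : (1 : ℚ) ≤ k := by exact_mod_cast (show (0 : ℤ) < k by exact_mod_cast hk0)
  rw [div_le_iff₀ hp1]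
  nlinarith [hI]

end Model

end Fermat.FLAT
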