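import Fermat.Agent.FLAT.Red
import Fermat.Agent.CFT.Density.InertiaLift
import Mathlib.FieldTheory.Finite.Basic

/-!
# The decomposition group at `p` on a finite level

Wild inertia on a level `L` is `{σ ∈ I | σ y / y ≡ 1 for y ∈ L}`: it acts through `p`-groups,
contains the commutators of inertia, Frobenius conjugation is the `p`-th power modulo it, and
decomposition is generated by Frobenius and inertia.
-/

set_option autoImplicit false

noncomputable section

open Fermat.EC.Val IsLocalRing NumberField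
open scoped Pointwise

namespace Fermat.FLAT

local notation "ℚbar" => AlgebraicClosure ℚ
local notation "Γℚ" => (AlgebraicClosure ℚ ≃ₐ[ℚ] AlgebraicClosure ℚ)

variable {p : ℕ} {A : ValuationSubring ℚbar}

/-! ### Decomposition elements -/

/-- The decomposition group preserves the place. -/
lemma apply_mem_iff_decomp {δ : Γℚ} (hδ : δ ∈ A.decompositionSubgroup ℚ) (y : ℚbar) :
    δ y ∈ A ↔ y ∈ A := by
  have hA : δ • A = A := hδ
  have := ValuationSubring.smul_mem_pointwise_smul_iff (g := δ) (S := A) (x := y)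
  rwa [hA] at this

/-- An element of the decomposition group preserves orders. -/
lemma ord_apply_decomp (h : IsPlace A p) {δ : Γℚ} (hδ : δ ∈ A.decompositionSubgroup ℚ)
    (y : ℚbar) : ord A p (δ y) = ord A p y := by
  rcases eq_or_ne y 0 with rfl | hy
  · rw [map_zero]
  obtain ⟨e, f, he, hef, hy'⟩ := ord_spec h hy
  have hq : (p : ℚbar) ≠ 0 := Nat.cast_ne_zero.mpr h.1.ne_zero
  set z := y ^ e / (p : ℚbar) ^ f with hz
  have hz0 : z ≠ 0 := div_ne_zero (pow_ne_zero _ hy) (zpow_ne_zero _ hq)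
  have hδz0 : δ z ≠ 0 := by simpa using hz0
  have hv : A.valuation z = 1 := by
    rw [hz, map_div₀, map_pow, map_zpow₀, hef, div_self]
    exact zpow_ne_zero _ (by simp [hq])
  have h1 : δ z ∈ A := (apply_mem_iff_decomp hδ z).mpr ((A.valuation_le_one_iff z).mp hv.le)
  have h2 : (δ z)⁻¹ ∈ A := by
    rw [← map_inv₀]
    exact (apply_mem_iff_decomp hδ _).mpr
      ((A.valuation_le_one_iff _).mp (by rw [map_inv₀, hv, inv_one]))
  have hv' : A.valuation (δ z) = 1 := by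
    refine le_antisymm ((A.valuation_le_one_iff _).mpr h1) ?_
    have := (A.valuation_le_one_iff _).mpr h2
    rwa [map_inv₀, inv_le_one₀ (zero_lt_iff.mpr (by simpa using hδz0))] at this
  rw [hy']
  refine ord_of_pow_eq h (by simpa using hy) he ?_
  have e1 : δ y ^ e = δ z * (p : ℚbar) ^ f := by
    rw [hz, map_div₀, map_pow, map_zpow₀, map_natCast, div_mul_cancel₀ _ (zpow_ne_zero _ hq)]
  rw [← map_pow, e1, map_mul, hv', one_mul, map_zpow₀]

/-- The decomposition group preserves an exact order. -/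
lemma is_apply_decomp (h : IsPlace A p) {δ : Γℚ} (hδ : δ ∈ A.decompositionSubgroup ℚ) {y : ℚbar}
    {a : ℚ} (hy : Is A p y a) : Is A p (δ y) a :=
  ⟨by simpa using hy.1, (ord_apply_decomp h hδ y).trans hy.2⟩

/-- The decomposition group preserves a lower bound on the order. -/
lemma ge_apply_decomp (h : IsPlace A p) {δ : Γℚ} (hδ : δ ∈ A.decompositionSubgroup ℚ) {y : ℚbar}
    {a : ℚ} (hy : Ge A p y a) : Ge A p (δ y) a := by
  rcases hy with hy | hy
  · exact Or.inl (by rw [hy, map_zero])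
  · exact Or.inr (by rwa [ord_apply_decomp h hδ])

/-- The decomposition group preserves a strict lower bound on the order. -/
lemma gt_apply_decomp (h : IsPlace A p) {δ : Γℚ} (hδ : δ ∈ A.decompositionSubgroup ℚ) {y : ℚbar}
    {a : ℚ} (hy : Gt A p y a) : Gt A p (δ y) a := by
  rcases hy with hy | hy
  · exact Or.inl (by rw [hy, map_zero])
  · exact Or.inr (by rwa [ord_apply_decomp h hδ])

/-- Frobenius raises residues to the power `p`. -/
lemma red_apply_frob (h : IsPlace A p) {φ : Γℚ} (hφ : A.IsFrobeniusAt φ p) {x : ℚbar}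
    (hx : Ge A p x 0) : red A (φ x) = red A x ^ p := by
  obtain ⟨hD, hres⟩ := hφ
  have hx' := (mem_iff_ge h x).mpr hx
  rw [red_of_mem hx', red_of_mem ((apply_mem_iff_decomp hD x).mpr hx'), ← hres]
  rfl

/-- Frobenius raises roots of unity of order prime to `p` to the power `p`. -/
lemma frob_apply_root (h : IsPlace A p) {φ : Γℚ} (hφ : A.IsFrobeniusAt φ p) {ζ : ℚbar}
    {m : ℕ} (hm : ¬ p ∣ m) (hz : ζ ^ m = 1) : φ ζ = ζ ^ p := by
  have hm0 : m ≠ 0 := fun h0 => hm (h0 ▸ dvd_zero p)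
  have hζ := is_root_unity h hm0 hz
  have hp0 : Is A p (ζ ^ p) 0 := is_root_unity h hm0
      (by rw [← pow_mul, mul_comm, pow_mul, hz, one_pow])
  refine (div_eq_one_iff_eq hp0.1).mp (root_eq_one h hm ?_ ?_)
  · rw [div_pow, ← map_pow, hz, map_one, ← pow_mul, mul_comm, pow_mul, hz, one_pow, div_one]
  · have hge : Ge A p (φ ζ) 0 := ge_apply_decomp h hφ.mem_decompositionSubgroup hζ.ge
    have h1 : Gt A p (φ ζ - ζ ^ p) 0 := by
      rw [← red_eq_iff h hge hp0.ge, red_apply_frob h hφ hζ.ge, ← red_pow h hζ.ge]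
    have hd := Gt.div h h1 hp0
    rwa [sub_zero, sub_div, div_self hp0.1] at hd

/-- Inertia is normal in the decomposition group. -/
lemma conj_mem_inertia (h : IsPlace A p) {δ σ : Γℚ} (hδ : δ ∈ A.decompositionSubgroup ℚ)
    (hσ : σ ∈ A.inertiaSubgroupIn ℚ) : δ * σ * δ⁻¹ ∈ A.inertiaSubgroupIn ℚ := by
  have hA : δ • A = A := hδ
  have := Fermat.CFT.mem_inertiaSubgroupIn_smul h.1 h.2 hσ δ
  rwa [hA] at this

/-! ### The characters `y ↦ red (σ y / y)` -/

/-- `σ y / y` is a unit for inertial `σ`. -/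
lemma is_ratio (h : IsPlace A p) {σ : Γℚ} (hσ : σ ∈ A.inertiaSubgroupIn ℚ) {y : ℚbar}
    (hy : y ≠ 0) : Is A p (σ y / y) 0 := by
  have h1 : Is A p y (ord A p y) := ⟨hy, rfl⟩
  simpa using ((isInert_of_mem_inertia hσ).is_apply h h1).div h h1

/-- The residual ratio `σ y / y mod 𝔪`, a character of inertia for each `y`. -/
def psi (A : ValuationSubring ℚbar) (σ : Γℚ) (y : ℚbar) : ResidueField A := red A (σ y / y)

/-- `psi σ` is multiplicative. -/
lemma psi_mul_right (h : IsPlace A p) {σ : Γℚ} (hσ : σ ∈ A.inertiaSubgroupIn ℚ) {y z : ℚbar}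
    (hy : y ≠ 0) (hz : z ≠ 0) : psi A σ (y * z) = psi A σ y * psi A σ z := by
  rw [psi, psi, psi, map_mul, mul_div_mul_comm,
    red_mul h (is_ratio h hσ hy).ge (is_ratio h hσ hz).ge]

/-- `psi` is multiplicative on inertia. -/
lemma psi_mul (h : IsPlace A p) {σ τ : Γℚ} (hσ : σ ∈ A.inertiaSubgroupIn ℚ)
    (hτ : τ ∈ A.inertiaSubgroupIn ℚ) {y : ℚbar} (hy : y ≠ 0) :
    psi A (σ * τ) y = psi A σ y * psi A τ y := by
  have hσi := isInert_of_mem_inertia hσ
  have e : (σ * τ) y / y = σ (τ y / y) * (σ y / y) := by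
    rw [AlgEquiv.mul_apply, map_div₀, div_mul_div_cancel₀ (by simpa using hy)]
  rw [psi, e, red_mul h (hσi.ge_apply h (is_ratio h hτ hy).ge) (is_ratio h hσ hy).ge,
    red_apply h hσi (is_ratio h hτ hy).ge, mul_comm, psi, psi]

/-- `psi` of the identity. -/
lemma psi_one {y : ℚbar} (hy : y ≠ 0) : psi A 1 y = 1 := by
  rw [psi, AlgEquiv.one_apply, div_self hy, red_one]

/-- `psi` takes nonzero values on inertia. -/
lemma psi_ne_zero (h : IsPlace A p) {σ : Γℚ} (hσ : σ ∈ A.inertiaSubgroupIn ℚ) {y : ℚbar}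
    (hy : y ≠ 0) : psi A σ y ≠ 0 := fun e => by
  rw [psi, red_eq_zero_iff h (is_ratio h hσ hy).ge] at e
  exact (is_ratio h hσ hy).not_gt e

/-- `psi` commutes with powers. -/
lemma psi_pow (h : IsPlace A p) {σ : Γℚ} (hσ : σ ∈ A.inertiaSubgroupIn ℚ) {y : ℚbar} (hy : y ≠ 0) :
    ∀ n : ℕ, psi A (σ ^ n) y = psi A σ y ^ n
  | 0 => by rw [pow_zero, pow_zero, psi_one hy]
  | n + 1 => by rw [pow_succ, psi_mul h (pow_mem hσ n) hσ hy, psi_pow h hσ hy n, pow_succ]

/-- `psi` commutes with inverses. -/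
lemma psi_inv (h : IsPlace A p) {σ : Γℚ} (hσ : σ ∈ A.inertiaSubgroupIn ℚ) {y : ℚbar} (hy : y ≠ 0) :
    psi A σ⁻¹ y = (psi A σ y)⁻¹ := by
  refine eq_inv_of_mul_eq_one_left ?_
  rw [← psi_mul h (inv_mem hσ) hσ hy, inv_mul_cancel, psi_one hy]

/-- `psi` depends only on `y` up to units. -/
lemma psi_unit_mul (h : IsPlace A p) {σ : Γℚ} (hσ : σ ∈ A.inertiaSubgroupIn ℚ) {y z : ℚbar}
    (hz : Is A p z 0) : psi A σ (z * y) = psi A σ y := by
  rcases eq_or_ne y 0 with rfl | hy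
  · rw [mul_zero]
  have hσi := isInert_of_mem_inertia hσ
  have h1 : psi A σ z = 1 := by
    have hd := Gt.div h (hσi.gt_sub h hz.ge) hz
    rw [sub_div, div_self hz.1, sub_self] at hd
    rw [psi, ← red_one (A := A), red_eq_iff h (is_ratio h hσ hz.1).ge
      (show Is A p (1 : ℚbar) 0 from ⟨one_ne_zero, ord_one h⟩).ge]
    exact hd
  change red A _ = red A _
  rw [map_mul, mul_div_mul_comm, red_mul h (is_ratio h hσ hz.1).ge (is_ratio h hσ hy).ge]
  change psi A σ z * _ = _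
  rw [h1, one_mul]

/-- Conjugation by Frobenius raises the tame character to the power `p`. -/
lemma psi_conj_frob (h : IsPlace A p) {φ σ : Γℚ} (hφ : A.IsFrobeniusAt φ p)
    (hσ : σ ∈ A.inertiaSubgroupIn ℚ) {y : ℚbar} (hy : y ≠ 0) :
    psi A (φ * σ * φ⁻¹) y = psi A σ y ^ p := by
  have hD := hφ.mem_decompositionSubgroup
  set y' := φ⁻¹ y with hy'
  have hy'0 : y' ≠ 0 := by simpa [hy'] using hy
  have hφy : φ y' = y := by rw [hy', ← AlgEquiv.mul_apply, mul_inv_cancel, AlgEquiv.one_apply]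
  have e : (φ * σ * φ⁻¹) y / y = φ (σ y' / y') := by
    rw [map_div₀, hφy]; rfl
  rw [psi, e, red_apply_frob h hφ (is_ratio h hσ hy'0).ge]
  congr 1
  have hu : Is A p (y' / y) 0 := by
    have h1 : Is A p y (ord A p y) := ⟨hy, rfl⟩
    have := (is_apply_decomp h (inv_mem hD) h1).div h h1
    rwa [sub_self, ← hy'] at this
  change psi A σ y' = psi A σ y
  rw [show y' = y' / y * y from (div_mul_cancel₀ _ hy).symm, psi_unit_mul h hσ hu]

/-! ### Wild inertia on a level -/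

/-- Wild inertia on the level `L`. -/
def wildOn (A : ValuationSubring ℚbar) (L : IntermediateField ℚ ℚbar) : Set Γℚ :=
  {σ | σ ∈ A.inertiaSubgroupIn ℚ ∧ ∀ y ∈ L, y ≠ 0 → psi A σ y = 1}

variable {L : IntermediateField ℚ ℚbar}

/-- The identity is wild on every level. -/
lemma one_mem_wildOn : (1 : Γℚ) ∈ wildOn A L := ⟨one_mem _, fun _ _ hy => psi_one hy⟩

/-- Wild inertia is closed under products. -/
lemma mul_mem_wildOn (h : IsPlace A p) {σ τ : Γℚ} (hσ : σ ∈ wildOn A L) (hτ : τ ∈ wildOn A L) :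
    σ * τ ∈ wildOn A L :=
  ⟨mul_mem hσ.1 hτ.1, fun y hyL hy => by
    rw [psi_mul h hσ.1 hτ.1 hy, hσ.2 y hyL hy, hτ.2 y hyL hy, one_mul]⟩

/-- Wild inertia is closed under inverses. -/
lemma inv_mem_wildOn (h : IsPlace A p) {σ : Γℚ} (hσ : σ ∈ wildOn A L) : σ⁻¹ ∈ wildOn A L :=
  ⟨inv_mem hσ.1, fun y hyL hy => by rw [psi_inv h hσ.1 hy, hσ.2 y hyL hy, inv_one]⟩

/-- Wild inertia is closed under powers. -/
lemma pow_mem_wildOn (h : IsPlace A p) {σ : Γℚ} (hσ : σ ∈ wildOn A L) :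
    ∀ n : ℕ, σ ^ n ∈ wildOn A L
  | 0 => by rw [pow_zero]; exact one_mem_wildOn
  | n + 1 => by rw [pow_succ]; exact mul_mem_wildOn h (pow_mem_wildOn h hσ n) hσ

/-- Commutators of inertia are wild. -/
lemma commutator_mem_wildOn (h : IsPlace A p) {σ τ : Γℚ} (hσ : σ ∈ A.inertiaSubgroupIn ℚ)
    (hτ : τ ∈ A.inertiaSubgroupIn ℚ) : σ * τ * σ⁻¹ * τ⁻¹ ∈ wildOn A L := by
  refine ⟨mul_mem (mul_mem (mul_mem hσ hτ) (inv_mem hσ)) (inv_mem hτ), fun y _ hy => ?_⟩
  rw [psi_mul h (mul_mem (mul_mem hσ hτ) (inv_mem hσ)) (inv_mem hτ) hy,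
    psi_mul h (mul_mem hσ hτ) (inv_mem hσ) hy, psi_mul h hσ hτ hy, psi_inv h hσ hy, psi_inv h hτ hy]
  field_simp [psi_ne_zero h hσ hy, psi_ne_zero h hτ hy]

/-- Modulo wild inertia Frobenius conjugation is the `p`-th power. -/
lemma frob_conj_mem_wildOn (h : IsPlace A p) {φ σ : Γℚ} (hφ : A.IsFrobeniusAt φ p)
    (hσ : σ ∈ A.inertiaSubgroupIn ℚ) : φ * σ * φ⁻¹ * (σ ^ p)⁻¹ ∈ wildOn A L := by
  have hc := conj_mem_inertia h hφ.mem_decompositionSubgroup hσ
  refine ⟨mul_mem hc (inv_mem (pow_mem hσ p)), fun y _ hy => ?_⟩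
  rw [psi_mul h hc (inv_mem (pow_mem hσ p)) hy, psi_conj_frob h hφ hσ hy,
    psi_inv h (pow_mem hσ p) hy, psi_pow h hσ hy]
  exact mul_inv_cancel₀ (pow_ne_zero _ (psi_ne_zero h hσ hy))

variable [Normal ℚ L]

omit [Normal ℚ L] in
/-- Wild inertia moves each element of the level by more than its order. -/
lemma gt_sub_of_mem_wildOn (h : IsPlace A p) {σ : Γℚ} (hσ : σ ∈ wildOn A L) {y : ℚbar}
    (hyL : y ∈ L) (hy : y ≠ 0) : Gt A p (σ y - y) (ord A p y) := by
  have h1 := hσ.2 y hyL hy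
  rw [psi, ← red_one (A := A), red_eq_iff h (is_ratio h hσ.1 hy).ge
    (show Is A p (1 : ℚbar) 0 from ⟨one_ne_zero, ord_one h⟩).ge] at h1
  have := h1.mul_ge h (show Ge A p y (ord A p y) from Or.inr le_rfl)
  rwa [zero_add, sub_mul, div_mul_cancel₀ _ hy, one_mul] at this

/-- A normal level is stable. -/
lemma apply_mem_level (σ : Γℚ) {y : ℚbar} (hy : y ∈ L) : σ y ∈ L := by
  have := AlgEquiv.restrictNormal_commutes σ L ⟨y, hy⟩
  exact this ▸ (σ.restrictNormal L ⟨y, hy⟩).2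

/-- Wild inertia is normal in the decomposition group. -/
lemma conj_mem_wildOn (h : IsPlace A p) {δ σ : Γℚ} (hδ : δ ∈ A.decompositionSubgroup ℚ)
    (hσ : σ ∈ wildOn A L) : δ * σ * δ⁻¹ ∈ wildOn A L := by
  refine ⟨conj_mem_inertia h hδ hσ.1, fun y hyL hy => ?_⟩
  set y' := δ⁻¹ y with hy'
  have hy'0 : y' ≠ 0 := by simpa [hy'] using hy
  have hδy : δ y' = y := by rw [hy', ← AlgEquiv.mul_apply, mul_inv_cancel, AlgEquiv.one_apply]
  have h1 := gt_apply_decomp h hδ (gt_sub_of_mem_wildOn h hσ (apply_mem_level δ⁻¹ hyL) hy'0)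
  rw [← hy', map_sub, hδy, ← ord_apply_decomp h hδ y', hδy] at h1
  have h2 := Gt.div h h1 ⟨hy, rfl⟩
  rw [sub_self, sub_div, div_self hy] at h2
  rw [psi, ← red_one (A := A), red_eq_iff h (is_ratio h (conj_mem_inertia h hδ hσ.1) hy).ge
    (show Is A p (1 : ℚbar) 0 from ⟨one_ne_zero, ord_one h⟩).ge]
  exact h2

variable [FiniteDimensional ℚ L] {G : Type*} [Group G] {ρ : Γℚ →* G}

/-- Wild inertia acts through `p`-groups: the image has `p`-power order. -/
theorem exists_pow_eq_one_of_wild (h : IsPlace A p) (hL : L.fixingSubgroup ≤ ρ.ker) {σ : Γℚ}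
    (hσ : σ ∈ wildOn A L) : ∃ a : ℕ, ρ σ ^ p ^ a = 1 := by
  set g := AlgEquiv.restrictNormalHom L σ
  obtain ⟨a, m, hm, hN⟩ := Nat.exists_eq_pow_mul_and_not_dvd (orderOf_pos g).ne' p h.1.ne_one
  refine ⟨a, ?_⟩
  set τ := σ ^ p ^ a
  have hτ := pow_mem_wildOn h hσ (p ^ a)
  have hfix : ∀ y ∈ L, (τ ^ m) y = y := by
    intro y hy
    have : AlgEquiv.restrictNormalHom L (τ ^ m) = 1 := by
      rw [← pow_mul, map_pow, ← hN, pow_orderOf_eq_one]
    exact (IntermediateField.mem_fixingSubgroup_iff L _).mp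
      ((Fermat.CFT.restrict_eq_one_iff L _).mp this) y hy
  rw [← map_pow]
  refine hL ((IntermediateField.mem_fixingSubgroup_iff L _).mpr fun y hy => ?_)
  change τ y = y
  by_contra hne
  set z := τ y - y
  have hz0 : z ≠ 0 := sub_ne_zero.mpr hne
  have hzL : z ∈ L := sub_mem (apply_mem_level τ hy) hy
  -- `τ ^ j y - y ≡ j (τ y - y)` to higher order, and `τ ^ m` fixes `y` with `p ∤ m`
  have htel : ∀ j : ℕ, Gt A p ((τ ^ j) y - y - (j : ℚbar) * z) (ord A p z) := by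
    intro j
    induction j with
    | zero => simp [gt_zero]
    | succ j ih =>
      have := (gt_sub_of_mem_wildOn h (pow_mem_wildOn h hτ j) hzL hz0).add h ih
      convert this using 1
      rw [pow_succ, AlgEquiv.mul_apply, map_sub]
      push_cast; ring
  have h1 := htel m
  rw [hfix y hy, sub_self, zero_sub] at h1
  have h2 := (is_natCast (A := A) h hm).mul h (show Is A p z (ord A p z) from ⟨hz0, rfl⟩)
  rw [zero_add] at h2
  exact h2.not_gt (by simpa using h1.neg h)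

/-- A power of exponent prime to `p` of an inertia element is wild on the level. -/
theorem exists_pow_mem_wildOn (h : IsPlace A p) {σ : Γℚ} (hσ : σ ∈ A.inertiaSubgroupIn ℚ) :
    ∃ m : ℕ, ¬ p ∣ m ∧ σ ^ m ∈ wildOn A L := by
  set g := AlgEquiv.restrictNormalHom L σ
  obtain ⟨a, m, hm, hN⟩ := Nat.exists_eq_pow_mul_and_not_dvd (orderOf_pos g).ne' p h.1.ne_one
  refine ⟨m, hm, pow_mem hσ m, fun y hyL hy => ?_⟩
  have h1 : psi A (σ ^ (p ^ a * m)) y = 1 := by
    have : AlgEquiv.restrictNormalHom L (σ ^ (p ^ a * m)) = 1 := by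
      rw [map_pow, ← hN, pow_orderOf_eq_one]
    rw [psi, (IntermediateField.mem_fixingSubgroup_iff L _).mp
      ((Fermat.CFT.restrict_eq_one_iff L _).mp this) y hyL, div_self hy, red_one]
  rw [mul_comm, pow_mul, psi_pow h (pow_mem hσ m) hy] at h1
  have : Fact p.Prime := ⟨h.1⟩
  have := charP_res h
  have h2 : iterateFrobenius (ResidueField A) p a (psi A (σ ^ m) y) =
      iterateFrobenius (ResidueField A) p a 1 := by
    rw [iterateFrobenius_def, iterateFrobenius_def, h1, one_pow]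
  exact (iterateFrobenius (ResidueField A) p a).injective h2

/-- The image of decomposition is generated by Frobenius and inertia. -/
theorem exists_frob_pow_mul (h : IsPlace A p) (hL : L.fixingSubgroup ≤ ρ.ker) {φ δ : Γℚ}
    (hφ : A.IsFrobeniusAt φ p) (hδ : δ ∈ A.decompositionSubgroup ℚ) :
    ∃ i : ℕ, ∃ τ ∈ A.inertiaSubgroupIn ℚ, ρ δ = ρ φ ^ i * ρ τ := by
  classical
  have : NumberField L := ⟨⟩
  set P := Fermat.CFT.primeBelow L A with hP
  have hpP : (p : 𝓞 L) ∈ P := Fermat.CFT.natCast_mem_primeBelow L h.2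
  have hPne : P ≠ ⊥ := fun e => by
    rw [e, Ideal.mem_bot, Nat.cast_eq_zero] at hpP
    exact h.1.ne_zero hpP
  have hPmax : P.IsMaximal := (Fermat.CFT.primeBelow_isPrime L A).isMaximal hPne
  let : Field (𝓞 L ⧸ P) := Ideal.Quotient.field P
  have : Finite (𝓞 L ⧸ P) := Ideal.finiteQuotientOfFreeOfNeBot P hPne
  have : Fact p.Prime := ⟨h.1⟩
  have : CharP (𝓞 L ⧸ P) p := by
    refine (CharP.charP_iff_prime_eq_zero h.1).mpr ?_
    rw [← map_natCast (Ideal.Quotient.mk P)]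
    exact Ideal.Quotient.eq_zero_iff_mem.mpr hpP
  let : Algebra (ZMod p) (𝓞 L ⧸ P) := ZMod.algebra _ p
  -- decomposition acts on the residue field of the level, where it is a power of Frobenius
  have hmem' : ∀ δ' ∈ A.decompositionSubgroup ℚ, ∀ x : 𝓞 L,
      AlgEquiv.restrictNormalHom L δ' • x ∈ Fermat.CFT.primeBelow L A ↔
        x ∈ Fermat.CFT.primeBelow L A := fun δ' hδ' x => by
    rw [Fermat.CFT.primeBelow, Ideal.mem_comap, Ideal.mem_comap,
      Fermat.CFT.algebraMap_restrict_smul]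
    conv_lhs => rw [← (Fermat.CFT.mem_decompositionSubgroup_iff h.1 h.2 δ').mp hδ']
    exact Ideal.smul_mem_pointwise_smul_iff
  have hmem : ∀ x : 𝓞 L, AlgEquiv.restrictNormalHom L δ • x ∈ P ↔ x ∈ P := hmem' δ hδ
  let d₀ : (𝓞 L ⧸ P) ≃+* (𝓞 L ⧸ P) := Ideal.quotientEquiv P P
    (MulSemiringAction.toRingEquiv _ (𝓞 L) (AlgEquiv.restrictNormalHom L δ)) (by
      refine le_antisymm (fun x hx => ?_) (Ideal.map_le_iff_le_comap.mpr fun x hx =>
        (hmem x).mpr hx)
      rw [show x = AlgEquiv.restrictNormalHom L δ • ((AlgEquiv.restrictNormalHom L δ)⁻¹ • x) from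
        (smul_inv_smul _ x).symm] at hx ⊢
      exact Ideal.mem_map_of_mem _ ((hmem _).mp hx))
  let d : (𝓞 L ⧸ P) ≃ₐ[ZMod p] (𝓞 L ⧸ P) :=
    AlgEquiv.ofRingEquiv (f := d₀) fun r => RingHom.congr_fun
      (RingHom.ext_zmod ((d₀ : (𝓞 L ⧸ P) →+* (𝓞 L ⧸ P)).comp (algebraMap _ _)) (algebraMap _ _)) r
  obtain ⟨i, hi⟩ := (FiniteField.bijective_frobeniusAlgEquivOfAlgebraic_pow (ZMod p) (𝓞 L ⧸ P)).2 d
  have hiter : ∀ n : ℕ, ∀ x : 𝓞 L,
      AlgEquiv.restrictNormalHom L (φ ^ n) • x - x ^ p ^ n ∈ P := by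
    intro n
    induction n with
    | zero => intro x; simp
    | succ n ih =>
      intro x
      have h1 := Fermat.CFT.isFrobeniusMod_restrict L h.1 h.2 hφ
      have h3 := h1 (AlgEquiv.restrictNormalHom L (φ ^ n) • x)
      have h4 := Ideal.Quotient.eq.mpr (ih x)
      rw [← hP] at h3
      rw [← Ideal.Quotient.eq, map_pow (Ideal.Quotient.mk P)] at h3
      rw [← Ideal.Quotient.eq, pow_succ' φ, map_mul (AlgEquiv.restrictNormalHom L),
        mul_smul, h3, h4, map_pow (Ideal.Quotient.mk P), map_pow (Ideal.Quotient.mk P), ← pow_mul,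
        ← pow_succ]
  have hg : ∀ x : 𝓞 L,
      ((AlgEquiv.restrictNormalHom L (φ ^ (i : ℕ)))⁻¹ * AlgEquiv.restrictNormalHom L δ) • x - x
        ∈ P := by
    intro x
    have hD : φ ^ (i : ℕ) ∈ A.decompositionSubgroup ℚ := pow_mem hφ.mem_decompositionSubgroup _
    have h1 := DFunLike.congr_fun hi (Ideal.Quotient.mk P x)
    rw [AlgEquiv.coe_pow, FiniteField.coe_frobeniusAlgEquivOfAlgebraic_iterate, ZMod.card] at h1
    have h2 : AlgEquiv.restrictNormalHom L δ • x - AlgEquiv.restrictNormalHom L (φ ^ (i : ℕ)) • x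
        ∈ P := by
      rw [← Ideal.Quotient.eq, Ideal.Quotient.eq.mpr (hiter i x), map_pow]
      exact h1.symm
    have h3 : ∀ z : 𝓞 L, (AlgEquiv.restrictNormalHom L (φ ^ (i : ℕ)))⁻¹ • z ∈ P ↔ z ∈ P := by
      intro z
      rw [← map_inv]
      exact hmem' _ (inv_mem hD) z
    have h5 := (h3 _).mpr h2
    rwa [smul_sub, inv_smul_smul, smul_smul] at h5
  -- so `φ ^ (-i) δ` restricts to inertia of the level
  obtain ⟨τ, hτ, hτg⟩ := Fermat.CFT.exists_mem_inertia_restrict h.1 h.2 hg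
  refine ⟨i, τ, hτ, ?_⟩
  rw [← map_pow, ← map_mul, ← inv_mul_eq_one, ← map_inv, ← map_mul]
  refine hL ((Fermat.CFT.restrict_eq_one_iff L _).mp ?_)
  rw [map_mul, map_inv, map_mul, hτg, mul_inv_cancel_left, inv_mul_cancel]

end Fermat.FLAT
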