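import Fermat.Agent.CFT.Herbrand.FrobFixed
import Fermat.Agent.FLAT.LocalGroup
import Fermat.Agent.DS.Grp.TwoByTwo
import Fermat.Agent.CFT.Density.CycloChar
import Mathlib.LinearAlgebra.Matrix.Charpoly.Coeff
import Mathlib.Algebra.CharP.Lemmas
import Mathlib.GroupTheory.PGroup
import Mathlib.Tactic.FinCases

/-!
# Residual representations irreducible on decomposition: inertia is a non-split torus over `𝔽_p`

For `ρ : Γℚ → GL₂(k)` irreducible on the decomposition group at `p` with cyclotomic determinant on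
inertia, wild inertia is trivial, and inertia lies in `𝔽_p ⊕ 𝔽_p g₀` for one `g₀` in its image
without eigenvector for an eigenvalue in `𝔽_p`.
-/

set_option autoImplicit false

noncomputable section

open Fermat.EC.Val IsLocalRing Matrix

namespace Fermat.FLAT

local notation "ℚbar" => AlgebraicClosure ℚ
local notation "Γℚ" => (AlgebraicClosure ℚ ≃ₐ[ℚ] AlgebraicClosure ℚ)

variable {p : ℕ} [hp : Fact p.Prime] {A : ValuationSubring ℚbar}

/-- On inertia the cyclotomic character is the residual ratio of any `(p - 1)`-th root of `p`. -/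
lemma cycChar_cast_eq_psi (h : IsPlace A p) {σ : Γℚ} (hσ : σ ∈ A.inertiaSubgroupIn ℚ) {π : ℚbar}
    (hπ : π ^ (p - 1) = (p : ℚbar)) :
    (((Fermat.CFT.cycChar p σ : (ZMod p)ˣ) : ZMod p).val : ResidueField A) = psi A σ π := by
  obtain ⟨ζ, hζ⟩ := Fermat.EC.Cyclo.exists_zeta hp.out
  set c := ((Fermat.CFT.cycChar p σ : (ZMod p)ˣ) : ZMod p).val
  have hσζ : σ ζ = ζ ^ c := Fermat.CFT.apply_eq_pow_cycChar σ hζ.pow_eq_one
  have hz1 := Fermat.EC.Cyclo.is_zeta_sub_one h hζ
  have hp0 : (p - 1) ≠ 0 := by have := hp.out.two_le; omega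
  have hπ1 : Is A p π (1 / ((p : ℚ) - 1)) := by
    have := is_pi h hp0 hπ
    rwa [Nat.cast_sub hp.out.one_le, Nat.cast_one] at this
  have hu : Is A p ((ζ - 1) / π) 0 := by simpa using hz1.div h hπ1
  have e1 : psi A σ π = psi A σ (ζ - 1) := by
    conv_rhs => rw [show ζ - 1 = (ζ - 1) / π * π from (div_mul_cancel₀ _ hπ1.1).symm]
    rw [psi_unit_mul h hσ hu]
  rw [e1, psi, map_sub, map_one, hσζ]
  have hz : Is A p ζ 0 := is_root_unity h hp.out.ne_zero hζ.pow_eq_one
  have hred1 : red A ζ = 1 := by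
    rw [← red_one (A := A), red_eq_iff h hz.ge
      (show Is A p (1 : ℚbar) 0 from ⟨one_ne_zero, ord_one h⟩).ge]
    exact hz1.gt (div_pos one_pos (by
      have : (2 : ℚ) ≤ p := by exact_mod_cast hp.out.two_le
      linarith))
  have hsum : ∀ n : ℕ, red A (∑ i ∈ Finset.range n, ζ ^ i) = (n : ResidueField A) ∧
      Ge A p (∑ i ∈ Finset.range n, ζ ^ i) 0 := by
    intro n
    induction n with
    | zero => exact ⟨by simp, Or.inl (by simp)⟩
    | succ n ih =>
      have hzn : Ge A p (ζ ^ n) 0 := by simpa using hz.ge.pow h n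
      rw [Finset.sum_range_succ]
      exact ⟨by rw [red_add h ih.2 hzn, ih.1, red_pow h hz.ge, hred1, one_pow, Nat.cast_succ],
        ih.2.add h hzn⟩
  rw [← geom_sum_mul, mul_div_cancel_right₀ _ hz1.1, (hsum c).1]

/-- On inertia at `p` the cyclotomic character takes a non-square value. -/
lemma exists_cycChar_not_square (h : IsPlace A p) (hp2 : p ≠ 2) :
    ∃ σ ∈ A.inertiaSubgroupIn ℚ, ∀ s : ZMod p,
      ((Fermat.CFT.cycChar p σ : (ZMod p)ˣ) : ZMod p) ≠ s ^ 2 := by
  have hp3 : 3 ≤ p := by have := hp.out.two_le; omega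
  have hp0 : p - 1 ≠ 0 := by omega
  obtain ⟨π, hπ⟩ := exists_pi p (p - 1) hp0
  have : NeZero ((p - 1 : ℕ) : ℚbar) := ⟨Nat.cast_ne_zero.mpr hp0⟩
  have : NeZero (p - 1) := ⟨hp0⟩
  obtain ⟨w, hw⟩ := HasEnoughRootsOfUnity.exists_primitiveRoot ℚbar (p - 1)
  have hnd : ¬ p ∣ p - 1 := fun hd => absurd (Nat.le_of_dvd (by omega) hd) (by omega)
  obtain ⟨σ, hσ, hσπ⟩ := exists_move h hnd hπ hw.pow_eq_one
  refine ⟨σ, hσ, fun s hs => ?_⟩
  have := charP_res h
  have : NeZero p := ⟨hp.out.ne_zero⟩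
  obtain ⟨j, hj⟩ : ∃ j, p - 1 = 2 * j := ⟨(p - 1) / 2, by
    rcases hp.out.eq_two_or_odd with h2 | h2 <;> omega⟩
  have hwI : Is A p w 0 := is_root_unity h hp0 hw.pow_eq_one
  have hwj : w ^ j = -1 := by
    have h1 : (w ^ j) ^ 2 = 1 := by rw [← pow_mul, mul_comm, ← hj, hw.pow_eq_one]
    exact (sq_eq_one_iff.mp h1).resolve_left (hw.pow_ne_one_of_pos_of_lt (by omega) (by omega))
  have h1 := cycChar_cast_eq_psi h hσ hπ
  rw [psi, hσπ, mul_div_cancel_right₀ _ (is_pi h hp0 hπ).1, hs] at h1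
  have hc0 : s ≠ 0 := fun e => by
    rw [e, zero_pow two_ne_zero] at hs
    exact (Fermat.CFT.cycChar p σ).ne_zero hs
  have h2 : red A w ^ j = 1 := by
    rw [← h1, ← map_natCast (ZMod.castHom (dvd_refl p) (ResidueField A)) (s ^ 2).val,
      ← map_pow, ZMod.natCast_zmod_val, ← pow_mul, ← hj, ZMod.pow_card_sub_one_eq_one hc0, map_one]
  rw [← red_pow h hwI.ge, hwj, red_neg h (show Is A p (1 : ℚbar) 0 from ⟨one_ne_zero,
    ord_one h⟩).ge, red_one] at h2
  have : Fact (2 < p) := ⟨by omega⟩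
  exact CharP.neg_one_ne_one (ResidueField A) p h2

section matrix

variable {k : Type*} [Field k] [CharP k p]

/-- The square of `2 g - tr g` is the discriminant of the characteristic polynomial. -/
lemma half_mul_self (g : Matrix (Fin 2) (Fin 2) k) :
    ((2 : k) • g - g.trace • 1) * ((2 : k) • g - g.trace • 1) =
      (g.trace ^ 2 - 4 * g.det) • 1 := by
  ext i j
  fin_cases i <;> fin_cases j <;>
    simp [Matrix.mul_apply, Fin.sum_univ_two, Matrix.trace_fin_two, Matrix.det_fin_two] <;> ring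

/-- `2` is nonzero in characteristic `p ≠ 2`. -/
lemma two_ne_zero_of_charP (hp2 : p ≠ 2) : (2 : k) ≠ 0 := by
  rw [← Nat.cast_two, Ne, CharP.cast_eq_zero_iff k p]
  exact fun hd => hp2 ((Nat.prime_dvd_prime_iff_eq hp.out Nat.prime_two).mp hd)

/-- `2` is fixed by Frobenius. -/
lemma two_pow_p : (2 : k) ^ p = 2 := by
  rw [← Nat.cast_two, ← map_natCast (ZMod.castHom (dvd_refl p) k) 2, ← map_pow, ZMod.pow_card]

/-- A formula for `2 g ^ p`, with the Euler criterion of the discriminant as coefficient. -/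
lemma two_smul_pow_p (hp2 : p ≠ 2) (g : Matrix (Fin 2) (Fin 2) k) :
    (2 : k) • g ^ p = g.trace ^ p • 1 +
      (g.trace ^ 2 - 4 * g.det) ^ ((p - 1) / 2) • ((2 : k) • g - g.trace • 1) := by
  set h := (2 : k) • g - g.trace • (1 : Matrix (Fin 2) (Fin 2) k) with hh
  have hj : p = 2 * ((p - 1) / 2) + 1 := by
    rcases hp.out.eq_two_or_odd with h2 | h2 <;> omega
  have e1 : h ^ p = (g.trace ^ 2 - 4 * g.det) ^ ((p - 1) / 2) • h := by
    conv_lhs =>
      rw [hj, pow_succ, pow_mul, pow_two, hh, half_mul_self, smul_pow, one_pow, smul_mul_assoc,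
        one_mul]
  have e2 : h ^ p = (2 : k) • g ^ p - g.trace ^ p • 1 := by
    rw [hh, sub_pow_char_of_commute p ((Commute.one_right _).smul_right _), smul_pow,
      smul_pow, one_pow, two_pow_p]
  rw [← e1, e2, add_sub_cancel]

/-- The trace of `g ^ p` is the `p`-th power of the trace. -/
lemma trace_pow_p (hp2 : p ≠ 2) (g : Matrix (Fin 2) (Fin 2) k) :
    (g ^ p).trace = g.trace ^ p := by
  have h1 := congrArg Matrix.trace (two_smul_pow_p (p := p) hp2 g)
  simp only [Matrix.trace_smul, Matrix.trace_add, Matrix.trace_sub, Matrix.trace_one,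
    Fintype.card_fin, smul_eq_mul] at h1
  refine mul_left_cancel₀ (two_ne_zero_of_charP hp2 (p := p)) (h1.trans ?_)
  push_cast; ring

variable [Finite k] (r : Γℚ →* Matrix (Fin 2) (Fin 2) k) (L : IntermediateField ℚ ℚbar)
  [Normal ℚ L] [FiniteDimensional ℚ L]
  (hL : ∀ σ ∈ L.fixingSubgroup, r σ = 1)

/-- No line of `k²` is stable under the decomposition group. -/
def DecompIrred (A : ValuationSubring ℚbar) (r : Γℚ →* Matrix (Fin 2) (Fin 2) k) : Prop :=
  ∀ W : Submodule k (Fin 2 → k), (∀ δ ∈ A.decompositionSubgroup ℚ, ∀ x ∈ W, r δ *ᵥ x ∈ W) →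
    W = ⊥ ∨ W = ⊤

include hL in
/-- **Wild inertia acts trivially.** When decomposition acts irreducibly, the residual
representation is trivial on wild inertia. -/
theorem wild_eq_one (h : IsPlace A p) (hirr : DecompIrred A r) {σ : Γℚ} (hσ : σ ∈ wildOn A L) :
    r σ = 1 := by
  classical
  have hker : L.fixingSubgroup ≤ r.toHomUnits.ker := fun τ hτ => Units.ext (hL τ hτ)
  let Wd : Subgroup Γℚ :=
    { carrier := wildOn A L
      one_mem' := one_mem_wildOn
      mul_mem' := mul_mem_wildOn h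
      inv_mem' := inv_mem_wildOn h }
  -- Wild inertia acts through a `p`-group `P`.
  set P := Wd.map r.toHomUnits with hP
  have hPp : IsPGroup p P := by
    rintro ⟨_, τ, hτ, rfl⟩
    obtain ⟨a, ha⟩ := exists_pow_eq_one_of_wild h hker hτ
    exact ⟨a, Subtype.ext ha⟩
  -- Its fixed space is stable under the decomposition group, which normalises wild inertia.
  let F : Submodule k (Fin 2 → k) :=
    { carrier := {x | ∀ τ ∈ wildOn A L, r τ *ᵥ x = x}
      zero_mem' := fun τ _ => Matrix.mulVec_zero _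
      add_mem' := fun {x y} hx hy τ hτ => by rw [Matrix.mulVec_add, hx τ hτ, hy τ hτ]
      smul_mem' := fun c x hx τ hτ => by rw [Matrix.mulVec_smul, hx τ hτ] }
  have hstab : ∀ δ ∈ A.decompositionSubgroup ℚ, ∀ x ∈ F, r δ *ᵥ x ∈ F := by
    intro δ hδ x hx τ hτ
    have hc := conj_mem_wildOn h (inv_mem hδ) hτ
    rw [inv_inv] at hc
    rw [Matrix.mulVec_mulVec, ← map_mul, show τ * δ = δ * (δ⁻¹ * τ * δ) by group, map_mul,
      ← Matrix.mulVec_mulVec, hx _ hc]
  -- A `p`-group fixes a nonzero vector of `k²`, and then, by irreducibility, everything.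
  have hne : F ≠ ⊥ := by
    let : MulAction P (Fin 2 → k) :=
      { smul := fun g x => ((g : (Matrix (Fin 2) (Fin 2) k)ˣ) : Matrix (Fin 2) (Fin 2) k) *ᵥ x
        one_smul := fun x => Matrix.one_mulVec x
        mul_smul := fun g g' x => (Matrix.mulVec_mulVec x _ _).symm }
    have : Fintype k := Fintype.ofFinite k
    have hdvd : p ∣ Nat.card (Fin 2 → k) := by
      obtain ⟨n, -, hn⟩ := FiniteField.card k p
      rw [Nat.card_fun, Nat.card_eq_fintype_card (α := k), hn]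
      exact dvd_pow (dvd_pow_self p n.ne_zero) (by simp)
    obtain ⟨b, hb, hb0⟩ := hPp.exists_fixed_point_of_prime_dvd_card_of_fixed_point (Fin 2 → k) hdvd
      (a := (0 : Fin 2 → k)) (fun g => Matrix.mulVec_zero _)
    intro hbot
    refine hb0 (Eq.symm ((Submodule.mem_bot k).mp (hbot ▸ (show b ∈ F from fun τ hτ => ?_))))
    exact hb ⟨_, τ, hτ, rfl⟩
  have htop := (hirr F hstab).resolve_left hne
  refine Matrix.toLin'.injective (LinearMap.ext fun x => ?_)
  rw [Matrix.toLin'_apply, Matrix.toLin'_one, LinearMap.id_apply]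
  exact (show x ∈ F from htop ▸ Submodule.mem_top) σ hσ

include hL in
/-- Inertia acts through an abelian group. -/
private lemma inertia_commute (h : IsPlace A p) (hirr : DecompIrred A r) {σ τ : Γℚ}
    (hσ : σ ∈ A.inertiaSubgroupIn ℚ) (hτ : τ ∈ A.inertiaSubgroupIn ℚ) :
    r σ * r τ = r τ * r σ := by
  have hw := fun {σ : Γℚ} (hσ : σ ∈ wildOn A L) => wild_eq_one r L hL h hirr hσ
  have := hw (commutator_mem_wildOn h hσ hτ)
  rw [← map_mul, ← map_mul, show σ * τ = σ * τ * σ⁻¹ * τ⁻¹ * (τ * σ) by group, map_mul, this,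
    one_mul]

include hL in
/-- Frobenius conjugates inertia to its `p`-th power. -/
private lemma frobenius_mul_inertia (h : IsPlace A p) (hirr : DecompIrred A r) {φ σ : Γℚ}
    (hφ : A.IsFrobeniusAt φ p) (hσ : σ ∈ A.inertiaSubgroupIn ℚ) : r φ * r σ = r σ ^ p * r φ := by
  have hw := fun {σ : Γℚ} (hσ : σ ∈ wildOn A L) => wild_eq_one r L hL h hirr hσ
  have := hw (frob_conj_mem_wildOn h hφ hσ)
  rw [← map_pow, ← map_mul, ← map_mul,
    show φ * σ = φ * σ * φ⁻¹ * (σ ^ p)⁻¹ * (σ ^ p * φ) by group, map_mul, this, one_mul]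

include hL in
/-- The traces on inertia are in the prime field. -/
private lemma trace_inertia_pow_eq (h : IsPlace A p) (hp2 : p ≠ 2) (hirr : DecompIrred A r)
    {φ σ : Γℚ} (hφ : A.IsFrobeniusAt φ p) (hσ : σ ∈ A.inertiaSubgroupIn ℚ) :
    (r σ).trace ^ p = (r σ).trace := by
  rw [← trace_pow_p hp2, ← mul_one (r σ ^ p), ← map_one r, ← mul_inv_cancel φ, map_mul,
    ← mul_assoc, ← frobenius_mul_inertia r L hL h hirr hφ hσ,
    Matrix.trace_mul_comm, ← mul_assoc, ← map_mul, inv_mul_cancel,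
    map_one, one_mul]

omit [Finite k] in
/-- With cyclotomic determinant some element of inertia is not scalar. -/
private lemma exists_inertia_not_scalar (h : IsPlace A p) (hp2 : p ≠ 2)
    (hF : ∀ σ ∈ A.inertiaSubgroupIn ℚ, (r σ).trace ^ p = (r σ).trace)
    (hdet : ∀ σ ∈ A.inertiaSubgroupIn ℚ,
      (r σ).det = (((Fermat.CFT.cycChar p σ : (ZMod p)ˣ) : ZMod p).val : k)) :
    ∃ σ₀ ∈ A.inertiaSubgroupIn ℚ, ∀ s : k, r σ₀ ≠ s • 1 := by
  have h2 : (2 : k) ≠ 0 := two_ne_zero_of_charP (p := p) hp2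
  by_contra hc
  push Not at hc
  obtain ⟨σ, hσ, hns⟩ := exists_cycChar_not_square h hp2
  obtain ⟨s, hs⟩ := hc σ hσ
  obtain ⟨t, ht⟩ := CFT.exists_natCast_eq_of_pow_eq p (hF σ hσ)
  have hdσ := hdet σ hσ
  rw [hs, Matrix.det_smul, Matrix.det_one, mul_one, Fintype.card_fin] at hdσ
  rw [hs, Matrix.trace_smul, Matrix.trace_one, Fintype.card_fin, smul_eq_mul, Nat.cast_two] at ht
  refine hns ((t : ZMod p) * (2 : ZMod p)⁻¹) ((ZMod.castHom (dvd_refl p) k).injective ?_)
  have : NeZero p := ⟨hp.out.ne_zero⟩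
  rw [map_pow, map_mul, map_inv₀, map_natCast, map_ofNat, ht, mul_assoc, mul_inv_cancel₀ h2,
    mul_one, hdσ, ← map_natCast (ZMod.castHom (dvd_refl p) k), ZMod.natCast_zmod_val]

omit [Finite k] in
/-- A regular semisimple matrix with rational trace and a rational eigenvalue is killed by
`x ^ p - x`. -/
private lemma pow_p_eq_self_of_eigen (hp2 : p ≠ 2) {g : Matrix (Fin 2) (Fin 2) k}
    (htp : g.trace ^ p = g.trace) (hΔ : g.trace ^ 2 - 4 * g.det ≠ 0) {x : Fin 2 → k} (hx : x ≠ 0)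
    {n : ℕ} (hn : g *ᵥ x = (n : k) • x) : g ^ p = g := by
  set t := g.trace with ht_def
  set d := g.det with hd_def
  have h2 : (2 : k) ≠ 0 := two_ne_zero_of_charP (p := p) hp2
  have hroot : ((n : k) ^ 2 - t * n + d) = 0 := by
    have h3 := congrArg (fun M : Matrix (Fin 2) (Fin 2) k => M *ᵥ x) (DS.mul_self_eq g)
    simp only [← Matrix.mulVec_mulVec, hn, Matrix.mulVec_smul, smul_smul, Matrix.sub_mulVec,
      Matrix.smul_mulVec, Matrix.one_mulVec, ← sub_smul] at h3
    rw [← sub_eq_zero, ← sub_smul, smul_eq_zero, or_iff_left hx] at h3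
    linear_combination h3
  have h3 := two_smul_pow_p (p := p) hp2 g
  obtain ⟨j, hj⟩ : ∃ j, p - 1 = 2 * j :=
    ⟨(p - 1) / 2, by rcases hp.out.eq_two_or_odd with h' | h' <;> omega⟩
  have hsq : (t ^ 2 - 4 * d) ^ ((p - 1) / 2) = 1 := by
    have e1 : t ^ 2 - 4 * d = (t - 2 * (n : k)) ^ 2 := by linear_combination (-4 : k) * hroot
    have e2 : t - 2 * (n : k) ≠ 0 := fun e => hΔ (by rw [e1, e]; ring)
    have e3 : (t - 2 * (n : k)) ^ p = t - 2 * (n : k) := by
      rw [sub_pow_char, mul_pow, two_pow_p, htp,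
        ← map_natCast (ZMod.castHom (dvd_refl p) k), ← map_pow, ZMod.pow_card]
    rw [hj, Nat.mul_div_cancel_left _ two_pos, e1, ← pow_mul, ← hj]
    refine mul_right_cancel₀ e2 ?_
    rw [← pow_succ, Nat.sub_add_cancel hp.out.one_le, e3, one_mul]
  rw [← ht_def, ← hd_def, hsq, one_smul, htp, add_sub_cancel] at h3
  exact smul_right_injective _ h2 h3

include hL in
/-- A non-scalar regular semisimple element of inertia has no eigenvector with eigenvalue in the
prime field. -/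
private lemma mulVec_ne_natCast_smul (h : IsPlace A p) (hp2 : p ≠ 2) (hirr : DecompIrred A r)
    {φ σ₀ : Γℚ} (hφ : A.IsFrobeniusAt φ p) (hσ₀ : σ₀ ∈ A.inertiaSubgroupIn ℚ)
    (hg : ∀ s : k, r σ₀ ≠ s • 1) (hΔ : (r σ₀).trace ^ 2 - 4 * (r σ₀).det ≠ 0) {x : Fin 2 → k}
    (hx : x ≠ 0) (n : ℕ) : r σ₀ *ᵥ x ≠ (n : k) • x := by
  intro hn
  set g := r σ₀ with hg_def
  have hker : L.fixingSubgroup ≤ r.toHomUnits.ker := fun τ hτ => Units.ext (hL τ hτ)
  have hgp : g ^ p = g :=
    pow_p_eq_self_of_eigen hp2 (trace_inertia_pow_eq r L hL h hp2 hirr hφ hσ₀) hΔ hx hn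
  -- the eigenline of an eigenvalue in the prime field is stable under decomposition
  have hφg : r φ * g = g * r φ := by
    rw [hg_def, frobenius_mul_inertia r L hL h hirr hφ hσ₀, ← hg_def, hgp]
  have hline : ∀ y : Fin 2 → k, g *ᵥ y = (n : k) • y → y ∈ Submodule.span k {x} := by
    intro y hy
    by_contra hys
    refine hg (n : k) ?_
    have hli : LinearIndependent k ![x, y] := by
      rw [LinearIndependent.pair_iff' hx]
      exact fun a e => hys (Submodule.mem_span_singleton.mpr ⟨a, e⟩)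
    have htop := hli.span_eq_top_of_card_eq_finrank (by simp)
    refine Matrix.toLin'.injective (LinearMap.ext_on_range htop fun i => ?_)
    rw [Matrix.toLin'_apply, Matrix.toLin'_apply, Matrix.smul_mulVec, Matrix.one_mulVec]
    fin_cases i
    · exact hn
    · exact hy
  have hW : ∀ δ ∈ A.decompositionSubgroup ℚ, ∀ y ∈ Submodule.span k {x},
      r δ *ᵥ y ∈ Submodule.span k {x} := by
    intro δ hδ y hy
    obtain ⟨c, rfl⟩ := Submodule.mem_span_singleton.mp hy
    rw [Matrix.mulVec_smul]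
    refine Submodule.smul_mem _ _ (hline _ ?_)
    obtain ⟨i, τ, hτ, hδτ⟩ := exists_frob_pow_mul h hker hφ hδ
    have e : r δ = r φ ^ i * r τ := by simpa using congrArg Units.val hδτ
    have hc : g * r δ = r δ * g := by
      rw [e, ← mul_assoc, (Commute.pow_right (show Commute g (r φ) from hφg.symm) i).eq, mul_assoc,
        inertia_commute r L hL h hirr hσ₀ hτ, mul_assoc]
    rw [Matrix.mulVec_mulVec, hc, ← Matrix.mulVec_mulVec, hn, Matrix.mulVec_smul]
  rcases hirr _ hW with hb | hb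
  · exact hx (Submodule.span_singleton_eq_bot.mp hb)
  · have h5 := congrArg (fun W : Submodule k (Fin 2 → k) => Module.finrank k W) hb
    simp [finrank_span_singleton hx] at h5

omit [Finite k] in
/-- A matrix commuting with `g` with rational traces is in the rational span of `1` and `g`. -/
private lemma exists_natCast_combination (hp2 : p ≠ 2) {σ₀ σ : Γℚ} (hg : ∀ s : k, r σ₀ ≠ s • 1)
    (hΔ : (r σ₀).trace ^ 2 - 4 * (r σ₀).det ≠ 0) (hcomm : r σ₀ * r σ = r σ * r σ₀)
    (ht₀ : (r σ₀).trace ^ p = (r σ₀).trace) (hd₀ : (r σ₀).det ^ p = (r σ₀).det)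
    (htσ : (r σ).trace ^ p = (r σ).trace)
    (htm : (r (σ * σ₀)).trace ^ p = (r (σ * σ₀)).trace) :
    ∃ a b : ℕ, r σ = (a : k) • 1 + (b : k) • r σ₀ := by
  have h2 : (2 : k) ≠ 0 := two_ne_zero_of_charP (p := p) hp2
  obtain ⟨tn, htn⟩ := CFT.exists_natCast_eq_of_pow_eq p ht₀
  obtain ⟨dn, hdn⟩ := CFT.exists_natCast_eq_of_pow_eq p hd₀
  set g := r σ₀ with hg_def
  set t := g.trace with ht_def
  set d := g.det with hd_def
  obtain ⟨a, b, hab⟩ := DS.exists_eq_of_commute (fun ⟨s, hs⟩ => hg s hs) hcomm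
  obtain ⟨u, hu⟩ := CFT.exists_natCast_eq_of_pow_eq p htσ
  obtain ⟨v, hv⟩ := CFT.exists_natCast_eq_of_pow_eq p htm
  rw [map_mul, ← hg_def, hab, add_mul, smul_mul_assoc, one_mul, smul_mul_assoc,
    DS.mul_self_eq] at hv
  rw [hab] at hu
  simp only [Matrix.trace_add, Matrix.trace_sub, Matrix.trace_smul, Matrix.trace_one,
    Fintype.card_fin, smul_eq_mul, Nat.cast_two, ← ht_def, ← hd_def] at hu hv
  set ι := ZMod.castHom (dvd_refl p) k
  have : NeZero p := ⟨hp.out.ne_zero⟩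
  set b' : ZMod p := (2 * (v : ZMod p) - tn * u) / ((tn : ZMod p) ^ 2 - 4 * dn) with hb'
  set a' : ZMod p := ((u : ZMod p) - b' * tn) / 2 with ha'
  have hbb : ι b' = b := by
    rw [hb']
    simp only [map_div₀, map_sub, map_mul, map_pow, map_natCast, map_ofNat, hu, hv, htn, hdn]
    rw [div_eq_iff hΔ]
    ring
  have haa : ι a' = a := by
    rw [ha']
    simp only [map_div₀, map_sub, map_mul, map_natCast, map_ofNat, hbb, hu, htn]
    rw [div_eq_iff h2]
    ring
  exact ⟨a'.val, b'.val, by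
    rw [hab, ← haa, ← hbb, ← map_natCast ι a'.val, ← map_natCast ι b'.val,
      ZMod.natCast_zmod_val, ZMod.natCast_zmod_val]⟩

include hL in
/-- **The structure of inertia**: it lies in the `𝔽_p`-span of `1` and one element without
eigenvalue in `𝔽_p`. -/
theorem irreducible_inertia (h : IsPlace A p) (hp2 : p ≠ 2) (hirr : DecompIrred A r)
    (hdet : ∀ σ ∈ A.inertiaSubgroupIn ℚ,
      (r σ).det = (((Fermat.CFT.cycChar p σ : (ZMod p)ˣ) : ZMod p).val : k)) :
    ∃ σ₀ ∈ A.inertiaSubgroupIn ℚ,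
      (∀ x : Fin 2 → k, x ≠ 0 → ∀ n : ℕ, r σ₀ *ᵥ x ≠ (n : k) • x) ∧
      ∀ σ ∈ A.inertiaSubgroupIn ℚ, ∃ a b : ℕ, r σ = (a : k) • 1 + (b : k) • r σ₀ := by
  obtain ⟨φ, hφ⟩ := Fermat.CFT.exists_isFrobeniusAt h.1 h.2
  have hF : ∀ σ ∈ A.inertiaSubgroupIn ℚ, (r σ).trace ^ p = (r σ).trace :=
    fun σ hσ => trace_inertia_pow_eq r L hL h hp2 hirr hφ hσ
  obtain ⟨σ₀, hσ₀, hg⟩ := exists_inertia_not_scalar r h hp2 hF hdet
  obtain ⟨m, hm, hmw⟩ := exists_pow_mem_wildOn (L := L) h hσ₀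
  have h1 : r σ₀ ^ m = 1 := by rw [← map_pow, wild_eq_one r L hL h hirr hmw]
  have hΔ := DS.disc_ne_zero ((CharP.cast_eq_zero_iff k p m).not.mpr hm) h1 fun ⟨s, hs⟩ => hg s hs
  have hd₀ : (r σ₀).det ^ p = (r σ₀).det := by
    rw [hdet σ₀ hσ₀, ← map_natCast (ZMod.castHom (dvd_refl p) k), ← map_pow, ZMod.pow_card]
  exact ⟨σ₀, hσ₀, fun x hx n => mulVec_ne_natCast_smul r L hL h hp2 hirr hφ hσ₀ hg hΔ hx n,
    fun σ hσ => exists_natCast_combination r hp2 hg hΔ (inertia_commute r L hL h hirr hσ₀ hσ)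
      (hF σ₀ hσ₀) hd₀ (hF σ hσ) (hF _ (mul_mem hσ hσ₀))⟩

end matrix

end Fermat.FLAT
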