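import Fermat.Agent.FLAT.Kummer
import Fermat.Agent.FLAT.Residual
import Mathlib.Tactic.Rify

/-!
# The ramification bound for two Kummer steps over the tame field

`y₁`, `y₂` are `p`-th roots of tame-invariant units of levels `j₁ = j₂ + p b ≥ j₂`, independent at
the level when `b = 0`.  Integral elements of the double step move by more than
`1/(p-1) - (1 + (j₂ - j₁)/e + j₁/(p e))/p` under the elements fixing `y₁`.
-/

set_option autoImplicit false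

noncomputable section

open Fermat.EC.Val

namespace Fermat.FLAT

local notation "ℚbar" => AlgebraicClosure ℚ
local notation "Γℚ" => (AlgebraicClosure ℚ ≃ₐ[ℚ] AlgebraicClosure ℚ)

variable {p : ℕ} [hp : Fact p.Prime] {A : ValuationSubring ℚbar}

/-- `p - 1` is positive in `ℚ`. -/
lemma p_sub_one_pos : (0 : ℚ) < (p : ℚ) - 1 := by
  have : (2 : ℚ) ≤ p := by exact_mod_cast hp.out.two_le
  linarith

/-- `(y - 1)^p` and `y^p - 1` agree beyond their order. -/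
lemma gt_root_pow_sub (h : IsPlace A p) {y : ℚbar} {a : ℚ} (hu : Is A p (y ^ p - 1) a)
    (ha0 : 0 < a) (ha : a * ((p : ℚ) - 1) < p) : Gt A p ((y - 1) ^ p - (y ^ p - 1)) a := by
  have hw := is_root_sub_one h hu ha0 ha
  have hp1 := p_sub_one_pos (p := p)
  have hap : 0 < a / p := div_pos ha0 (by linarith)
  obtain ⟨q, hq, he⟩ := one_add_pow_prime h (hw.gt hap).ge
  rw [add_sub_cancel] at he
  have hlt : a < 1 + a / p := by
    have : a / p * (p : ℚ) = a := div_mul_cancel₀ _ (by linarith)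
    nlinarith
  have h1 := (((is_p h).mul h hw).gt hlt).add h
    ((((is_p h).mul h (hw.pow h 2)).ge.mul h hq).gt (show a < 1 + ((2 : ℕ) : ℚ) * (a / p) + 0 by
      push_cast; linarith))
  have := h1.neg h
  convert this using 1
  rw [he]; ring

/-- A unit is congruent to the `p`-th power of a unit fixed by all inert automorphisms. -/
lemma exists_fixed_pow_near (h : IsPlace A p) {x : ℚbar} (hx : Is A p x 0) :
    ∃ ω : ℚbar, Is A p ω 0 ∧ (∀ τ : Γℚ, IsInert A τ → τ ω = ω) ∧ Gt A p (x - ω ^ p) 0 := by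
  obtain ⟨n, hn, z, hz, hxz⟩ := exists_root_near h hx
  have hn0 : n ≠ 0 := fun e => hn (by rw [e]; exact dvd_zero p)
  obtain ⟨j, hj⟩ : ∃ j, Nat.totient n = j + 1 := by
    have := Nat.totient_pos.mpr (Nat.pos_of_ne_zero hn0)
    exact ⟨Nat.totient n - 1, by omega⟩
  have hmod : p ^ (j + 1) ≡ 1 [MOD n] :=
    hj ▸ Nat.ModEq.pow_totient (hp.out.coprime_iff_not_dvd.mpr hn)
  have hzI : Is A p z 0 := is_root_unity h hn0 hz
  refine ⟨z ^ p ^ j, by simpa using hzI.pow h (p ^ j),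
    fun τ hτ => by rw [map_pow, apply_root_eq h hn hz hτ], ?_⟩
  rwa [← pow_mul, ← pow_succ, pow_eq_pow_of_modEq hmod hz, pow_one]

section two

variable {e : ℕ} {π y₁ y₂ ξ : ℚbar} {σ₁ σ₂ : Γℚ}

/-- The stabiliser of `y₁` in the tame group. -/
def tameStab (A : ValuationSubring ℚbar) (π y₁ : ℚbar) : Subgroup Γℚ :=
  tame A π ⊓ MulAction.stabilizer Γℚ y₁

/-- An element of `tameStab` is a tame element fixing `y₁`. -/
lemma mem_tameStab {τ : Γℚ} : τ ∈ tameStab A π y₁ ↔ τ ∈ tame A π ∧ τ y₁ = y₁ := Iff.rfl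

/-- Orders in the first Kummer step are in `(1/(p e))ℤ`. -/
lemma exists_int_ord_step (h : IsPlace A p) (he : ¬ p ∣ e) (hπ : π ^ e = (p : ℚbar))
    (S₁ : Step p (tame A π) y₁ ξ σ₁) {x : ℚbar} (hx0 : x ≠ 0)
    (hx : ∀ τ ∈ tameStab A π y₁, τ x = x) : ∃ m : ℤ, ord A p x = (m : ℚ) / ((p * e : ℕ) : ℚ) := by
  obtain ⟨N, hN0, hNfix, hN⟩ := S₁.exists_norm h (fun τ hτ => isInert_of_mem_tame hτ) hx0
    fun τ hτ hy => hx τ (mem_tameStab.mpr ⟨hτ, hy⟩)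
  obtain ⟨m, hm⟩ := exists_int_ord_tame h he hπ hN0 hNfix
  refine ⟨m, ?_⟩
  have hp0 : (p : ℚ) ≠ 0 := Nat.cast_ne_zero.mpr hp.out.ne_zero
  rw [hm] at hN
  push_cast
  rw [← div_div, div_right_comm, eq_div_iff hp0, mul_comm, ← hN]

/-- Orders in the second Kummer step are in `(1/(p² e))ℤ`. -/
lemma exists_int_ord_two (h : IsPlace A p) (he : ¬ p ∣ e) (hπ : π ^ e = (p : ℚbar))
    (S₁ : Step p (tame A π) y₁ ξ σ₁) (S₂ : Step p (tameStab A π y₁) y₂ ξ σ₂) {x : ℚbar}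
    (hx0 : x ≠ 0) (hx : ∀ τ ∈ tameStab A π y₁, τ y₂ = y₂ → τ x = x) :
    ∃ m : ℤ, ord A p x = (m : ℚ) / ((p * (p * e) : ℕ) : ℚ) := by
  obtain ⟨N, hN0, hNfix, hN⟩ :=
    S₂.exists_norm h (fun τ hτ => isInert_of_mem_tame (mem_tameStab.mp hτ).1) hx0 hx
  obtain ⟨m, hm⟩ := exists_int_ord_step h he hπ S₁ hN0 hNfix
  refine ⟨m, ?_⟩
  have hp0 : (p : ℚ) ≠ 0 := Nat.cast_ne_zero.mpr hp.out.ne_zero
  rw [hm] at hN
  rw [Nat.cast_mul p (p * e), ← div_div, div_right_comm, eq_div_iff hp0, mul_comm, ← hN]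

variable (h : IsPlace A p) (he : ¬ p ∣ e) (hπ : π ^ e = (p : ℚbar))
  (S₁ : Step p (tame A π) y₁ ξ σ₁) (S₂ : Step p (tameStab A π y₁) y₂ ξ σ₂)
  (hf₂ : ∀ τ ∈ tame A π, τ (y₂ ^ p) = y₂ ^ p) {j₁ j₂ b : ℕ} (hj : j₂ + p * b = j₁)
  (hj₂ : 0 < j₂) (hj₁ : ¬ p ∣ j₁) (hlt : (j₁ : ℚ) / e * ((p : ℚ) - 1) < p)
  (hu₁ : Is A p (y₁ ^ p - 1) ((j₁ : ℚ) / e)) (hu₂ : Is A p (y₂ ^ p - 1) ((j₂ : ℚ) / e))
  (hind : b = 0 → ∀ n : ℕ, ¬ Gt A p (y₂ ^ p - 1 - n * (y₁ ^ p - 1)) ((j₂ : ℚ) / e))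

include h in
/-- The `p`-th power of an expansion in `y₁ - 1` against the expansion in `y₁ ^ p - 1`. -/
private theorem gt_pow_sub_expansion {v₁ v₂ β a' : ℚ} {d : ℚbar} {ck : ℕ → ℚbar}
    (hvβ : v₂ = v₁ - β) (hv₂0 : 0 < v₂) (hβ0 : 0 ≤ β) (hv₁0 : 0 < v₁)
    (hW₁ : Is A p (y₁ - 1) v₁) (hIU₁ : Is A p (y₁ ^ p - 1) ((p : ℚ) * v₁)) (ha' : v₂ < a')
    (hterm : ∀ k ∈ Finset.range p, Ge A p (ck k * (y₁ - 1) ^ k) a')
    (hdexp : d = ∑ k ∈ Finset.range p, ck k * (y₁ - 1) ^ k) :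
    Gt A p (d ^ p - ∑ k ∈ Finset.range p, ck k ^ p * (y₁ ^ p - 1) ^ k) (1 - (p : ℚ) * β + v₁) := by
  have hp1 := p_sub_one_pos (p := p)
  have hpq : (0 : ℚ) < p := by linarith
  set M : ℚ := 1 - p * β + v₁ with hMdef
  set w₁ := y₁ - 1 with hw₁
  set U₁ := y₁ ^ p - 1 with hU₁
  -- The power of the sum is the sum of the powers up to order `1 + p a'`.
  have h1 := ge_sum_pow_sub h (Finset.range p) (fun k => ck k * w₁ ^ k) hterm
  have h2 : Gt A p (∑ k ∈ Finset.range p, ((ck k * w₁ ^ k) ^ p - ck k ^ p * U₁ ^ k)) M := by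
    refine Gt.sum h fun k hk => ?_
    rcases Nat.eq_zero_or_pos k with rfl | hk0
    · simp [gt_zero]
    rcases eq_or_ne (ck k) 0 with h00 | h00
    · simp [h00, zero_pow hp.out.ne_zero, gt_zero]
    have hc1 : Ge A p (ck k) (a' - k * v₁) := by
      have := (hterm k hk).div h (hW₁.pow h k)
      rwa [mul_div_cancel_right₀ _ (pow_ne_zero _ hW₁.1)] at this
    -- By the binomial expansion `w₁ ^ p` and `U₁` differ by order `≥ 1 + v₁`.
    obtain ⟨q, hq, hbin⟩ := one_add_pow_prime h (hW₁.gt hv₁0).ge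
    rw [hw₁, add_sub_cancel, ← hw₁] at hbin
    have hAB : Ge A p (w₁ ^ p - U₁) (1 + v₁) := by
      have := ((((is_p h).mul h hW₁).ge).add h
        (((((is_p h).mul h (hW₁.pow h 2)).ge).mul h hq).mono
          (show 1 + v₁ ≤ 1 + ((2 : ℕ) : ℚ) * v₁ + 0 by push_cast; linarith))).neg h
      convert this using 1
      rw [hU₁, hbin]; ring
    have hgeo : Ge A p ((w₁ ^ p) ^ k - U₁ ^ k) (((k : ℚ) - 1) * ((p : ℚ) * v₁) + (1 + v₁)) := by
      rw [← geom_sum₂_mul]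
      refine Ge.mul h (Ge.sum h fun i hi => ?_) hAB
      rw [Finset.mem_range] at hi
      refine (((hW₁.pow h p).pow h i).mul h (hIU₁.pow h (k - 1 - i))).ge.mono ?_
      rw [← add_mul, ← Nat.cast_add, show i + (k - 1 - i) = k - 1 by omega, Nat.cast_sub hk0,
        Nat.cast_one]
    have := ((hc1.pow h p).mul h hgeo).gt (show M < _ from ?_)
    · convert this using 1
      rw [mul_pow, ← pow_mul, mul_comm k p, pow_mul]; ring
    · have : (p : ℚ) * v₂ < p * a' := mul_lt_mul_of_pos_left ha' hpq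
      rw [hMdef, show v₁ = v₂ + β by linarith] at *
      nlinarith
  rw [Finset.sum_sub_distrib] at h2
  -- Both error terms have order `> M`.
  have h3 := (hdexp ▸ h1 : Ge A p (d ^ p - ∑ k ∈ Finset.range p, (ck k * w₁ ^ k) ^ p)
    (1 + p * a')).gt (show M < 1 + p * a' by
      have : (p : ℚ) * v₂ < p * a' := mul_lt_mul_of_pos_left ha' hpq
      rw [hMdef]; nlinarith)
  have := h3.add h h2
  convert this using 1
  ring

include h in
/-- The cross term has order exactly the bound. -/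
private theorem is_cross_term {v₁ v₂ β : ℚ} {c : ℚbar} (hvβ : v₂ = v₁ - β) (hβ0 : 0 ≤ β)
    (hW₁ : Is A p (y₁ - 1) v₁) (hIU₁ : Is A p (y₁ ^ p - 1) ((p : ℚ) * v₁)) (hcI : Is A p c (-β))
    (hlead : Gt A p (y₂ ^ p - 1 - c ^ p * (y₁ ^ p - 1)) ((p : ℚ) * v₂))
    (hind' : β = 0 → ∀ n : ℕ, ¬ Gt A p (y₂ ^ p - 1 - n * (y₁ ^ p - 1)) ((p : ℚ) * v₂)) :
    Is A p ((p : ℚbar) * (y₁ - 1) * (c - c ^ p)) (1 - (p : ℚ) * β + v₁) := by
  have hp1 := p_sub_one_pos (p := p)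
  set U₁ := y₁ ^ p - 1 with hU₁
  set U₂ := y₂ ^ p - 1 with hU₂
  have hcp : Is A p (c - c ^ p) (-(p * β)) := by
    rcases hβ0.eq_or_lt with hb | hb
    · have hβ00 : β = 0 := hb.symm
      rw [hβ00] at hcI ⊢
      rw [mul_zero, neg_zero] at *
      have hcp' : Ge A p (c ^ p) 0 := by simpa using hcI.ge.pow h p
      refine (hcI.ge.sub h hcp').is_of_not_gt fun hgt => ?_
      have := charP_res h
      rw [← red_eq_iff h hcI.ge hcp', red_pow h hcI.ge] at hgt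
      obtain ⟨n, hn⟩ := CFT.exists_natCast_eq_of_pow_eq p hgt.symm
      refine hind' hβ00 n ?_
      have h1 : Gt A p (c ^ p - n) 0 := by
        rw [← red_eq_iff h hcp' (ge_natCast h n), red_pow h hcI.ge, red_natCast, hn, ← hgt]
      have h2 := (h1.mul_ge h hIU₁.ge).mono (show (p : ℚ) * v₂ ≤ 0 + (p : ℚ) * v₁ by
        rw [hvβ, hβ00]; simp)
      have := hlead.add h h2
      convert this using 1
      rw [hU₁, hU₂]; ring
    · have h1 := ((hcI.pow h p).neg h).add h (hcI.gt (show (p : ℚ) * -β < -β by nlinarith))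
      rw [neg_add_eq_sub, mul_neg] at h1
      exact h1
  have := ((is_p h).mul h hW₁).mul h hcp
  convert this using 1
  ring

include h he hπ S₁ in
/-- No correction approximates `y₂ - 1` beyond `(1 - p β + v₁) / p`. -/
theorem approx_bound {v₁ v₂ β : ℚ} {c g : ℚbar} (hvβ : v₂ = v₁ - β) (hv₂0 : 0 < v₂) (hβ0 : 0 ≤ β)
    (hv₁0 : 0 < v₁) (hlt₁ : v₁ * (p : ℚ) - v₁ < 1)
    (hW₁ : Is A p (y₁ - 1) v₁) (hW₂ : Is A p (y₂ - 1) v₂)
    (hIU₁ : Is A p (y₁ ^ p - 1) ((p : ℚ) * v₁))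
    (hU₂fix : ∀ τ ∈ tame A π, τ (y₂ ^ p - 1) = y₂ ^ p - 1) (hcI : Is A p c (-β))
    (hcfix : ∀ τ ∈ tame A π, τ c = c)
    (hlead : Gt A p (y₂ ^ p - 1 - c ^ p * (y₁ ^ p - 1)) ((p : ℚ) * v₂))
    (hind' : β = 0 → ∀ n : ℕ, ¬ Gt A p (y₂ ^ p - 1 - n * (y₁ ^ p - 1)) ((p : ℚ) * v₂))
    (hk1 : ∀ k : ℕ, 0 < k → k < p → ∀ m : ℤ, (k : ℚ) * v₁ ≠ (m : ℚ) / e)
    (hMnot : ∀ m : ℤ, 1 - (p : ℚ) * β + v₁ ≠ (m : ℚ) / e)
    (hgfix : ∀ τ ∈ tameStab A π y₁, τ g = g) (hd : Gt A p (g - c * (y₁ - 1)) v₂) :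
    ¬ Gt A p (y₂ - 1 - g) ((1 - (p : ℚ) * β + v₁) / p) := by
  intro hx
  have hp1 := p_sub_one_pos (p := p)
  have hpq : (0 : ℚ) < p := by linarith
  set M : ℚ := 1 - p * β + v₁ with hMdef
  set w₁ := y₁ - 1 with hw₁
  set w₂ := y₂ - 1 with hw₂
  set U₁ := y₁ ^ p - 1 with hU₁
  set U₂ := y₂ ^ p - 1 with hU₂
  have hU₁fix : ∀ τ ∈ tame A π, τ U₁ = U₁ := by
    intro τ hτ
    obtain ⟨i, hi⟩ := S₁.scale τ hτ
    rw [hU₁, map_sub, map_pow, hi, map_one, mul_pow, ← pow_mul, mul_comm i, pow_mul,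
      S₁.root.pow_eq_one, one_pow, one_mul]
  have hcw : Is A p (c * w₁) v₂ := by
    have := hcI.mul h hW₁
    convert this using 1
    linarith
  set d := g - c * w₁ with hd_def
  set x := w₂ - g with hx_def
  obtain ⟨a', ha', hda'⟩ : ∃ a', v₂ < a' ∧ Ge A p d a' := by
    rcases eq_or_ne d 0 with h00 | h00
    · exact ⟨v₂ + 1, by linarith, Or.inl h00⟩
    · exact ⟨ord A p d, hd.resolve_left h00, Or.inr le_rfl⟩
  obtain ⟨ck, hckfix, hdexp⟩ := S₁.exists_expansion_sub (g := 1)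
    (fun e0 => by
      have := hIU₁.1
      rw [hU₁, e0, zero_pow hp.out.ne_zero, zero_sub] at this
      have h2 := hW₁.gt hv₁0
      rw [hw₁, e0, zero_sub] at h2
      exact ((is_one h).neg h).not_gt h2)
    (fun τ _ => map_one τ) (x := d) fun τ hτ hy => by
      rw [hd_def, map_sub, map_mul, hgfix τ (mem_tameStab.mpr ⟨hτ, hy⟩), hcfix τ hτ, hw₁, map_sub,
        hy, map_one]
  have hterm := ge_term_of_distinct h (s := Finset.range p) (f := fun k => ck k * w₁ ^ k)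
    (fun i hi j hj hi0 hj0 hij => ord_terms_injective (n := e) h
      (fun z hz0 hz => exists_int_ord_tame h he hπ hz0 hz) hW₁ hk1 hckfix
      (Finset.mem_range.mp hi) (Finset.mem_range.mp hj) hi0 hj0 hij) (hdexp ▸ hda')
  have hxGe : Ge A p x v₂ := by
    refine hx.ge.mono ?_
    rw [le_div_iff₀ hpq]
    nlinarith
  -- the pieces
  have E4 : Gt A p (d ^ p - ∑ k ∈ Finset.range p, ck k ^ p * U₁ ^ k) M :=
    gt_pow_sub_expansion h hvβ hv₂0 hβ0 hv₁0 hW₁ hIU₁ ha' hterm hdexp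
  have E5 : Is A p ((p : ℚbar) * w₁ * (c - c ^ p)) M :=
    is_cross_term h hvβ hβ0 hW₁ hIU₁ hcI hlead hind'
  -- assemble
  obtain ⟨q₁, hq₁, hbin₁⟩ := one_add_pow_prime h (hW₁.gt hv₁0).ge
  obtain ⟨q₂, hq₂, hbin₂⟩ := one_add_pow_prime h (hW₂.gt hv₂0).ge
  rw [hw₁, add_sub_cancel, ← hw₁] at hbin₁
  rw [hw₂, add_sub_cancel, ← hw₂] at hbin₂
  have R1 : Gt A p (w₂ ^ p - (c * w₁) ^ p - d ^ p - x ^ p) M := by
    have hlt' : M < 1 + (p : ℚ) * v₂ := by rw [hMdef]; nlinarith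
    have h1 := (ge_add_pow_sub h hcw.ge ((hd.ge).add h hxGe)).gt hlt'
    have h2 := (ge_add_pow_sub h hd.ge hxGe).gt hlt'
    have := h1.add h h2
    convert this using 1
    rw [show c * w₁ + (d + x) = w₂ by rw [hd_def, hx_def]; ring]
    ring
  have R2 : Gt A p (x ^ p) M := by
    rcases eq_or_ne x 0 with h00 | h00
    · exact Or.inl (by rw [h00, zero_pow hp.out.ne_zero])
    refine Or.inr ?_
    have := hx.resolve_left h00
    rw [div_lt_iff₀ hpq] at this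
    rw [ord_pow h]; linarith
  have R3 : Gt A p ((p : ℚbar) * (d + x)) M := by
    have h1 : Gt A p (d + x) v₂ := hd.add h (hx.mono (by
      rw [le_div_iff₀ hpq]; nlinarith))
    exact ((is_p h).ge.mul_gt h h1).mono (by rw [hMdef]; nlinarith)
  have R4 : Gt A p ((p : ℚbar) * w₂ ^ 2 * q₂) M :=
    (((is_p h).mul h (hW₂.pow h 2)).ge.mul h hq₂).gt (by rw [hMdef]; push_cast; nlinarith)
  have R5 : Gt A p (c ^ p * ((p : ℚbar) * w₁ ^ 2 * q₁)) M :=
    ((hcI.pow h p).ge.mul h (((is_p h).mul h (hW₁.pow h 2)).ge.mul h hq₁)).gt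
      (by rw [hMdef]; push_cast; nlinarith)
  set Z := U₂ - c ^ p * U₁ - ∑ k ∈ Finset.range p, ck k ^ p * U₁ ^ k with hZ
  have hZI : Is A p Z M := by
    have := E5.add h (((((R1.add h R2).add h E4).add h R3).add h R4).sub h R5)
    convert this using 1
    rw [hZ, show U₂ = y₂ ^ p - 1 from hU₂, show U₁ = y₁ ^ p - 1 from hU₁, hbin₁, hbin₂, mul_pow,
      show d + x = w₂ - c * w₁ by rw [hd_def, hx_def]; ring]
    ring
  obtain ⟨m, hm⟩ := exists_int_ord_tame h he hπ hZI.1 fun τ hτ => by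
    rw [hZ, map_sub, map_sub, map_sum, map_mul, map_pow, hU₂fix τ hτ, hU₁fix τ hτ, hcfix τ hτ]
    refine congrArg _ (Finset.sum_congr rfl fun k _ => ?_)
    rw [map_mul, map_pow, map_pow, hckfix k τ hτ, hU₁fix τ hτ]
  exact hMnot m (hZI.2.symm.trans hm)

include h he hπ hj hu₁ hu₂ in
/-- A tame-invariant `c` of order `-b / e` with `c ^ p` the leading quotient of the two units. -/
private theorem exists_leading :
    ∃ c : ℚbar, Is A p c (-((b : ℚ) / e)) ∧ (∀ τ ∈ tame A π, τ c = c) ∧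
      Gt A p (y₂ ^ p - 1 - c ^ p * (y₁ ^ p - 1)) ((j₂ : ℚ) / e) := by
  have he0 : e ≠ 0 := fun e0 => he (by rw [e0]; exact dvd_zero p)
  have hπ1 := is_pi h he0 hπ
  set U₁ := y₁ ^ p - 1
  set U₂ := y₂ ^ p - 1
  have hρ : Is A p (U₂ * π ^ (p * b) / U₁) 0 := by
    have := (hu₂.mul h (hπ1.pow h (p * b))).div h hu₁
    convert this using 1
    rw [← hj]; push_cast; field_simp; ring
  obtain ⟨ω, hω, hωfix, hρω⟩ := exists_fixed_pow_near h hρ
  refine ⟨ω / π ^ b, ?_, fun τ hτ => by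
    rw [map_div₀, map_pow, hωfix τ (isInert_of_mem_tame hτ), (mem_tame.mp hτ).2], ?_⟩
  · have := hω.div h (hπ1.pow h b)
    convert this using 1
    ring
  · have h1 := hρω.mul_ge h ((hu₁.div h (hπ1.pow h (p * b))).ge)
    have e1 : (U₂ * π ^ (p * b) / U₁ - ω ^ p) * (U₁ / π ^ (p * b)) = U₂ - (ω / π ^ b) ^ p * U₁ := by
      rw [div_pow, ← pow_mul, mul_comm b p]
      have := hu₁.1
      have := pow_ne_zero (p * b) hπ1.1
      field_simp
    rw [e1] at h1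
    refine h1.mono (le_of_eq ?_)
    rw [← hj]; push_cast; field_simp; ring

include h in
/-- `c (y₁ - 1)` approximates `y₂ - 1` beyond its order. -/
private theorem gt_first_approx {v₁ v₂ β a₁ a₂ : ℚ} {c : ℚbar} (ha₁ : a₁ = p * v₁)
    (ha₂ : a₂ = p * v₂) (hvβ : v₂ = v₁ - β) (ha₁0 : 0 < a₁) (ha₂0 : 0 < a₂)
    (hlt₁ : a₁ * ((p : ℚ) - 1) < p)
    (hlt₂ : a₂ * ((p : ℚ) - 1) < p) (hu₁ : Is A p (y₁ ^ p - 1) a₁) (hu₂ : Is A p (y₂ ^ p - 1) a₂)
    (hW₁ : Is A p (y₁ - 1) v₁) (hW₂ : Is A p (y₂ - 1) v₂) (hcI : Is A p c (-β))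
    (hlead : Gt A p (y₂ ^ p - 1 - c ^ p * (y₁ ^ p - 1)) a₂) :
    Gt A p (y₂ - 1 - c * (y₁ - 1)) v₂ := by
  have hpq : (0 : ℚ) < p := by exact_mod_cast hp.out.pos
  set w₁ := y₁ - 1
  set w₂ := y₂ - 1
  set U₁ := y₁ ^ p - 1
  have hcw : Is A p (c * w₁) v₂ := by
    have := hcI.mul h hW₁
    convert this using 1
    linarith
  have g2 := gt_root_pow_sub h hu₂ ha₂0 hlt₂
  have g1 := (hcI.pow h p).ge.mul_gt h (gt_root_pow_sub h hu₁ ha₁0 hlt₁)
  rw [ha₂] at g2 hlead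
  have g1' : Gt A p (c ^ p * (w₁ ^ p - U₁)) ((p : ℚ) * v₂) :=
    g1.mono (by rw [ha₁, hvβ]; linarith)
  have hsum : Gt A p (w₂ ^ p - (c * w₁) ^ p) ((p : ℚ) * v₂) := by
    have := (g2.add h hlead).sub h g1'
    convert this using 1
    rw [mul_pow]; ring
  have hx : Ge A p (w₂ - c * w₁) v₂ := hW₂.ge.sub h hcw.ge
  have hcross := (ge_add_pow_sub h hcw.ge hx).gt (show (p : ℚ) * v₂ < 1 + p * v₂ by linarith)
  have hpow : Gt A p ((w₂ - c * w₁) ^ p) ((p : ℚ) * v₂) := by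
    have := hsum.sub h hcross
    convert this using 1
    rw [add_sub_cancel]; ring
  rcases eq_or_ne (w₂ - c * w₁) 0 with h00 | h00
  · exact Or.inl h00
  refine Or.inr ?_
  have := hpow.resolve_left (pow_ne_zero _ h00)
  rw [ord_pow h] at this
  exact lt_of_mul_lt_mul_left this hpq.le

include hj₁ in
/-- The orders `k v₁` for `0 < k < p` are not tame. -/
private theorem mul_ne_int_div (he0 : (e : ℚ) ≠ 0) {k : ℕ} (hk : 0 < k) (hkp : k < p) (m : ℤ) :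
    (k : ℚ) * ((j₁ : ℚ) / e / p) ≠ (m : ℚ) / e := by
  intro hm
  have hpq : (p : ℚ) ≠ 0 := Nat.cast_ne_zero.mpr hp.out.ne_zero
  field_simp at hm
  have hm' : (k : ℤ) * j₁ = p * m := by exact_mod_cast hm
  rcases (Int.Prime.dvd_mul' hp.out ⟨m, hm'⟩) with hd' | hd'
  · exact absurd (Nat.le_of_dvd hk (Int.natCast_dvd_natCast.mp hd')) (not_le.mpr hkp)
  · exact hj₁ (Int.natCast_dvd_natCast.mp hd')

include hj₁ in
/-- The bound `1 - p b/e + j₁/(p e)` is not a tame order either. -/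
private theorem bound_ne_int_div (he0 : (e : ℚ) ≠ 0) (b : ℕ) (m : ℤ) :
    1 - (p : ℚ) * ((b : ℚ) / e) + (j₁ : ℚ) / e / p ≠ (m : ℚ) / e := by
  intro hm
  have hpq : (p : ℚ) ≠ 0 := Nat.cast_ne_zero.mpr hp.out.ne_zero
  field_simp at hm
  refine hj₁ (Int.natCast_dvd_natCast.mp ⟨m - e + p * b, ?_⟩)
  have h1 : (j₁ : ℚ) = p * ((m : ℚ) - e + p * b) := by linear_combination hm
  exact_mod_cast h1

include h he hπ hj₁ in
/-- A correction whose error has order in `ℤ / (p e)` can be improved. -/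
private theorem exists_better_correction {v₂ : ℚ} {c g : ℚbar} {m' : ℤ}
    (hW₁ : Is A p (y₁ - 1) ((j₁ : ℚ) / e / p)) (h0 : Gt A p (y₂ - 1 - c * (y₁ - 1)) v₂)
    (hgfix : ∀ τ ∈ tameStab A π y₁, τ g = g) (hgd : Gt A p (g - c * (y₁ - 1)) v₂)
    (hm : Is A p (y₂ - 1 - g) ((((p : ℤ) * m' : ℤ) : ℚ) / ((p * (p * e) : ℕ) : ℚ))) :
    ∃ g', ((∀ τ ∈ tameStab A π y₁, τ g' = g') ∧ Gt A p (g' - c * (y₁ - 1)) v₂) ∧
      Gt A p (y₂ - 1 - g') ((((p : ℤ) * m' : ℤ) : ℚ) / ((p * (p * e) : ℕ) : ℚ)) := by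
  have he0 : e ≠ 0 := fun e0 => he (by rw [e0]; exact dvd_zero p)
  have heq : (e : ℚ) ≠ 0 := Nat.cast_ne_zero.mpr he0
  have hpq : (p : ℚ) ≠ 0 := Nat.cast_ne_zero.mpr hp.out.ne_zero
  set w₁ := y₁ - 1 with hw₁
  set w₂ := y₂ - 1
  -- With `m' = k j₁ + p a`, the element `t = π ^ a w₁ ^ k` has the order of the error.
  set k := ((m' : ZMod p) / (j₁ : ZMod p)).val with hk
  have : NeZero p := ⟨hp.out.ne_zero⟩
  obtain ⟨a, ha⟩ : (p : ℤ) ∣ m' - k * j₁ := by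
    rw [← ZMod.intCast_zmod_eq_zero_iff_dvd]
    push_cast
    rw [hk, ZMod.natCast_zmod_val, div_mul_cancel₀ _ (by
      rwa [Ne, ZMod.natCast_eq_zero_iff]), sub_self]
  set t := π ^ a * w₁ ^ k with ht
  set D : ℚ := ((p * (p * e) : ℕ) : ℚ) with hD
  have hord : (((p : ℤ) * m' : ℤ) : ℚ) / D = (a : ℚ) / e + (k : ℚ) * ((j₁ : ℚ) / e / p) := by
    have ha' : (m' : ℚ) - k * j₁ = p * a := by exact_mod_cast ha
    rw [hD]; push_cast; field_simp
    linear_combination ha'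
  have htI : Is A p t (((((p : ℤ) * m' : ℤ)) : ℚ) / D) :=
    hord ▸ (is_pi_zpow h he0 hπ a).mul h (hW₁.pow h k)
  have hu : Is A p ((w₂ - g) / t) 0 := by simpa using hm.div h htI
  -- A root of unity `z` of order prime to `p` is near the unit `(w₂ - g) / t`.
  obtain ⟨n, hn, z, hz, hzt⟩ := exists_root_near h hu
  -- `g + z t` is fixed, still near `c w₁`, and nearer to `w₂` than `g`.
  refine ⟨g + z * t, ⟨fun τ hτ => ?_, ?_⟩, ?_⟩
  · rw [map_add, map_mul, hgfix τ hτ, apply_root_eq h hn hz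
      (isInert_of_mem_tame (mem_tameStab.mp hτ).1), ht, map_mul, map_zpow₀, map_pow,
      (mem_tame.mp (mem_tameStab.mp hτ).1).2, hw₁, map_sub, (mem_tameStab.mp hτ).2, map_one]
  · have hzI : Ge A p z 0 :=
      (is_root_unity h (by rintro rfl; exact hn (dvd_zero p)) hz).ge
    have hx : Gt A p (w₂ - g) v₂ := by
      have := h0.sub h hgd
      convert this using 1
      ring
    have htv : Gt A p t v₂ := by
      refine Or.inr ?_
      rw [htI.2, ← hm.2]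
      exact hx.resolve_left hm.1
    have := hgd.add h (show Gt A p (z * t) v₂ by simpa using hzI.mul_gt h htv)
    convert this using 1
    ring
  · have := hzt.mul_ge h htI.ge
    rw [zero_add, sub_mul, div_mul_cancel₀ _ htI.1] at this
    convert this using 1
    ring

include h he hπ S₁ S₂ hj₁ in
/-- A correction of maximal order has error of order outside `ℤ / (p e)`. -/
private theorem exists_max_correction {v₂ M : ℚ} {c : ℚbar} (hcfix : ∀ τ ∈ tame A π, τ c = c)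
    (hW₁ : Is A p (y₁ - 1) ((j₁ : ℚ) / e / p)) (h0 : Gt A p (y₂ - 1 - c * (y₁ - 1)) v₂)
    (hclaim : ∀ g, (∀ τ ∈ tameStab A π y₁, τ g = g) → Gt A p (g - c * (y₁ - 1)) v₂ →
      ¬ Gt A p (y₂ - 1 - g) (M / p)) :
    ∃ g, (∀ τ ∈ tameStab A π y₁, τ g = g) ∧ ∃ m : ℤ, ¬ (p : ℤ) ∣ m ∧
      Is A p (y₂ - 1 - g) ((m : ℚ) / ((p * (p * e) : ℕ) : ℚ)) ∧
      (m : ℚ) / ((p * (p * e) : ℕ) : ℚ) ≤ M / p := by
  classical
  set D : ℚ := ((p * (p * e) : ℕ) : ℚ) with hD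
  have hD0 : 0 < D := by
    rw [hD]; exact_mod_cast Nat.mul_pos hp.out.pos (Nat.mul_pos hp.out.pos
      (Nat.pos_of_ne_zero fun e0 => he (by rw [e0]; exact dvd_zero p)))
  let P : ℚbar → Prop := fun g =>
    (∀ τ ∈ tameStab A π y₁, τ g = g) ∧ Gt A p (g - c * (y₁ - 1)) v₂
  let Q : ℤ → Prop := fun m => ∃ g, P g ∧ Is A p (y₂ - 1 - g) ((m : ℚ) / D)
  -- every error has order in `(1 / D) ℤ`, as it is fixed by the stabiliser of `y₁`, `y₂`
  have hQ : ∀ g, P g → ∃ m : ℤ, Is A p (y₂ - 1 - g) ((m : ℚ) / D) := by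
    intro g hg
    have hne : y₂ - 1 - g ≠ 0 := fun e0 => hclaim g hg.1 hg.2 (Or.inl e0)
    obtain ⟨m, hm⟩ := exists_int_ord_two h he hπ S₁ S₂ hne fun τ hτ hy => by
      rw [map_sub, map_sub, hy, map_one, hg.1 τ hτ]
    exact ⟨m, hne, hm⟩
  have hPc : P (c * (y₁ - 1)) := ⟨fun τ hτ => by
    rw [map_mul, hcfix τ (mem_tameStab.mp hτ).1, map_sub, (mem_tameStab.mp hτ).2, map_one],
    by rw [sub_self]; exact gt_zero⟩
  -- these orders are bounded by the claim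
  have hbd : ∃ B : ℤ, ∀ m, Q m → m ≤ B := by
    refine ⟨⌈M / p * D⌉, fun m ⟨g, hg, hm⟩ => ?_⟩
    have h1 : (m : ℚ) / D ≤ M / p := by
      by_contra hlt'
      exact hclaim g hg.1 hg.2 (hm.gt (not_le.mp hlt'))
    rw [div_le_iff₀ hD0] at h1
    exact_mod_cast h1.trans (Int.le_ceil _)
  obtain ⟨m, ⟨g, hg, hm⟩, hmax⟩ := Int.exists_greatest_of_bdd (P := Q) hbd
    (let ⟨m, hm⟩ := hQ _ hPc; ⟨m, c * (y₁ - 1), hPc, hm⟩)
  refine ⟨g, hg.1, m, ?_, hm, ?_⟩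
  -- at the maximal one `p` divides no numerator, else there is a better one
  · rintro ⟨m', rfl⟩
    obtain ⟨g', hg', hgt⟩ := exists_better_correction h he hπ hj₁ hW₁ h0 hg.1 hg.2 hm
    obtain ⟨m₂, hm₂⟩ := hQ _ hg'
    have h1 := hm₂.2 ▸ hgt.resolve_left hm₂.1
    rw [div_lt_div_iff_of_pos_right hD0] at h1
    exact absurd (hmax m₂ ⟨_, hg', hm₂⟩) (not_le.mpr (by exact_mod_cast h1))
  · by_contra hlt'
    exact hclaim g hg.1 hg.2 (hm.gt (not_le.mp hlt'))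

include h he hπ S₁ S₂ hf₂ hj hj₂ hj₁ hlt hu₁ hu₂ hind in
/-- A translate of `y₂` by an element of the first step has order `m/(p² e)` with `p ∤ m`, below
the bound. -/
theorem exists_translate :
    ∃ g : ℚbar, (∀ τ ∈ tameStab A π y₁, τ g = g) ∧ ∃ m : ℤ, ¬ (p : ℤ) ∣ m ∧
      Is A p (y₂ - g) ((m : ℚ) / ((p * (p * e) : ℕ) : ℚ)) ∧
      (m : ℚ) / ((p * (p * e) : ℕ) : ℚ) ≤
        (1 + ((j₂ : ℚ) - j₁) / e + (j₁ : ℚ) / (p * e)) / p := by
  have he0 : e ≠ 0 := fun e0 => he (by rw [e0]; exact dvd_zero p)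
  have heq : (0 : ℚ) < e := by exact_mod_cast Nat.pos_of_ne_zero he0
  have hp1 := p_sub_one_pos (p := p)
  have hpq : (0 : ℚ) < p := by linarith
  -- orders
  set v₁ : ℚ := (j₁ : ℚ) / e / p with hv₁
  set v₂ : ℚ := (j₂ : ℚ) / e / p with hv₂
  set β : ℚ := (b : ℚ) / e with hβ
  have ha₁ : (j₁ : ℚ) / e = p * v₁ := by rw [hv₁, mul_div_cancel₀ _ hpq.ne']
  have ha₂ : (j₂ : ℚ) / e = p * v₂ := by rw [hv₂, mul_div_cancel₀ _ hpq.ne']
  have ha₁0 : (0 : ℚ) < (j₁ : ℚ) / e := div_pos (by exact_mod_cast (show 0 < j₁ by omega)) heq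
  have ha₂0 : (0 : ℚ) < (j₂ : ℚ) / e := div_pos (by exact_mod_cast hj₂) heq
  have hvβ : v₂ = v₁ - β := by
    rw [hv₁, hv₂, hβ, ← hj]; push_cast; field_simp; ring
  have hv₁0 : 0 < v₁ := div_pos ha₁0 hpq
  have hlt₁ : v₁ * (p : ℚ) - v₁ < 1 := by
    rw [ha₁] at hlt; nlinarith
  have hlt₂ : (j₂ : ℚ) / e * ((p : ℚ) - 1) < p := by
    refine lt_of_le_of_lt (mul_le_mul_of_nonneg_right ?_ hp1.le) hlt
    rw [div_le_div_iff_of_pos_right heq]
    exact_mod_cast (show j₂ ≤ j₁ by omega)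
  have hM : 1 + ((j₂ : ℚ) - j₁) / e + (j₁ : ℚ) / (p * e) = 1 - p * β + v₁ := by
    rw [hv₁, hβ, ← hj]; push_cast; field_simp; ring
  rw [hM]
  have hW₁ : Is A p (y₁ - 1) v₁ := is_root_sub_one h hu₁ ha₁0 hlt
  have hW₂ : Is A p (y₂ - 1) v₂ := is_root_sub_one h hu₂ ha₂0 hlt₂
  obtain ⟨c, hcI, hcfix, hlead⟩ := exists_leading h he hπ hj hu₁ hu₂
  have h0 := gt_first_approx h ha₁ ha₂ hvβ ha₁0 ha₂0 hlt hlt₂ hu₁ hu₂ hW₁ hW₂ hcI hlead
  obtain ⟨g, hg, m, hm, hI, hle⟩ := exists_max_correction h he hπ S₁ S₂ hj₁ hcfix hW₁ h0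
    (M := 1 - p * β + v₁) fun g hgfix hgd =>
    approx_bound h he hπ S₁ hvβ (div_pos ha₂0 hpq) (by positivity) hv₁0 hlt₁ hW₁ hW₂ (ha₁ ▸ hu₁)
      (fun τ hτ => by rw [map_sub, map_one, hf₂ τ hτ]) hcI hcfix (ha₂ ▸ hlead)
      (fun hb0 n => by
        have hb' : b = 0 := by
          rw [hβ, div_eq_zero_iff, or_iff_left heq.ne'] at hb0
          exact_mod_cast hb0
        exact ha₂ ▸ hind hb' n)
      (fun k hk hkp m => mul_ne_int_div hj₁ heq.ne' hk hkp m)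
      (fun m => bound_ne_int_div hj₁ heq.ne' b m) hgfix hgd
  refine ⟨1 + g, fun τ hτ => by rw [map_add, map_one, hg τ hτ], m, hm, ?_, hle⟩
  convert hI using 1
  ring

include h he hπ S₁ S₂ hf₂ hj hj₂ hj₁ hlt hu₁ hu₂ hind in
/-- **The bound for two steps**: integral elements of the double step move beyond `t` under `σ₂`. -/
theorem gt_sub_two {t : ℚ}
    (ht : t + (1 + ((j₂ : ℚ) - j₁) / e + (j₁ : ℚ) / (p * e)) / p < 1 / ((p : ℚ) - 1))
    {z : ℚbar} (hz0 : Ge A p z 0) (hz : ∀ τ ∈ tame A π, τ y₁ = y₁ → τ y₂ = y₂ → τ z = z) :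
    Gt A p (σ₂ z - z) t := by
  have hen : e ≠ 0 := fun e0 => he (by rw [e0]; exact dvd_zero p)
  obtain ⟨g, hg, m, hm, hI, hle⟩ :=
    exists_translate h he hπ S₁ S₂ hf₂ hj hj₂ hj₁ hlt hu₁ hu₂ hind
  have hy₂ : Is A p y₂ 0 := by
    have h1 : Gt A p (y₂ ^ p - 1) 0 := hu₂.gt (div_pos (by exact_mod_cast hj₂)
      (by exact_mod_cast Nat.pos_of_ne_zero hen))
    have := (is_one h).add h (gt_root_sub_one h h1)
    rwa [add_sub_cancel] at this
  refine S₂.gt_sub (n := p * e) h (fun τ hτ => isInert_of_mem_tame (mem_tameStab.mp hτ).1) hy₂ hg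
    (fun x hx0 hx => exists_int_ord_step h he hπ S₁ hx0 hx) hI (fun b hb hbp m' hm' => ?_)
    (by linarith) hz0 fun τ hτ hy => hz τ (mem_tameStab.mp hτ).1 (mem_tameStab.mp hτ).2 hy
  have hm'' : (b : ℤ) * m = p * m' := by
    have hpe : (p : ℚ) * e ≠ 0 :=
      mul_ne_zero (Nat.cast_ne_zero.mpr hp.out.ne_zero) (Nat.cast_ne_zero.mpr hen)
    push_cast at hm'
    rw [mul_div, div_eq_div_iff (mul_ne_zero (Nat.cast_ne_zero.mpr hp.out.ne_zero) hpe) hpe] at hm'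
    have h1 : (b : ℚ) * m = p * m' := mul_right_cancel₀ hpe (by linear_combination hm')
    exact_mod_cast h1
  rcases Int.Prime.dvd_mul' hp.out ⟨m', hm''⟩ with hd | hd
  · exact absurd (Nat.le_of_dvd hb (Int.natCast_dvd_natCast.mp hd)) (not_le.mpr hbp)
  · exact hm hd

end two

/-- **The bound for one step**: integral elements of the step move beyond `t` under `σ`. -/
theorem gt_sub_one_step (h : IsPlace A p) {e : ℕ} (he : ¬ p ∣ e) {π y ξ : ℚbar} {σ : Γℚ}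
    (hπ : π ^ e = (p : ℚbar)) (S : Step p (tame A π) y ξ σ) {j : ℕ} (hj : ¬ p ∣ j)
    (hu : Is A p (y ^ p - 1) ((j : ℚ) / e)) (hlt : (j : ℚ) / e * ((p : ℚ) - 1) < p) {t : ℚ}
    (ht : t + (j : ℚ) / e / p < 1 / ((p : ℚ) - 1)) {z : ℚbar} (hz0 : Ge A p z 0)
    (hz : ∀ τ ∈ tame A π, τ y = y → τ z = z) : Gt A p (σ z - z) t := by
  have hen : e ≠ 0 := fun e0 => he (by rw [e0]; exact dvd_zero p)
  have he0 : (e : ℚ) ≠ 0 := Nat.cast_ne_zero.mpr hen
  have hj0 : 0 < j := Nat.pos_of_ne_zero fun e0 => hj (by rw [e0]; exact dvd_zero p)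
  have hpos : (0 : ℚ) < (j : ℚ) / e := div_pos (by exact_mod_cast hj0)
    (lt_of_le_of_ne (by positivity) he0.symm)
  have hy : Is A p y 0 := by
    have := (is_one h).add h (gt_root_sub_one h (hu.gt hpos))
    rwa [add_sub_cancel] at this
  refine S.gt_sub (n := e) (g := 1) h (fun τ hτ => isInert_of_mem_tame hτ) hy
    (fun τ _ => map_one τ) (fun x hx0 hx => exists_int_ord_tame h he hπ hx0 hx)
    (is_root_sub_one h hu hpos hlt) (fun b hb hbp m hm => ?_) ht hz0 hz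
  have hp0 : (p : ℚ) ≠ 0 := Nat.cast_ne_zero.mpr hp.out.ne_zero
  have hm' : (b : ℤ) * j = p * m := by
    rw [div_div, mul_div, div_eq_div_iff (mul_ne_zero he0 hp0) he0] at hm
    have h1 : (b : ℚ) * j = p * m := mul_right_cancel₀ he0 (by linear_combination hm)
    exact_mod_cast h1
  rcases Int.Prime.dvd_mul' hp.out ⟨m, hm'⟩ with hd | hd
  · exact absurd (Nat.le_of_dvd hb (Int.natCast_dvd_natCast.mp hd)) (not_le.mpr hbp)
  · exact hj (Int.natCast_dvd_natCast.mp hd)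

end Fermat.FLAT
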