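import Fermat.Agent.FLAT.Conn
import Fermat.Agent.FLAT.Red

/-!
# Models of order `p²` with irreducible inertia: fundamental character of level two

Every nonzero point has `a = 1/(p²-1)`, the tame group acts trivially, and the leading coefficient
is an equivariant embedding into the residue field.
-/

set_option autoImplicit false
set_option linter.unusedSectionVars false

noncomputable section

open Fermat.EC.Val IsLocalRing

namespace Fermat.FLAT

local notation "ℚbar" => AlgebraicClosure ℚ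
local notation "Γℚ" => (AlgebraicClosure ℚ ≃ₐ[ℚ] AlgebraicClosure ℚ)

variable {p : ℕ} [hp : Fact p.Prime] {A : ValuationSubring ℚbar}
  {H : Subgroup Γℚ} {M : Type*} [AddCommGroup M] [Finite M] {g : Γℚ → AddMonoid.End M}

/-- No line of the subgroup `W` is stable under inertia. -/
def InertiaIrred (A : ValuationSubring ℚbar) (g : Γℚ → AddMonoid.End M) (W : AddSubgroup M) :
    Prop :=
  ∀ x ∈ W, x ≠ 0 → ∃ σ ∈ A.inertiaSubgroupIn ℚ, ∀ r : ℕ, g σ x ≠ r • x

namespace Model

/-- A coordinate of minimal order on `W`: every point of `W` is dominated by that order, none but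
the origin strictly, and the coordinate has exactly that order at every nonzero point. -/
structure LeadingCoord (G : Model A H g) (p : ℕ) (W : AddSubgroup M) where
  /-- The coordinate, a function of the model on the points. -/
  coord : M → ℚbar
  /-- The order of the coordinate at the nonzero points of `W`. -/
  order : ℚ
  /-- It belongs to the model. -/
  mem : coord ∈ G.O
  /-- It vanishes at the origin. -/
  origin : coord 0 = 0
  /-- The order is positive. -/
  order_pos : 0 < order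
  /-- The order is at most `1/(p-1)`. -/
  order_le : order ≤ 1 / ((p : ℚ) - 1)
  /-- The orders of the augmentation ideal on `W` are at least the order. -/
  dom : ∀ x ∈ W, G.Dom p x order
  /-- Only the origin is strictly deeper. -/
  strict : ∀ x ∈ W, G.SDom p x order → x = 0
  /-- The coordinate has exactly this order at nonzero points. -/
  is_order : ∀ x ∈ W, x ≠ 0 → Is A p (coord x) order
  /-- Some function has order `(1 + order) / p` at a nonzero point. -/
  exists_second : ∃ x ∈ W, x ≠ 0 ∧ ∃ v ∈ G.O, Is A p (v x) ((1 + order) / p)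

variable (G : Model A H g) (hM : ∀ x : M, p • x = 0) {W : AddSubgroup M}
  (hWst : ∀ σ ∈ A.inertiaSubgroupIn ℚ, ∀ x ∈ W, g σ x ∈ W) (hcard : Nat.card W = p ^ 2)
  (hirr : InertiaIrred A g W)
include hM hcard hirr

/-- A nonzero inertia stable subgroup of `W` is everything. -/
lemma eq_of_stable {H' : AddSubgroup M} (hHW : H' ≤ W) (hne : H' ≠ ⊥)
    (hst : ∀ σ ∈ A.inertiaSubgroupIn ℚ, ∀ x ∈ H', g σ x ∈ H') : H' = W := by
  obtain ⟨⟨x, hxH⟩, hx'⟩ := H'.ne_bot_iff_exists_ne_zero.mp hne
  have hx : x ≠ 0 := fun e => hx' (Subtype.ext e)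
  obtain ⟨σ, hσ, hr⟩ := hirr x (hHW hxH) hx
  have hdvd : Nat.card H' ∣ p ^ 2 := hcard ▸ AddSubgroup.card_dvd_of_le hHW
  obtain ⟨i, hi, hi'⟩ := (Nat.dvd_prime_pow hp.out).mp hdvd
  rcases (show i = 0 ∨ i = 1 ∨ i = 2 by omega) with rfl | rfl | rfl
  · rw [pow_zero, AddSubgroup.card_eq_one] at hi'
    exact absurd hi' hne
  · exfalso
    have hord : addOrderOf x = p := addOrderOf_eq_prime (hM x) hx
    have hle : AddSubgroup.zmultiples x ≤ H' := AddSubgroup.zmultiples_le.mpr hxH
    have heq : AddSubgroup.zmultiples x = H' := AddSubgroup.eq_of_le_of_card_ge hle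
      (by rw [hi', pow_one, Nat.card_zmultiples, hord])
    have := heq ▸ hst σ hσ x hxH
    obtain ⟨k, hk⟩ := AddSubgroup.mem_zmultiples_iff.mp this
    have hp0 : (p : ℤ) ≠ 0 := Int.natCast_ne_zero.mpr hp.out.ne_zero
    refine hr (k % (p : ℤ)).toNat ?_
    rw [← natCast_zsmul, Int.toNat_of_nonneg (Int.emod_nonneg k hp0), ← hk]
    conv_lhs => rw [← Int.emod_add_mul_ediv k p]
    rw [add_zsmul, mul_comm, mul_zsmul, natCast_zsmul, hM, zsmul_zero, add_zero]
  · exact AddSubgroup.eq_of_le_of_card_ge hHW (by rw [hi', hcard])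

include hWst

omit hM hWst hirr in
/-- A subgroup of order `p²` has a nonzero point. -/
lemma exists_ne_zero_mem : ∃ x ∈ W, x ≠ 0 := by
  have h2 : 1 < Nat.card W := by rw [hcard]; exact Nat.one_lt_pow two_ne_zero hp.out.one_lt
  have : Nontrivial W := Finite.one_lt_card_iff_nontrivial.mp h2
  obtain ⟨x, hx⟩ := exists_ne (0 : W)
  exact ⟨x, x.2, fun e => hx (Subtype.ext e)⟩

/-- Every point of an inertia irreducible `W` is connected. -/
theorem le_conn (h : IsPlace A p) : W ≤ G.conn h := by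
  refine le_of_eq_of_le (eq_of_stable hM hcard hirr (inf_le_left (b := G.conn h)) ?_
    fun σ hσ x hx => ⟨hWst σ hσ x hx.1, G.apply_stable h hx.2 (isInert_of_mem_inertia hσ)
      (G.inertia_mem hσ)⟩).symm
      inf_le_right
  intro hbot
  obtain ⟨x, hxW, hx⟩ := exists_ne_zero_mem hcard
  obtain ⟨σ, hσ, hr⟩ := hirr x hxW hx
  have hmem : g σ x - x ∈ W ⊓ G.conn h :=
    AddSubgroup.mem_inf.mpr
      ⟨sub_mem (hWst σ hσ x hxW) hxW, G.smul_sub_mem_conn h (isInert_of_mem_inertia hσ)
        (G.inertia_mem hσ) x⟩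
  rw [hbot, AddSubgroup.mem_bot, sub_eq_zero] at hmem
  exact hr 1 (by rw [hmem, one_smul])

/-- An irreducible connected `W` has a leading coordinate. -/
theorem exists_leadingCoord (h : IsPlace A p) : Nonempty (G.LeadingCoord p W) := by
  classical
  have := Fintype.ofFinite M
  have hconn : ∀ x ∈ W, x ∈ G.conn h := G.le_conn hM hWst hcard hirr h
  -- choose a point of minimal order
  choose fm hfm hfm0 am ham0 hamle hfmis hdom vm hvm hvm0 hvmis using
    fun (x : {x : M // x ∈ W ∧ x ≠ 0}) => G.exists_min_ord hM h x.2.2 (hconn x.1 x.2.1)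
  obtain ⟨x1, hx1W, hx1⟩ := exists_ne_zero_mem hcard
  obtain ⟨X, -, hXmin⟩ := Finset.exists_min_image
    (Finset.univ : Finset {x : M // x ∈ W ∧ x ≠ 0}) am ⟨⟨x1, hx1W, hx1⟩, Finset.mem_univ _⟩
  set a := am X
  set f := fm X
  have hfX : Is A p (f X.1) a := hfmis X
  have hall : ∀ x ∈ W, G.Dom p x a := by
    intro x hxW
    by_cases hx : x = 0
    · exact hx ▸ G.dom_origin a
    · exact Dom.mono' G (hdom ⟨x, hxW, hx⟩) (hXmin ⟨x, hxW, hx⟩ (Finset.mem_univ _))
  have hstrict : ∀ x ∈ W, G.SDom p x a → x = 0 := by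
    intro x hxW hx
    by_contra hx0
    have htop : W ⊓ G.deeper h a (ham0 X).le = W := eq_of_stable hM hcard hirr inf_le_left
      (fun hb => hx0 ((AddSubgroup.mem_bot).mp (hb ▸ (show x ∈ W ⊓ G.deeper h a (ham0 X).le from
        ⟨hxW, hx⟩))))
      fun σ hσ y hy => ⟨hWst σ hσ y hy.1, G.apply_stable h hy.2 (isInert_of_mem_inertia hσ)
        (G.inertia_mem hσ)⟩
    have := (show X.1 ∈ W ⊓ G.deeper h a (ham0 X).le from htop.symm ▸ X.2.1).2
    exact hfX.not_gt (this f (hfm X) (hfm0 X))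
  have hexact : ∀ x ∈ W, x ≠ 0 → Is A p (f x) a := by
    intro x hxW hx
    refine (hall x hxW f (hfm X) (hfm0 X)).is_of_not_gt fun hgt => hx ?_
    let S : AddSubgroup M :=
      { carrier := {y | y ∈ W ∧ Gt A p (f y) a}
        zero_mem' := ⟨zero_mem W, Or.inl (hfm0 X)⟩
        add_mem' := fun {u v} (hu : u ∈ W ∧ Gt A p (f u) a) (hv : v ∈ W ∧ Gt A p (f v) a) => by
          have := (((G.ge_add_sub h (hall u hu.1) (hall v hv.1) (hfm X) (hfm0 X)).gt
            (show a < a + a by linarith [ham0 X])).add h hv.2).add h hu.2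
          refine ⟨add_mem hu.1 hv.1, ?_⟩
          simpa [f] using this
        neg_mem' := fun {u} (hu : u ∈ W ∧ Gt A p (f u) a) => by
          refine ⟨neg_mem hu.1, ?_⟩
          have := ((G.ge_add_sub h (hall u hu.1) (hall (-u) (neg_mem hu.1)) (hfm X) (hfm0 X)).gt
            (show a < a + a by linarith [ham0 X])).add h hu.2
          rw [add_neg_cancel, hfm0 X] at this
          simpa [f] using this.neg h }
    by_contra hx0
    have htop : S = W := eq_of_stable hM hcard hirr (fun y hy => hy.1)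
      (fun hb => hx0 ((AddSubgroup.mem_bot).mp (hb ▸ (show x ∈ S from ⟨hxW, hgt⟩))))
      fun σ hσ y hy => by
        refine ⟨hWst σ hσ y hy.1, ?_⟩
        rw [G.equivariant f (hfm X) σ (G.inertia_mem hσ)]
        exact (isInert_of_mem_inertia hσ).gt_apply h hy.2
    exact hfX.not_gt (show X.1 ∈ S from htop.symm ▸ X.2.1).2
  exact ⟨⟨f, a, hfm X, hfm0 X, ham0 X, hamle X, hall, hstrict, hexact, X.1, X.2.1, X.2.2, vm X,
    hvm X, hvmis X⟩⟩

variable {G}

omit hM hWst hcard hirr in
/-- The leading coordinate is additive up to deeper terms. -/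
theorem LeadingCoord.gt_add_sub (h : IsPlace A p) (C : G.LeadingCoord p W) {x y : M} (hx : x ∈ W)
    (hy : y ∈ W) : Gt A p (C.coord (x + y) - C.coord x - C.coord y) C.order :=
  (G.ge_add_sub h (C.dom x hx) (C.dom y hy) C.mem C.origin).gt (by linarith [C.order_pos])

omit hM hirr in
/-- The order of the leading coordinate is a multiple of `1/(p²-1)`. -/
theorem LeadingCoord.exists_order_eq_div (h : IsPlace A p) (C : G.LeadingCoord p W)
    (he0 : p ^ 2 - 1 ≠ 0) : ∃ k : ℤ, C.order = (k : ℚ) / ((p ^ 2 - 1 : ℕ) : ℚ) := by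
  classical
  have := Fintype.ofFinite M
  set e := p ^ 2 - 1 with he_def
  set s := (Finset.univ.filter fun y : M => y ∈ W).erase 0
  have hsW : ∀ y ∈ s, y ∈ W := fun y hy => (Finset.mem_filter.mp (Finset.mem_of_mem_erase hy)).2
  have hsne : ∀ y ∈ s, C.coord y ≠ 0 := fun y hy =>
    (C.is_order y (hsW y hy) (Finset.ne_of_mem_erase hy)).1
  have hfix : ∀ σ ∈ A.inertiaSubgroupIn ℚ, σ (∏ y ∈ s, C.coord y) = ∏ y ∈ s, C.coord y := by
    intro σ hσ
    rw [map_prod, Finset.prod_congr rfl fun y _ =>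
      (G.equivariant C.coord C.mem σ (G.inertia_mem hσ) y).symm]
    have hinj : Function.Injective (g σ) := G.act_injective (G.inertia_mem hσ)
    have himg : s.image (g σ) = s :=
      Finset.eq_of_subset_of_card_le (Finset.image_subset_iff.mpr fun y hy =>
          Finset.mem_erase.mpr ⟨fun e0 => Finset.ne_of_mem_erase hy (hinj (by rw [e0, map_zero])),
            Finset.mem_filter.mpr ⟨Finset.mem_univ _, hWst σ hσ y (hsW y hy)⟩⟩)
        (le_of_eq (Finset.card_image_of_injective _ hinj).symm)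
    conv_rhs => rw [← himg, Finset.prod_image fun u _ v _ huv => hinj huv]
  obtain ⟨k, hk⟩ := exists_int_ord h (Finset.prod_ne_zero_iff.mpr hsne) hfix
  refine ⟨k, ?_⟩
  have hI := (Is.prod h (s := s) (f := C.coord) (r := fun _ => C.order) fun y hy =>
    C.is_order y (hsW y hy) (Finset.ne_of_mem_erase hy)).2
  rw [Finset.sum_const, Finset.card_erase_of_mem (by simp),
    show (Finset.univ.filter fun y : M => y ∈ W).card = p ^ 2 by
      rw [← hcard, Nat.card_eq_fintype_card, Fintype.card_subtype],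
    ← he_def, nsmul_eq_mul, hk] at hI
  rw [eq_div_iff (Nat.cast_ne_zero.mpr he0), mul_comm, ← hI]

omit hM hcard hirr in
/-- The tame group fixes `W` pointwise. -/
theorem LeadingCoord.tame_fix (h : IsPlace A p) (C : G.LeadingCoord p W) {e : ℕ} (he0 : e ≠ 0)
    {π : ℚbar} (hπ : π ^ e = (p : ℚbar)) {k : ℤ} (hk : C.order = (k : ℚ) / e) :
    ∀ σ ∈ tame A π, ∀ x ∈ W, g σ x = x := by
  intro σ hσ x hxW
  refine sub_eq_zero.mp (C.strict _ (sub_mem (hWst σ hσ.1 x hxW) hxW)
    (G.sdom_smul_sub h (G.inertia_mem hσ.1) fun b hb => ?_))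
  obtain ⟨r, hr⟩ := G.exists_apply_zero hb
  have hb0 : ((b - algebraMap (Rfix A H) (M → ℚbar) r) 0 : ℚbar) = 0 := (G.sub_mem_aug hb hr).2
  have h1 := gt_sub_scaled h he0 hπ hσ (k := k)
    (hk ▸ C.dom x hxW _ (G.sub_mem_aug hb hr).1 hb0)
  rw [Pi.sub_apply, Pi.algebraMap_apply, map_sub, algebraMap_Rfix,
    apply_Rfix (G.inertia_mem hσ.1), sub_sub_sub_cancel_right, ← hk] at h1
  exact h1

omit hM hWst hcard hirr in
/-- The only integers `k` in `(0, p + 1]` with `p ∣ p² - 1 + k` are `1` and `p + 1`. -/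
theorem eq_one_or_eq_succ {k m : ℤ} (hk0 : 0 < k) (hkle : k ≤ (p : ℤ) + 1)
    (hem : (p : ℤ) ^ 2 - 1 + k = p * m) : k = 1 ∨ k = (p : ℤ) + 1 := by
  have hdvd : (p : ℤ) ∣ k - 1 := ⟨m - p, by linear_combination hem⟩
  have := hp.out.two_le
  obtain ⟨j, hj⟩ := hdvd
  have hj0 : 0 ≤ j := by
    by_contra hj'
    have : (p : ℤ) * j ≤ (p : ℤ) * (-1) :=
      mul_le_mul_of_nonneg_left (by omega) (by positivity)
    omega
  have hj1 : j ≤ 1 := by
    by_contra hj'
    have : (p : ℤ) * 2 ≤ (p : ℤ) * j := mul_le_mul_of_nonneg_left (by omega) (by positivity)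
    omega
  rcases (show j = 0 ∨ j = 1 by omega) with rfl | rfl
  · exact .inl (by omega)
  · exact .inr (by omega)

omit hM hWst hcard hirr in
/-- The leading coordinate of `n • y` is `n` times that of `y`, up to deeper terms. -/
theorem LeadingCoord.gt_nsmul_sub (h : IsPlace A p) (C : G.LeadingCoord p W) (n : ℕ) {y : M}
    (hy : y ∈ W) : Gt A p (C.coord (n • y) - n * C.coord y) C.order := by
  induction n with
  | zero => simp [C.origin, gt_zero]
  | succ n ih =>
    rw [succ_nsmul]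
    have := (C.gt_add_sub h (nsmul_mem hy n) hy).add h ih
    convert this using 1
    push_cast; ring

omit hM hcard in
/-- The order is not `(p+1)/(p²-1)`: inertia would act by scalars on a point. -/
theorem LeadingCoord.order_ne (h : IsPlace A p) (C : G.LeadingCoord p W) {e : ℕ}
    (he_def : e = p ^ 2 - 1) (he0 : e ≠ 0) {π : ℚbar} (hπ : π ^ e = (p : ℚbar)) :
    C.order ≠ (((p : ℤ) + 1 : ℤ) : ℚ) / e := by
  intro hk
  obtain ⟨X, hXW, hX0, -⟩ := C.exists_second
  have hfX := C.is_order X hXW hX0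
  set k : ℤ := (p : ℤ) + 1 with hkp
  obtain ⟨σ, hσ, hr⟩ := hirr X hXW hX0
  have hσX : g σ X ∈ W := hWst σ hσ _ hXW
  have hσi := isInert_of_mem_inertia hσ
  set ζ := σ π / π with hζ
  have hζe : ζ ^ e = 1 := move_pow_eq_one hπ σ (is_pi h he0 hπ).1
  have hζ0 : Ge A p ζ 0 := (is_root_unity h he0 hζe).ge
  obtain ⟨r, hrz⟩ := exists_nat_of_pow_eq_one h (z := red A ζ ^ (p + 1)) (by
    rw [← pow_mul, ← red_pow h hζ0, show (p + 1) * (p - 1) = e by
      rw [he_def, ← Nat.sq_sub_sq, one_pow], hζe, red_one])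
  refine hr r (sub_eq_zero.mp (by_contra fun hne =>
    (C.is_order _ (sub_mem hσX (nsmul_mem hXW r)) hne).not_gt ?_))
  have hu := is_pi_zpow h he0 hπ k
  -- `coord (σ X) ≡ r coord X`
  have hU : Ge A p (C.coord X / π ^ k) 0 := by simpa [hk] using hfX.ge.div h hu
  have h1 : Gt A p (σ (C.coord X) - r * C.coord X) C.order := by
    have hred : red A (σ (C.coord X / π ^ k) * ζ ^ k.toNat) =
        red A ((r : ℚbar) * (C.coord X / π ^ k)) := by
      rw [red_mul h (hσi.ge_apply h hU) (by simpa using hζ0.pow h k.toNat),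
        red_mul h (ge_natCast h r) hU, red_apply h hσi hU, red_pow h hζ0, red_natCast, hrz,
        hkp, show ((p : ℤ) + 1).toNat = p + 1 by omega, mul_comm]
    rw [red_eq_iff h (by simpa using (hσi.ge_apply h hU).mul h (hζ0.pow h k.toNat))
      (by simpa using (ge_natCast h r).mul h hU)] at hred
    have := hred.mul_ge h hu.ge
    rw [zero_add, ← hk, sub_mul, mul_assoc (r : ℚbar), div_mul_cancel₀ _ hu.1] at this
    convert this using 1
    congr 1
    have hkn : ((k.toNat : ℕ) : ℤ) = k := by omega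
    have hzk : ζ ^ k.toNat = σ (π ^ k) / π ^ k := by
      rw [hζ, ← zpow_natCast, hkn, div_zpow, map_zpow₀]
    rw [hzk, mul_assoc, div_mul_cancel₀ _ hu.1, ← map_mul, div_mul_cancel₀ _ hu.1]
  have h3 := C.gt_add_sub h (sub_mem hσX (nsmul_mem hXW r)) (nsmul_mem hXW r)
  rw [sub_add_cancel, G.equivariant _ C.mem σ (G.inertia_mem hσ)] at h3
  have := (h1.sub h (C.gt_nsmul_sub h r hXW)).sub h h3
  convert this using 1
  ring

omit hM in
/-- The order of the leading coordinate is `1/(p²-1)`. -/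
theorem LeadingCoord.order_eq (h : IsPlace A p) (hp2 : p ≠ 2) (C : G.LeadingCoord p W) {π : ℚbar}
    (hπ : π ^ (p ^ 2 - 1) = (p : ℚbar)) : C.order = 1 / ((p ^ 2 - 1 : ℕ) : ℚ) := by
  set e := p ^ 2 - 1 with he_def
  have hp3 : 3 ≤ p := by have := hp.out.two_le; omega
  have he0 : e ≠ 0 := by
    have : 3 ^ 2 ≤ p ^ 2 := Nat.pow_le_pow_left hp3 2
    omega
  have he : ¬ p ∣ e := fun hd => hp.out.not_dvd_one <| by
    have h1 : p ∣ p ^ 2 := dvd_pow_self p two_ne_zero
    have h2 : e + 1 = p ^ 2 := Nat.sub_add_cancel (Nat.one_le_pow _ _ hp.out.pos)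
    exact (Nat.dvd_add_right hd).mp (h2 ▸ h1)
  -- The order is `k / e` with `k > 0`.
  obtain ⟨k, hk⟩ : ∃ k : ℤ, C.order = (k : ℚ) / (e : ℚ) :=
    C.exists_order_eq_div hWst hcard h he0
  have hk0 : 0 < k := by
    have := C.order_pos
    rw [hk] at this
    exact_mod_cast (div_pos_iff_of_pos_right (by exact_mod_cast Nat.pos_of_ne_zero he0)).mp this
  -- The second function is tame-fixed, so `(1 + order) / p = m / e`: `e + k = p m`.
  obtain ⟨m, hm⟩ : ∃ m : ℤ, (1 + C.order) / p = (m : ℚ) / e := by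
    obtain ⟨X, hXW, -, v, hv, hvis⟩ := C.exists_second
    obtain ⟨m, hm⟩ := exists_int_ord_tame h he hπ hvis.1 fun σ hσ => by
      rw [← G.equivariant _ hv σ (G.inertia_mem hσ.1), C.tame_fix hWst h he0 hπ hk σ hσ _ hXW]
    exact ⟨m, hvis.2.symm.trans hm⟩
  have hem : (e : ℤ) + k = p * m := by
    rw [hk] at hm
    have hp0 : (p : ℚ) ≠ 0 := Nat.cast_ne_zero.mpr hp.out.ne_zero
    have he0' : (e : ℚ) ≠ 0 := Nat.cast_ne_zero.mpr he0
    field_simp at hm
    exact_mod_cast (by linarith : (e : ℚ) + k = p * m)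
  -- As the order is at most `1/(p-1)`, `k ≤ p + 1`.
  have hkle : k ≤ (p : ℤ) + 1 := by
    have := C.order_le
    rw [hk, div_le_div_iff₀ (by exact_mod_cast Nat.pos_of_ne_zero he0)
      (by have : (3 : ℚ) ≤ p := by exact_mod_cast hp3
          linarith)] at this
    have he' : ((e : ℕ) : ℚ) = ((p : ℚ) + 1) * ((p : ℚ) - 1) := by
      rw [he_def, Nat.cast_sub (Nat.one_le_pow _ _ hp.out.pos)]; push_cast; ring
    rw [he', one_mul] at this
    have hp1 : (0 : ℚ) < (p : ℚ) - 1 := by
      have : (3 : ℚ) ≤ p := by exact_mod_cast hp3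
      linarith
    exact_mod_cast le_of_mul_le_mul_right this hp1
  have hecast : (e : ℤ) = (p : ℤ) ^ 2 - 1 := by
    rw [he_def, Nat.cast_sub (Nat.one_le_pow _ _ hp.out.pos)]; push_cast; ring
  -- So `k = 1`, or `k = p + 1`, which irreducibility excludes.
  rcases eq_one_or_eq_succ hk0 hkle (hecast ▸ hem) with rfl | rfl
  · rw [hk, Int.cast_one]
  · exact absurd hk (C.order_ne hWst hirr h he_def he0 hπ)

omit hM hcard hirr in
/-- The leading coefficient of the coordinate of order `1/e` is an injective equivariant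
additive map to the residue field. -/
theorem LeadingCoord.exists_leading_hom (h : IsPlace A p) (C : G.LeadingCoord p W) {e : ℕ}
    (he0 : e ≠ 0) {π : ℚbar} (hπ : π ^ e = (p : ℚbar)) (ha : C.order = 1 / (e : ℚ)) :
    ∃ L : W →+ ResidueField A, Function.Injective L ∧
      ∀ σ (hσ : σ ∈ A.inertiaSubgroupIn ℚ), ∀ x : W,
        L ⟨g σ x, hWst σ hσ x x.2⟩ = red A (σ π / π) * L x := by
  have hπ1 := is_pi h he0 hπ
  have hdiv : ∀ x : W, Ge A p (C.coord x / π) 0 := fun x => by
    simpa [ha] using (C.dom x x.2 C.coord C.mem C.origin).div h hπ1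
  refine ⟨AddMonoidHom.mk' (fun x : W => red A (C.coord x / π)) fun x y => ?_, ?_, fun σ hσ x => ?_⟩
  · rw [← red_add h (hdiv x) (hdiv y), red_eq_iff h (hdiv _) ((hdiv x).add h (hdiv y))]
    have := (C.gt_add_sub h x.2 y.2).div h hπ1
    rw [ha, sub_self] at this
    convert this using 1
    rw [AddSubgroup.coe_add]
    ring
  · rw [injective_iff_map_eq_zero]
    intro x hx
    by_contra hx0
    change red A (C.coord (x : M) / π) = 0 at hx
    rw [red_eq_zero_iff h (hdiv x)] at hx
    have := hx.mul_ge h hπ1.ge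
    rw [zero_add, div_mul_cancel₀ _ hπ1.1, ← ha] at this
    exact (C.is_order x x.2 fun e0 => hx0 (Subtype.ext e0)).not_gt this
  · change red A (C.coord (g σ (x : M)) / π) = red A (σ π / π) * red A (C.coord (x : M) / π)
    have hσi := isInert_of_mem_inertia hσ
    have hζ0 : Ge A p (σ π / π) 0 := by simpa using (hσi.ge_apply h hπ1.ge).div h hπ1
    rw [G.equivariant C.coord C.mem σ (G.inertia_mem hσ),
      show σ (C.coord x) / π = σ (C.coord x / π) * (σ π / π) by
        rw [map_div₀]; field_simp [hπ1.1, show σ π ≠ 0 from (hσi.is_apply h hπ1).1],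
      red_mul h (hσi.ge_apply h (hdiv x)) hζ0, red_apply h hσi (hdiv x), mul_comm]

variable (G)

/-- **The main structure theorem**: on `W` the orders are at least `1/(p²-1)`, strictly only at
the origin, tame inertia fixes `W`, and inertia acts on leading coefficients through `σ π / π`. -/
theorem simple_structure (h : IsPlace A p) (hp2 : p ≠ 2) {π : ℚbar}
    (hπ : π ^ (p ^ 2 - 1) = (p : ℚbar)) :
    (∀ x ∈ W, G.Dom p x (1 / ((p ^ 2 - 1 : ℕ) : ℚ))) ∧
      (∀ x ∈ W, G.SDom p x (1 / ((p ^ 2 - 1 : ℕ) : ℚ)) → x = 0) ∧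
      (∀ σ ∈ tame A π, ∀ x ∈ W, g σ x = x) ∧
      ∃ L : W →+ ResidueField A, Function.Injective L ∧
        ∀ σ (hσ : σ ∈ A.inertiaSubgroupIn ℚ), ∀ x : W,
          L ⟨g σ x, hWst σ hσ x x.2⟩ = red A (σ π / π) * L x := by
  have he0 : p ^ 2 - 1 ≠ 0 := by
    have : 2 ^ 2 ≤ p ^ 2 := Nat.pow_le_pow_left hp.out.two_le 2
    omega
  obtain ⟨C⟩ := G.exists_leadingCoord hM hWst hcard hirr h
  have ha := C.order_eq hWst hcard hirr h hp2 hπ
  obtain ⟨k, hk⟩ := C.exists_order_eq_div hWst hcard h he0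
  exact ⟨fun x hxW => ha ▸ C.dom x hxW, fun x hxW hx => C.strict x hxW (ha ▸ hx),
    C.tame_fix hWst h he0 hπ hk, C.exists_leading_hom hWst h he0 hπ ha⟩

end Model

end Fermat.FLAT
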