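import Fermat.Prelude.Def_GaloisRep_Flat
import Fermat.Agent.EC.Inertia
import Mathlib.RingTheory.PrincipalIdealDomain
import Mathlib.RingTheory.Valuation.ValuationSubring
import Mathlib.RingTheory.Valuation.LocalSubring
import Mathlib.RingTheory.IntegralClosure.IntegrallyClosed
import Mathlib.RingTheory.LocalRing.Basic
import Mathlib.FieldTheory.Galois.Infinite

/-!
# `ℤ_(p)`, integrality at a place, and Galois descent of linear relations

The ring `Zp` is the localisation `ℤ_(p)`; it maps into every place over `p` (`Zp_mem`).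
-/

set_option autoImplicit false
set_option linter.unusedSectionVars false

open Fermat.EC.Val

namespace Fermat.FLAT

local notation "ℚbar" => AlgebraicClosure ℚ

/-- `ℤ_(p)`. -/
abbrev Zp (p : ℕ) : Subring ℚ := GaloisRep.ratLocalizedAt p

variable {p : ℕ} [hp : Fact p.Prime]

/-- `ℤ_(p)` consists of the rationals with denominator prime to `p`. -/
lemma mem_Zp_iff (r : ℚ) : r ∈ Zp p ↔ ¬ p ∣ r.den := by
  change r.den.Coprime p ↔ _
  rw [Nat.coprime_comm, hp.out.coprime_iff_not_dvd]

/-- A rational of nonnegative `p`-adic valuation lies in `ℤ_(p)`. -/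
lemma mem_Zp_of_padicValRat {r : ℚ} (h : 0 ≤ padicValRat p r) : r ∈ Zp p := by
  rw [mem_Zp_iff]
  intro hd
  have hn : ¬ (p : ℤ) ∣ r.num := fun hn => hp.out.one_lt.ne' (Nat.eq_one_of_dvd_coprimes r.reduced
    (Int.natCast_dvd.mp hn) hd)
  rw [padicValRat, padicValInt.eq_zero_of_not_dvd hn] at h
  have := one_le_padicValNat_of_dvd r.den_nz hd
  omega

/-- Elements of `ℤ_(p)` have nonnegative `p`-adic valuation. -/
lemma padicValRat_nonneg {r : ℚ} (h : r ∈ Zp p) : 0 ≤ padicValRat p r := by
  rw [mem_Zp_iff] at h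
  rw [padicValRat, padicValNat.eq_zero_of_not_dvd h]
  simp

/-- The map from `ℤ_(p)` to `ℚbar` is the inclusion. -/
lemma algebraMap_Zp (r : Zp p) : algebraMap (Zp p) ℚbar r = ((r : ℚ) : ℚbar) :=
  eq_ratCast (algebraMap ℚ ℚbar) (r : ℚ)

variable {A : ValuationSubring ℚbar}

/-- `ℤ_(p)` is contained in every place over `p`. -/
lemma Zp_mem (h : IsPlace A p) (r : Zp p) : algebraMap (Zp p) ℚbar r ∈ A := by
  rw [algebraMap_Zp]
  rcases eq_or_ne (r : ℚ) 0 with e | e
  · rw [e, Rat.cast_zero]; exact zero_mem A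
  · rw [← A.valuation_le_one_iff, h.v_rat e,
      ← Int.toNat_of_nonneg (padicValRat_nonneg r.2), zpow_natCast]
    exact pow_le_one₀ zero_le h.v_q_lt_one.le

end Fermat.FLAT
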