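import Fermat.Agent.FLAT.Base
import Fermat.Agent.EC.Unramified
import Fermat.Agent.EC.Cyclo
import Mathlib.NumberTheory.RamificationInertia.Galois
import Mathlib.RingTheory.DedekindDomain.Ideal.Lemmas

/-!
# The tame field at a place of `ℚbar` over `p`

Inertia invariants have integral order; inertia moves `π = p^(1/e)` through all `e`-th roots of
unity; elements fixed by inertia and `π` have order in `(1/e)ℤ`; residues are roots of unity.
-/

set_option autoImplicit false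

noncomputable section

open scoped Pointwise NumberField
open NumberField Fermat.CFT Fermat.EC.Val

namespace Fermat.FLAT

local notation "ℚbar" => AlgebraicClosure ℚ
local notation "Γℚ" => (AlgebraicClosure ℚ ≃ₐ[ℚ] AlgebraicClosure ℚ)

variable {p : ℕ} {A : ValuationSubring ℚbar}

/-- The inertia group lies in the decomposition group. -/
lemma inertia_le_decomposition (A : ValuationSubring ℚbar) :
    A.inertiaSubgroupIn ℚ ≤ A.decompositionSubgroup ℚ := by
  rintro _ ⟨x, -, rfl⟩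
  exact x.2

/-- A prime of `K` over `p` is unramified in the fixed field of its inertia group. -/
private lemma ramificationIdx_inertiaField {K : IntermediateField ℚ ℚbar} [FiniteDimensional ℚ K]
    [IsGalois ℚ K] (hp : p.Prime) (P : Ideal (𝓞 K)) [P.IsPrime] (hpP : (p : 𝓞 K) ∈ P) :
    (P.under (𝓞 (FixedPoints.intermediateField (F := ℚ) (P.inertia (K ≃ₐ[ℚ] K)) :
      IntermediateField ℚ K))).ramificationIdx ℤ = 1 := by
  have : P.LiesOver (Ideal.span {(p : ℤ)}) := ⟨(under_int_eq_span hp inferInstance hpP).symm⟩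
  have hmax : (Ideal.span {(p : ℤ)}).IsMaximal :=
    PrincipalIdealRing.isMaximal_of_irreducible (Nat.prime_iff_prime_int.mp hp).irreducible
  have : PerfectField (Ideal.span {(p : ℤ)}).ResidueField := by
    have : Finite (ℤ ⧸ Ideal.span {(p : ℤ)}) := by
      have : NeZero p := ⟨hp.ne_zero⟩
      exact Finite.of_equiv _ (Int.quotientSpanNatEquivZMod p).symm.toEquiv
    have : Finite (Ideal.span {(p : ℤ)}).ResidueField :=
      Finite.of_surjective _ (Ideal.bijective_algebraMap_quotient_residueField _).2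
    infer_instance
  set I : Subgroup (K ≃ₐ[ℚ] K) := P.inertia (K ≃ₐ[ℚ] K) with hI
  set L : IntermediateField ℚ K := FixedPoints.intermediateField I with hL
  have hGL : IsGaloisGroup I L K := IsGaloisGroup.subgroup (K ≃ₐ[ℚ] K) ℚ K I
  have := IsGaloisGroup.of_isFractionRing (K ≃ₐ[ℚ] K) ℤ (𝓞 K) ℚ K
  have := IsGaloisGroup.of_isFractionRing I (𝓞 L) (𝓞 K) L K
  set PL : Ideal (𝓞 L) := P.under (𝓞 L)
  have : P.LiesOver PL := ⟨rfl⟩
  have hpPL : (p : 𝓞 L) ∈ PL := by rw [Ideal.mem_comap, map_natCast]; exact hpP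
  have hPL0 : PL ≠ ⊥ := ne_bot_of_natCast_mem hp hpPL
  have : PL.IsMaximal := (Ideal.IsPrime.under (𝓞 L) P).isMaximal hPL0
  have : PerfectField PL.ResidueField := by
    have : Finite (𝓞 L ⧸ PL) := PL.finiteQuotientOfFreeOfNeBot hPL0
    have : Finite PL.ResidueField :=
      Finite.of_surjective _ (Ideal.bijective_algebraMap_quotient_residueField _).2
    infer_instance
  have : PL.LiesOver (Ideal.span {(p : ℤ)}) :=
    ⟨(under_int_eq_span hp inferInstance hpPL).symm⟩
  -- the inertia group has the order of both indices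
  have e1 : Nat.card I = P.ramificationIdx ℤ := by
    rw [hI, ← Ideal.ramificationIdxIn_eq_ramificationIdx (Ideal.span {(p : ℤ)}) P (K ≃ₐ[ℚ] K),
      Ideal.card_inertia_eq_ramificationIdxIn (G := K ≃ₐ[ℚ] K) (Ideal.span {(p : ℤ)}) P]
  have e2 : Nat.card I = P.ramificationIdx (𝓞 L) := by
    rw [← Ideal.ramificationIdxIn_eq_ramificationIdx PL P I,
      ← Ideal.card_inertia_eq_ramificationIdxIn (G := I) PL P]
    have : P.inertia I = ⊤ := eq_top_iff.mpr fun g _ x => g.2 x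
    rw [this, Subgroup.card_top]
  -- multiplicativity leaves index one below
  have := Ideal.ramificationIdx_tower (R := ℤ) PL P
  rw [← e1, ← e2] at this
  exact (mul_left_eq_self₀.mp this.symm).resolve_right Nat.card_pos.ne'

/-- At an unramified prime some element outside of it carries the prime into the multiples
of `p`. -/
private lemma exists_cofactor {L : Type*} [Field L] [NumberField L] (hp : p.Prime)
    (PL : Ideal (𝓞 L)) [PL.IsPrime] (hpPL : (p : 𝓞 L) ∈ PL) (he : PL.ramificationIdx ℤ = 1) :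
    ∃ s : 𝓞 L, s ∉ PL ∧ ∀ z ∈ PL, ∃ z' : 𝓞 L, s * z = (p : 𝓞 L) * z' := by
  classical
  have : PL.LiesOver (Ideal.span {(p : ℤ)}) :=
    ⟨(under_int_eq_span hp inferInstance hpPL).symm⟩
  have : PL.IsMaximal := Ideal.IsPrime.isMaximal inferInstance (ne_bot_of_natCast_mem hp hpPL)
  have hmap : (Ideal.span {(p : ℤ)}).map (algebraMap ℤ (𝓞 L)) = Ideal.span {(p : 𝓞 L)} := by
    rw [Ideal.map_span]; simp
  have hne : (Ideal.span {(p : ℤ)}).map (algebraMap ℤ (𝓞 L)) ≠ ⊥ := by
    rw [hmap, Ne, Ideal.span_singleton_eq_bot]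
    exact_mod_cast hp.ne_zero
  obtain ⟨J, hJ, hfac⟩ := Ideal.eq_prime_pow_mul_coprime hne PL
  rw [← Ideal.IsDedekindDomain.ramificationIdx_eq_normalizedFactors_count _ PL hne, he, pow_one,
    hmap] at hfac
  obtain ⟨s, hsJ, hs⟩ : ∃ s ∈ J, s ∉ PL := by
    by_contra hc
    push Not at hc
    exact Ideal.IsPrime.ne_top inferInstance (by rwa [sup_eq_left.mpr hc] at hJ : PL = ⊤)
  refine ⟨s, hs, fun z hz => Ideal.mem_span_singleton.mp ?_⟩
  rw [hfac, mul_comm]
  exact Ideal.mul_mem_mul hsJ hz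

/-- If multiplication by a unit carries the non-units of `R` into the multiples of `p`, the nonzero
elements of `R` have integral order. -/
private lemma exists_int_ord_map (h : IsPlace A p) {R : Type*} [CommRing R] (em : R →+* ℚbar)
    (hA : ∀ z, em z ∈ A) {s : R} (hs : em s ∉ A.nonunits)
    (hsP : ∀ z, em z ∈ A.nonunits → ∃ z', s * z = (p : R) * z') (z : R) (hz : em z ≠ 0) :
    ∃ k : ℤ, ord A p (em z) = k := by
  have hunit : ∀ z, em z ∉ A.nonunits → Is A p (em z) 0 := fun z hz =>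
    ((mem_iff_ge h _).mp (hA z)).is_of_not_gt fun hg => hz ((nonunit_iff_gt h _).mpr hg)
  obtain ⟨n, hn⟩ := exists_nat_gt (ord A p (em z))
  induction n generalizing z with
  | zero => exact absurd ((mem_iff_ord h hz).mp (hA z)) (not_le.mpr (by simpa using hn))
  | succ n ih =>
    by_cases hzP : em z ∈ A.nonunits
    · obtain ⟨z', hz'⟩ := hsP z hzP
      have e : em s * em z = (p : ℚbar) * em z' := by
        rw [← map_natCast em p, ← map_mul, ← map_mul, hz']
      have hz'0 : em z' ≠ 0 := fun e0 => by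
        rw [e0, mul_zero] at e
        exact mul_ne_zero (hunit s hs).1 hz e
      have eo := congrArg (ord A p) e
      rw [ord_mul h (hunit s hs).1 hz, ord_mul h (Nat.cast_ne_zero.mpr h.1.ne_zero) hz'0,
        (hunit s hs).2, ord_q h, zero_add] at eo
      push_cast at hn
      obtain ⟨k, hk⟩ := ih z' hz'0 (by linarith)
      exact ⟨1 + k, by rw [eo, hk]; push_cast; rfl⟩
    · exact ⟨0, by rw [(hunit z hzP).2]; simp⟩

/-- **Inertia invariants are unramified.** An element fixed by inertia has integral order. -/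
theorem exists_int_ord (h : IsPlace A p) {y : ℚbar} (hy0 : y ≠ 0)
    (hy : ∀ σ ∈ A.inertiaSubgroupIn ℚ, σ y = y) : ∃ k : ℤ, ord A p y = k := by
  classical
  have hp := h.1
  set F : IntermediateField ℚ ℚbar := IntermediateField.adjoin ℚ {y}
  have : FiniteDimensional ℚ F :=
    IntermediateField.adjoin.finiteDimensional (Algebra.IsIntegral.isIntegral y)
  set K : IntermediateField ℚ ℚbar := IntermediateField.normalClosure ℚ F ℚbar
  have : FiniteDimensional ℚ K := normalClosure.is_finiteDimensional ℚ F ℚbar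
  have : Normal ℚ K := normalClosure.normal ℚ F ℚbar
  have : IsGalois ℚ K := ⟨⟩
  have hyK : y ∈ K :=
    IntermediateField.le_normalClosure F (IntermediateField.mem_adjoin_simple_self ℚ y)
  set P : Ideal (𝓞 K) := primeBelow K A
  have : P.IsPrime := primeBelow_isPrime K A
  have hpP : (p : 𝓞 K) ∈ P := natCast_mem_primeBelow K h.2
  set L : IntermediateField ℚ K := FixedPoints.intermediateField (P.inertia (K ≃ₐ[ℚ] K))
  set PL : Ideal (𝓞 L) := P.under (𝓞 L)
  have hpPL : (p : 𝓞 L) ∈ PL := by rw [Ideal.mem_comap, map_natCast]; exact hpP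
  obtain ⟨s, hs, hsP⟩ := exists_cofactor hp PL hpPL (ramificationIdx_inertiaField hp P hpP)
  let em : 𝓞 L →+* ℚbar :=
    ((algebraMap K ℚbar).comp (algebraMap L K)).comp (algebraMap (𝓞 L) L)
  have hPiff : ∀ z : 𝓞 L, z ∈ PL ↔ em z ∈ A.nonunits := fun z => mem_primeOf
  have hint : ∀ z, em z ≠ 0 → ∃ k : ℤ, ord A p (em z) = k :=
    exists_int_ord_map h em (fun z =>
      coe_mem_valuationSubring A (algebraMap (𝓞 K) (𝓞 ℚbar) (algebraMap (𝓞 L) (𝓞 K) z)))
      (fun e => hs ((hPiff s).mpr e)) fun z hz => hsP z ((hPiff z).mpr hz)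
  have hyL : (⟨y, hyK⟩ : K) ∈ L := by
    rintro ⟨g, hg⟩
    obtain ⟨σ, hσ, hσg⟩ := Fermat.CFT.exists_mem_inertia_restrict hp h.2 (L := K) (g := g) hg
    refine Subtype.ext ?_
    change ((g ⟨y, hyK⟩ : K) : ℚbar) = y
    rw [← hσg]
    exact (AlgEquiv.restrictNormal_commutes σ K ⟨y, hyK⟩).trans (hy σ hσ)
  -- `y` lies in the inertia field, a fraction field, so its order is a difference of integers
  obtain ⟨a, b, hb, hab⟩ := IsFractionRing.div_surjective (A := 𝓞 L) (⟨⟨y, hyK⟩, hyL⟩ : L)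
  have hab' : em a / em b = y := by
    simp only [em, RingHom.comp_apply]
    rw [← map_div₀, ← map_div₀, hab]
    rfl
  have hb0 : em b ≠ 0 := fun e => hy0 (by rw [← hab', e, div_zero])
  have ha0 : em a ≠ 0 := fun e => hy0 (by rw [← hab', e, zero_div])
  obtain ⟨i, hi⟩ := hint a ha0
  obtain ⟨j, hj⟩ := hint b hb0
  refine ⟨i - j, ?_⟩
  rw [← hab', div_eq_mul_inv, ord_mul h ha0 (inv_ne_zero hb0), ord_inv h, hi, hj]
  push_cast; ring

/-- The subgroup of inertia fixing `π`. -/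
def tame (A : ValuationSubring ℚbar) (π : ℚbar) : Subgroup Γℚ :=
  A.inertiaSubgroupIn ℚ ⊓ MulAction.stabilizer Γℚ π

/-- An element of the tame group is an element of inertia fixing `π`. -/
lemma mem_tame {π : ℚbar} {σ : Γℚ} :
    σ ∈ tame A π ↔ σ ∈ A.inertiaSubgroupIn ℚ ∧ σ π = π := Iff.rfl

/-- Elements of the tame group are inert. -/
lemma isInert_of_mem_tame {π : ℚbar} {σ : Γℚ} (hσ : σ ∈ tame A π) : IsInert A σ :=
  isInert_of_mem_inertia hσ.1

/-- Roots of unity have order `0`. -/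
lemma is_root_unity (h : IsPlace A p) {n : ℕ} (hn : n ≠ 0) {w : ℚbar} (hw : w ^ n = 1) :
    Is A p w 0 := by
  refine ⟨fun e => by rw [e, zero_pow hn] at hw; exact zero_ne_one hw, ?_⟩
  have := ord_pow h w n
  rw [hw, ord_one h, eq_comm, mul_eq_zero] at this
  exact this.resolve_left (Nat.cast_ne_zero.mpr hn)

/-- A root of unity of order prime to `p` congruent to one is one. -/
lemma root_eq_one (h : IsPlace A p) {n : ℕ} (hn : ¬ p ∣ n) {u : ℚbar} (hu : u ^ n = 1)
    (hd : Gt A p (u - 1) 0) : u = 1 := by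
  have hu0 := (is_root_unity h (by rintro rfl; exact hn (dvd_zero p)) hu).ge
  by_contra hne
  have hsum : ∑ i ∈ Finset.range n, u ^ i = 0 := by
    have := geom_sum_mul u n
    rw [hu, sub_self, mul_eq_zero] at this
    exact this.resolve_right (sub_ne_zero.mpr hne)
  have e : (n : ℚbar) = -∑ i ∈ Finset.range n, (u ^ i - 1) := by
    rw [Finset.sum_sub_distrib, hsum]; simp
  refine (is_natCast (A := A) (L := ℚbar) h hn).not_gt ?_
  rw [e]
  exact (Gt.sum h fun i _ => Fermat.EC.Cyclo.gt_pow_sub_one h hu0 hd i).neg h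

/-- Inertia fixes the roots of unity of order prime to `p`. -/
theorem apply_root_eq (h : IsPlace A p) {n : ℕ} (hn : ¬ p ∣ n) {ζ : ℚbar} (hζ : ζ ^ n = 1)
    {σ : Γℚ} (hσ : IsInert A σ) : σ ζ = ζ := by
  have hz := is_root_unity h (by rintro rfl; exact hn (dvd_zero p)) hζ
  refine (div_eq_one_iff_eq hz.1).mp (root_eq_one h hn ?_ ?_)
  · rw [div_pow, ← map_pow, hζ, map_one, div_one]
  · rw [show σ ζ / ζ - 1 = (σ ζ - ζ) / ζ by rw [sub_div, div_self hz.1]]
    simpa using (hσ.gt_sub h hz.ge).div h hz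

section pi

variable {e : ℕ} {π : ℚbar}

/-- An `e`-th root of `p` has order `1/e`. -/
lemma is_pi (h : IsPlace A p) (he : e ≠ 0) (hπ : π ^ e = (p : ℚbar)) : Is A p π (1 / (e : ℚ)) := by
  have hπ0 : π ≠ 0 := fun e0 => by
    rw [e0, zero_pow he] at hπ
    exact h.1.ne_zero (Nat.cast_eq_zero.mp hπ.symm)
  refine ⟨hπ0, ?_⟩
  have := ord_pow h π e
  rw [hπ, ord_q h] at this
  rw [eq_div_iff (Nat.cast_ne_zero.mpr he), mul_comm, ← this]

/-- `π ^ k` has order `k/e`. -/
lemma is_pi_zpow (h : IsPlace A p) (he : e ≠ 0) (hπ : π ^ e = (p : ℚbar)) (k : ℤ) :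
    Is A p (π ^ k) ((k : ℚ) / e) :=
  ⟨zpow_ne_zero _ (is_pi h he hπ).1, by rw [ord_zpow h, (is_pi h he hπ).2, mul_one_div]⟩

/-- `p` has an `e`-th root. -/
lemma exists_pi (p : ℕ) (e : ℕ) (he : e ≠ 0) : ∃ π : ℚbar, π ^ e = (p : ℚbar) :=
  IsAlgClosed.exists_pow_nat_eq _ (Nat.pos_of_ne_zero he)

/-- `σ π / π` is an `e`-th root of unity. -/
lemma move_pow_eq_one (hπ : π ^ e = (p : ℚbar)) (σ : Γℚ) (hπ0 : π ≠ 0) :
    (σ π / π) ^ e = 1 := by
  rw [div_pow, ← map_pow, hπ, map_natCast, ← hπ, div_self (pow_ne_zero _ hπ0)]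

/-- **Inertia moves `π` through all `e`-th roots of unity.** -/
theorem exists_move (h : IsPlace A p) (he : ¬ p ∣ e) (hπ : π ^ e = (p : ℚbar)) {ζ : ℚbar}
    (hζ : ζ ^ e = 1) : ∃ γ ∈ A.inertiaSubgroupIn ℚ, γ π = ζ * π := by
  classical
  have he0 : e ≠ 0 := fun e0 => he (e0 ▸ dvd_zero p)
  have hπ0 := (is_pi h he0 hπ).1
  have : NeZero e := ⟨he0⟩
  -- the roots reached form a subgroup; if `m` is its order, inertia fixes `π ^ m`, so `e ∣ m`
  let H : Subgroup (rootsOfUnity e ℚbar) :=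
    { carrier := {z | ∃ γ ∈ A.inertiaSubgroupIn ℚ, γ π = ((z : ℚbarˣ) : ℚbar) * π}
      one_mem' := ⟨1, one_mem _, by simp⟩
      mul_mem' := by
        rintro a b ⟨γ, hγ, ha⟩ ⟨δ, hδ, hb⟩
        refine ⟨γ * δ, mul_mem hγ hδ, ?_⟩
        change γ (δ π) = _
        rw [hb, map_mul, ha, apply_root_eq h he (by
          rw [← Units.val_pow_eq_pow_val, (mem_rootsOfUnity e _).mp b.2, Units.val_one])
          (isInert_of_mem_inertia hγ)]
        simp only [Subgroup.coe_mul, Units.val_mul]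
        ring
      inv_mem' := by
        rintro a ⟨γ, hγ, ha⟩
        refine ⟨γ⁻¹, inv_mem hγ, ?_⟩
        have hfix := apply_root_eq h he (ζ := (((a⁻¹ : rootsOfUnity e ℚbar) : ℚbarˣ) : ℚbar)) (by
          rw [← Units.val_pow_eq_pow_val, (mem_rootsOfUnity e _).mp (a⁻¹).2, Units.val_one])
          (isInert_of_mem_inertia hγ)
        apply γ.injective
        rw [map_mul, hfix, ha, ← mul_assoc]
        change γ ((γ.symm) π) = _
        rw [AlgEquiv.apply_symm_apply]
        simp }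
  have : Finite (rootsOfUnity e ℚbar) := inferInstance
  set m := Nat.card H
  have hfix : ∀ σ ∈ A.inertiaSubgroupIn ℚ, σ (π ^ m) = π ^ m := by
    intro σ hσ
    have hz : (σ π / π) ^ e = 1 := move_pow_eq_one hπ σ hπ0
    let z : rootsOfUnity e ℚbar := rootsOfUnity.mkOfPowEq _ hz
    have hzH : z ∈ H := ⟨σ, hσ, by simp [z, div_mul_cancel₀ _ hπ0]⟩
    have h1 : z ^ m = 1 := congrArg Subtype.val (pow_card_eq_one' (x := (⟨z, hzH⟩ : H)))
    have h2 : (σ π / π) ^ m = 1 := by
      simpa [z] using congrArg (fun w : rootsOfUnity e ℚbar => ((w : ℚbarˣ) : ℚbar)) h1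
    rw [div_pow, div_eq_one_iff_eq (pow_ne_zero _ hπ0)] at h2
    rw [map_pow, h2]
  obtain ⟨k, hk⟩ := exists_int_ord h (pow_ne_zero m hπ0) hfix
  rw [ord_pow h, (is_pi h he0 hπ).2, mul_one_div, div_eq_iff (Nat.cast_ne_zero.mpr he0)] at hk
  have hdvd : (e : ℤ) ∣ m := ⟨k, by rw [mul_comm]; exact_mod_cast hk⟩
  have hm : e ≤ m := Nat.le_of_dvd Nat.card_pos (Int.natCast_dvd_natCast.mp hdvd)
  have htop : H = ⊤ := by
    refine H.eq_top_of_card_eq (le_antisymm (Subgroup.card_le_card_group H) ?_)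
    refine le_trans ?_ hm
    exact card_rootsOfUnity _ _
  obtain ⟨γ, hγ, hg⟩ : rootsOfUnity.mkOfPowEq ζ hζ ∈ H := htop ▸ Subgroup.mem_top _
  exact ⟨γ, hγ, by simpa using hg⟩

/-- The powers of a move by `z` move `π` by the powers of `z`. -/
lemma move_pow (h : IsPlace A p) (he : ¬ p ∣ e) {z : ℚbar} (hz : z ^ e = 1) {γ : Γℚ}
    (hγ : γ ∈ A.inertiaSubgroupIn ℚ) (hγπ : γ π = z * π) (m : ℕ) : (γ ^ m) π = z ^ m * π := by
  induction m with
  | zero => simp
  | succ m ih =>
    rw [pow_succ' γ, AlgEquiv.mul_apply, ih, map_mul, map_pow, hγπ,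
      apply_root_eq h he hz (isInert_of_mem_inertia hγ), pow_succ, mul_assoc]

/-- Inertia is generated by a primitive move modulo tame inertia at `π`. -/
lemma exists_pow_inv_mul_mem_tame (h : IsPlace A p) (he : ¬ p ∣ e) (hπ : π ^ e = (p : ℚbar))
    {z : ℚbar} (hz : IsPrimitiveRoot z e) {γ : Γℚ} (hγ : γ ∈ A.inertiaSubgroupIn ℚ)
    (hγπ : γ π = z * π) {σ : Γℚ} (hσ : σ ∈ A.inertiaSubgroupIn ℚ) :
    ∃ i : ℕ, (γ ^ i)⁻¹ * σ ∈ tame A π := by
  have he0 : e ≠ 0 := fun e0 => he (e0 ▸ dvd_zero p)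
  have : NeZero e := ⟨he0⟩
  have hπ0 := (is_pi h he0 hπ).1
  obtain ⟨i, -, hi⟩ := hz.eq_pow_of_pow_eq_one (move_pow_eq_one hπ σ hπ0)
  refine ⟨i, mem_tame.mpr ⟨mul_mem (inv_mem (pow_mem hγ i)) hσ, ?_⟩⟩
  change (γ ^ i).symm (σ π) = π
  rw [AlgEquiv.symm_apply_eq, move_pow h he hz.pow_eq_one hγ hγπ, hi, div_mul_cancel₀ _ hπ0]

/-- A Frobenius element, corrected by inertia, fixes `π`. -/
theorem exists_frob_fixing (h : IsPlace A p) (he : ¬ p ∣ e) (hπ : π ^ e = (p : ℚbar)) :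
    ∃ φ : Γℚ, A.IsFrobeniusAt φ p ∧ φ π = π := by
  have he0 : e ≠ 0 := fun e0 => he (e0 ▸ dvd_zero p)
  have hπ0 := (is_pi h he0 hπ).1
  obtain ⟨φ₀, hφ₀⟩ := Fermat.CFT.exists_isFrobeniusAt h.1 h.2
  have hw := move_pow_eq_one hπ φ₀ hπ0
  have hw0 : φ₀ π / π ≠ 0 := fun e0 => by rw [e0, zero_pow he0] at hw; exact zero_ne_one hw
  obtain ⟨γ, hγ, hγπ⟩ := exists_move h he hπ (ζ := (φ₀ π / π)⁻¹) (by rw [inv_pow, hw, inv_one])
  refine ⟨γ * φ₀, Fermat.CFT.isFrobeniusAt_inertia_mul h.1 h.2 hφ₀ hγ, ?_⟩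
  rw [AlgEquiv.mul_apply, show φ₀ π = φ₀ π / π * π from (div_mul_cancel₀ _ hπ0).symm, map_mul,
    hγπ, apply_root_eq h he hw (isInert_of_mem_inertia hγ), mul_inv_cancel_left₀ hw0]

/-- The `e`-th roots of unity, as a finite set. -/
def mu (e : ℕ) : Finset ℚbar := (Polynomial.nthRoots e (1 : ℚbar)).toFinset

/-- `mu e` consists of the `e`-th roots of unity. -/
lemma mem_mu (he : e ≠ 0) {z : ℚbar} : z ∈ mu e ↔ z ^ e = 1 := by
  rw [mu, Multiset.mem_toFinset, Polynomial.mem_nthRoots (Nat.pos_of_ne_zero he)]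

/-- **Orders in the tame field are in `(1/e)ℤ`.** -/
theorem exists_int_ord_tame (h : IsPlace A p) (he : ¬ p ∣ e) (hπ : π ^ e = (p : ℚbar)) {x : ℚbar}
    (hx0 : x ≠ 0) (hx : ∀ σ ∈ tame A π, σ x = x) : ∃ k : ℤ, ord A p x = (k : ℚ) / e := by
  classical
  have he0 : e ≠ 0 := fun e0 => he (e0 ▸ dvd_zero p)
  have hπ0 := (is_pi h he0 hπ).1
  -- the product of the translates of `x` over `π ↦ z π` is fixed by inertia
  choose! γ hγ hγπ using fun z (hz : z ∈ mu e) =>
    exists_move h he hπ ((mem_mu he0).mp hz)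
  have hfix : ∀ σ ∈ A.inertiaSubgroupIn ℚ,
      σ (∏ z ∈ mu e, γ z x) = ∏ z ∈ mu e, γ z x := by
    intro σ hσ
    set w := σ π / π
    have hw : w ^ e = 1 := move_pow_eq_one hπ σ hπ0
    have hw0 : w ≠ 0 := fun e0 => by rw [e0, zero_pow he0] at hw; exact zero_ne_one hw
    rw [map_prod]
    refine Finset.prod_bij (fun z _ => w * z) (fun z hz => ?_) (fun a _ b _ => mul_left_cancel₀ hw0)
      (fun z hz => ⟨w⁻¹ * z, ?_, by rw [← mul_assoc, mul_inv_cancel₀ hw0, one_mul]⟩) fun z hz => ?_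
    · rw [mem_mu he0, mul_pow, hw, (mem_mu he0).mp hz, mul_one]
    · rw [mem_mu he0, mul_pow, inv_pow, hw, (mem_mu he0).mp hz, inv_one, one_mul]
    · have hwz : w * z ∈ mu e := by
        rw [mem_mu he0, mul_pow, hw, (mem_mu he0).mp hz, mul_one]
      have hmem : (γ (w * z))⁻¹ * σ * γ z ∈ tame A π := by
        refine mem_tame.mpr ⟨mul_mem (mul_mem (inv_mem (hγ _ hwz)) hσ) (hγ z hz), ?_⟩
        change (γ (w * z)).symm (σ (γ z π)) = π
        rw [AlgEquiv.symm_apply_eq, hγπ z hz, hγπ _ hwz, map_mul,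
          apply_root_eq h he ((mem_mu he0).mp hz) (isInert_of_mem_inertia hσ)]
        simp only [w]
        field_simp
      have h1 := hx _ hmem
      change (γ (w * z)).symm (σ (γ z x)) = x at h1
      rwa [AlgEquiv.symm_apply_eq] at h1
  have hne : ∀ z ∈ mu e, γ z x ≠ 0 := fun z _ => by simpa using hx0
  obtain ⟨k, hk⟩ := exists_int_ord h (Finset.prod_ne_zero_iff.mpr hne) hfix
  refine ⟨k, ?_⟩
  have hord := (Is.prod h (s := mu e) (f := fun z => γ z x) (r := fun _ => ord A p x) fun z hz =>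
    ⟨hne z hz, (isInert_of_mem_inertia (hγ z hz)).ord_apply h x⟩).2
  rw [hk, Finset.sum_const, nsmul_eq_mul] at hord
  have hcard : (mu e).card = e := by
    have : NeZero (e : ℚbar) := ⟨Nat.cast_ne_zero.mpr he0⟩
    obtain ⟨ξ, hξ⟩ := HasEnoughRootsOfUnity.exists_primitiveRoot ℚbar e
    rw [mu, Multiset.toFinset_card_of_nodup (hξ.nthRoots_one_nodup), hξ.card_nthRoots_one]
  rw [hcard] at hord
  rw [eq_div_iff (Nat.cast_ne_zero.mpr he0), hord, mul_comm]

/-- Scaled inertia congruence in the tame field. -/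
theorem gt_sub_scaled (h : IsPlace A p) (he : e ≠ 0) (hπ : π ^ e = (p : ℚbar)) {σ : Γℚ}
    (hσ : σ ∈ tame A π) {x : ℚbar} {k : ℤ} (hx : Ge A p x ((k : ℚ) / e)) :
    Gt A p (σ x - x) ((k : ℚ) / e) := by
  have hk := is_pi_zpow h he hπ k
  have h1 : Ge A p (x / π ^ k) 0 := by simpa using hx.div h hk
  have h2 := ((isInert_of_mem_tame hσ).gt_sub h h1).mul_ge h hk.ge
  rw [map_div₀, map_zpow₀, (mem_tame.mp hσ).2, zero_add, ← sub_div, div_mul_cancel₀ _ hk.1] at h2
  exact h2

/-- `ζ - η` has order `1/(p-1)` for distinct `p`-th roots of unity. -/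
theorem is_sub_of_pow_eq_one (h : IsPlace A p) {z z' : ℚbar} (hz : z ^ p = 1) (hz' : z' ^ p = 1)
    (hne : z ≠ z') : Is A p (z - z') (1 / ((p : ℚ) - 1)) := by
  have : Fact p.Prime := ⟨h.1⟩
  have hz'0 : z' ≠ 0 := fun e0 => by rw [e0, zero_pow h.1.ne_zero] at hz'; exact zero_ne_one hz'
  have hq : IsPrimitiveRoot (z / z') p := by
    rw [IsPrimitiveRoot.iff_orderOf]
    exact orderOf_eq_prime (by rw [div_pow, hz, hz', div_one])
      fun e0 => hne ((div_eq_one_iff_eq hz'0).mp e0)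
  have hu : Is A p z' 0 := is_root_unity h h.1.ne_zero hz'
  have := (Fermat.EC.Cyclo.is_zeta_sub_one h hq).mul h hu
  rw [add_zero, sub_mul, one_mul, div_mul_cancel₀ _ hz'0] at this
  exact this

/-- The tame group fixes `μ_p` when `p - 1 ∣ e`. -/
theorem apply_zeta_p (h : IsPlace A p) (he : e ≠ 0) (hπ : π ^ e = (p : ℚbar)) (hpe : p - 1 ∣ e)
    {σ : Γℚ} (hσ : σ ∈ tame A π) {z : ℚbar} (hz : z ^ p = 1) : σ z = z := by
  by_contra hne
  obtain ⟨c, hc⟩ := hpe
  have hp1 : (p : ℚ) - 1 ≠ 0 := by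
    have : (2 : ℚ) ≤ p := by exact_mod_cast h.1.two_le
    linarith
  have hw : (1 : ℚ) / ((p : ℚ) - 1) = ((c : ℤ) : ℚ) / (e : ℚ) := by
    rw [hc, Nat.cast_mul, Nat.cast_sub h.1.one_le]
    have : (c : ℚ) ≠ 0 := by
      intro e0
      exact he (by rw [hc, Nat.cast_eq_zero.mp e0, mul_zero])
    push_cast
    field_simp
  rcases eq_or_ne z 1 with rfl | hz1
  · exact hne (map_one σ)
  have h1 : Is A p (z - 1) (((c : ℤ) : ℚ) / (e : ℚ)) :=
    hw ▸ is_sub_of_pow_eq_one h hz (one_pow p) hz1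
  have h2 := gt_sub_scaled h he hπ hσ h1.ge
  rw [map_sub, map_one, sub_sub_sub_cancel_right] at h2
  exact (hw ▸ is_sub_of_pow_eq_one h (by rw [← map_pow, hz, map_one]) hz hne).not_gt h2

/-- **Deep `p`-th roots are tame-invariant.** -/
theorem apply_pth_root (h : IsPlace A p) (he : e ≠ 0) (hπ : π ^ e = (p : ℚbar)) (hpe : p - 1 ∣ e)
    {σ : Γℚ} (hσ : σ ∈ tame A π) {y : ℚbar} (hfix : σ (y ^ p) = y ^ p)
    (hu : Ge A p (y ^ p - 1) ((p : ℚ) / ((p : ℚ) - 1))) : σ y = y := by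
  classical
  have hp := h.1
  have hp2 : (2 : ℚ) ≤ p := by exact_mod_cast hp.two_le
  set w : ℚ := 1 / ((p : ℚ) - 1) with hw
  have hw0 : 0 < w := div_pos one_pos (by linarith)
  obtain ⟨c, hc⟩ := hpe
  have hwc : w = ((c : ℤ) : ℚ) / (e : ℚ) := by
    rw [hw, hc, Nat.cast_mul, Nat.cast_sub hp.one_le]
    have : (c : ℚ) ≠ 0 := fun e0 => he (by rw [hc, Nat.cast_eq_zero.mp e0, mul_zero])
    have : (p : ℚ) - 1 ≠ 0 := by linarith
    push_cast
    field_simp
  obtain ⟨ξ, hξ⟩ := Fermat.EC.Cyclo.exists_zeta hp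
  have hprod : y ^ p - 1 = ∏ z ∈ Polynomial.nthRootsFinset p (1 : ℚbar), (y - z) := by
    have := congrArg (Polynomial.eval y) (Polynomial.X_pow_sub_one_eq_prod hp.pos hξ)
    simpa [Polynomial.eval_prod] using this
  have hmem : ∀ z, z ∈ Polynomial.nthRootsFinset p (1 : ℚbar) ↔ z ^ p = 1 := fun z =>
    Polynomial.mem_nthRootsFinset hp.pos 1
  -- `y` is within `w = 1/(p-1)` of some `p`-th root of unity, hence of `1`
  obtain ⟨z₀, hz₀, hge⟩ : ∃ z₀, z₀ ^ p = 1 ∧ Ge A p (y - z₀) w := by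
    by_contra hc'
    push Not at hc'
    have hlt : ∀ z ∈ Polynomial.nthRootsFinset p (1 : ℚbar), y - z ≠ 0 ∧ ord A p (y - z) < w := by
      intro z hz
      have := hc' z ((hmem z).mp hz)
      rw [Ge, not_or, not_le] at this
      exact this
    have hI := Is.prod h (s := Polynomial.nthRootsFinset p (1 : ℚbar)) (f := fun z => y - z)
      (r := fun z => ord A p (y - z)) fun z hz => ⟨(hlt z hz).1, rfl⟩
    rw [← hprod] at hI
    have hcard : (Polynomial.nthRootsFinset p (1 : ℚbar)).card = p := hξ.card_nthRootsFinset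
    have hsum : ∑ z ∈ Polynomial.nthRootsFinset p (1 : ℚbar), ord A p (y - z) < p * w := by
      have hne : (Polynomial.nthRootsFinset p (1 : ℚbar)).Nonempty := ⟨1, (hmem 1).mpr (one_pow p)⟩
      have := Finset.sum_lt_sum_of_nonempty hne fun z hz => (hlt z hz).2
      rwa [Finset.sum_const, hcard, nsmul_eq_mul] at this
    have := hI.le_of_ge hu
    rw [hw, mul_one_div] at hsum
    linarith
  have hy1 : Ge A p (y - 1) w := by
    rcases eq_or_ne z₀ 1 with rfl | hne
    · exact hge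
    have := hge.add h (is_sub_of_pow_eq_one h hz₀ (one_pow p) hne).ge
    rwa [sub_add_sub_cancel] at this
  by_contra hne
  have hy0 : y ≠ 0 := fun e0 => hne (by rw [e0, map_zero])
  have hy : Is A p y 0 := by
    have := (show Is A p (1 : ℚbar) 0 from ⟨one_ne_zero, ord_one h⟩).add h (hy1.gt hw0)
    rwa [add_sub_cancel] at this
  have hζ : (σ y / y) ^ p = 1 := by rw [div_pow, ← map_pow, hfix, div_self (pow_ne_zero _ hy0)]
  have h1 := (is_sub_of_pow_eq_one h hζ (one_pow p)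
    fun e0 => hne ((div_eq_one_iff_eq hy0).mp e0)).mul h hy
  rw [add_zero, sub_mul, one_mul, div_mul_cancel₀ _ hy0] at h1
  have h2 := gt_sub_scaled h he hπ hσ (hwc ▸ hy1)
  rw [map_sub, map_one, sub_sub_sub_cancel_right, ← hwc] at h2
  exact h1.not_gt h2

end pi

/-- A unit is congruent to a root of unity of order prime to `p`. -/
theorem exists_root_near (h : IsPlace A p) {x : ℚbar} (hx : Is A p x 0) :
    ∃ n : ℕ, ¬ p ∣ n ∧ ∃ z : ℚbar, z ^ n = 1 ∧ Gt A p (x - z) 0 := by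
  classical
  have hp := h.1
  have : Fact p.Prime := ⟨hp⟩
  have : CharP (IsLocalRing.ResidueField A) p := charP_residueField hp h.2
  obtain ⟨b, c, hc, hbc⟩ := exists_eq_div hp h.2 ((mem_iff_ge h x).mpr hx.ge)
  let : Algebra (ZMod p) (IsLocalRing.ResidueField A) := ZMod.algebra _ p
  have halg : ∀ w : 𝓞 ℚbar,
      IsIntegral (ZMod p) (IsLocalRing.residue A (intToPlace A w)) := by
    intro w
    obtain ⟨P, hP, hev⟩ := Algebra.IsIntegral.isIntegral (R := ℤ) w
    refine ⟨P.map (Int.castRingHom (ZMod p)), hP.map _, ?_⟩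
    rw [Polynomial.eval₂_map]
    have := congrArg ((IsLocalRing.residue A).comp (intToPlace A)) hev
    rw [Polynomial.hom_eval₂, map_zero] at this
    refine Eq.trans ?_ this
    congr 1
    exact RingHom.ext_int _ _
  set r : IsLocalRing.ResidueField A :=
    IsLocalRing.residue A ⟨x, (mem_iff_ge h x).mpr hx.ge⟩ with hr
  have hr0 : r ≠ 0 := by
    rw [hr, Ne, IsLocalRing.residue_eq_zero_iff, ← A.coe_mem_nonunits_iff, nonunit_iff_gt h]
    exact hx.not_gt
  have hcr : IsLocalRing.residue A (intToPlace A c) * r =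
      IsLocalRing.residue A (intToPlace A b) := by
    rw [hr, ← map_mul]
    congr 1
    refine Subtype.ext ?_
    change (c : ℚbar) * x = (b : ℚbar)
    have hc0 : (c : ℚbar) ≠ 0 := fun e0 =>
      hc (by rw [show c = 0 from RingOfIntegers.ext e0]; exact Submodule.zero_mem _)
    rw [hbc, mul_div_cancel₀ _ hc0]
  have hc' : IsLocalRing.residue A (intToPlace A c) ≠ 0 :=
    fun e0 => hc (mem_primeOf_iff_residue.mpr e0)
  -- the residue of `x` generates a finite field, so is killed by some `X ^ n - 1`, `p ∤ n`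
  set T := IntermediateField.adjoin (ZMod p) {r} with hT
  have hint : IsIntegral (ZMod p) r := by
    have h1 : r = (IsLocalRing.residue A (intToPlace A c))⁻¹ * IsLocalRing.residue A
        (intToPlace A b) := by
      rw [← hcr, ← mul_assoc, inv_mul_cancel₀ hc', one_mul]
    rw [h1]
    exact (halg c).inv.mul (halg b)
  have : FiniteDimensional (ZMod p) T := IntermediateField.adjoin.finiteDimensional hint
  have : Finite T := Module.finite_of_finite (ZMod p)
  have : Fintype T := Fintype.ofFinite T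
  set n := Fintype.card T - 1
  have hn : ¬ p ∣ n := by
    obtain ⟨d, hd⟩ : p ∣ Fintype.card T := by
      rw [Module.card_eq_pow_finrank (K := ZMod p) (V := T), ZMod.card]
      exact dvd_pow_self p Module.finrank_pos.ne'
    intro hpn
    have h1 : p ∣ 1 := by
      have h2 : Fintype.card T = n + 1 := (Nat.sub_add_cancel Fintype.card_pos).symm
      exact (Nat.dvd_add_right hpn).mp (h2 ▸ ⟨d, hd⟩)
    exact hp.not_dvd_one h1
  have hpow : r ^ n = 1 := by
    have := FiniteField.pow_card_sub_one_eq_one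
      (⟨r, IntermediateField.mem_adjoin_simple_self _ r⟩ : T)
      (fun e0 => hr0 (congrArg Subtype.val e0))
    exact congrArg Subtype.val this
  refine ⟨n, hn, ?_⟩
  have : NeZero n := ⟨fun e0 => hn (e0 ▸ dvd_zero p)⟩
  have : NeZero (n : ℚbar) := ⟨Nat.cast_ne_zero.mpr (NeZero.ne n)⟩
  obtain ⟨ξ, hξ⟩ := HasEnoughRootsOfUnity.exists_primitiveRoot ℚbar n
  have hprod := congrArg (Polynomial.eval x) (Polynomial.X_pow_sub_one_eq_prod (NeZero.pos n) hξ)
  simp [Polynomial.eval_prod] at hprod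
  by_contra hcon
  push Not at hcon
  have hge : ∀ z ∈ Polynomial.nthRootsFinset n (1 : ℚbar), Is A p (x - z) 0 := by
    intro z hz
    rw [Polynomial.mem_nthRootsFinset (NeZero.pos n)] at hz
    exact Ge.is_of_not_gt (hx.ge.sub h (is_root_unity h (NeZero.ne n) hz).ge) (hcon z hz)
  have hI := Is.prod h hge
  rw [← hprod, Finset.sum_const_zero] at hI
  have hxn : x ^ n - 1 ∈ A.nonunits := by
    have hmemA : x ∈ A := (mem_iff_ge h x).mpr hx.ge
    have : IsLocalRing.residue A ((⟨x, hmemA⟩ : A) ^ n - 1) = 0 := by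
      rw [map_sub, map_pow, map_one, ← hr, hpow, sub_self]
    rw [IsLocalRing.residue_eq_zero_iff, ← A.coe_mem_nonunits_iff] at this
    simpa using this
  exact hI.not_gt ((nonunit_iff_gt h _).mp hxn)

end Fermat.FLAT
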