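import Fermat.Agent.FLAT.Key
import Fermat.Agent.FLAT.Tame

/-!
# The connected part of a model, and its leading terms

The connected part is `conn`; a point of slope above `1 / (p - 1)` vanishes (`eq_zero_of_sdom`), as
does an inertia-fixed connected point for `p ≠ 2` (`eq_zero_of_fixed`).
-/

set_option autoImplicit false
set_option linter.unusedSectionVars false

noncomputable section

open Fermat.EC.Val

namespace Fermat.FLAT

local notation "ℚbar" => AlgebraicClosure ℚ
local notation "Γℚ" => (AlgebraicClosure ℚ ≃ₐ[ℚ] AlgebraicClosure ℚ)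

variable {p : ℕ} [hp : Fact p.Prime] {A : ValuationSubring ℚbar}

namespace Model

variable {H : Subgroup Γℚ} {M : Type*} [AddCommGroup M] [Finite M] {g : Γℚ → AddMonoid.End M}
  (G : Model A H g)

/-- Additivity up to products. -/
theorem ge_add_sub (h : IsPlace A p) {x y : M} {a b : ℚ} (hx : G.Dom p x a) (hy : G.Dom p y b)
    {f : M → ℚbar} (hf : f ∈ G.O) (hf0 : f 0 = 0) :
    Ge A p (f (x + y) - f x - f y) (a + b) := by
  classical
  obtain ⟨n, e, he, -, hspan⟩ := G.exists_basis h
  obtain ⟨C, hC⟩ := G.exists_comul hspan hf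
  have h00 : algebraMap (Rfix A H) ℚbar (C none none) = 0 := by
    have := hC 0 0
    simp [Fintype.sum_option, bb, fun i => (he i).2, hf0] at this
    exact this.symm
  have hx0 := hC x 0
  have h0y := hC 0 y
  simp only [add_zero, zero_add, Fintype.sum_option, bb, Option.elim, Pi.one_apply, (he _).2,
    mul_one, one_mul, mul_zero, zero_mul, Finset.sum_const_zero, h00] at hx0 h0y
  rw [hC x y, hx0, h0y]
  simp only [Fintype.sum_option, bb, Option.elim, Pi.one_apply, mul_one, one_mul, h00,
    Finset.sum_add_distrib]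
  rw [show ∀ u v w : ℚbar, 0 + u + (v + w) - u - v = w from fun u v w => by ring]
  refine Ge.sum h fun i _ => Ge.sum h fun j _ => ?_
  have := (ge_Rfix h (C (some i) (some j))).mul h
    ((hx _ (he i).1 (he i).2).mul h (hy _ (he j).1 (he j).2))
  simpa [algebraMap_Rfix] using this

/-- Every bound holds at the origin. -/
lemma dom_origin (a : ℚ) : G.Dom p 0 a := fun _ _ hf0 => Or.inl hf0

/-- A bound on the orders implies every weaker one. -/
lemma Dom.mono' {x : M} {a b : ℚ} (hx : G.Dom p x a) (hb : b ≤ a) : G.Dom p x b :=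
  fun f hf hf0 => (hx f hf hf0).mono hb

/-- A common bound on the orders at `x` and `y` holds at `x + y`. -/
lemma dom_add (h : IsPlace A p) {x y : M} {a : ℚ} (ha : 0 ≤ a) (hx : G.Dom p x a)
    (hy : G.Dom p y a) : G.Dom p (x + y) a := by
  intro f hf hf0
  have := (((G.ge_add_sub h hx hy hf hf0).mono (show a ≤ a + a by linarith)).add h
    (hy f hf hf0)).add h (hx f hf hf0)
  simpa using this

/-- Strictly deeper than `a`. -/
def SDom (p : ℕ) (x : M) (a : ℚ) : Prop :=
  ∀ f ∈ G.O, f 0 = 0 → Gt A p (f x) a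

/-- A strict bound is a bound. -/
lemma SDom.dom {x : M} {a : ℚ} (hx : G.SDom p x a) : G.Dom p x a := fun f hf hf0 => (hx f hf hf0).ge

/-- Every strict bound holds at the origin. -/
lemma sdom_origin (a : ℚ) : G.SDom p 0 a := fun _ _ hf0 => Or.inl hf0

/-- A strict bound is stable under sums. -/
lemma sdom_add (h : IsPlace A p) {x y : M} {a : ℚ} (ha : 0 ≤ a) (hx : G.SDom p x a)
    (hy : G.SDom p y a) : G.SDom p (x + y) a := by
  intro f hf hf0
  rcases ha.eq_or_lt with rfl | ha
  · classical
    obtain ⟨n, e, he, -, hspan⟩ := G.exists_basis h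
    obtain ⟨C, hC⟩ := G.exists_comul hspan hf
    have h00 := hC 0 0
    simp [Fintype.sum_option, bb, fun i => (he i).2, hf0] at h00
    rw [hC]
    refine Gt.sum h fun o _ => Gt.sum h fun o' _ => ?_
    rcases o with _ | i
    · rcases o' with _ | j
      · simp [bb, ← h00, gt_zero]
      · have := (ge_Rfix h (C none (some j))).mul_gt h (hy _ (he j).1 (he j).2)
        simpa [bb, algebraMap_Rfix] using this
    · have h2 := (hx _ (he i).1 (he i).2).mul_ge h (G.ge_zero h (G.bb_mem he o') y)
      simpa [bb, algebraMap_Rfix] using (ge_Rfix h (C (some i) o')).mul_gt h h2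
  · have := (((G.ge_add_sub h hx.dom hy.dom hf hf0).gt (show a < a + a by linarith)).add h
      (hy f hf hf0)).add h (hx f hf hf0)
    simpa using this

/-- The points whose augmentation ideal has orders `> a`. -/
def deeper (h : IsPlace A p) (a : ℚ) (ha : 0 ≤ a) : AddSubgroup M where
  carrier := {x | G.SDom p x a}
  zero_mem' := G.sdom_origin a
  add_mem' := fun hx hy => G.sdom_add h ha hx hy
  neg_mem' := fun {x} (hx : G.SDom p x a) => by
    have h1 : ∀ k : ℕ, G.SDom p (k • x) a := fun k => by
      induction k with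
      | zero => rw [zero_nsmul]; exact G.sdom_origin a
      | succ k ih => rw [succ_nsmul]; exact G.sdom_add h ha ih hx
    have h2 : (addOrderOf x - 1) • x = -x := by
      refine eq_neg_of_add_eq_zero_left ?_
      rw [← succ_nsmul, Nat.sub_add_cancel (isOfFinAddOrder_of_finite x).addOrderOf_pos,
        addOrderOf_nsmul_eq_zero]
    exact h2 ▸ h1 _

/-- **The connected part**: the points where the augmentation ideal has positive orders. -/
def conn (h : IsPlace A p) : AddSubgroup M := G.deeper h 0 le_rfl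

/-- A strict bound is stable under inert automorphisms. -/
lemma apply_stable (h : IsPlace A p) {a : ℚ} {x : M} (hx : G.SDom p x a) {σ : Γℚ}
    (hσ : IsInert A σ) (hσH : σ ∈ H) : G.SDom p (g σ x) a := fun f hf hf0 => by
  rw [G.equivariant f hf σ hσH]
  exact hσ.gt_apply h (hx f hf hf0)

/-- **Galois translates**: if all functions move little at `x`, then `σ x - x` is deep. -/
theorem sdom_smul_sub (h : IsPlace A p) {σ : Γℚ} (hσH : σ ∈ H) {x : M} {r : ℚ}
    (hmove : ∀ a ∈ G.O, Gt A p (σ (a x) - a x) r) : G.SDom p (g σ x - x) r := by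
  intro f hf hf0
  obtain ⟨n, a, b, hab, hC⟩ := G.comul f hf
  have h1 := hC (g σ x) (-x)
  have h2 := hC x (-x)
  rw [add_neg_cancel, hf0] at h2
  rw [sub_eq_add_neg, h1, ← sub_zero (∑ i, a i (g σ x) * b i (-x)), h2, ← Finset.sum_sub_distrib]
  refine Gt.sum h fun i _ => ?_
  rw [G.equivariant _ (hab i).1 σ hσH, ← sub_mul]
  simpa using (hmove _ (hab i).1).mul_ge h (G.ge_zero h (hab i).2 (-x))

/-- Inertia moves every point by the connected part. -/
theorem smul_sub_mem_conn (h : IsPlace A p) {σ : Γℚ} (hσ : IsInert A σ) (hσH : σ ∈ H) (x : M) :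
    g σ x - x ∈ G.conn h :=
  G.sdom_smul_sub h hσH fun _ ha => hσ.gt_sub h (G.ge_zero h ha x)

section killed

variable (hM : ∀ x : M, p • x = 0)
include hM

/-- Nothing nonzero lies deeper than `1/(p-1)`. -/
theorem eq_zero_of_sdom (h : IsPlace A p) {x : M}
    (hx : G.SDom p x (1 / ((p : ℚ) - 1))) : x = 0 := by
  by_contra hx0
  have hp2 : (2 : ℚ) ≤ p := by exact_mod_cast hp.out.two_le
  have hw : (0 : ℚ) < 1 / ((p : ℚ) - 1) := div_pos one_pos (by linarith)
  obtain ⟨f, hf, hf0, a, -, ha, hfa, -, -⟩ :=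
    G.exists_min_ord hM h hx0 fun f hf hf0 => (hx f hf hf0).mono hw.le
  exact absurd ((hx f hf hf0).resolve_left hfa.1) (not_lt.mpr (hfa.2 ▸ ha))

/-- Nonzero points fixed by inertia are not connected (`p` odd). -/
theorem eq_zero_of_fixed (h : IsPlace A p) (hp2 : p ≠ 2) {x : M} (hx : x ∈ G.conn h)
    (hfix : ∀ σ ∈ A.inertiaSubgroupIn ℚ, g σ x = x) : x = 0 := by
  by_contra hx0
  obtain ⟨f, hf, hf0, a, ha0, ha, hfa, -, -⟩ := G.exists_min_ord hM h hx0 hx
  obtain ⟨k, hk⟩ := exists_int_ord h hfa.1 fun σ hσ => by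
    rw [← G.equivariant f hf σ (G.inertia_mem hσ), hfix σ hσ]
  rw [hfa.2] at hk
  have hp3 : (3 : ℚ) ≤ p := by
    exact_mod_cast (show 3 ≤ p by have := hp.out.two_le; omega)
  have h1 : (1 : ℚ) / ((p : ℚ) - 1) ≤ 1 / 2 :=
    one_div_le_one_div_of_le two_pos (by linarith)
  have hk1 : (1 : ℤ) ≤ k := by
    have : (0 : ℚ) < k := hk ▸ ha0
    exact_mod_cast this
  have : (1 : ℚ) ≤ k := by exact_mod_cast hk1
  linarith

end killed

end Model

end Fermat.FLAT
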