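import Fermat.Agent.FLAT.Model
import Mathlib.RingTheory.Bialgebra.Hom
import Mathlib.RingTheory.TensorProduct.Basic

/-!
# Models from the prelude's flatness predicate

`nonempty_model_of_isFlatAt`: the finite levels of a representation flat at `p` have models, so
the theory of models bounds flat deformations (`GR/RT/FlatProofCocycle`).
-/

set_option autoImplicit false

noncomputable section

open Fermat.EC.Val

namespace Fermat.FLAT

local notation "ℚbar" => AlgebraicClosure ℚ
local notation "Γℚ" => (AlgebraicClosure ℚ ≃ₐ[ℚ] AlgebraicClosure ℚ)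

variable {A : Type} [CommRing A] [IsLocalRing A]

/-- The Galois action on `V / I V`. -/
def levelHom (ρ : GaloisRepAdic A) (I : Ideal A) :
    Γℚ →* AddMonoid.End (ρ.V ⧸ (I • (⊤ : Submodule A ρ.V))) where
  toFun σ := (ρ.levelAction I σ).toAddMonoidHom
  map_one' := by
    refine AddMonoidHom.ext fun x => ?_
    obtain ⟨v, rfl⟩ := Submodule.Quotient.mk_surjective _ x
    change Submodule.Quotient.mk (ρ.ρ 1 v) = Submodule.Quotient.mk v
    rw [map_one]; rfl
  map_mul' σ τ := by
    refine AddMonoidHom.ext fun x => ?_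
    obtain ⟨v, rfl⟩ := Submodule.Quotient.mk_surjective _ x
    change Submodule.Quotient.mk (ρ.ρ (σ * τ) v) = Submodule.Quotient.mk (ρ.ρ σ (ρ.ρ τ v))
    rw [map_mul]; rfl

/-- `levelHom` on classes. -/
@[simp] lemma levelHom_mk (ρ : GaloisRepAdic A) (I : Ideal A) (σ : Γℚ) (v : ρ.V) :
    levelHom ρ I σ (Submodule.Quotient.mk v) = Submodule.Quotient.mk (ρ.ρ σ v) := rfl

variable {p : ℕ} [Fact p.Prime]

/-- A finite flat Hopf algebra with the given points gives a model at every place over `p`. -/
theorem nonempty_model_of_hopf {M : Type*} [AddCommGroup M]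
    (g : Γℚ →* AddMonoid.End M) {Hh : Type} [CommRing Hh] [HopfAlgebra (Zp p) Hh]
    [Module.Finite (Zp p) Hh]
    (e : WithConv (Hh →ₐ[Zp p] ℚbar) ≃ M)
    (hadd : ∀ f g, e (f * g) = e f + e g)
    (hgal : ∀ (σ : Γℚ) (f f' : WithConv (Hh →ₐ[Zp p] ℚbar)),
      (∀ x : Hh, f' x = σ (f x)) → e f' = g σ (e f))
    {A : ValuationSubring ℚbar} (h : IsPlace A p) {H : Subgroup Γℚ}
    (hI : A.inertiaSubgroupIn ℚ ≤ H) : Nonempty (Model A H (fun σ => g σ)) := by
  classical
  -- the algebra: the span over the fixed ring of the functions given by generators of `Hh`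
  let ev : Hh →ₐ[Zp p] (M → ℚbar) := AlgHom.pi fun m => (e.symm m).ofConv
  obtain ⟨m, gen, hgen⟩ := Module.Finite.exists_fin (R := Zp p) (M := Hh)
  have hZR : ∀ c : Zp p, algebraMap (Zp p) ℚbar c ∈ Rfix A H := fun c =>
    ⟨Zp_mem h c, fun σ _ => by rw [algebraMap_Zp, map_ratCast]⟩
  set S : Submodule (Rfix A H) (M → ℚbar) :=
    Submodule.span (Rfix A H) (Set.range fun i => ev (gen i)) with hSd
  have hev : ∀ a : Hh, ev a ∈ S := by
    intro a
    obtain ⟨c, rfl⟩ := (Submodule.mem_span_range_iff_exists_fun (Zp p)).mp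
      (show a ∈ Submodule.span (Zp p) (Set.range gen) from hgen ▸ Submodule.mem_top)
    rw [map_sum]
    refine sum_mem fun i _ => ?_
    have : ev (c i • gen i) = (⟨_, hZR (c i)⟩ : Rfix A H) • ev (gen i) := by
      rw [map_smul]
      funext x
      simp [Algebra.smul_def, algebraMap_Rfix]
    rw [this]
    exact Submodule.smul_mem _ _ (Submodule.subset_span ⟨i, rfl⟩)
  have hmul : ∀ f ∈ S, ∀ f' ∈ S, f * f' ∈ S := by
    intro f hf f' hf'
    induction hf using Submodule.span_induction with
    | mem f hfi =>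
      obtain ⟨i, rfl⟩ := hfi
      induction hf' using Submodule.span_induction with
      | mem f' hfj => obtain ⟨j, rfl⟩ := hfj; exact map_mul ev (gen i) (gen j) ▸ hev _
      | zero => rw [mul_zero]; exact zero_mem _
      | add u v _ _ hu hv => rw [mul_add]; exact add_mem hu hv
      | smul r u _ hu => rw [mul_smul_comm]; exact Submodule.smul_mem _ _ hu
    | zero => rw [zero_mul]; exact zero_mem _
    | add u v _ _ hu hv => rw [add_mul]; exact add_mem hu hv
    | smul r u _ hu => rw [smul_mul_assoc]; exact Submodule.smul_mem _ _ hu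
  have h1 : (1 : M → ℚbar) ∈ S := map_one ev ▸ hev 1
  refine ⟨⟨S.toSubalgebra h1 fun f f' hf hf' => hmul f hf f' hf', ?_, hI, map_one g,
    fun σ _ τ _ => map_mul g σ τ, ?_, ?_, ?_⟩⟩
  · rw [Submodule.toSubalgebra_toSubmodule]
    exact Submodule.fg_span (Set.finite_range _)
  · intro f hf σ hσ x
    rw [Submodule.mem_toSubalgebra] at hf
    induction hf using Submodule.span_induction with
    | mem f hfi =>
      obtain ⟨i, rfl⟩ := hfi
      let f' : WithConv (Hh →ₐ[Zp p] ℚbar) := WithConv.toConv
        ((σ : ℚbar →ₐ[ℚ] ℚbar).restrictScalars (Zp p) |>.comp (e.symm x).ofConv)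
      have h2 := hgal σ (e.symm x) f' fun _ => rfl
      rw [e.apply_symm_apply] at h2
      change (e.symm (g σ x)).ofConv (gen i) = σ ((e.symm x).ofConv (gen i))
      rw [← h2, e.symm_apply_apply]
      rfl
    | zero => simp
    | add u v _ _ hu hv => rw [Pi.add_apply, Pi.add_apply, map_add, hu, hv]
    | smul r u _ hu =>
      rw [Pi.smul_apply, Pi.smul_apply, Algebra.smul_def, Algebra.smul_def, map_mul, hu,
        algebraMap_Rfix, apply_Rfix hσ]
  · intro x y hxy
    refine e.symm.injective ?_
    exact congrArg WithConv.toConv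
      (AlgHom.ext fun a => hxy (ev a) (hev a) : (e.symm x).ofConv = (e.symm y).ofConv)
  · intro f hf
    rw [Submodule.mem_toSubalgebra] at hf
    obtain ⟨r, rfl⟩ := (Submodule.mem_span_range_iff_exists_fun (Rfix A H)).mp hf
    choose n u v huv using fun i =>
      TensorProduct.exists_sum_tmul_eq (CoalgebraStruct.comul (R := Zp p) (gen i))
    set ε := (Fintype.equivFin (Σ i : Fin m, Fin (n i))).symm
    refine ⟨_, fun t => r (ε t).1 • ev (u _ (ε t).2), fun t => ev (v _ (ε t).2),
      fun t => ⟨Submodule.smul_mem _ _ (hev _), hev _⟩, fun x y => ?_⟩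
    rw [Equiv.sum_comp ε (fun q => (r q.1 • ev (u _ q.2)) x * ev (v _ q.2) y), Fintype.sum_sigma,
      Finset.sum_apply]
    refine Finset.sum_congr rfl fun i _ => ?_
    rw [Pi.smul_apply]
    have h3 : ev (gen i) (x + y) = ∑ j, ev (u i j) x * ev (v i j) y := by
      change (e.symm (x + y)).ofConv (gen i) = ∑ j, (e.symm x).ofConv (u i j) *
        (e.symm y).ofConv (v i j)
      have h4 : e.symm (x + y) = e.symm x * e.symm y :=
        e.injective (by rw [e.apply_symm_apply, hadd, e.apply_symm_apply, e.apply_symm_apply])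
      rw [h4, AlgHom.convMul_apply, huv, map_sum]
      exact Finset.sum_congr rfl fun j _ => by simp
    rw [h3, Finset.smul_sum]
    exact Finset.sum_congr rfl fun j _ => by rw [Pi.smul_apply, smul_mul_assoc]

/-- A flat representation has models of all finite levels at every place over `p`. -/
theorem nonempty_model_of_isFlatAt (ρ : GaloisRepAdic A) (hρ : ρ.IsFlatAt p) (I : Ideal A)
    [Finite (A ⧸ I)] [Finite (ρ.V ⧸ (I • (⊤ : Submodule A ρ.V)))] {P : ValuationSubring ℚbar}
    (h : IsPlace P p) {H : Subgroup Γℚ} (hI : P.inertiaSubgroupIn ℚ ≤ H) :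
    Nonempty (Model P H (fun σ => levelHom ρ I σ)) := by
  obtain ⟨Hh, _, _, _, _, -, e, hadd, hgal⟩ := hρ.2 I inferInstance
  exact nonempty_model_of_hopf (levelHom ρ I) e hadd (fun σ f f' hf => hgal σ f f' hf) h hI

end Fermat.FLAT
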