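import Fermat.Agent.FLAT.Model
import Mathlib.RingTheory.HopfAlgebra.Basic
import Mathlib.RingTheory.Bialgebra.Basic
import Mathlib.RingTheory.Bialgebra.Convolution
import Mathlib.RingTheory.Flat.Basic
import Mathlib.LinearAlgebra.TensorProduct.Basis
import Mathlib.RingTheory.TensorProduct.Basic

/-!
# Global models are finite flat Hopf algebras over `ℤ_(p)`

A model of `M` for the full Galois group is a finite free `ℤ_(p)`-algebra of functions on `M`; it is
a Hopf algebra whose `ℚbar`-points are `M`, equivariantly.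
-/

set_option autoImplicit false
set_option linter.unusedSectionVars false

noncomputable section

open Fermat.EC.Val
open scoped TensorProduct

namespace Fermat.FLAT

local notation "ℚbar" => AlgebraicClosure ℚ
local notation "Γℚ" => (AlgebraicClosure ℚ ≃ₐ[ℚ] AlgebraicClosure ℚ)

variable {p : ℕ} [hp : Fact p.Prime] {A : ValuationSubring ℚbar}

/-- `ℤ_(p)` is the fixed ring of the whole group. -/
theorem exists_Zp_of_Rfix_top (h : IsPlace A p) (r : Rfix A (⊤ : Subgroup Γℚ)) :
    ∃ c : Zp p, algebraMap (Zp p) ℚbar c = (r : ℚbar) := by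
  obtain ⟨q, hq⟩ := (InfiniteGalois.mem_range_algebraMap_iff_fixed (r : ℚbar)).mpr
    fun σ => r.2.2 σ (Subgroup.mem_top σ)
  refine ⟨⟨q, ?_⟩, by rw [algebraMap_Zp, ← hq, eq_ratCast]⟩
  rcases eq_or_ne q 0 with rfl | hq0
  · exact zero_mem _
  refine mem_Zp_of_padicValRat ?_
  have h1 := A.valuation_le_one_iff (r : ℚbar) |>.mpr r.2.1
  rw [← hq, eq_ratCast, h.v_rat hq0] at h1
  by_contra hneg
  push Not at hneg
  obtain ⟨k, hk⟩ := Int.exists_eq_neg_ofNat hneg.le
  rw [hk, zpow_neg, zpow_natCast, inv_le_one₀ (pow_pos h.v_q_pos k)] at h1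
  have : A.valuation (p : ℚbar) ^ k < 1 := pow_lt_one₀ zero_le h.v_q_lt_one (by
    rintro rfl
    simp [hk] at hneg)
  exact absurd h1 (not_le.mpr this)

/-- The local ring `ℤ_(p)` is a principal ideal domain. -/
lemma isPrincipalIdealRing_Zp (h : IsPlace A p) : IsPrincipalIdealRing (Zp p) := by
  have := isPrincipalIdealRing_Rfix h (H := (⊤ : Subgroup Γℚ)) le_top
  choose f hf using exists_Zp_of_Rfix_top (A := A) h
  have hinj : Function.Injective (algebraMap (Zp p) ℚbar) := fun a b hab => by
    rw [algebraMap_Zp, algebraMap_Zp, Rat.cast_inj] at hab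
    exact Subtype.ext hab
  let φ : Rfix A (⊤ : Subgroup Γℚ) →+* Zp p :=
    { toFun := f
      map_one' := hinj (by rw [hf, map_one]; rfl)
      map_mul' := fun a b => hinj (by rw [hf, map_mul, hf, hf]; rfl)
      map_zero' := hinj (by rw [hf, map_zero]; rfl)
      map_add' := fun a b => hinj (by rw [hf, map_add, hf, hf]; rfl) }
  refine IsPrincipalIdealRing.of_surjective φ fun c => ?_
  refine ⟨⟨algebraMap (Zp p) ℚbar c, Zp_mem h c, fun σ _ => by
    rw [algebraMap_Zp, map_ratCast]⟩, hinj ?_⟩
  exact hf _

/-- A family of linear forms on `N` indexed by `X` under which some basis goes to functions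
independent over `ℚbar`. -/
def HasIndepBasis {N : Type*} [AddCommMonoid N] [Module (Zp p) N] {X : Type*}
    (ev : X → N →ₗ[Zp p] ℚbar) : Prop :=
  ∃ (ι : Type) (_ : Fintype ι) (b : Module.Basis ι (Zp p) N),
    LinearIndependent ℚbar fun i x => ev x (b i)

/-- Evaluations separate the elements when a basis has independent values. -/
lemma HasIndepBasis.eq_of_eval_eq {N : Type*} [AddCommMonoid N] [Module (Zp p) N] {X : Type*}
    {ev : X → N →ₗ[Zp p] ℚbar} (hN : HasIndepBasis ev) {a a' : N}
    (h : ∀ x, ev x a = ev x a') : a = a' := by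
  obtain ⟨ι, _, b, hb⟩ := hN
  refine b.ext_elem fun i => ?_
  have h1 := Fintype.linearIndependent_iff.mp hb
    (fun i => algebraMap (Zp p) ℚbar (b.repr a i - b.repr a' i)) (by
      funext x
      have e : ∀ c : N, ev x c = ∑ i, algebraMap (Zp p) ℚbar (b.repr c i) *
          ev x (b i) := fun c => by
        conv_lhs => rw [← b.sum_repr c]
        rw [map_sum]
        exact Finset.sum_congr rfl fun i _ => by rw [map_smul, Algebra.smul_def]
      have := h x
      rw [e, e] at this
      simp only [Finset.sum_apply, Pi.smul_apply, smul_eq_mul, map_sub, sub_mul,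
        Finset.sum_sub_distrib, this, sub_self, Pi.zero_apply]) i
  rw [algebraMap_Zp, Rat.cast_eq_zero, ZeroMemClass.coe_eq_zero, sub_eq_zero] at h1
  exact h1

/-- Bases with independent values have a tensor product with the same property. -/
lemma HasIndepBasis.tensor {N N' : Type*} [AddCommMonoid N] [Module (Zp p) N] [AddCommMonoid N']
    [Module (Zp p) N'] {X Y : Type*} {ev : X → N →ₗ[Zp p] ℚbar} {ev' : Y → N' →ₗ[Zp p] ℚbar}
    (hN : HasIndepBasis ev) (hN' : HasIndepBasis ev') :
    HasIndepBasis fun z : X × Y =>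
      (LinearMap.mul' (Zp p) ℚbar).comp (TensorProduct.map (ev z.1) (ev' z.2)) := by
  obtain ⟨ι, _, b, hb⟩ := hN
  obtain ⟨ι', _, b', hb'⟩ := hN'
  refine ⟨ι × ι', inferInstance, b.tensorProduct b', ?_⟩
  rw [Fintype.linearIndependent_iff]
  intro c hc ij
  have h1 : ∀ y : Y, ∀ i, ∑ j, c (i, j) * ev' y (b' j) = 0 := by
    intro y
    refine Fintype.linearIndependent_iff.mp hb (fun i => ∑ j, c (i, j) * ev' y (b' j)) ?_
    funext x
    have := congrFun hc (x, y)
    simp only [Finset.sum_apply, Pi.smul_apply, smul_eq_mul, Pi.zero_apply,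
      Fintype.sum_prod_type, Module.Basis.tensorProduct_apply, LinearMap.coe_comp,
      Function.comp_apply, TensorProduct.map_tmul, LinearMap.mul'_apply] at this
    simp only [Finset.sum_apply, Pi.smul_apply, smul_eq_mul, Pi.zero_apply, Finset.sum_mul]
    rw [← this]
    exact Finset.sum_congr rfl fun i _ => Finset.sum_congr rfl fun j _ => by ring
  refine Fintype.linearIndependent_iff.mp hb' (fun j => c (ij.1, j)) ?_ ij.2
  funext y
  simpa using h1 y ij.1

/-! ### Algebras with an independent basis of functions on the points -/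

section Points

variable {B : Type} [CommRing B] [Algebra (Zp p) B] {M : Type*} (ev : M → B →ₐ[Zp p] ℚbar)

/-- Evaluation at a pair of points. -/
def ev2 (x y : M) : B ⊗[Zp p] B →ₐ[Zp p] ℚbar :=
  Algebra.TensorProduct.lift (ev x) (ev y) fun _ _ => Commute.all _ _

/-- `ev2` on pure tensors. -/
@[simp] lemma ev2_tmul (x y : M) (a c : B) : ev2 ev x y (a ⊗ₜ c) = ev x a * ev y c := rfl

/-- Evaluation at a triple of points. -/
def ev3 (x y w : M) : B ⊗[Zp p] (B ⊗[Zp p] B) →ₐ[Zp p] ℚbar :=
  Algebra.TensorProduct.lift (ev x) (ev2 ev y w) fun _ _ => Commute.all _ _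

/-- `ev3` on pure tensors. -/
@[simp] lemma ev3_tmul (x y w : M) (a : B) (t : B ⊗[Zp p] B) :
    ev3 ev x y w (a ⊗ₜ t) = ev x a * ev2 ev y w t := rfl

variable {ev}

/-- Elements of the tensor square are determined by their values at pairs of points. -/
lemma ext_ev2 (hb : HasIndepBasis fun x => (ev x).toLinearMap) {t t' : B ⊗[Zp p] B}
    (ht : ∀ x y, ev2 ev x y t = ev2 ev x y t') : t = t' := by
  refine (hb.tensor hb).eq_of_eval_eq fun z => ?_
  have e : (LinearMap.mul' (Zp p) ℚbar).comp
      (TensorProduct.map (ev z.1).toLinearMap (ev z.2).toLinearMap)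
      = (ev2 ev z.1 z.2).toLinearMap := TensorProduct.ext' fun a c => rfl
  rw [e]
  exact ht z.1 z.2

/-- Elements of the triple tensor product are determined by their values at triples of points. -/
lemma ext_ev3 (hb : HasIndepBasis fun x => (ev x).toLinearMap) {t t' : B ⊗[Zp p] (B ⊗[Zp p] B)}
    (ht : ∀ x y w, ev3 ev x y w t = ev3 ev x y w t') : t = t' := by
  refine (hb.tensor (hb.tensor hb)).eq_of_eval_eq fun z => ?_
  have e : (LinearMap.mul' (Zp p) ℚbar).comp (TensorProduct.map (ev z.1).toLinearMap
      ((LinearMap.mul' (Zp p) ℚbar).comp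
        (TensorProduct.map (ev z.2.1).toLinearMap (ev z.2.2).toLinearMap)))
      = (ev3 ev z.1 z.2.1 z.2.2).toLinearMap := by
    refine TensorProduct.ext' fun a t => ?_
    simp only [LinearMap.coe_comp, Function.comp_apply, TensorProduct.map_tmul,
      LinearMap.mul'_apply, AlgHom.toLinearMap_apply, ev3_tmul]
    congr 1
    induction t using TensorProduct.induction_on with
    | zero => simp
    | tmul u v => simp
    | add u v hu hv => simp only [map_add, hu, hv]
  rw [e]
  exact ht _ _ _

variable [AddCommGroup M]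

/-- Addition being associative, so is the comultiplication. -/
private lemma comul_assoc (hb : HasIndepBasis fun x => (ev x).toLinearMap)
    {comul : B →ₐ[Zp p] B ⊗[Zp p] B} (hδ : ∀ x y a, ev2 ev x y (comul a) = ev (x + y) a) :
    (Algebra.TensorProduct.assoc (Zp p) (Zp p) (Zp p) B B B).toAlgHom.comp
      ((Algebra.TensorProduct.map comul (.id (Zp p) B)).comp comul)
      = (Algebra.TensorProduct.map (.id (Zp p) B) comul).comp comul := by
  refine AlgHom.ext fun a => ext_ev3 hb fun x y w => ?_
  have e3 : ∀ (t : B ⊗[Zp p] B) (c : B),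
      ev3 ev x y w (Algebra.TensorProduct.assoc (Zp p) (Zp p) (Zp p) B B B (t ⊗ₜ c))
        = ev2 ev x y t * ev w c := by
    intro t c
    induction t using TensorProduct.induction_on with
    | zero => simp
    | tmul u v => simp [mul_assoc]
    | add u v hu hv => simp only [TensorProduct.add_tmul, map_add, hu, hv, add_mul]
  have e1 : ∀ t : B ⊗[Zp p] B, ev3 ev x y w (Algebra.TensorProduct.assoc (Zp p) (Zp p) (Zp p) B B B
      (Algebra.TensorProduct.map comul (.id (Zp p) B) t)) = ev2 ev (x + y) w t := by
    intro t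
    induction t using TensorProduct.induction_on with
    | zero => simp
    | tmul u v => rw [Algebra.TensorProduct.map_tmul, e3, hδ]; rfl
    | add u v hu hv => simp only [map_add, hu, hv]
  have e2 : ∀ t : B ⊗[Zp p] B, ev3 ev x y w
      (Algebra.TensorProduct.map (.id (Zp p) B) comul t) = ev2 ev x (y + w) t := by
    intro t
    induction t using TensorProduct.induction_on with
    | zero => simp
    | tmul u v => rw [Algebra.TensorProduct.map_tmul, ev3_tmul, hδ]; rfl
    | add u v hu hv => simp only [map_add, hu, hv]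
  exact (e1 _).trans ((hδ _ _ _).trans ((congrArg (ev · a) (add_assoc x y w)).trans
    ((hδ _ _ _).symm.trans (e2 _).symm)))

/-- Evaluation at `0` is a left counit. -/
private lemma counit_comul_left (hb : HasIndepBasis fun x => (ev x).toLinearMap)
    {comul : B →ₐ[Zp p] B ⊗[Zp p] B} (hδ : ∀ x y a, ev2 ev x y (comul a) = ev (x + y) a)
    {counit : B →ₐ[Zp p] Zp p} (hε : ∀ a, algebraMap (Zp p) ℚbar (counit a) = ev 0 a) :
    (Algebra.TensorProduct.map counit (.id (Zp p) B)).comp comul
      = (Algebra.TensorProduct.lid (Zp p) B).symm := by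
  refine AlgHom.ext fun a => (Algebra.TensorProduct.lid (Zp p) B).injective (hb.eq_of_eval_eq
    fun x => ?_)
  have e1 : ∀ t : B ⊗[Zp p] B, ev x (Algebra.TensorProduct.lid (Zp p) B
      (Algebra.TensorProduct.map counit (.id (Zp p) B) t)) = ev2 ev 0 x t := by
    intro t
    induction t using TensorProduct.induction_on with
    | zero => simp
    | tmul u v =>
      rw [Algebra.TensorProduct.map_tmul, Algebra.TensorProduct.lid_tmul, map_smul,
        Algebra.smul_def, hε]
      rfl
    | add u v hu hv => simp only [map_add, hu, hv]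
  refine (e1 _).trans ((hδ _ _ _).trans ?_)
  rw [zero_add]
  exact (congrArg (ev x) ((Algebra.TensorProduct.lid (Zp p) B).apply_symm_apply a)).symm

/-- Evaluation at `0` is a right counit. -/
private lemma counit_comul_right (hb : HasIndepBasis fun x => (ev x).toLinearMap)
    {comul : B →ₐ[Zp p] B ⊗[Zp p] B} (hδ : ∀ x y a, ev2 ev x y (comul a) = ev (x + y) a)
    {counit : B →ₐ[Zp p] Zp p} (hε : ∀ a, algebraMap (Zp p) ℚbar (counit a) = ev 0 a) :
    (Algebra.TensorProduct.map (.id (Zp p) B) counit).comp comul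
      = (Algebra.TensorProduct.rid (Zp p) (Zp p) B).symm := by
  refine AlgHom.ext fun a => (Algebra.TensorProduct.rid (Zp p) (Zp p) B).injective
    (hb.eq_of_eval_eq fun x => ?_)
  have e1 : ∀ t : B ⊗[Zp p] B, ev x (Algebra.TensorProduct.rid (Zp p) (Zp p) B
      (Algebra.TensorProduct.map (.id (Zp p) B) counit t)) = ev2 ev x 0 t := by
    intro t
    induction t using TensorProduct.induction_on with
    | zero => simp
    | tmul u v =>
      rw [Algebra.TensorProduct.map_tmul, Algebra.TensorProduct.rid_tmul, map_smul,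
        Algebra.smul_def, hε, mul_comm]
      rfl
    | add u v hu hv => simp only [map_add, hu, hv]
  refine (e1 _).trans ((hδ _ _ _).trans ?_)
  rw [add_zero]
  exact (congrArg (ev x) ((Algebra.TensorProduct.rid (Zp p) (Zp p) B).apply_symm_apply a)).symm

/-- Negation gives the antipode. -/
private lemma antipode_comul (hb : HasIndepBasis fun x => (ev x).toLinearMap)
    {comul : B →ₐ[Zp p] B ⊗[Zp p] B} (hδ : ∀ x y a, ev2 ev x y (comul a) = ev (x + y) a)
    {counit : B →ₐ[Zp p] Zp p} (hε : ∀ a, algebraMap (Zp p) ℚbar (counit a) = ev 0 a)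
    {S : B →ₗ[Zp p] B} (hS : ∀ x a, ev x (S a) = ev (-x) a) (a : B) :
    LinearMap.mul' (Zp p) B (S.rTensor B (comul a)) = algebraMap (Zp p) B (counit a) ∧
      LinearMap.mul' (Zp p) B (S.lTensor B (comul a)) = algebraMap (Zp p) B (counit a) := by
  refine ⟨hb.eq_of_eval_eq fun x => ?_, hb.eq_of_eval_eq fun x => ?_⟩
  · have e1 : ∀ t : B ⊗[Zp p] B,
        ev x (LinearMap.mul' (Zp p) B (S.rTensor B t)) = ev2 ev (-x) x t := by
      intro t
      induction t using TensorProduct.induction_on with
      | zero => simp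
      | tmul u v => simp [hS]
      | add u v hu hv => simp only [map_add, hu, hv]
    refine (e1 _).trans ((hδ _ _ _).trans ?_)
    rw [neg_add_cancel, ← hε a]
    exact ((ev x).commutes (counit a)).symm
  · have e1 : ∀ t : B ⊗[Zp p] B,
        ev x (LinearMap.mul' (Zp p) B (S.lTensor B t)) = ev2 ev x (-x) t := by
      intro t
      induction t using TensorProduct.induction_on with
      | zero => simp
      | tmul u v => simp [hS]
      | add u v hu hv => simp only [map_add, hu, hv]
    refine (e1 _).trans ((hδ _ _ _).trans ?_)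
    rw [add_neg_cancel, ← hε a]
    exact ((ev x).commutes (counit a)).symm

/-- Addition being commutative, so is the comultiplication. -/
private lemma comm_comul (hb : HasIndepBasis fun x => (ev x).toLinearMap)
    {comul : B →ₐ[Zp p] B ⊗[Zp p] B} (hδ : ∀ x y a, ev2 ev x y (comul a) = ev (x + y) a) (a : B) :
    TensorProduct.comm (Zp p) B B (comul a) = comul a := by
  refine ext_ev2 hb fun x y => ?_
  have e1 : ∀ t : B ⊗[Zp p] B,
      ev2 ev x y ((TensorProduct.comm (Zp p) B B) t) = ev2 ev y x t := by
    intro t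
    induction t using TensorProduct.induction_on with
    | zero => simp
    | tmul u v => simp [mul_comm]
    | add u v hu hv => simp only [map_add, hu, hv]
  refine (e1 _).trans ((hδ _ _ _).trans ?_)
  rw [add_comm]
  exact (hδ _ _ _).symm

/-- **An algebra of functions closed under addition, zero and negation is a cocommutative Hopf
algebra with point group `M`.** -/
theorem exists_hopfAlgebra_of_points [Module.Finite (Zp p) B] [Module.Free (Zp p) B]
    (hb : HasIndepBasis fun x => (ev x).toLinearMap)
    (comul : B →ₐ[Zp p] B ⊗[Zp p] B) (hδ : ∀ x y a, ev2 ev x y (comul a) = ev (x + y) a)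
    (counit : B →ₐ[Zp p] Zp p) (hε : ∀ a, algebraMap (Zp p) ℚbar (counit a) = ev 0 a)
    (S : B →ₗ[Zp p] B) (hS : ∀ x a, ev x (S a) = ev (-x) a) (hev : Function.Bijective ev)
    {g : Γℚ → AddMonoid.End M} (hg : ∀ σ x a, ev (g σ x) a = σ (ev x a)) :
    ∃ (Hh : Type) (_ : CommRing Hh) (_ : HopfAlgebra (Zp p) Hh),
      Module.Finite (Zp p) Hh ∧ Module.Flat (Zp p) Hh ∧ Coalgebra.IsCocomm (Zp p) Hh ∧
      ∃ e : WithConv (Hh →ₐ[Zp p] ℚbar) ≃ M, (∀ f f', e (f * f') = e f + e f') ∧
        ∀ (σ : Γℚ) (f f' : WithConv (Hh →ₐ[Zp p] ℚbar)),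
          (∀ x : Hh, f' x = σ (f x)) → e f' = g σ (e f) := by
  let bi : Bialgebra (Zp p) B := Bialgebra.ofAlgHom comul counit (comul_assoc hb hδ)
    (counit_comul_left hb hδ hε) (counit_comul_right hb hδ hε)
  let hs : HopfAlgebraStruct (Zp p) B := { antipode := S }
  let hopf : HopfAlgebra (Zp p) B :=
    { mul_antipode_rTensor_comul := LinearMap.ext fun a => (antipode_comul hb hδ hε hS a).1
      mul_antipode_lTensor_comul := LinearMap.ext fun a => (antipode_comul hb hδ hε hS a).2 }
  let toPt : M → WithConv (B →ₐ[Zp p] ℚbar) := fun x => WithConv.toConv (ev x)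
  have hbij : Function.Bijective toPt := WithConv.toConv_bijective.comp hev
  refine ⟨B, inferInstance, hopf, inferInstance, inferInstance, ⟨LinearMap.ext fun a =>
    comm_comul hb hδ a⟩, (Equiv.ofBijective toPt hbij).symm, fun f f' => ?_,
    fun σ f f' hf => ?_⟩
  · obtain ⟨x, rfl⟩ := hbij.2 f
    obtain ⟨y, rfl⟩ := hbij.2 f'
    rw [show (Equiv.ofBijective toPt hbij).symm (toPt x) = x from
      (Equiv.ofBijective toPt hbij).symm_apply_apply x,
      show (Equiv.ofBijective toPt hbij).symm (toPt y) = y from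
      (Equiv.ofBijective toPt hbij).symm_apply_apply y, Equiv.symm_apply_eq]
    change toPt x * toPt y = toPt (x + y)
    apply WithConv.ofConv_injective
    refine AlgHom.ext fun a => ?_
    change (toPt x * toPt y) a = ev (x + y) a
    rw [AlgHom.convMul_apply]
    exact hδ x y a
  · obtain ⟨x, rfl⟩ := hbij.2 f
    rw [show (Equiv.ofBijective toPt hbij).symm (toPt x) = x from
      (Equiv.ofBijective toPt hbij).symm_apply_apply x, Equiv.symm_apply_eq]
    change f' = toPt (g σ x)
    apply WithConv.ofConv_injective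
    refine AlgHom.ext fun a => ?_
    change f' a = ev (g σ x) a
    rw [hf a]
    exact (hg σ x a).symm

omit [AddCommGroup M] in
/-- A homomorphism to `ℚbar` that is at each element an evaluation is an evaluation. -/
theorem exists_point {n : ℕ} (b : Module.Basis (Fin n) (Zp p) B) [Finite M]
    (φ : B →ₐ[Zp p] ℚbar) (hpt : ∀ a : B, ∃ x, φ a = ev x a) : ∃ x, ev x = φ := by
  classical
  -- one point serves infinitely many of the elements `∑ t ^ i • b i`
  choose pt hpt' using fun t : ℕ => hpt (∑ i : Fin n, ((t : Zp p) ^ (i : ℕ)) • b i)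
  obtain ⟨x, hx⟩ := Finite.exists_infinite_fiber pt
  refine ⟨x, AlgHom.toLinearMap_injective (b.ext fun i => ?_)⟩
  set P : Polynomial ℚbar := ∑ j : Fin n, Polynomial.C (φ (b j) - ev x (b j)) *
    Polynomial.X ^ (j : ℕ) with hP
  have hP0 : P = 0 := by
    refine Polynomial.eq_zero_of_infinite_isRoot P (Set.Infinite.mono ?_
      ((Set.infinite_coe_iff.mp hx).image
        (fun a _ b _ hab => Nat.cast_injective (R := ℚbar) hab)))
    rintro _ ⟨t, ht, rfl⟩
    have h2 := hpt' t
    rw [show pt t = x from ht, map_sum, map_sum] at h2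
    simp only [Algebra.smul_def, map_mul, map_pow, map_natCast] at h2
    rw [Set.mem_ofPred_eq, Polynomial.IsRoot.def, hP, Polynomial.eval_finsetSum]
    simp only [Polynomial.eval_mul, Polynomial.eval_C, Polynomial.eval_pow,
      Polynomial.eval_X, mul_comm _ ((t : ℚbar) ^ _), mul_sub, Finset.sum_sub_distrib, sub_eq_zero]
    exact h2
  have h3 := congrArg (fun P => Polynomial.coeff P (i : ℕ)) hP0
  simp only [hP, Polynomial.finsetSum_coeff, Polynomial.coeff_C_mul_X_pow,
    Polynomial.coeff_zero] at h3
  rw [Finset.sum_eq_single i] at h3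
  · rw [if_pos rfl, sub_eq_zero] at h3
    exact h3.symm
  · intro j _ hj
    exact if_neg fun hh => hj (Fin.ext hh.symm)
  · simp

end Points

namespace Model

variable {M : Type*} [AddCommGroup M] [Finite M] {g : Γℚ → AddMonoid.End M}
  (G : Model A (⊤ : Subgroup Γℚ) g)

/-- The algebra of a global model over `ℤ_(p)`. -/
def zpAlg (h : IsPlace A p) : Subalgebra (Zp p) (M → ℚbar) where
  toSubsemiring := G.O.toSubsemiring
  algebraMap_mem' c := by
    change algebraMap (Zp p) (M → ℚbar) c ∈ G.O
    exact G.O.algebraMap_mem ⟨algebraMap (Zp p) ℚbar c, Zp_mem h c,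
      fun σ _ => by rw [algebraMap_Zp, map_ratCast]⟩

include G in
/-- The algebra is stable under composition with multiplication by an integer. -/
lemma comp_nsmul_mem {f : M → ℚbar} (hf : f ∈ G.O) (k : ℕ) :
    (fun x : M => f (k • x)) ∈ G.O := by
  induction k generalizing f with
  | zero =>
    obtain ⟨r, hr⟩ := G.exists_apply_zero hf
    have : (fun x : M => f (0 • x)) = algebraMap (Rfix A ⊤) (M → ℚbar) r := by
      funext x
      rw [zero_nsmul, Pi.algebraMap_apply, hr]
    rw [this]
    exact G.O.algebraMap_mem r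
  | succ k ih =>
    obtain ⟨n, a, b, hab, e⟩ := G.comul f hf
    have : (fun x : M => f ((k + 1) • x)) = ∑ i, (fun x : M => a i (k • x)) * b i := by
      funext x
      rw [succ_nsmul, e, Finset.sum_apply]
      rfl
    rw [this]
    exact sum_mem fun i _ => mul_mem (ih (hab i).1) (hab i).2

include G in
/-- The algebra is stable under composition with negation. -/
lemma comp_neg_mem {f : M → ℚbar} (hf : f ∈ G.O) : (fun x : M => f (-x)) ∈ G.O := by
  have := Fintype.ofFinite M
  have : (fun x : M => f (-x)) = fun x : M => f ((Fintype.card M - 1) • x) := by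
    funext x
    congr 1
    have h1 : (Fintype.card M - 1) • x + x = 0 := by
      rw [← succ_nsmul, Nat.sub_add_cancel Fintype.card_pos, card_nsmul_eq_zero]
    exact (eq_neg_of_add_eq_zero_left h1).symm
  rw [this]
  exact G.comp_nsmul_mem hf _

include G in
/-- The polynomial `∏ (X - f x)` of a function `f` of the model has coefficients in `ℤ_(p)`. -/
lemma exists_annihilator (h : IsPlace A p) [Fintype M] {f : M → ℚbar} (hf : f ∈ G.O) :
    ∃ q₀ : Polynomial (Zp p), q₀.map (algebraMap (Zp p) ℚbar)
      = ∏ x : M, (Polynomial.X - Polynomial.C (f x)) := by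
  classical
  set q : Polynomial ℚbar := ∏ x : M, (Polynomial.X - Polynomial.C (f x)) with hq
  have hA' : ∀ x, f x ∈ A := fun x => (mem_iff_ge h _).mpr (G.ge_zero h hf x)
  have hmem : ∀ n, q.coeff n ∈ Rfix A (⊤ : Subgroup Γℚ) := by
    intro n
    refine ⟨?_, fun σ hσ => ?_⟩
    · have : q = (∏ x : M, (Polynomial.X - Polynomial.C (⟨f x, hA' x⟩ : A))).map A.subtype := by
        rw [hq, Polynomial.map_prod]
        exact Finset.prod_congr rfl fun x _ => by simp
      rw [this, Polynomial.coeff_map]
      exact SetLike.coe_mem _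
    · have : q.map (σ : ℚbar →+* ℚbar) = q := by
        rw [hq, Polynomial.map_prod]
        refine Fintype.prod_bijective (g σ) ⟨G.act_injective hσ, G.act_surjective hσ⟩ _ _
          fun x => ?_
        rw [G.equivariant _ hf σ hσ x]
        simp
      conv_rhs => rw [← this]
      rw [Polynomial.coeff_map]
      rfl
  choose c hc using fun n => exists_Zp_of_Rfix_top h ⟨_, hmem n⟩
  refine ⟨∑ n ∈ q.support, Polynomial.monomial n (c n), ?_⟩
  rw [Polynomial.map_sum]
  simp only [Polynomial.map_monomial, hc]
  exact q.as_sum_support.symm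

include G in
/-- The functions of a global model, as an algebra in `Type` with its evaluations. -/
lemma exists_pointAlgebra (h : IsPlace A p) :
    ∃ (B : Type) (_ : CommRing B) (_ : Algebra (Zp p) B) (_ : Module.Finite (Zp p) B)
      (_ : Module.Free (Zp p) B) (ev : M → B →ₐ[Zp p] ℚbar),
      (∀ f ∈ G.O, ∃ a : B, ∀ x, ev x a = f x) ∧ (∀ a : B, (fun x => ev x a) ∈ G.O) ∧
      HasIndepBasis fun x => (ev x).toLinearMap := by
  classical
  obtain ⟨N, ⟨ν⟩⟩ := Finite.exists_equiv_fin M
  let O' : Subalgebra (Zp p) (Fin N → ℚbar) :=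
    (G.zpAlg h).map (AlgHom.pi fun i => Pi.evalAlgHom (Zp p) (fun _ : M => ℚbar) (ν.symm i))
  let evO : M → O' →ₐ[Zp p] ℚbar := fun x =>
    (Pi.evalAlgHom (Zp p) (fun _ : Fin N => ℚbar) (ν x)).comp O'.val
  have hout : ∀ a : O', (fun x => evO x a) ∈ G.O := by
    rintro ⟨_, f, hf, rfl⟩
    have : (fun x => f (ν.symm (ν x))) = f := funext fun x => congrArg f (ν.symm_apply_apply x)
    exact this.symm ▸ hf
  -- a basis
  have := isPrincipalIdealRing_Zp h
  have hfin : Module.Finite (Zp p) (Subalgebra.toSubmodule O') := by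
    refine Module.Finite.iff_fg.mpr ?_
    rw [Subalgebra.map_toSubmodule]
    refine Submodule.FG.map _ ?_
    obtain ⟨s, hs⟩ := G.fg
    refine ⟨s, le_antisymm (Submodule.span_le.mpr fun f hf => ?_) fun f hf => ?_⟩
    · change f ∈ G.O
      have : f ∈ Subalgebra.toSubmodule G.O := hs ▸ Submodule.subset_span hf
      exact this
    · have hf' : f ∈ Submodule.span (Rfix A (⊤ : Subgroup Γℚ)) (s : Set (M → ℚbar)) := hs.symm ▸ hf
      clear hf
      induction hf' using Submodule.span_induction with
      | mem f hf => exact Submodule.subset_span hf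
      | zero => exact zero_mem _
      | add u v _ _ hu hv => exact add_mem hu hv
      | smul r u _ hu =>
        obtain ⟨c, hc⟩ := exists_Zp_of_Rfix_top h r
        have : r • u = c • u := by
          funext x
          rw [Pi.smul_apply, Pi.smul_apply, Algebra.smul_def, Algebra.smul_def, algebraMap_Rfix, hc]
        rw [this]
        exact Submodule.smul_mem _ c hu
  have : Module.Finite (Zp p) O' := hfin
  have : Module.IsTorsionFree (Zp p) O' := Module.IsTorsionFree.of_smul_eq_zero fun c a hca => by
    refine or_iff_not_imp_left.mpr fun hc => Subtype.ext (funext fun i => ?_)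
    have h1 : algebraMap (Zp p) ℚbar c * (a : Fin N → ℚbar) i = 0 := by
      rw [← Algebra.smul_def]
      exact congrFun (congrArg Subtype.val hca) i
    refine (mul_eq_zero.mp h1).resolve_left ?_
    rw [algebraMap_Zp, Rat.cast_eq_zero, ZeroMemClass.coe_eq_zero]
    exact hc
  have : Module.Free (Zp p) O' := Module.free_of_finite_type_torsion_free'
  let b := Module.finBasis (Zp p) O'
  have hb : LinearIndependent ℚbar fun i x => evO x (b i) := by
    refine linearIndependent_qbar h (H := (⊤ : Subgroup Γℚ)) (fun σ => g σ)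
      (fun σ hσ => G.act_surjective hσ) _ (fun i σ hσ x => G.equivariant _ (hout (b i)) σ hσ x) ?_
    rw [Fintype.linearIndependent_iff]
    intro c hc i
    choose c' hc' using fun j => exists_Zp_of_Rfix_top h (c j)
    have h0 : ∑ j, c' j • b j = 0 := by
      refine Subtype.ext (funext fun k => ?_)
      have := congrFun hc (ν.symm k)
      simp only [Finset.sum_apply, Pi.zero_apply] at this
      rw [AddSubmonoidClass.coe_finsetSum, Finset.sum_apply, ZeroMemClass.coe_zero, Pi.zero_apply,
        ← this]
      refine Finset.sum_congr rfl fun j _ => ?_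
      change c' j • (b j : Fin N → ℚbar) k = _
      rw [Algebra.smul_def, hc']
      rw [Pi.smul_apply, Algebra.smul_def, algebraMap_Rfix]
      change _ * (b j : Fin N → ℚbar) k = _ * (b j : Fin N → ℚbar) (ν (ν.symm k))
      rw [ν.apply_symm_apply]
    refine Subtype.ext ?_
    rw [ZeroMemClass.coe_zero, ← hc' i,
      Fintype.linearIndependent_iff.mp b.linearIndependent c' h0 i, map_zero]
  exact ⟨O', inferInstance, inferInstance, inferInstance, inferInstance, evO,
    fun f hf => ⟨⟨_, f, hf, rfl⟩, fun x => congrArg f (ν.symm_apply_apply x)⟩, hout,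
    ⟨_, inferInstance, b, hb⟩⟩

include G in
/-- **A global model is a finite flat cocommutative Hopf algebra over `ℤ_(p)`.** -/
theorem exists_hopf (h : IsPlace A p) :
    ∃ (Hh : Type) (_ : CommRing Hh) (_ : HopfAlgebra (Zp p) Hh),
      Module.Finite (Zp p) Hh ∧ Module.Flat (Zp p) Hh ∧ Coalgebra.IsCocomm (Zp p) Hh ∧
      ∃ e : WithConv (Hh →ₐ[Zp p] ℚbar) ≃ M, (∀ f f', e (f * f') = e f + e f') ∧
        ∀ (σ : Γℚ) (f f' : WithConv (Hh →ₐ[Zp p] ℚbar)),
          (∀ x : Hh, f' x = σ (f x)) → e f' = g σ (e f) := by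
  classical
  have := Fintype.ofFinite M
  obtain ⟨B, _, _, _, _, ev, hin, hout, hb⟩ := G.exists_pointAlgebra h
  have hinj : Function.Injective (algebraMap (Zp p) ℚbar) := fun a c hac => by
    rw [algebraMap_Zp, algebraMap_Zp, Rat.cast_inj] at hac
    exact Subtype.ext hac
  have hcomul : ∀ a : B, ∃ t : B ⊗[Zp p] B, ∀ x y, ev2 ev x y t = ev (x + y) a := by
    intro a
    obtain ⟨n, u, v, huv, e⟩ := G.comul _ (hout a)
    choose u' hu' using fun i => hin (u i) (huv i).1
    choose v' hv' using fun i => hin (v i) (huv i).2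
    refine ⟨∑ i, u' i ⊗ₜ[Zp p] v' i, fun x y => ?_⟩
    rw [map_sum]
    refine Eq.trans (Finset.sum_congr rfl fun i _ => ?_) (e x y).symm
    rw [ev2_tmul, hu', hv']
  -- comultiplication, counit and antipode are determined by their values at points
  choose δ hδ using hcomul
  let comul : B →ₐ[Zp p] B ⊗[Zp p] B :=
    { toFun := δ
      map_one' := ext_ev2 hb fun x y => by rw [hδ, map_one, map_one]
      map_mul' := fun a c => ext_ev2 hb fun x y => by rw [hδ, map_mul, map_mul, hδ, hδ]
      map_zero' := ext_ev2 hb fun x y => by rw [hδ, map_zero, map_zero]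
      map_add' := fun a c => ext_ev2 hb fun x y => by rw [hδ, map_add, map_add, hδ, hδ]
      commutes' := fun r => ext_ev2 hb fun x y => by rw [hδ, AlgHom.commutes, AlgHom.commutes] }
  have hcounit : ∀ a : B, ∃ c : Zp p, algebraMap (Zp p) ℚbar c = ev 0 a := fun a => by
    obtain ⟨r, hr⟩ := G.exists_apply_zero (hout a)
    obtain ⟨c, hc⟩ := exists_Zp_of_Rfix_top h r
    exact ⟨c, hc.trans hr⟩
  choose ε hε using hcounit
  let counit : B →ₐ[Zp p] Zp p :=
    { toFun := ε
      map_one' := hinj (by rw [hε, map_one, map_one])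
      map_mul' := fun a c => hinj (by rw [hε, map_mul, map_mul, hε, hε])
      map_zero' := hinj (by rw [hε, map_zero, map_zero])
      map_add' := fun a c => hinj (by rw [hε, map_add, map_add, hε, hε])
      commutes' := fun r => hinj (by
        rw [hε, AlgHom.commutes, Algebra.algebraMap_self, RingHom.id_apply]) }
  have hanti : ∀ a : B, ∃ a' : B, ∀ x, ev x a' = ev (-x) a := fun a =>
    hin _ (G.comp_neg_mem (hout a))
  choose S hS using hanti
  let Sl : B →ₗ[Zp p] B :=
    { toFun := S
      map_add' := fun a c => hb.eq_of_eval_eq fun x => by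
        change ev x (S (a + c)) = ev x (S a + S c)
        rw [hS, map_add, map_add, hS, hS]
      map_smul' := fun r a => hb.eq_of_eval_eq fun x => by
        change ev x (S (r • a)) = ev x (r • S a)
        rw [hS, map_smul, map_smul, hS] }
  refine exists_hopfAlgebra_of_points hb comul (fun x y a => hδ a x y) counit hε Sl
    (fun x a => hS a x) ⟨fun x y hxy => G.separates x y fun f hf => ?_, fun φ => ?_⟩
    fun σ x a => G.equivariant _ (hout a) σ (Subgroup.mem_top σ) x
  · obtain ⟨a, ha⟩ := hin f hf
    rw [← ha, ← ha, hxy]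
  · refine exists_point (Module.finBasis (Zp p) B) φ fun a => ?_
    obtain ⟨q₀, hq₀⟩ := G.exists_annihilator h (hout a)
    have h0 : Polynomial.aeval a q₀ = 0 := hb.eq_of_eval_eq fun x => by
      change ev x (Polynomial.aeval a q₀) = ev x 0
      rw [← Polynomial.aeval_algHom_apply, Polynomial.aeval_def, Polynomial.eval₂_eq_eval_map,
        hq₀, Polynomial.eval_prod, map_zero]
      exact Finset.prod_eq_zero (Finset.mem_univ x) (by simp)
    have h1 := congrArg φ h0
    rw [← Polynomial.aeval_algHom_apply, Polynomial.aeval_def, Polynomial.eval₂_eq_eval_map,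
      hq₀, Polynomial.eval_prod, map_zero, Finset.prod_eq_zero_iff] at h1
    obtain ⟨x, -, hx⟩ := h1
    exact ⟨x, by simpa [sub_eq_zero] using hx⟩

end Model

end Fermat.FLAT
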