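import Fermat.Agent.FLAT.Tame

/-!
# The fixed rings of groups containing inertia

The ring is `Rfix`, a principal ideal domain, and `linearIndependent_qbar` descends relations.
-/

set_option autoImplicit false
set_option linter.unusedSectionVars false

noncomputable section

open Fermat.EC.Val

namespace Fermat.FLAT

local notation "ℚbar" => AlgebraicClosure ℚ
local notation "Γℚ" => (AlgebraicClosure ℚ ≃ₐ[ℚ] AlgebraicClosure ℚ)

variable {p : ℕ} [hp : Fact p.Prime] {A : ValuationSubring ℚbar}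

/-! ### The fixed ring of a group containing inertia -/

/-- The elements of the place fixed by `H`: for `H` inertia, resp. decomposition, this is the
strict henselisation, resp. henselisation, of `ℤ_(p)`. -/
def Rfix (A : ValuationSubring ℚbar) (H : Subgroup Γℚ) : Subring ℚbar where
  carrier := {x | x ∈ A ∧ ∀ σ ∈ H, σ x = x}
  zero_mem' := ⟨zero_mem A, fun σ _ => map_zero σ⟩
  one_mem' := ⟨one_mem A, fun σ _ => map_one σ⟩
  add_mem' := fun hx hy => ⟨add_mem hx.1 hy.1, fun σ hσ => by rw [map_add, hx.2 σ hσ, hy.2 σ hσ]⟩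
  neg_mem' := fun hx => ⟨neg_mem hx.1, fun σ hσ => by rw [map_neg, hx.2 σ hσ]⟩
  mul_mem' := fun hx hy => ⟨mul_mem hx.1 hy.1, fun σ hσ => by rw [map_mul, hx.2 σ hσ, hy.2 σ hσ]⟩

variable {H : Subgroup Γℚ}

/-- The structure map of `Rfix` is the inclusion. -/
lemma algebraMap_Rfix (r : Rfix A H) : algebraMap (Rfix A H) ℚbar r = (r : ℚbar) := rfl

/-- `H` fixes `Rfix`. -/
lemma apply_Rfix {σ : Γℚ} (hσ : σ ∈ H) (r : Rfix A H) : σ (r : ℚbar) = (r : ℚbar) := r.2.2 σ hσ

/-- Elements of `Rfix` are integral at the place. -/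
lemma ge_Rfix (h : IsPlace A p) (r : Rfix A H) : Ge A p (r : ℚbar) 0 := (mem_iff_ge h _).mp r.2.1

/-- `ℚ̄` is torsion free over `Rfix`. -/
instance isTorsionFree_qbar_Rfix : Module.IsTorsionFree (Rfix A H) ℚbar :=
  Module.IsTorsionFree.of_smul_eq_zero fun r x hrx => by
    rw [Algebra.smul_def, mul_eq_zero, algebraMap_Rfix] at hrx
    exact hrx.imp (fun e => Subtype.ext e) id

/-- Functions to `ℚ̄` are torsion free over `Rfix`. -/
instance isTorsionFree_fun_Rfix {M : Type*} : Module.IsTorsionFree (Rfix A H) (M → ℚbar) :=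
  Module.IsTorsionFree.of_smul_eq_zero fun r f hrf => or_iff_not_imp_left.mpr fun hr =>
    funext fun x => ((smul_eq_zero.mp (congrFun hrf x : r • f x = 0)).resolve_left hr)

omit hp in
/-- An element integral over `Rfix` lies in the place. -/
lemma mem_of_isIntegral_Rfix {x : ℚbar} (hx : IsIntegral (Rfix A H) x) : x ∈ A := by
  let f : Rfix A H →+* A := Subring.inclusion (fun y hy => hy.1)
  have hx' : IsIntegral A x := by
    obtain ⟨P, hP, hev⟩ := hx
    refine ⟨P.map f, hP.map _, ?_⟩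
    rw [Polynomial.eval₂_map]
    exact hev
  obtain ⟨y, hy⟩ := IsIntegrallyClosed.isIntegral_iff.mp hx'
  exact hy ▸ y.2

omit hp in
/-- Fixed integral elements lie in the fixed ring. -/
lemma exists_Rfix_of_fixed {c : ℚbar} (hint : IsIntegral (Rfix A H) c)
    (hc : ∀ σ ∈ H, σ c = c) : ∃ r : Rfix A H, algebraMap (Rfix A H) ℚbar r = c :=
  ⟨⟨c, mem_of_isIntegral_Rfix hint, hc⟩, rfl⟩

/-- The order of a nonzero element of `Rfix` is a natural number, for `H` containing inertia. -/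
lemma exists_nat_ord_Rfix (h : IsPlace A p) (hI : A.inertiaSubgroupIn ℚ ≤ H) {r : Rfix A H}
    (hr : r ≠ 0) : ∃ m : ℕ, ord A p (r : ℚbar) = m := by
  have hr0 : (r : ℚbar) ≠ 0 := fun e => hr (Subtype.ext e)
  obtain ⟨k, hk⟩ := exists_int_ord h hr0 fun σ hσ => r.2.2 σ (hI hσ)
  have : (0 : ℚ) ≤ k := hk ▸ (ge_Rfix h r).resolve_left hr0
  refine ⟨k.toNat, ?_⟩
  rw [hk]
  exact_mod_cast (Int.toNat_of_nonneg (by exact_mod_cast this)).symm

/-- The fixed ring is a principal ideal domain. -/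
theorem isPrincipalIdealRing_Rfix (h : IsPlace A p) (hI : A.inertiaSubgroupIn ℚ ≤ H) :
    IsPrincipalIdealRing (Rfix A H) := by
  classical
  refine ⟨fun I => ?_⟩
  by_cases hb : I = ⊥
  · exact hb ▸ bot_isPrincipal
  obtain ⟨x, hxI, hx0⟩ := I.ne_bot_iff.mp hb
  obtain ⟨m, hm⟩ := exists_nat_ord_Rfix h hI hx0
  set P : ℕ → Prop := fun m => ∃ a ∈ I, a ≠ 0 ∧ ord A p (a : ℚbar) = m
  obtain ⟨a, haI, ha0, ha⟩ := Nat.find_spec (p := P) ⟨m, x, hxI, hx0, hm⟩
  refine ⟨a, le_antisymm (fun b hb => ?_) ((Ideal.span_singleton_le_iff_mem _).mpr haI)⟩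
  by_cases hb0 : b = 0
  · rw [hb0]; exact zero_mem _
  obtain ⟨j, hj⟩ := exists_nat_ord_Rfix h hI hb0
  have hjm := Nat.find_min' (p := P) ⟨m, x, hxI, hx0, hm⟩ ⟨b, hb, hb0, hj⟩
  have ha' : (a : ℚbar) ≠ 0 := fun e => ha0 (Subtype.ext e)
  have hc : (b : ℚbar) / a ∈ Rfix A H := by
    refine ⟨(mem_iff_ge h _).mpr ?_, fun σ hσ => by rw [map_div₀, b.2.2 σ hσ, a.2.2 σ hσ]⟩
    have := (show Ge A p (b : ℚbar) (j : ℚ) from Or.inr hj.ge).div h
      (show Is A p (a : ℚbar) _ from ⟨ha', ha⟩)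
    exact this.mono (sub_nonneg.mpr (by exact_mod_cast hjm))
  exact Ideal.mem_span_singleton.mpr ⟨⟨_, hc⟩, Subtype.ext (by
    change (b : ℚbar) = (a : ℚbar) * ((b : ℚbar) / a)
    field_simp)⟩

/-- **Descent of relations**: equivariant functions that are independent over the fixed ring are
independent over `ℚbar`. -/
theorem linearIndependent_qbar (h : IsPlace A p) {M ι : Type*}
    (g : Γℚ → M → M) (hg : ∀ σ ∈ H, Function.Surjective (g σ)) (b : ι → M → ℚbar)
    (hb : ∀ i, ∀ σ ∈ H, ∀ x, b i (g σ x) = σ (b i x))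
    (hli : LinearIndependent (Rfix A H) b) : LinearIndependent ℚbar b := by
  classical
  rw [linearIndependent_iff']
  intro s
  induction s using Finset.strongInduction with
  | _ s ih =>
    intro c hc
    by_contra hne
    push Not at hne
    obtain ⟨i₀, hi₀, hci₀⟩ := hne
    -- normalise a shortest relation to `c' i₀ = 1`; then every coefficient is fixed by `H`
    set c' : ι → ℚbar := fun i => c i / c i₀ with hc'
    have hc'0 : ∑ i ∈ s, c' i • b i = 0 := by
      have : ∀ i, c' i • b i = (c i₀)⁻¹ • (c i • b i) := fun i => by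
        rw [smul_smul, hc']
        simp only [div_eq_inv_mul]
      simp only [this, ← Finset.smul_sum, hc, smul_zero]
    have hc'1 : c' i₀ = 1 := div_self hci₀
    have hfix : ∀ i ∈ s, ∀ σ ∈ H, σ (c' i) = c' i := by
      intro i hi σ hσH
      rcases eq_or_ne i i₀ with rfl | hne
      · rw [hc'1, map_one]
      have hσ : ∑ j ∈ s, σ (c' j) • b j = 0 := by
        funext x
        obtain ⟨y, rfl⟩ := hg σ hσH x
        have := congrArg σ (congrFun hc'0 y)
        simpa [Finset.sum_apply, hb _ σ hσH] using this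
      have h2 : ∑ j ∈ s.erase i₀, (σ (c' j) - c' j) • b j = 0 := by
        rw [Finset.sum_erase _ (by simp [hc'1])]
        simp only [sub_smul, Finset.sum_sub_distrib, hσ, hc'0, sub_zero]
      exact sub_eq_zero.mp (ih _ (Finset.erase_ssubset hi₀) _ h2 i (Finset.mem_erase.mpr ⟨hne, hi⟩))
    -- a power of `p` moves the coefficients into `Rfix`
    obtain ⟨N, hN⟩ : ∃ N : ℕ, ∀ i ∈ s, Ge A p ((p : ℚbar) ^ N * c' i) 0 := by
      obtain ⟨N, hN⟩ := exists_nat_ge (∑ i ∈ s, |ord A p (c' i)|)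
      refine ⟨N, fun i hi => ?_⟩
      have h1 := ((show Is A p (p : ℚbar) 1 from ⟨Nat.cast_ne_zero.mpr h.1.ne_zero, ord_q h⟩).pow h
        N).ge.mul h (show Ge A p (c' i) (ord A p (c' i)) from Or.inr le_rfl)
      refine h1.mono ?_
      have h2 : |ord A p (c' i)| ≤ ∑ j ∈ s, |ord A p (c' j)| :=
        Finset.single_le_sum (f := fun j => |ord A p (c' j)|) (fun j _ => abs_nonneg _) hi
      linarith [neg_abs_le (ord A p (c' i))]
    have hmem : ∀ i ∈ s, (p : ℚbar) ^ N * c' i ∈ Rfix A H := fun i hi =>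
      ⟨(mem_iff_ge h _).mpr (hN i hi), fun σ hσ => by
        rw [map_mul, map_pow, map_natCast, hfix i hi σ hσ]⟩
    have := linearIndependent_iff'.mp hli s
      (fun i => if hi : i ∈ s then ⟨_, hmem i hi⟩ else 0) (by
        funext x
        have h0 := congrFun hc'0 x
        simp only [Finset.sum_apply, Pi.smul_apply, Pi.zero_apply, smul_eq_mul] at h0 ⊢
        have : ∑ i ∈ s, ((p : ℚbar) ^ N * (c' i * b i x)) = 0 := by
          rw [← Finset.mul_sum, h0, mul_zero]
        rw [← this]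
        refine Finset.sum_congr rfl fun i hi => ?_
        rw [dif_pos hi, Algebra.smul_def, algebraMap_Rfix, ← mul_assoc]) i₀ hi₀
    rw [dif_pos hi₀] at this
    have h1 : (p : ℚbar) ^ N * c' i₀ = 0 := congrArg Subtype.val this
    rw [hc'1, mul_one] at h1
    exact pow_ne_zero _ (Nat.cast_ne_zero.mpr h.1.ne_zero) h1

end Fermat.FLAT
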