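import Fermat.Agent.FLAT.Curve.Descent

/-!
# Models from generators, and models on subgroups of products

A finite set of equivariant functions with values in the place which separates points, and whose
translates decompose over the place, generates a model (`nonempty_of_gens`).  In particular a group
with finitely many jointly injective equivariant maps to groups with models has a model
(`nonempty_of_family`), which is how flatness passes to submodules and twists.
-/

set_option autoImplicit false

noncomputable section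

open Fermat.EC.Val

namespace Fermat.FLAT

local notation "ℚbar" => AlgebraicClosure ℚ
local notation "Γℚ" => (AlgebraicClosure ℚ ≃ₐ[ℚ] AlgebraicClosure ℚ)

/-- The functions of two variables through one of the factors. -/
def pairGens {M : Type*} (s : Set (M → ℚbar)) : Set (M × M → ℚbar) :=
  ((fun f => fun z : M × M => f z.1) '' s) ∪ ((fun f => fun z : M × M => f z.2) '' s)

variable {p : ℕ} [Fact p.Prime] {A : ValuationSubring ℚbar} {H : Subgroup Γℚ}
  {M : Type*} [AddCommGroup M] [Finite M]

namespace Model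

/-- **A model from generators.** Finitely many equivariant integral functions separating points,
with translates decomposing over the place, generate a model. -/
theorem nonempty_of_gens (h : IsPlace A p) (hI : A.inertiaSubgroupIn ℚ ≤ H)
    {g : Γℚ → AddMonoid.End M} (h1 : g 1 = 1)
    (hmul : ∀ σ ∈ H, ∀ τ ∈ H, g (σ * τ) = g σ * g τ)
    {s : Set (M → ℚbar)} (hs : s.Finite) (hsA : ∀ f ∈ s, ∀ x, f x ∈ A)
    (hse : ∀ f ∈ s, ∀ σ ∈ H, ∀ x : M, f (g σ x) = σ (f x))
    (hsep : ∀ x y : M, (∀ f ∈ s, f x = f y) → x = y)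
    (hadd : ∀ f ∈ s, (fun z : M × M => f (z.1 + z.2)) ∈
      Submodule.span A (Algebra.adjoin (Rfix A H) (pairGens s) : Set (M × M → ℚbar))) :
    Nonempty (Model A H g) := by
  classical
  -- each `g σ` is bijective
  have hinv : ∀ σ ∈ H, ∀ x : M, g σ⁻¹ (g σ x) = x := fun σ hσ x => by
    change (g σ⁻¹ * g σ) x = x
    rw [← hmul _ (inv_mem hσ) _ hσ, inv_mul_cancel, h1]; rfl
  have hbij : ∀ σ ∈ H, Function.Bijective (g σ) := fun σ hσ =>
    ⟨Function.LeftInverse.injective (hinv σ hσ), fun x => ⟨g σ⁻¹ x, by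
      have := hinv σ⁻¹ (inv_mem hσ) x
      rwa [inv_inv] at this⟩⟩
  set O := Algebra.adjoin (Rfix A H) s with hO
  -- the algebra on the generators is equivariant
  have hOe : ∀ f ∈ O, ∀ σ ∈ H, ∀ x, f (g σ x) = σ (f x) := by
    intro f hf σ hσ
    induction hf using Algebra.adjoin_induction with
    | mem f hf => exact hse f hf σ hσ
    | algebraMap r => intro x; simp [algebraMap_Rfix, apply_Rfix hσ]
    | add u v _ _ hu hv => intro x; rw [Pi.add_apply, Pi.add_apply, map_add, hu, hv]
    | mul u v _ _ hu hv => intro x; rw [Pi.mul_apply, Pi.mul_apply, map_mul, hu, hv]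
  refine ⟨⟨O, fg_adjoin_of_finite hs fun f hf =>
    Curve.isIntegral_fun (g := fun σ => g σ) hbij (hsA f hf) (hse f hf), hI, h1, hmul, hOe,
    fun x y hxy => hsep x y fun f hf => hxy f (Algebra.subset_adjoin hf), fun f hf => ?_⟩⟩
  -- addition: it suffices to treat generators, where the span condition descends
  suffices (fun z : M × M => f (z.1 + z.2)) ∈ Algebra.adjoin (Rfix A H) (pairGens s) by
    obtain ⟨n, a, b, hab, e⟩ := Curve.decomposes_of_mem Algebra.subset_adjoin this
    exact ⟨n, a, b, hab, fun x y => e x y⟩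
  induction hf using Algebra.adjoin_induction with
  | mem f hf =>
    refine Curve.mem_of_mem_span (g := fun σ z => (g σ z.1, g σ z.2)) h hI
      (fun σ hσ => (hbij σ hσ).prodMap (hbij σ hσ)) ((hs.image _).union (hs.image _)) ?_ ?_ ?_
      (hadd f hf)
    · rintro _ (⟨u, hu, rfl⟩ | ⟨u, hu, rfl⟩) z <;> exact hsA u hu _
    · rintro _ (⟨u, hu, rfl⟩ | ⟨u, hu, rfl⟩) σ hσ z <;> exact hse u hu σ hσ _
    · intro σ hσ z
      change f (g σ z.1 + g σ z.2) = σ (f (z.1 + z.2))
      rw [← map_add, hse f hf σ hσ]
  | algebraMap r => exact Subalgebra.algebraMap_mem _ r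
  | add u v _ _ hu hv => exact add_mem hu hv
  | mul u v _ _ hu hv => exact mul_mem hu hv

/-- **Models on groups with jointly injective maps to groups with models.** -/
theorem nonempty_of_family (h : IsPlace A p) (hI : A.inertiaSubgroupIn ℚ ≤ H)
    {T : Type*} [Finite T] {N : T → Type*} [∀ t, AddCommGroup (N t)] [∀ t, Finite (N t)]
    {gN : ∀ t, Γℚ → AddMonoid.End (N t)} (G : ∀ t, Model A H (gN t))
    (q : ∀ t, M →+ N t) (hinj : ∀ x y, (∀ t, q t x = q t y) → x = y)
    {g : Γℚ → AddMonoid.End M} (hq : ∀ t, ∀ σ ∈ H, ∀ x, q t (g σ x) = gN t σ (q t x)) :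
    Nonempty (Model A H g) := by
  classical
  -- the action is a homomorphism, as seen after the maps `q t`
  have h1 : g 1 = 1 := AddMonoidHom.ext fun x => hinj _ _ fun t => by
    change q t (g 1 x) = q t x
    rw [hq t 1 (one_mem H), (G t).one_act]
  have hmul : ∀ σ ∈ H, ∀ τ ∈ H, g (σ * τ) = g σ * g τ := fun σ hσ τ hτ =>
    AddMonoidHom.ext fun x => hinj _ _ fun t => by
      change q t (g (σ * τ) x) = q t (g σ (g τ x))
      rw [hq t _ (mul_mem hσ hτ), hq t σ hσ, hq t τ hτ, (G t).act_act hσ hτ]
  choose S hS using fun t => (G t).fg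
  have hSO : ∀ t, ∀ f ∈ S t, f ∈ (G t).O := fun t f hf => by
    have : f ∈ Subalgebra.toSubmodule (G t).O := hS t ▸ Submodule.subset_span hf
    exact this
  have hOS : ∀ t, ∀ f ∈ (G t).O, f ∈ Algebra.adjoin (Rfix A H) (S t : Set (N t → ℚbar)) :=
    fun t f hf => by
      have hf' : f ∈ Submodule.span (Rfix A H) (S t : Set (N t → ℚbar)) := (hS t).symm ▸ hf
      have hle : Submodule.span (Rfix A H) (S t : Set (N t → ℚbar)) ≤
          Subalgebra.toSubmodule (Algebra.adjoin (Rfix A H) (S t : Set (N t → ℚbar))) :=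
        Submodule.span_le.mpr Algebra.subset_adjoin
      exact hle hf'
  -- generators: the pullbacks of those of the models
  set s : Set (M → ℚbar) := ⋃ t, pull (A := A) (H := H) (q t) '' (S t : Set (N t → ℚbar))
  have hmem : ∀ t, ∀ u ∈ (G t).O, pull (A := A) (H := H) (q t) u ∈ Algebra.adjoin (Rfix A H) s :=
    fun t u hu => by
      refine Algebra.adjoin_mono (Set.subset_iUnion (fun t =>
        pull (A := A) (H := H) (q t) '' (S t : Set (N t → ℚbar))) t) ?_
      rw [← AlgHom.map_adjoin]
      exact ⟨u, hOS t u hu, rfl⟩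
  have hfst : ∀ u ∈ Algebra.adjoin (Rfix A H) s,
      pull (A := A) (H := H) (Prod.fst : M × M → M) u ∈
        Algebra.adjoin (Rfix A H) (pairGens s) := fun u hu => by
    refine Algebra.adjoin_mono (Set.subset_union_left) ?_
    change _ ∈ Algebra.adjoin (Rfix A H) (pull (A := A) (H := H) (Prod.fst : M × M → M) '' s)
    rw [← AlgHom.map_adjoin]
    exact ⟨u, hu, rfl⟩
  have hsnd : ∀ u ∈ Algebra.adjoin (Rfix A H) s,
      pull (A := A) (H := H) (Prod.snd : M × M → M) u ∈
        Algebra.adjoin (Rfix A H) (pairGens s) := fun u hu => by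
    refine Algebra.adjoin_mono (Set.subset_union_right) ?_
    change _ ∈ Algebra.adjoin (Rfix A H) (pull (A := A) (H := H) (Prod.snd : M × M → M) '' s)
    rw [← AlgHom.map_adjoin]
    exact ⟨u, hu, rfl⟩
  -- they are integral, equivariant, separating and closed under comultiplication
  refine nonempty_of_gens h hI h1 hmul (s := s)
    (Set.finite_iUnion fun t => (S t).finite_toSet.image _) ?_ ?_ ?_ ?_
  · simp only [s, Set.mem_iUnion]
    rintro _ ⟨t, u, hu, rfl⟩ x
    exact (mem_iff_ge h _).mpr ((G t).ge_zero h (hSO t u hu) _)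
  · simp only [s, Set.mem_iUnion]
    rintro _ ⟨t, u, hu, rfl⟩ σ hσ x
    change u (q t (g σ x)) = σ (u (q t x))
    rw [hq t σ hσ, (G t).equivariant u (hSO t u hu) σ hσ]
  · intro x y hxy
    refine hinj x y fun t => (G t).separates _ _ fun u hu => ?_
    have hu' := hOS t u hu
    clear hu
    induction hu' using Algebra.adjoin_induction with
    | mem u hu => exact hxy _ (Set.mem_iUnion.mpr ⟨t, u, hu, rfl⟩)
    | algebraMap r => rfl
    | add u v _ _ iu iv => rw [Pi.add_apply, Pi.add_apply, iu, iv]
    | mul u v _ _ iu iv => rw [Pi.mul_apply, Pi.mul_apply, iu, iv]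
  · simp only [s, Set.mem_iUnion]
    rintro _ ⟨t, u, hu, rfl⟩
    refine Submodule.subset_span ?_
    obtain ⟨n, a, b, hab, e⟩ := (G t).comul u (hSO t u hu)
    have he : (fun z : M × M => pull (A := A) (H := H) (q t) u (z.1 + z.2)) =
        ∑ i, pull (A := A) (H := H) (Prod.fst : M × M → M) (pull (A := A) (H := H) (q t) (a i)) *
          pull (A := A) (H := H) (Prod.snd : M × M → M) (pull (A := A) (H := H) (q t) (b i)) := by
      funext z
      simp [e]
    rw [SetLike.mem_coe, he]
    exact sum_mem fun i _ => mul_mem (hfst _ (hmem t _ (hab i).1)) (hsnd _ (hmem t _ (hab i).2))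

end Model

end Fermat.FLAT
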