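import Fermat.Agent.FLAT.Model
import Fermat.Agent.FLAT.Red
import Fermat.Agent.EC.Sparse
import Mathlib.RingTheory.Int.Basic
import Mathlib.Algebra.Order.Ring.Finset
import Mathlib.Data.ZMod.Basic
import Mathlib.Data.Nat.Choose.Dvd
import Mathlib.FieldTheory.Finite.Basic
import Mathlib.Algebra.BigOperators.Fin

/-!
# The key congruence of a model killed by `p`

For `f` in the augmentation ideal there is `v` with `p f(x) + v(x)^p ≡ 0` to order `1 + 2a`, where
`a` bounds below the orders of the augmentation ideal at `x`.  Consequences: `a ≤ 1/(p-1)`.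
-/

set_option autoImplicit false
set_option linter.unusedSectionVars false

noncomputable section

open Fermat.EC.Val

namespace Fermat.FLAT

local notation "ℚbar" => AlgebraicClosure ℚ
local notation "Γℚ" => (AlgebraicClosure ℚ ≃ₐ[ℚ] AlgebraicClosure ℚ)

variable {p : ℕ} [hp : Fact p.Prime] {A : ValuationSubring ℚbar}

/-- A free `ℤ/p`-invariant sum is divisible by `p`. -/
lemma ge_sum_free {X : Type*} [DecidableEq X] (h : IsPlace A p) (r : ZMod p → X → X)
    (r0 : ∀ x, r 0 x = x) (radd : ∀ k l x, r k (r l x) = r (k + l) x) {w : X → ℚbar}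
    (hw : ∀ k x, w (r k x) = w x)
    {b : ℚ} (s : Finset X) (hs : ∀ k, ∀ x ∈ s, r k x ∈ s)
    (free : ∀ x ∈ s, ∀ k, r k x = x → k = 0) (hb : ∀ x ∈ s, Ge A p (w x) b) :
    Ge A p (∑ x ∈ s, w x) (1 + b) := by
  induction s using Finset.strongInduction with
  | _ s ih =>
    rcases s.eq_empty_or_nonempty with rfl | ⟨x, hx⟩
    · simp [ge_zero]
    have : NeZero p := ⟨hp.out.ne_zero⟩
    set o : Finset X := Finset.univ.image fun k => r k x with ho
    have hinj : Function.Injective fun k => r k x := fun k l e => by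
      have := congrArg (r (-l)) e
      simp only [radd, neg_add_cancel, r0] at this
      exact (neg_add_eq_zero.mp (free x hx _ this)).symm
    have hos : o ⊆ s := fun y hy => by
      obtain ⟨k, _, rfl⟩ := Finset.mem_image.mp hy
      exact hs k x hx
    rw [← Finset.sum_sdiff hos]
    refine Ge.add h (ih _ (Finset.sdiff_ssubset hos ⟨x, ?_⟩) (fun k y hy => ?_)
      (fun y hy => free y (Finset.mem_sdiff.mp hy).1) fun y hy =>
        hb y (Finset.mem_sdiff.mp hy).1) ?_
    · exact Finset.mem_image.mpr ⟨0, Finset.mem_univ _, r0 x⟩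
    · refine Finset.mem_sdiff.mpr ⟨hs k y (Finset.mem_sdiff.mp hy).1, fun hk => ?_⟩
      obtain ⟨l, _, e⟩ := Finset.mem_image.mp hk
      refine (Finset.mem_sdiff.mp hy).2 (Finset.mem_image.mpr ⟨-k + l, Finset.mem_univ _, ?_⟩)
      rw [← radd, e, radd, neg_add_cancel, r0]
    · rw [ho, Finset.sum_image fun k _ l _ e => hinj e]
      simp only [hw, Finset.sum_const, Finset.card_univ, ZMod.card, nsmul_eq_mul]
      exact (show Ge A p (p : ℚbar) 1 from Or.inr (ord_q h).ge).mul h (hb x hx)

/-- The binomial congruence `(x + y) ^ p ≡ x ^ p + y ^ p` to order `1 + p a`. -/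
lemma ge_add_pow_sub (h : IsPlace A p) {x y : ℚbar} {a : ℚ} (hx : Ge A p x a) (hy : Ge A p y a) :
    Ge A p ((x + y) ^ p - (x ^ p + y ^ p)) (1 + p * a) := by
  have hp' := hp.out
  have e : (x + y) ^ p - (x ^ p + y ^ p) =
      ∑ k ∈ Finset.Ico 1 p, x ^ k * y ^ (p - k) * (p.choose k : ℚbar) := by
    rw [add_pow, Finset.sum_range_succ, Finset.range_eq_Ico,
      Finset.sum_eq_sum_Ico_succ_bot hp'.pos]
    simp
    ring
  rw [e]
  refine Ge.sum h fun k hk => ?_
  rw [Finset.mem_Ico] at hk
  obtain ⟨c, hc⟩ := Nat.Prime.dvd_choose_self hp' (show k ≠ 0 by omega) hk.2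
  rw [hc, Nat.cast_mul, mul_left_comm]
  refine (show Ge A p (p : ℚbar) 1 from Or.inr (ord_q h).ge).mul h ?_
  have := ((hx.pow h k).mul h (hy.pow h (p - k))).mul h (ge_natCast h c)
  refine this.mono (le_of_eq ?_)
  rw [Nat.cast_sub hk.2.le]
  ring

/-- `(∑ y)^p ≡ ∑ y^p`. -/
lemma ge_sum_pow_sub {X : Type*} (h : IsPlace A p) (s : Finset X) (y : X → ℚbar) {a : ℚ}
    (hy : ∀ i ∈ s, Ge A p (y i) a) :
    Ge A p ((∑ i ∈ s, y i) ^ p - ∑ i ∈ s, y i ^ p) (1 + p * a) := by
  classical
  induction s using Finset.induction_on with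
  | empty => simp [zero_pow hp.out.ne_zero, ge_zero]
  | insert i s hi ih =>
    rw [Finset.sum_insert hi, Finset.sum_insert hi]
    have hy' := fun j hj => hy j (Finset.mem_insert_of_mem hj)
    have := (ge_add_pow_sub h (hy i (Finset.mem_insert_self _ _)) (Ge.sum h hy')).add h (ih hy')
    convert this using 1
    ring

/-- Modulo `p` every element of the fixed ring is a `p`-th power. -/
lemma exists_pth_Rfix {H : Subgroup Γℚ} (h : IsPlace A p) (hI : A.inertiaSubgroupIn ℚ ≤ H)
    (c : Rfix A H) : ∃ d : Rfix A H, Ge A p ((d : ℚbar) ^ p - c) 1 := by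
  have key : ∀ d : Rfix A H, Gt A p ((d : ℚbar) ^ p - c) 0 → Ge A p ((d : ℚbar) ^ p - c) 1 := by
    intro d hgt
    rcases eq_or_ne (d ^ p - c) 0 with e | e
    · exact Or.inl (by simpa using congrArg Subtype.val e)
    obtain ⟨m, hm⟩ := exists_nat_ord_Rfix h hI e
    have hm' : ord A p ((d : ℚbar) ^ p - c) = m := by simpa using hm
    have hne : (d : ℚbar) ^ p - c ≠ 0 := fun e0 => e (Subtype.ext (by simpa using e0))
    have hpos := hgt.resolve_left hne
    rw [hm'] at hpos
    refine Or.inr ?_
    rw [hm']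
    exact_mod_cast Nat.one_le_iff_ne_zero.mpr fun e0 => by simp [e0] at hpos
  by_cases hg : Gt A p (c : ℚbar) 0
  · refine ⟨0, key 0 ?_⟩
    simpa [zero_pow hp.out.ne_zero] using hg.neg h
  have hc : Is A p (c : ℚbar) 0 := (ge_Rfix h c).is_of_not_gt hg
  obtain ⟨n, hn, z, hz, hcz⟩ := exists_root_near h hc
  obtain ⟨j, hj⟩ : ∃ j, Nat.totient n = j + 1 := by
    have hn0 : n ≠ 0 := fun e => hn (by rw [e]; exact dvd_zero p)
    have := Nat.totient_pos.mpr (Nat.pos_of_ne_zero hn0)
    exact ⟨Nat.totient n - 1, by omega⟩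
  have hmod : p ^ (j + 1) ≡ 1 [MOD n] :=
    hj ▸ Nat.ModEq.pow_totient (hp.out.coprime_iff_not_dvd.mpr hn)
  have hzI : Ge A p z 0 :=
    (is_root_unity h (fun e => hn (by rw [e]; exact dvd_zero p)) hz).ge
  refine ⟨c ^ p ^ j, key _ ?_⟩
  have hcp : ∀ m : ℕ, Ge A p ((c : ℚbar) ^ m) 0 := fun m => by simpa using hc.ge.pow h m
  rw [Subring.coe_pow, ← pow_mul, ← pow_succ, ← red_eq_iff h (hcp _) hc.ge, red_pow h hc.ge,
    (red_eq_iff h hc.ge hzI).mpr hcz, ← red_pow h hzI, pow_eq_pow_of_modEq hmod hz, pow_one]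

namespace Model

variable {H : Subgroup Γℚ} {M : Type*} [AddCommGroup M] [Finite M] {g : Γℚ → AddMonoid.End M}
  (G : Model A H g)

/-- `a` bounds below the orders of the augmentation ideal at `x`. -/
def Dom (p : ℕ) (x : M) (a : ℚ) : Prop :=
  ∀ f ∈ G.O, f 0 = 0 → Ge A p (f x) a

section expansion

variable {n : ℕ} {e : Fin n → M → ℚbar}

/-- The iterated coproduct expansion: `f` of a sum in the products of basis functions. -/
lemma exists_iter (hspan : ∀ f ∈ G.O, ∃ c : Option (Fin n) → Rfix A H, f = ∑ o, c o • bb e o)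
    (he : ∀ i, e i ∈ G.O ∧ e i 0 = 0) :
    ∀ (m : ℕ) {f : M → ℚbar}, f ∈ G.O → ∃ C : (Fin m → Option (Fin n)) → Rfix A H,
      ∀ x : Fin m → M, f (∑ t, x t) = ∑ F, algebraMap (Rfix A H) ℚbar (C F) * ∏ t, bb e (F t) (x t)
  | 0, f, hf => by
    obtain ⟨r, hr⟩ := G.exists_apply_zero hf
    exact ⟨fun _ => r, fun x => by simp [hr]⟩
  | m + 1, f, hf => by
    obtain ⟨C, hC⟩ := G.exists_comul hspan hf
    choose D hD using fun o => exists_iter hspan he m (G.bb_mem he o)
    refine ⟨fun F => ∑ o, C (F 0) o * D o (Fin.tail F), fun x => ?_⟩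
    rw [← Equiv.sum_comp (Fin.consEquiv fun _ : Fin (m + 1) => Option (Fin n)),
      Fintype.sum_prod_type, Fin.sum_univ_succ, hC]
    refine Finset.sum_congr rfl fun o _ => ?_
    simp only [hD, Finset.mul_sum, Finset.sum_mul, map_sum, map_mul, Fin.consEquiv, Equiv.coe_fn_mk,
      Fin.cons_zero, Fin.tail_cons, Fin.prod_univ_succ, Fin.cons_succ]
    rw [Finset.sum_comm]
    refine Finset.sum_congr rfl fun F _ => Finset.sum_congr rfl fun o' _ => ?_
    ring

/-- The coefficients in products of basis functions are unique. -/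
lemma coeff_unique (hind : LinearIndependent ℚbar (bb e)) :
    ∀ {m : ℕ} (c : (Fin m → Option (Fin n)) → ℚbar),
      (∀ x : Fin m → M, ∑ F, c F * ∏ t, bb e (F t) (x t) = 0) → ∀ F, c F = 0
  | 0, c, hc, F => by
    have := hc Fin.elim0
    simp only [Fintype.sum_unique, Finset.univ_eq_empty, Finset.prod_empty, mul_one] at this
    rw [Subsingleton.elim F default]
    convert this using 2
  | m + 1, c, hc, F => by
    have h0 : ∀ o, ∀ y : Fin m → M, ∑ H, c (Fin.cons o H) * ∏ t, bb e (H t) (y t) = 0 := by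
      intro o y
      refine Fintype.linearIndependent_iff.mp hind
        (fun o => ∑ H, c (Fin.cons o H) * ∏ t, bb e (H t) (y t)) (funext fun z => ?_) o
      have := hc (Fin.cons z y)
      rw [← Equiv.sum_comp (Fin.consEquiv fun _ : Fin (m + 1) => Option (Fin n)),
        Fintype.sum_prod_type] at this
      simp only [Fin.consEquiv, Equiv.coe_fn_mk, Fin.prod_univ_succ, Fin.cons_zero, Fin.cons_succ]
        at this
      simp only [Finset.sum_apply, Pi.smul_apply, smul_eq_mul, Finset.sum_mul, Pi.zero_apply]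
      rw [← this]
      exact Finset.sum_congr rfl fun o _ => Finset.sum_congr rfl fun H _ => by ring
    have := coeff_unique hind _ (h0 (F 0)) (Fin.tail F)
    rwa [Fin.cons_self_tail] at this

end expansion

section cyclic

variable {n : ℕ} {e : Fin n → M → ℚbar}

/-- The term of index `F` of the diagonal expansion at `x`. -/
def cycTerm (e : Fin n → M → ℚbar) (C : (ZMod p → Option (Fin n)) → ℚbar) [NeZero p] (x : M)
    (F : ZMod p → Option (Fin n)) : ℚbar :=
  C F * ∏ t, bb e (F t) x

/-- The index taking the value `o` at `t` and `none` elsewhere. -/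
def singleIdx (t : ZMod p) (o : Option (Fin n)) : ZMod p → Option (Fin n) :=
  Function.update (fun _ => none) t o

/-- The indices with exactly one value different from `none`. -/
def oneSupp (p n : ℕ) [NeZero p] : Finset (ZMod p → Option (Fin n)) :=
  Finset.univ.filter fun F => ∃ t, F t ≠ none ∧ ∀ s, s ≠ t → F s = none

/-- The indices which are constant functions of `t`. -/
def constIdx (p n : ℕ) [NeZero p] : Finset (ZMod p → Option (Fin n)) :=
  Finset.univ.filter fun F => ∀ t, F t = F 0

/-- A `p`-fold expansion with coefficients invariant under rotation. -/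
lemma exists_cyclic_expansion [NeZero p]
    (hspan : ∀ f ∈ G.O, ∃ c : Option (Fin n) → Rfix A H, f = ∑ o, c o • bb e o)
    (he : ∀ i, e i ∈ G.O ∧ e i 0 = 0) (hind : LinearIndependent ℚbar (bb e))
    {f : M → ℚbar} (hf : f ∈ G.O) :
    ∃ C : (ZMod p → Option (Fin n)) → ℚbar, (∀ F, C F ∈ Rfix A H) ∧
      (∀ x : ZMod p → M, f (∑ t, x t) = ∑ F, C F * ∏ t, bb e (F t) (x t)) ∧
      ∀ F k, C (fun t => F (t + k)) = C F := by
  obtain ⟨C₀, hC₀⟩ := G.exists_iter hspan he p hf
  set ψ : Fin p ≃ ZMod p := (ZMod.finEquiv p).toEquiv with hψ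
  set C : (ZMod p → Option (Fin n)) → ℚbar :=
    fun F => algebraMap (Rfix A H) ℚbar (C₀ (F ∘ ψ)) with hCd
  have hC : ∀ x : ZMod p → M, f (∑ t, x t) = ∑ F, C F * ∏ t, bb e (F t) (x t) := by
    intro x
    have hprod : ∀ u : ZMod p → ℚbar, ∏ t, u (ψ t) = ∏ t, u t := fun u => Equiv.prod_comp ψ u
    rw [← Equiv.sum_comp ψ x, hC₀,
      ← Equiv.sum_comp (ψ.arrowCongr (Equiv.refl (Option (Fin n))))]
    refine Finset.sum_congr rfl fun F _ => ?_
    rw [← hprod fun t => bb e (ψ.arrowCongr (Equiv.refl (Option (Fin n))) F t) (x t)]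
    simp [hCd, Function.comp_def]
  have huniq : ∀ c : (ZMod p → Option (Fin n)) → ℚbar,
      (∀ x : ZMod p → M, ∑ F, c F * ∏ t, bb e (F t) (x t) = 0) → ∀ F, c F = 0 := by
    intro c hc F
    have := coeff_unique hind (fun H => c (H ∘ ψ.symm)) (fun x => by
      have h1 := hc (x ∘ ψ.symm)
      rw [← Equiv.sum_comp (ψ.arrowCongr (Equiv.refl (Option (Fin n))))] at h1
      rw [← h1]
      refine Finset.sum_congr rfl fun H _ => ?_
      rw [← Equiv.prod_comp ψ.symm]
      simp [Function.comp_def]
      exact Or.inl rfl) (F ∘ ψ)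
    simpa [Function.comp_def] using this
  refine ⟨C, fun F => (C₀ (F ∘ ψ)).2, hC, fun F k => ?_⟩
  refine sub_eq_zero.mp (huniq (fun H => C (fun t => H (t + k)) - C H) (fun x => ?_) F)
  simp only [sub_mul, Finset.sum_sub_distrib, sub_eq_zero]
  rw [← hC, ← Equiv.sum_comp (Equiv.addRight k) x, hC fun t => x ((Equiv.addRight k) t),
    ← Equiv.sum_comp ((Equiv.addRight k).arrowCongr (Equiv.refl (Option (Fin n))))]
  refine Finset.sum_congr rfl fun H _ => ?_
  rw [← Equiv.prod_comp (Equiv.addRight k)]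
  simp

variable [NeZero p] {C : (ZMod p → Option (Fin n)) → ℚbar} {f : M → ℚbar}
  (hC : ∀ x : ZMod p → M, f (∑ t, x t) = ∑ F, C F * ∏ t, bb e (F t) (x t))
  (he : ∀ i, e i 0 = 0)
include hC he

/-- The constant coefficient is the value at `0`. -/
lemma coeff_none_eq (hf0 : f 0 = 0) :
    C (fun _ => none) = 0 := by
  have hsum : f (∑ _t : ZMod p, (0 : M)) = 0 := by rw [Finset.sum_const_zero, hf0]
  rw [hC fun _ => 0, Finset.sum_eq_single (fun _ => none)] at hsum
  · simpa [bb] using hsum
  · intro F _ hF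
    obtain ⟨s, hs⟩ := Function.ne_iff.mp hF
    obtain ⟨i, hi⟩ := Option.ne_none_iff_exists'.mp hs
    refine mul_eq_zero_of_right _ (Finset.prod_eq_zero (Finset.mem_univ s) ?_)
    rw [hi]
    exact he i
  · simp

/-- The terms supported at one index add up to the function. -/
lemma sum_singleIdx_eq (t : ZMod p) (x : M) : ∑ o, cycTerm e C x (singleIdx t o) = f x := by
  classical
  have h1 : f x = f (∑ s, Function.update (0 : ZMod p → M) t x s) := by
    rw [Finset.sum_update_of_mem (Finset.mem_univ t)]; simp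
  rw [h1, hC]
  refine Eq.trans ?_ (Finset.sum_subset (Finset.subset_univ (Finset.univ.image (singleIdx t))) ?_)
  · rw [Finset.sum_image fun o _ o' _ ho => by simpa [singleIdx] using congrFun ho t]
    refine Finset.sum_congr rfl fun o _ => ?_
    rw [cycTerm]
    congr 1
    refine Finset.prod_congr rfl fun s _ => ?_
    rcases eq_or_ne s t with rfl | hs
    · simp [singleIdx]
    · simp [singleIdx, hs, bb]
  · intro F _ hF
    obtain ⟨s, hst, hs⟩ : ∃ s, s ≠ t ∧ F s ≠ none := by
      by_contra hc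
      push Not at hc
      refine hF (Finset.mem_image.mpr ⟨F t, Finset.mem_univ _, funext fun s => ?_⟩)
      rcases eq_or_ne s t with rfl | hs
      · simp [singleIdx]
      · simp [singleIdx, hs, hc s hs]
    obtain ⟨i, hi⟩ := Option.ne_none_iff_exists'.mp hs
    refine mul_eq_zero_of_right _ (Finset.prod_eq_zero (Finset.mem_univ s) ?_)
    rw [hi, Function.update_of_ne hst]
    exact he i

/-- The terms with one index different from `none` add up to `p f(x)`. -/
lemma sum_oneSupp_eq (hf0 : f 0 = 0) (x : M) :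
    ∑ F ∈ oneSupp p n, cycTerm e C x F = (p : ℚbar) * f x := by
  classical
  have e1 : oneSupp p n =
      Finset.univ.biUnion fun t : ZMod p => Finset.univ.image fun i : Fin n =>
        singleIdx t (some i) := by
    ext F
    simp only [oneSupp, Finset.mem_filter, Finset.mem_univ, true_and, Finset.mem_biUnion,
      Finset.mem_image]
    constructor
    · rintro ⟨t, ht, hs⟩
      obtain ⟨i, hi⟩ := Option.ne_none_iff_exists'.mp ht
      refine ⟨t, i, funext fun s => ?_⟩
      rcases eq_or_ne s t with rfl | hst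
      · simp [singleIdx, hi]
      · simp [singleIdx, hst, hs s hst]
    · rintro ⟨t, i, rfl⟩
      exact ⟨t, by simp [singleIdx], fun s hst => by simp [singleIdx, hst]⟩
  rw [e1, Finset.sum_biUnion ?_]
  · rw [Finset.sum_congr rfl fun t _ => show _ = f x from ?_, Finset.sum_const, Finset.card_univ,
      ZMod.card, nsmul_eq_mul]
    rw [Finset.sum_image fun o _ o' _ ho => by simpa [singleIdx] using congrFun ho t,
      ← sum_singleIdx_eq hC he t x, Fintype.sum_option]
    have : singleIdx (n := n) t none = fun _ => none := by simp [singleIdx]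
    rw [this, cycTerm]
    simp [coeff_none_eq hC he hf0]
  · intro t _ t' _ hne
    simp only [Function.onFun, Finset.disjoint_left, Finset.mem_image, Finset.mem_univ, true_and]
    rintro F ⟨i, rfl⟩ ⟨i', hi'⟩
    have := congrFun hi' t
    simp [singleIdx, hne] at this

omit hC he

/-- The other terms are divisible by `p` and by two orders of the augmentation ideal. -/
lemma ge_sum_rest (h : IsPlace A p) (he : ∀ i, e i ∈ G.O ∧ e i 0 = 0)
    (hrot : ∀ F k, C (fun t => F (t + k)) = C F) (hC0 : ∀ F, Ge A p (C F) 0)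
    {x : M} {a : ℚ} (hx : G.Dom p x a) :
    Ge A p (∑ F ∈ Finset.univ \ (oneSupp p n ∪ constIdx p n), cycTerm e C x F) (1 + 2 * a) := by
  classical
  -- The sum is over free orbits of the cyclic shift, each orbit giving a factor `p`.
  refine ge_sum_free h (fun k F t => F (t + k)) (fun F => by simp)
    (fun k l F => funext fun t => by simp [add_assoc]) (fun k F => ?_) _ (fun k F hF => ?_)
    (fun F hF k hk => ?_) fun F hF => ?_
  -- The terms are invariant under shifts.
  · change C (fun t => F (t + k)) * _ = _ * _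
    rw [hrot]
    congr 1
    exact Equiv.prod_comp (Equiv.addRight k) fun t => bb e (F t) x
  -- The index set is stable under shifts.
  · simp only [oneSupp, constIdx, Finset.mem_sdiff, Finset.mem_union, Finset.mem_filter,
      Finset.mem_univ, true_and, not_or] at hF ⊢
    refine ⟨fun ⟨t, ht, hs⟩ => hF.1 ⟨t + k, ht, fun s hs' => ?_⟩, fun hc => hF.2 fun t => ?_⟩
    · have := hs (s - k) (fun e => hs' (by rw [← e, sub_add_cancel]))
      simpa using this
    · have h1 := hc (t - k)
      have h2 := hc (0 - k)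
      simp only [sub_add_cancel] at h1 h2
      rw [h1, h2]
  -- A sequence fixed by a nonzero shift is constant, so the shifts act freely.
  · by_contra hk0
    simp only [constIdx, Finset.mem_sdiff, Finset.mem_union, Finset.mem_filter, Finset.mem_univ,
      true_and, not_or] at hF
    refine hF.2 fun t => ?_
    have hper : ∀ (j : ℕ), F ((j : ZMod p) * k) = F 0 := by
      intro j
      induction j with
      | zero => simp
      | succ j ih => rw [Nat.cast_succ, add_mul, one_mul, congrFun hk ((j : ZMod p) * k), ih]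
    have := hper (t / k).val
    rwa [ZMod.natCast_zmod_val, div_mul_cancel₀ _ hk0] at this
  -- Each term has two factors of the augmentation ideal, so order `≥ 2 a`.
  · simp only [oneSupp, constIdx, Finset.mem_sdiff, Finset.mem_union, Finset.mem_filter,
      Finset.mem_univ, true_and, not_or] at hF
    obtain ⟨t, ht⟩ : ∃ t, F t ≠ none := by
      by_contra hc
      push Not at hc
      exact hF.2 fun t => (hc t).trans (hc 0).symm
    obtain ⟨s, hst, hs⟩ : ∃ s, s ≠ t ∧ F s ≠ none := by
      by_contra hc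
      push Not at hc
      exact hF.1 ⟨t, ht, hc⟩
    obtain ⟨i, hi⟩ := Option.ne_none_iff_exists'.mp ht
    obtain ⟨j, hj⟩ := Option.ne_none_iff_exists'.mp hs
    change Ge A p (C F * ∏ u, bb e (F u) x) (2 * a)
    rw [← Finset.mul_prod_erase _ _ (Finset.mem_univ t),
      ← Finset.mul_prod_erase _ _ (Finset.mem_erase.mpr ⟨hst, Finset.mem_univ s⟩), hi, hj]
    have hrest : Ge A p (∏ u ∈ (Finset.univ.erase t).erase s, bb e (F u) x) 0 := by
      rw [← mem_iff_ge h]
      exact prod_mem fun u _ => (mem_iff_ge h _).mpr (G.ge_zero h (G.bb_mem he _) x)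
    have := (hC0 F).mul h ((hx _ (he i).1 (he i).2).mul h ((hx _ (he j).1 (he j).2).mul h hrest))
    exact this.mono (le_of_eq (by ring))

/-- The constant terms are congruent to a `p`-th power. -/
lemma ge_sum_constIdx_sub (h : IsPlace A p) (he : ∀ i, e i ∈ G.O ∧ e i 0 = 0)
    (hnone : C (fun _ => none) = 0)
    {d₀ : Fin n → Rfix A H} (hd₀ : ∀ i, Ge A p ((d₀ i : ℚbar) ^ p - C fun _ => some i) 1)
    {x : M} {a : ℚ} (ha : 0 ≤ a) (hx : G.Dom p x a) :
    Ge A p (∑ F ∈ constIdx p n, cycTerm e C x F - (∑ i, d₀ i • e i) x ^ p) (1 + 2 * a) := by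
  classical
  have e1 : constIdx p n = Finset.univ.image fun o : Option (Fin n) => fun _ : ZMod p => o := by
    ext F
    simp only [constIdx, Finset.mem_filter, Finset.mem_univ, true_and, Finset.mem_image]
    exact ⟨fun hF => ⟨F 0, funext fun t => (hF t).symm⟩, fun ⟨o, ho⟩ t => by simp [← ho]⟩
  rw [e1, Finset.sum_image fun o _ o' _ ho => congrFun ho 0, Fintype.sum_option]
  simp only [cycTerm, hnone, zero_mul, zero_add, bb, Option.elim, Finset.prod_const,
    Finset.card_univ, ZMod.card]
  rw [show (∑ i, d₀ i • e i) x = ∑ i, (d₀ i : ℚbar) * e i x by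
    simp [Finset.sum_apply, Algebra.smul_def, algebraMap_Rfix]]
  have hy : ∀ i, Ge A p ((d₀ i : ℚbar) * e i x) a := fun i => by
    simpa using (ge_Rfix h (d₀ i)).mul h (hx _ (he i).1 (he i).2)
  have hp2 : (2 : ℚ) ≤ p := by exact_mod_cast hp.out.two_le
  have h1 := (ge_sum_pow_sub h Finset.univ
    (fun i => (d₀ i : ℚbar) * e i x) fun i _ => hy i).mono
    (show 1 + 2 * a ≤ 1 + p * a by nlinarith)
  have h2 : Ge A p (∑ i, (C (fun _ => some i) * e i x ^ p -
      ((d₀ i : ℚbar) * e i x) ^ p)) (1 + 2 * a) := by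
    refine Ge.sum h fun i _ => ?_
    rw [mul_pow, ← sub_mul, ← neg_sub, neg_mul]
    refine Ge.neg h ?_
    exact ((hd₀ i).mul h ((hx _ (he i).1 (he i).2).pow h p)).mono (by nlinarith)
  have := h2.sub h h1
  rw [Finset.sum_sub_distrib] at this
  convert this using 1
  ring

end cyclic

/-- **The key congruence**: `p f(x) + v(x) ^ p` has order at least `1 + 2a` wherever the
augmentation ideal has orders at least `a`. -/
theorem key_congruence (h : IsPlace A p) (hM : ∀ x : M, p • x = 0) {f : M → ℚbar} (hf : f ∈ G.O)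
    (hf0 : f 0 = 0) :
    ∃ v ∈ G.O, v 0 = 0 ∧ ∀ (x : M) (a : ℚ),
      0 ≤ a → G.Dom p x a → Ge A p ((p : ℚbar) * f x + v x ^ p) (1 + 2 * a) := by
  classical
  have : NeZero p := ⟨hp.out.ne_zero⟩
  obtain ⟨n, e, he, hind, hspan⟩ := G.exists_basis h
  obtain ⟨C, hmem, hC, hrot⟩ := G.exists_cyclic_expansion (p := p) hspan he hind hf
  have he0 : ∀ i, e i 0 = 0 := fun i => (he i).2
  have hdisj : Disjoint (oneSupp p n) (constIdx p n) := by
    rw [oneSupp, constIdx, Finset.disjoint_filter]
    rintro F - ⟨t, ht, hs⟩ hF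
    have h1 : t + 1 ≠ t := by simp
    have := hs _ h1
    rw [hF, ← hF t] at this
    exact ht this
  -- `v` is given by `p`-th roots modulo `p` of the coefficients at the constant indices
  choose d₀ hd₀ using fun i => exists_pth_Rfix h G.inertia_le ⟨C fun _ => some i, hmem _⟩
  refine ⟨∑ i, d₀ i • e i, sum_mem fun i _ => Subalgebra.smul_mem _ (he i).1 _,
    by simp [Finset.sum_apply, fun i => (he i).2, Algebra.smul_def], fun x a ha hx => ?_⟩
  have hk := G.ge_sum_constIdx_sub h he (coeff_none_eq hC he0 hf0) hd₀ ha hx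
  have hr := G.ge_sum_rest h he hrot (fun F => ge_Rfix h ⟨C F, hmem F⟩) hx
  have htot : ∑ F, cycTerm e C x F = 0 := by
    simp only [cycTerm]
    rw [← hC fun _ => x, Finset.sum_const, Finset.card_univ, ZMod.card, hM, hf0]
  -- `0 = f (p x)` splits into `p f(x)`, the constant indices and the free orbits
  have hsplit : (p : ℚbar) * f x + ∑ F ∈ constIdx p n, cycTerm e C x F +
      ∑ F ∈ Finset.univ \ (oneSupp p n ∪ constIdx p n), cycTerm e C x F = 0 := by
    rw [← sum_oneSupp_eq hC he0 hf0 x, ← Finset.sum_union hdisj, add_comm,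
      Finset.sum_sdiff (Finset.subset_univ _), htot]
  have := (Ge.add h hk hr).neg h
  convert this using 1
  linear_combination hsplit

/-- At a nonzero point with positive orders some function attains the least order `a`, `a ≤
1/(p-1)`, and some function has order `(1 + a)/p`. -/
theorem exists_min_ord (hM : ∀ x : M, p • x = 0) (h : IsPlace A p) {x : M} (hx : x ≠ 0)
    (hc : ∀ f ∈ G.O, f 0 = 0 → Gt A p (f x) 0) :
    ∃ f ∈ G.O, f 0 = 0 ∧ ∃ a, 0 < a ∧ a ≤ 1 / ((p : ℚ) - 1) ∧ Is A p (f x) a ∧ G.Dom p x a ∧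
      ∃ v ∈ G.O, v 0 = 0 ∧ Is A p (v x) ((1 + a) / p) := by
  classical
  obtain ⟨n, e, he, hind, hspan⟩ := G.exists_basis h
  -- Functions separate points, so some `e i x ≠ 0`; let `a` be the least of their orders.
  set s := Finset.univ.filter fun i : Fin n => e i x ≠ 0
  have hs : s.Nonempty := by
    by_contra hs
    rw [Finset.not_nonempty_iff_eq_empty, Finset.filter_eq_empty_iff] at hs
    refine hx (G.separates x 0 fun f hf => ?_)
    obtain ⟨c, rfl⟩ := hspan f hf
    simp only [Finset.sum_apply, Pi.smul_apply, Fintype.sum_option]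
    congr 1
    refine Finset.sum_congr rfl fun i _ => ?_
    change c (some i) • e i x = c (some i) • e i 0
    rw [(he i).2, not_not.mp (hs (Finset.mem_univ i))]
  obtain ⟨i, hi, hmin⟩ := Finset.exists_min_image s (fun i => ord A p (e i x)) hs
  set a := ord A p (e i x)
  have hi0 : e i x ≠ 0 := (Finset.mem_filter.mp hi).2
  have ha : 0 < a := (hc _ (he i).1 (he i).2).resolve_left hi0
  -- Every function vanishing at the origin has order `≥ a` at `x`.
  have hdom : G.Dom p x a := by
    intro f hf hf0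
    obtain ⟨c, rfl⟩ := hspan f hf
    have hc0 : algebraMap (Rfix A H) ℚbar (c none) = 0 := by
      simpa [Finset.sum_apply, Fintype.sum_option, bb, Algebra.smul_def,
        fun i => (he i).2] using hf0
    simp only [Finset.sum_apply, Fintype.sum_option, bb, Option.elim, Algebra.smul_def,
      Pi.mul_apply, Pi.algebraMap_apply, hc0, zero_mul, zero_add]
    refine Ge.sum h fun j _ => ?_
    have hj : Ge A p (e j x) a := by
      by_cases hj0 : e j x = 0
      · exact Or.inl hj0
      · exact Or.inr (hmin j (by simp [s, hj0]))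
    simpa [algebraMap_Rfix] using (ge_Rfix h (c (some j))).mul h hj
  -- The key congruence gives `v` with `p * e i x ≡ -v x ^ p`, so of order `(1 + a)/p`.
  obtain ⟨v, hv, hv0, hkey⟩ := G.key_congruence h hM (he i).1 (he i).2
  have hpf : Is A p ((p : ℚbar) * e i x) (1 + a) :=
    (show Is A p (p : ℚbar) 1 from ⟨Nat.cast_ne_zero.mpr hp.out.ne_zero, ord_q h⟩).mul h ⟨hi0, rfl⟩
  have hvp : Is A p (v x ^ p) (1 + a) := by
    have := (hpf.neg h).add h ((hkey x a ha.le hdom).gt (show 1 + a < 1 + 2 * a by linarith))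
    simpa using this
  have hp2 : (2 : ℚ) ≤ p := by exact_mod_cast hp.out.two_le
  have hvx : v x ≠ 0 := fun e0 => hvp.1 (by rw [e0, zero_pow hp.out.ne_zero])
  have hvo : ord A p (v x) = (1 + a) / p := by
    rw [eq_div_iff (by linarith), mul_comm]
    simpa [ord_pow h] using hvp.2
  -- As `v` also has order `≥ a`, we get `a ≤ (1 + a)/p`, that is `a ≤ 1/(p-1)`.
  refine ⟨e i, (he i).1, (he i).2, a, ha, ?_, ⟨hi0, rfl⟩, hdom, v, hv, hv0, hvx, hvo⟩
  have := (hdom v hv hv0).resolve_left hvx
  rw [hvo, le_div_iff₀ (by linarith)] at this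
  rw [le_div_iff₀ (by linarith)]
  linarith

end Model

end Fermat.FLAT
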