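import Fermat.Agent.FLAT.Key
import Fermat.Agent.EC.Sparse
import Mathlib.Algebra.Polynomial.Taylor
import Mathlib.RingTheory.RootsOfUnity.PrimitiveRoots
import Mathlib.Algebra.CharP.Lemmas

/-!
# Kummer steps of degree `p` over the tame field, and the ramification bound for one step

`K'` is a group of automorphisms over which `y` spans a Kummer step: `τ y = ξ^m y`. Elements fixed
by the stabiliser of `y` are `∑ c_b y^b`; if a translate `w = y - g` has order outside the lattice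
of `K'` then integral such elements move by at least `ord (σ w - w) - ord w`.
-/

set_option autoImplicit false
set_option linter.unusedSectionVars false

noncomputable section

open Fermat.EC.Val IsLocalRing Polynomial

namespace Fermat.FLAT

local notation "ℚbar" => AlgebraicClosure ℚ
local notation "Γℚ" => (AlgebraicClosure ℚ ≃ₐ[ℚ] AlgebraicClosure ℚ)

variable {p : ℕ} [hp : Fact p.Prime] {A : ValuationSubring ℚbar}

/-- `(1 + x) ^ p = 1 + x ^ p + p x + p x² q` with `q` integral, for integral `x`. -/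
lemma one_add_pow_prime (h : IsPlace A p) {x : ℚbar} (hx : Ge A p x 0) :
    ∃ q : ℚbar, Ge A p q 0 ∧
      (1 + x) ^ p = 1 + x ^ p + (p : ℚbar) * x + (p : ℚbar) * x ^ 2 * q := by
  have hp1 : 1 ∈ Finset.Ioo 0 p := Finset.mem_Ioo.mpr ⟨one_pos, hp.out.one_lt⟩
  refine ⟨∑ k ∈ (Finset.Ioo 0 p).erase 1, x ^ (k - 2) * ((p.choose k / p : ℕ) : ℚbar), ?_, ?_⟩
  · rw [← mem_iff_ge h]
    exact sum_mem fun k _ => mul_mem (pow_mem ((mem_iff_ge h x).mpr hx) _) (natCast_mem A _)
  rw [add_comm (1 : ℚbar) x, add_pow_prime_eq hp.out, one_pow, mul_one,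
    ← Finset.add_sum_erase _ _ hp1, Nat.choose_one_right, Nat.div_self hp.out.pos, Nat.cast_one,
    Nat.sub_self, pow_zero, one_pow, mul_one, mul_one, mul_add, mul_one, Finset.mul_sum,
    Finset.mul_sum]
  have : ∀ k ∈ (Finset.Ioo 0 p).erase 1,
      (p : ℚbar) * x * (x ^ (k - 1) * 1 ^ (p - k - 1) * ((p.choose k / p : ℕ) : ℚbar)) =
        (p : ℚbar) * x ^ 2 * (x ^ (k - 2) * ((p.choose k / p : ℕ) : ℚbar)) := by
    intro k hk
    rw [Finset.mem_erase, Finset.mem_Ioo] at hk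
    rw [one_pow, mul_one, show k - 1 = k - 2 + 1 by omega, pow_succ]
    ring
  rw [Finset.sum_congr rfl this]
  ring

/-- `p` has order one. -/
lemma is_p (h : IsPlace A p) : Is A p (p : ℚbar) 1 :=
  ⟨Nat.cast_ne_zero.mpr h.1.ne_zero, ord_q h⟩

/-- One has order zero. -/
lemma is_one (h : IsPlace A p) : Is A p (1 : ℚbar) 0 := ⟨one_ne_zero, ord_one h⟩

/-- A `p`-th root of a unit near `1` is near `1`. -/
lemma gt_root_sub_one (h : IsPlace A p) {y : ℚbar} (hu : Gt A p (y ^ p - 1) 0) :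
    Gt A p (y - 1) 0 := by
  have h1 : Is A p (y ^ p) 0 := by
    have := (is_one (A := A) h).add h hu
    rwa [add_sub_cancel] at this
  have hy0 : y ≠ 0 := fun e => h1.1 (by rw [e, zero_pow hp.out.ne_zero])
  have hy : Is A p y 0 := by
    refine ⟨hy0, ?_⟩
    have := h1.2
    rw [ord_pow h, mul_eq_zero] at this
    exact this.resolve_left (Nat.cast_ne_zero.mpr hp.out.ne_zero)
  have := charP_res h
  rw [← red_eq_iff h hy.ge (is_one h).ge]
  rw [← red_eq_iff h h1.ge (is_one h).ge, red_pow h hy.ge, red_one] at hu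
  refine frobenius_inj (ResidueField A) p ?_
  rw [frobenius_def, frobenius_def, hu, red_one, one_pow]

/-- Orders of roots of units of level below `p/(p-1)`. -/
lemma is_root_sub_one (h : IsPlace A p) {y : ℚbar} {a : ℚ} (hu : Is A p (y ^ p - 1) a)
    (ha0 : 0 < a) (ha : a * ((p : ℚ) - 1) < p) : Is A p (y - 1) (a / p) := by
  have hgt := gt_root_sub_one h (hu.gt ha0)
  have hp2 : (2 : ℚ) ≤ p := by exact_mod_cast hp.out.two_le
  have hne : y - 1 ≠ 0 := fun e => hu.1 (by rw [sub_eq_zero.mp e, one_pow, sub_self])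
  obtain ⟨b, hb⟩ : ∃ b, Is A p (y - 1) b := ⟨_, hne, rfl⟩
  have hb0 : 0 < b := hb.2 ▸ hgt.resolve_left hne
  obtain ⟨q, hq, he⟩ := one_add_pow_prime h hgt.ge
  rw [add_sub_cancel] at he
  have hx : Is A p ((y - 1) ^ p) ((p : ℚ) * b) := hb.pow h p
  have hl : Is A p ((p : ℚbar) * (y - 1)) (1 + b) := (is_p h).mul h hb
  have hqq : Gt A p ((p : ℚbar) * (y - 1) ^ 2 * q) (1 + b) :=
    (((is_p h).mul h (hb.pow h 2)).ge.mul h hq).gt (by push_cast; linarith)
  have e : y ^ p - 1 = (y - 1) ^ p + ((p : ℚbar) * (y - 1) + (p : ℚbar) * (y - 1) ^ 2 * q) := by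
    rw [he]; ring
  have hlq := hl.add h hqq
  rcases lt_or_ge ((p : ℚ) * b) (1 + b) with hlt | hge
  · have := hx.add h (hlq.gt hlt)
    rw [← e] at this
    refine ⟨hne, hb.2.trans ?_⟩
    rw [hu.unique this, mul_div_cancel_left₀ _ (by linarith)]
  · exfalso
    have hGe : Ge A p (y ^ p - 1) (1 + b) := by
      rw [e]; exact ((hx.ge.mono hge).add h hlq.ge)
    have h1 := hu.le_of_ge hGe
    nlinarith

/-- A sum of terms of pairwise distinct orders bounds each term. -/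
lemma ge_term_of_distinct (h : IsPlace A p) {ι : Type*} {s : Finset ι} {f : ι → ℚbar}
    (hd : ∀ i ∈ s, ∀ j ∈ s, f i ≠ 0 → f j ≠ 0 → ord A p (f i) = ord A p (f j) → i = j) {a : ℚ}
    (hsum : Ge A p (∑ i ∈ s, f i) a) : ∀ i ∈ s, Ge A p (f i) a := by
  classical
  intro i hi
  by_contra hc
  rw [Ge, not_or, not_le] at hc
  obtain ⟨j, hj, hjmin⟩ := Finset.exists_min_image (s.filter fun k => f k ≠ 0)
    (fun k => ord A p (f k)) ⟨i, Finset.mem_filter.mpr ⟨hi, hc.1⟩⟩
  rw [Finset.mem_filter] at hj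
  have hI := is_sum_of_dominant h (f := f) hj.1 (is_ord hj.2) fun k hk hkj => by
    by_cases h0 : f k = 0
    · exact Or.inl h0
    · exact Or.inr (lt_of_le_of_ne (hjmin k (Finset.mem_filter.mpr ⟨hk, h0⟩))
        fun e => hkj (hd j hj.1 k hk hj.2 h0 e).symm)
  have h1 := hI.le_of_ge hsum
  have h2 := hjmin i (Finset.mem_filter.mpr ⟨hi, hc.1⟩)
  linarith [hc.2]

/-- A Kummer step over `K'`. -/
structure Step (p : ℕ) (K' : Subgroup Γℚ) (y ξ : ℚbar) (σ : Γℚ) : Prop where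
  /-- `ξ` is a primitive `p`-th root of unity. -/
  root : IsPrimitiveRoot ξ p
  /-- `K'` fixes `ξ`. -/
  fix_root : ∀ τ ∈ K', τ ξ = ξ
  /-- `σ` lies in `K'`. -/
  mem : σ ∈ K'
  /-- `σ` multiplies `y` by `ξ`. -/
  apply_eq : σ y = ξ * y
  /-- Every element of `K'` multiplies `y` by a power of `ξ`. -/
  scale : ∀ τ ∈ K', ∃ m : ℕ, τ y = ξ ^ m * y

variable {K' : Subgroup Γℚ} {y ξ : ℚbar} {σ : Γℚ}

omit hp in
/-- The action of the powers of `σ` on `y`. -/
lemma Step.pow_apply (S : Step p K' y ξ σ) : ∀ i : ℕ, (σ ^ i) y = ξ ^ i * y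
  | 0 => by simp
  | i + 1 => by
    rw [pow_succ', AlgEquiv.mul_apply, S.pow_apply i, map_mul, map_pow, S.fix_root σ S.mem,
      S.apply_eq]
    ring

omit hp in
/-- `σ ^ (-j) τ σ ^ i` fixes `y` when `τ` multiplies `y` by `ξ ^ m` and `m + i ≡ j`. -/
lemma Step.stab (S : Step p K' y ξ σ) {τ : Γℚ} (hτ : τ ∈ K') {m i j : ℕ}
    (hm : τ y = ξ ^ m * y) (hij : (m + i) % p = j % p) :
    ((σ ^ j)⁻¹ * τ * σ ^ i) ∈ K' ∧ ((σ ^ j)⁻¹ * τ * σ ^ i) y = y := by
  refine ⟨mul_mem (mul_mem (inv_mem (pow_mem S.mem j)) hτ) (pow_mem S.mem i), ?_⟩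
  change (σ ^ j).symm (τ ((σ ^ i) y)) = y
  rw [AlgEquiv.symm_apply_eq, S.pow_apply, S.pow_apply, map_mul, map_pow, S.fix_root τ hτ, hm,
    ← mul_assoc, ← pow_add, pow_eq_pow_of_modEq (show i + m ≡ j [MOD p] by rwa [add_comm] at hij)
      S.root.pow_eq_one]

omit hp in
/-- So `τ` permutes the conjugates `σ ^ i x` of an element of the step. -/
lemma Step.conj_eq (S : Step p K' y ξ σ) {x : ℚbar} (hx : ∀ τ ∈ K', τ y = y → τ x = x)
    {τ : Γℚ} (hτ : τ ∈ K') {m i j : ℕ} (hm : τ y = ξ ^ m * y) (hij : (m + i) % p = j % p) :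
    τ ((σ ^ i) x) = (σ ^ j) x := by
  obtain ⟨h1, h2⟩ := S.stab hτ hm hij
  have h3 := hx _ h1 h2
  change (σ ^ j).symm (τ ((σ ^ i) x)) = x at h3
  rwa [AlgEquiv.symm_apply_eq] at h3

/-- Translation permutes the residues modulo `p`. -/
@[to_additive /-- Translation permutes the residues modulo `p`. -/]
lemma prod_range_add_mod {M : Type*} [CommMonoid M] (m : ℕ) (F : ℕ → M) :
    ∏ i ∈ Finset.range p, F ((m + i) % p) = ∏ i ∈ Finset.range p, F i := by
  refine Finset.prod_bij (fun i _ => (m + i) % p)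
    (fun i _ => Finset.mem_range.mpr (Nat.mod_lt _ hp.out.pos)) (fun a ha b hb hab => ?_)
    (fun b hb => ?_) fun i _ => rfl
  · rw [Finset.mem_range] at ha hb
    have h' : a % p = b % p := Nat.ModEq.add_left_cancel' m hab
    rwa [Nat.mod_eq_of_lt ha, Nat.mod_eq_of_lt hb] at h'
  · rw [Finset.mem_range] at hb
    refine ⟨(b + p - m % p) % p, Finset.mem_range.mpr (Nat.mod_lt _ hp.out.pos), ?_⟩
    have hm' := Nat.mod_lt m hp.out.pos
    rw [Nat.add_mod, Nat.mod_mod, ← Nat.add_mod,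
      show m + (b + p - m % p) = b + p + (m - m % p) by have := Nat.mod_le m p; omega,
      show m - m % p = p * (m / p) by have := Nat.div_add_mod m p; omega,
      Nat.add_mul_mod_self_left, Nat.add_mod_right, Nat.mod_eq_of_lt hb]

/-- The norm of an element of the step is fixed by `K'` and has `p` times its order. -/
lemma Step.exists_norm (S : Step p K' y ξ σ) (h : IsPlace A p) (hK : ∀ τ ∈ K', IsInert A τ)
    {x : ℚbar} (hx0 : x ≠ 0) (hx : ∀ τ ∈ K', τ y = y → τ x = x) :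
    ∃ N : ℚbar, N ≠ 0 ∧ (∀ τ ∈ K', τ N = N) ∧ ord A p N = p * ord A p x := by
  refine ⟨∏ i ∈ Finset.range p, (σ ^ i) x,
    Finset.prod_ne_zero_iff.mpr fun i _ => (_root_.map_ne_zero _).mpr hx0, fun τ hτ => ?_, ?_⟩
  · obtain ⟨m, hm⟩ := S.scale τ hτ
    rw [map_prod, ← prod_range_add_mod m fun i => (σ ^ i) x]
    exact Finset.prod_congr rfl fun i _ => S.conj_eq hx hτ hm (Nat.mod_mod _ _).symm
  · have := (Is.prod h (s := Finset.range p) (f := fun i => (σ ^ i) x) (r := fun _ => ord A p x)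
      fun i _ => ((hK _ (pow_mem S.mem i)).is_apply h (is_ord hx0))).2
    rw [this, Finset.sum_const, Finset.card_range, nsmul_eq_mul]

/-- Elements of the step are polynomials of degree `< p` in `y`. -/
lemma Step.exists_expansion (S : Step p K' y ξ σ) (hy : y ≠ 0) {x : ℚbar}
    (hx : ∀ τ ∈ K', τ y = y → τ x = x) :
    ∃ c : ℕ → ℚbar, (∀ b, ∀ τ ∈ K', τ (c b) = c b) ∧
      x = ∑ b ∈ Finset.range p, c b * y ^ b := by
  have hp0 : (p : ℚbar) ≠ 0 := Nat.cast_ne_zero.mpr hp.out.ne_zero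
  refine ⟨fun b => (p : ℚbar)⁻¹ *
    (∑ i ∈ Finset.range p, (σ ^ i) x / ((σ ^ i) y) ^ b), fun b τ hτ => ?_, ?_⟩
  · obtain ⟨m, hm⟩ := S.scale τ hτ
    rw [map_mul, map_inv₀, map_natCast, map_sum]
    congr 1
    conv_rhs => rw [← sum_range_add_mod (p := p) m]
    refine Finset.sum_congr rfl fun i _ => ?_
    have hij : (m + i) % p = ((m + i) % p) % p := (Nat.mod_mod _ _).symm
    rw [map_div₀, map_pow, S.conj_eq hx hτ hm hij,
      S.conj_eq (x := y) (fun _ _ e => e) hτ hm hij]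
  -- only `i = 0` survives, as `∑_b (ξ ^ i)^{-b} = 0` otherwise
  · simp only [mul_assoc, Finset.sum_mul]
    rw [← Finset.mul_sum, Finset.sum_comm, Finset.sum_eq_single 0]
    · simp [hy, hp0]
    · intro i hi hi0
      rw [Finset.mem_range] at hi
      have hζ : IsPrimitiveRoot (ξ ^ i) p := S.root.pow_of_coprime i
        (Nat.coprime_comm.mp (hp.out.coprime_iff_not_dvd.mpr fun hd =>
          absurd (Nat.le_of_dvd (Nat.pos_of_ne_zero hi0) hd) (not_le.mpr hi)))
      have hterm : ∀ b : ℕ, (σ ^ i) x / ((σ ^ i) y) ^ b * y ^ b = (σ ^ i) x * ((ξ ^ i)⁻¹) ^ b := by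
        intro b
        rw [S.pow_apply, mul_pow, inv_pow]
        field_simp
      rw [Finset.sum_congr rfl fun b _ => hterm b, ← Finset.mul_sum,
        hζ.inv.geom_sum_eq_zero hp.out.one_lt, mul_zero]
    · intro h0
      exact absurd (Finset.mem_range.mpr hp.out.pos) h0

/-- Re-expansion around `g`. -/
lemma Step.exists_expansion_sub (S : Step p K' y ξ σ) (hy : y ≠ 0) {g : ℚbar}
    (hg : ∀ τ ∈ K', τ g = g) {x : ℚbar} (hx : ∀ τ ∈ K', τ y = y → τ x = x) :
    ∃ c : ℕ → ℚbar, (∀ b, ∀ τ ∈ K', τ (c b) = c b) ∧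
      x = ∑ b ∈ Finset.range p, c b * (y - g) ^ b := by
  obtain ⟨c, hc, hxc⟩ := S.exists_expansion hy hx
  set P : ℚbar[X] := ∑ b ∈ Finset.range p, C (c b) * X ^ b with hP
  refine ⟨fun b => (taylor g P).coeff b, fun b τ hτ => ?_, ?_⟩
  · have : (taylor g P).map (τ : ℚbar →+* ℚbar) = taylor g P := by
      rw [taylor_apply, Polynomial.map_comp, hP, Polynomial.map_sum]
      congr 1
      · exact Finset.sum_congr rfl fun b _ => by simp [hc b τ hτ]
      · simp [hg τ hτ]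
    change τ ((taylor g P).coeff b) = (taylor g P).coeff b
    conv_rhs => rw [← this, coeff_map]
    rfl
  · have hdeg : (taylor g P).natDegree < p := by
      rw [natDegree_taylor]
      have : P.natDegree ≤ p - 1 := natDegree_sum_le_of_forall_le _ _ fun b hb => by
        rw [Finset.mem_range] at hb
        exact (natDegree_C_mul_X_pow_le _ _).trans (by omega)
      have := hp.out.pos
      omega
    rw [← eval_eq_sum_range' hdeg (y - g), taylor_eval, sub_add_cancel, hxc, hP, eval_finsetSum]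
    simp

/-- The terms `c_b w ^ b`, `b < p`, have distinct orders when no multiple `b r` is in the lattice
of orders of `K'`. -/
lemma ord_terms_injective (h : IsPlace A p) {n : ℕ} (hL : ∀ x ≠ 0, (∀ τ ∈ K', τ x = x) →
      ∃ m : ℤ, ord A p x = (m : ℚ) / n) {w : ℚbar} {r : ℚ} (hw : Is A p w r)
    (hr : ∀ b : ℕ, 0 < b → b < p → ∀ m : ℤ, (b : ℚ) * r ≠ (m : ℚ) / n) {c : ℕ → ℚbar}
    (hc : ∀ b, ∀ τ ∈ K', τ (c b) = c b) {i j : ℕ} (hi : i < p) (hj : j < p)
    (hi0 : c i * w ^ i ≠ 0) (hj0 : c j * w ^ j ≠ 0)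
    (he : ord A p (c i * w ^ i) = ord A p (c j * w ^ j)) : i = j := by
  have hci := left_ne_zero_of_mul hi0
  have hcj := left_ne_zero_of_mul hj0
  obtain ⟨m, hm⟩ := hL _ hci (hc i)
  obtain ⟨m', hm'⟩ := hL _ hcj (hc j)
  rw [ord_mul h hci (pow_ne_zero _ hw.1), ord_mul h hcj (pow_ne_zero _ hw.1), ord_pow h, ord_pow h,
    hw.2, hm, hm'] at he
  rcases lt_trichotomy i j with hlt | heq | hgt
  · refine absurd ?_ (hr (j - i) (by omega) (by omega) (m - m'))
    rw [Nat.cast_sub hlt.le]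
    push_cast
    rw [sub_div]
    linarith
  · exact heq
  · refine absurd ?_ (hr (i - j) (by omega) (by omega) (m' - m))
    rw [Nat.cast_sub hgt.le]
    push_cast
    rw [sub_div]
    linarith

/-- **The bound for a step.** For integral `z` fixed by the stabiliser of `y`, `σ z - z` has order
above `t` when `t + r < 1 / (p - 1)`. -/
theorem Step.gt_sub (S : Step p K' y ξ σ) (h : IsPlace A p) (hK : ∀ τ ∈ K', IsInert A τ)
    (hy : Is A p y 0) {g : ℚbar} (hg : ∀ τ ∈ K', τ g = g) {n : ℕ}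
    (hL : ∀ x ≠ 0, (∀ τ ∈ K', τ x = x) → ∃ m : ℤ, ord A p x = (m : ℚ) / n)
    {r : ℚ} (hw : Is A p (y - g) r)
    (hr : ∀ b : ℕ, 0 < b → b < p → ∀ m : ℤ, (b : ℚ) * r ≠ (m : ℚ) / n) {t : ℚ}
    (ht : t + r < 1 / ((p : ℚ) - 1)) {z : ℚbar} (hz0 : Ge A p z 0)
    (hz : ∀ τ ∈ K', τ y = y → τ z = z) : Gt A p (σ z - z) t := by
  obtain ⟨c, hc, hzc⟩ := S.exists_expansion_sub hy.1 hg hz
  set w := y - g
  -- every term of the expansion in `w` is integral
  have hterm := ge_term_of_distinct h (s := Finset.range p) (f := fun b => c b * w ^ b)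
    (fun i hi j hj hi0 hj0 he => ord_terms_injective (n := n) h hL hw hr hc (Finset.mem_range.mp hi)
      (Finset.mem_range.mp hj) hi0 hj0 he) (hzc ▸ hz0)
  have hσw : Is A p (σ w - w) (1 / ((p : ℚ) - 1)) := by
    have h1 : σ w - w = (ξ - 1) * y := by
      simp only [w, map_sub, S.apply_eq, hg σ S.mem]; ring
    rw [h1]
    simpa using (Fermat.EC.Cyclo.is_zeta_sub_one h S.root).mul h hy
  rw [hzc, map_sum, ← Finset.sum_sub_distrib]
  refine Gt.sum h fun b hb => ?_
  rw [map_mul, hc b σ S.mem, map_pow, ← mul_sub]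
  rcases Nat.eq_zero_or_pos b with rfl | hb0
  · simp [gt_zero]
  rcases eq_or_ne (c b) 0 with h0 | h0
  · simp [h0, gt_zero]
  have h1 : Ge A p (c b) (-((b : ℚ) * r)) := by
    have := (hterm b hb).div h (hw.pow h b)
    rwa [mul_div_cancel_right₀ _ (pow_ne_zero _ hw.1), zero_sub] at this
  -- `σ w ^ b - w ^ b` gains `ord (σ w - w) - ord w`
  have h2 : Ge A p ((σ w) ^ b - w ^ b) (((b : ℚ) - 1) * r + 1 / ((p : ℚ) - 1)) := by
    rw [← geom_sum₂_mul]
    refine Ge.mul h (Ge.sum h fun i hi => ?_) hσw.ge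
    rw [Finset.mem_range] at hi
    refine (((hK σ S.mem).is_apply h hw).pow h i |>.mul h (hw.pow h (b - 1 - i))).ge.mono ?_
    rw [← add_mul, ← Nat.cast_add, show i + (b - 1 - i) = b - 1 by omega, Nat.cast_sub hb0,
      Nat.cast_one]
  exact (h1.mul h h2).gt (by linarith)

end Fermat.FLAT
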