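import Fermat.Agent.FLAT.TwoStep

/-!
# Levels of the Kummer classes of an additive map on the tame group

`c` is additive on the tame group `T`.  A functional `f` gives the Kummer class `y` with
`σ y = ξ^(f (c σ)) y`; the level of `f` is the best order of `y^p - 1`.  A tame move `γ` acting on
the values of `c` by `S` multiplies the leading residue of `f` by `u^n` to give that of `χ • f ∘ S`,
so a functional killed by a quadratic in `S` can only stop at the levels `n` at which that quadratic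
vanishes at `u^n / χ`.
-/

set_option autoImplicit false
set_option linter.unusedSectionVars false

noncomputable section

open Fermat.EC.Val IsLocalRing

namespace Fermat.FLAT

local notation "ℚbar" => AlgebraicClosure ℚ
local notation "Γℚ" => (AlgebraicClosure ℚ ≃ₐ[ℚ] AlgebraicClosure ℚ)

variable {p : ℕ} [hp : Fact p.Prime] {A : ValuationSubring ℚbar}
  {X : Type*} [AddCommGroup X]

/-- The data of an additive map on the tame group with open kernel. -/
structure TameMap (p : ℕ) (A : ValuationSubring ℚbar) (π : ℚbar) (X : Type*) [AddCommGroup X] where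
  /-- The map, only used on the tame group. -/
  c : Γℚ → X
  /-- The chosen `p`-th root of unity. -/
  ξ : ℚbar
  /-- `ξ` is primitive. -/
  root : IsPrimitiveRoot ξ p
  /-- The tame group fixes `ξ`. -/
  fix_root : ∀ τ ∈ tame A π, τ ξ = ξ
  /-- `c` is additive on the tame group. -/
  map_mul : ∀ σ ∈ tame A π, ∀ τ ∈ tame A π, c (σ * τ) = c σ + c τ
  /-- A field whose fixing subgroup kills `c` on the tame group. -/
  level : IntermediateField ℚ ℚbar
  /-- The field `level` is a number field. -/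
  finite : FiniteDimensional ℚ level
  /-- The field `level` is normal over `ℚ`. -/
  normal : Normal ℚ level
  /-- `c` vanishes on the tame elements fixing `level`. -/
  map_fix : ∀ σ ∈ tame A π, σ ∈ level.fixingSubgroup → c σ = 0

namespace TameMap

variable {e : ℕ} {π : ℚbar} (C : TameMap p A π X)

/-- A Kummer generator of the class of `f`. -/
def Kum (f : X →+ ZMod p) (y : ℚbar) : Prop :=
  y ≠ 0 ∧ ∀ σ ∈ tame A π, σ y = C.ξ ^ (f (C.c σ)).val * y

variable {C}

/-- `c` vanishes at the identity. -/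
lemma map_one' : C.c 1 = 0 := by
  have := C.map_mul 1 (one_mem _) 1 (one_mem _)
  rw [mul_one] at this
  exact left_eq_add.mp this

/-- `c` of an inverse. -/
lemma map_inv' {σ : Γℚ} (hσ : σ ∈ tame A π) : C.c σ⁻¹ = -C.c σ := by
  refine eq_neg_of_add_eq_zero_left ?_
  rw [← C.map_mul _ (inv_mem hσ) _ hσ, inv_mul_cancel, map_one']

/-- `c` of a power. -/
lemma map_pow' {σ : Γℚ} (hσ : σ ∈ tame A π) : ∀ n : ℕ, C.c (σ ^ n) = n • C.c σ
  | 0 => by rw [pow_zero, zero_nsmul, map_one']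
  | n + 1 => by rw [pow_succ, C.map_mul _ (pow_mem hσ n) _ hσ, map_pow' hσ n, succ_nsmul]

/-- Exponents of `ξ` add in `ZMod p`. -/
lemma pow_val_add (a b : ZMod p) : C.ξ ^ (a + b).val = C.ξ ^ a.val * C.ξ ^ b.val := by
  have : NeZero p := ⟨hp.out.ne_zero⟩
  rw [← pow_add, ZMod.val_add]
  exact pow_eq_pow_of_modEq (Nat.mod_modEq _ _) C.root.pow_eq_one

/-- Kummer generators multiply. -/
lemma Kum.mul {f g : X →+ ZMod p} {y z : ℚbar} (hy : C.Kum f y) (hz : C.Kum g z) :
    C.Kum (f + g) (y * z) :=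
  ⟨mul_ne_zero hy.1 hz.1, fun σ hσ => by
    rw [_root_.map_mul, hy.2 σ hσ, hz.2 σ hσ, AddMonoidHom.add_apply, pow_val_add]; ring⟩

/-- `1` generates the class of zero. -/
lemma kum_one : C.Kum 0 1 :=
  ⟨one_ne_zero, fun σ _ => by
    have : NeZero p := ⟨hp.out.ne_zero⟩
    simp⟩

/-- A generator times an element fixed by the tame group generates the same class. -/
lemma Kum.mul_fixed {f : X →+ ZMod p} {y z : ℚbar} (hy : C.Kum f y) (hz0 : z ≠ 0)
    (hz : ∀ σ ∈ tame A π, σ z = z) : C.Kum f (y * z) :=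
  ⟨mul_ne_zero hy.1 hz0, fun σ hσ => by rw [_root_.map_mul, hy.2 σ hσ, hz σ hσ, mul_assoc]⟩

/-- Functionals equal on the values of `c` have the same generators. -/
lemma Kum.congr {f g : X →+ ZMod p} {y : ℚbar} (hy : C.Kum f y)
    (hfg : ∀ σ ∈ tame A π, f (C.c σ) = g (C.c σ)) : C.Kum g y :=
  ⟨hy.1, fun σ hσ => by rw [← hfg σ hσ]; exact hy.2 σ hσ⟩

/-- The `p`-th power of a generator is fixed by the tame group. -/
lemma Kum.pow_fixed {f : X →+ ZMod p} {y : ℚbar} (hy : C.Kum f y) :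
    ∀ σ ∈ tame A π, σ (y ^ p) = y ^ p := fun σ hσ => by
  rw [_root_.map_pow, hy.2 σ hσ, mul_pow, ← pow_mul, mul_comm _ p, pow_mul, C.root.pow_eq_one,
    one_pow, one_mul]

/-- Two generators differ by a fixed element. -/
lemma Kum.div_fixed {f : X →+ ZMod p} {y z : ℚbar} (hy : C.Kum f y) (hz : C.Kum f z) :
    ∀ σ ∈ tame A π, σ (z / y) = z / y := fun σ hσ => by
  have := pow_ne_zero (f (C.c σ)).val (C.root.ne_zero hp.out.ne_zero)
  rw [map_div₀, hy.2 σ hσ, hz.2 σ hσ, mul_div_mul_left _ _ this]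

/-- A fixed generator means a trivial class. -/
lemma Kum.eq_zero {f : X →+ ZMod p} {y : ℚbar} (hy : C.Kum f y)
    (hfix : ∀ σ ∈ tame A π, σ y = y) : ∀ σ ∈ tame A π, f (C.c σ) = 0 := by
  intro σ hσ
  have : NeZero p := ⟨hp.out.ne_zero⟩
  have h1 : C.ξ ^ (f (C.c σ)).val = 1 :=
    mul_right_cancel₀ hy.1 ((hy.2 σ hσ).symm.trans (by rw [hfix σ hσ, one_mul]))
  exact (ZMod.val_eq_zero _).mp
    (Nat.eq_zero_of_dvd_of_lt ((C.root.pow_eq_one_iff_dvd _).mp h1) (ZMod.val_lt _))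

/-- Resolvents by all powers of a root of unity add up to `p` times the first term. -/
theorem sum_resolvent {R : Type*} [Field R] {p : ℕ} (hp' : p.Prime) {ξ : R}
    (hξ : IsPrimitiveRoot ξ p) (y : ℕ → R) :
    ∑ b ∈ Finset.range p, ∑ i ∈ Finset.range p, (ξ⁻¹ ^ b) ^ i * y i = (p : R) * y 0 := by
  classical
  rw [Finset.sum_comm, Finset.sum_eq_single 0]
  · simp
  · intro i hi hi0
    rw [Finset.mem_range] at hi
    have hζ : IsPrimitiveRoot (ξ ^ i) p := hξ.pow_of_coprime i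
      (Nat.coprime_comm.mp (hp'.coprime_iff_not_dvd.mpr fun hd =>
        absurd (Nat.le_of_dvd (Nat.pos_of_ne_zero hi0) hd) (not_le.mpr hi)))
    rw [← Finset.sum_mul]
    have := hζ.inv.geom_sum_eq_zero hp'.one_lt
    simp only [← inv_pow, ← pow_mul, mul_comm i] at this ⊢
    rw [this, zero_mul]
  · intro h0; exact absurd (Finset.mem_range.mpr hp'.pos) h0

/-- A Kummer generator exists. -/
theorem exists_kum (C : TameMap p A π X) (f : X →+ ZMod p) : ∃ y, C.Kum f y := by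
  classical
  have : NeZero p := ⟨hp.out.ne_zero⟩
  by_cases hall : ∀ σ ∈ tame A π, f (C.c σ) = 0
  · exact ⟨1, kum_one.congr fun σ hσ => by rw [hall σ hσ]; rfl⟩
  push Not at hall
  obtain ⟨σ₀, hσ₀, hne⟩ := hall
  set σ := σ₀ ^ ((f (C.c σ₀))⁻¹).val
  have hσ : σ ∈ tame A π := pow_mem hσ₀ _
  have hfσ : f (C.c σ) = 1 := by
    rw [map_pow' hσ₀, map_nsmul, nsmul_eq_mul, ZMod.natCast_zmod_val, inv_mul_cancel₀ hne]
  let K₀ : Subgroup Γℚ :=
    { carrier := {τ | τ ∈ tame A π ∧ f (C.c τ) = 0}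
      one_mem' := ⟨one_mem _, by rw [map_one', map_zero]⟩
      mul_mem' := fun {a b} ha hb => ⟨mul_mem ha.1 hb.1, by
        rw [C.map_mul _ ha.1 _ hb.1, map_add, ha.2, hb.2, add_zero]⟩
      inv_mem' := fun {a} ha => ⟨inv_mem ha.1, by rw [map_inv' ha.1, map_neg, ha.2, neg_zero]⟩ }
  have := C.finite
  have := C.normal
  have : IsGalois ℚ C.level := ⟨⟩
  -- an element fixed by `K₀` and moved by `σ`
  obtain ⟨x, hxK, hxσ⟩ : ∃ x : ℚbar, (∀ τ ∈ K₀, τ x = x) ∧ σ x ≠ x := by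
    set R := AlgEquiv.restrictNormalHom (F := ℚ) (K₁ := ℚbar) C.level
    have hnot : R σ ∉ K₀.map R := by
      rintro ⟨τ, hτ, hτσ⟩
      have hmem : τ⁻¹ * σ ∈ C.level.fixingSubgroup := by
        rw [← Fermat.CFT.restrict_eq_one_iff, _root_.map_mul, _root_.map_inv, hτσ, inv_mul_cancel]
      have h0 := C.map_fix _ (mul_mem (inv_mem hτ.1) hσ) hmem
      rw [C.map_mul _ (inv_mem hτ.1) _ hσ, map_inv' hτ.1, neg_add_eq_zero] at h0
      have := hτ.2
      rw [h0, hfσ] at this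
      exact one_ne_zero this
    rw [← IntermediateField.fixingSubgroup_fixedField (K₀.map R),
      IntermediateField.mem_fixingSubgroup_iff] at hnot
    push Not at hnot
    obtain ⟨x, hx, hxne⟩ := hnot
    refine ⟨x, fun τ hτ => ?_, fun e0 => hxne ?_⟩
    · have := (IntermediateField.mem_fixedField_iff _ _).mp hx (R τ) ⟨τ, hτ, rfl⟩
      exact (AlgEquiv.restrictNormal_commutes τ C.level x).symm.trans (congrArg Subtype.val this)
    · refine Subtype.ext ?_
      exact (AlgEquiv.restrictNormal_commutes σ C.level x).trans e0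
  have hperm : ∀ τ ∈ tame A π, ∀ i j : ℕ, ((f (C.c τ)).val + i) % p = j % p →
      τ ((σ ^ i) x) = (σ ^ j) x := by
    intro τ hτ i j hij
    have hmem : (σ ^ j)⁻¹ * τ * σ ^ i ∈ K₀ := by
      refine ⟨mul_mem (mul_mem (inv_mem (pow_mem hσ j)) hτ) (pow_mem hσ i), ?_⟩
      rw [C.map_mul _ (mul_mem (inv_mem (pow_mem hσ j)) hτ) _ (pow_mem hσ i),
        C.map_mul _ (inv_mem (pow_mem hσ j)) _ hτ, map_inv' (pow_mem hσ j), map_pow' hσ,
        map_pow' hσ, map_add, map_add, map_neg, map_nsmul, map_nsmul, hfσ, nsmul_one, nsmul_one]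
      have := (ZMod.natCast_eq_natCast_iff' _ _ p).mpr hij
      rw [Nat.cast_add, ZMod.natCast_zmod_val] at this
      linear_combination this
    have h3 := hxK _ hmem
    change (σ ^ j).symm (τ ((σ ^ i) x)) = x at h3
    rwa [AlgEquiv.symm_apply_eq] at h3
  -- Lagrange resolvents of `x`
  set r : ℕ → ℚbar := fun b => ∑ i ∈ Finset.range p, (C.ξ⁻¹ ^ b) ^ i * (σ ^ i) x with hr
  have hr_apply : ∀ b, ∀ τ ∈ tame A π, τ (r b) = (C.ξ ^ b) ^ (f (C.c τ)).val * r b := by
    intro b τ hτ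
    set m := (f (C.c τ)).val
    rw [hr, map_sum, Finset.mul_sum]
    conv_rhs => rw [← sum_range_add_mod (p := p) m]
    refine Finset.sum_congr rfl fun i _ => ?_
    have hb1 : (C.ξ⁻¹ ^ b) ^ p = 1 := by
      rw [← pow_mul, mul_comm, pow_mul, inv_pow, C.root.pow_eq_one, inv_one, one_pow]
    have hξ0 : (C.ξ ^ b) ^ m ≠ 0 := pow_ne_zero _ (pow_ne_zero _ (C.root.ne_zero hp.out.ne_zero))
    rw [_root_.map_mul, _root_.map_pow, _root_.map_pow, map_inv₀, C.fix_root τ hτ,
      hperm τ hτ i _ (Nat.mod_mod _ _).symm, pow_eq_pow_of_modEq (Nat.mod_modEq (m + i) p) hb1,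
      pow_add]
    simp only [inv_pow] at hξ0 ⊢
    field_simp
    rfl
  -- some nontrivial resolvent is nonzero, else `x` is fixed by `σ`
  obtain ⟨b, hb, hb0, hrb⟩ : ∃ b < p, b ≠ 0 ∧ r b ≠ 0 := by
    by_contra hc
    push Not at hc
    refine hxσ ?_
    have hfix0 := hr_apply 0 σ hσ
    rw [pow_zero, one_pow, one_mul] at hfix0
    have hsum : ∑ b ∈ Finset.range p, r b = (p : ℚbar) * x := by
      rw [hr, sum_resolvent hp.out C.root fun i => (σ ^ i) x, pow_zero, AlgEquiv.one_apply]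
    rw [Finset.sum_eq_single 0 (fun b hb hb0 => hc b (Finset.mem_range.mp hb) hb0)
      (fun h0 => absurd (Finset.mem_range.mpr hp.out.pos) h0)] at hsum
    rw [hsum, _root_.map_mul, map_natCast] at hfix0
    exact mul_left_cancel₀ (Nat.cast_ne_zero.mpr hp.out.ne_zero) hfix0
  have hbz : (b : ZMod p) ≠ 0 := fun e0 => hb0 (Nat.eq_zero_of_dvd_of_lt
    ((ZMod.natCast_eq_zero_iff _ _).mp e0) hb)
  refine ⟨r b ^ ((b : ZMod p)⁻¹).val, pow_ne_zero _ hrb, fun τ hτ => ?_⟩
  rw [_root_.map_pow, hr_apply b τ hτ, mul_pow, ← pow_mul, ← pow_mul]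
  congr 1
  refine pow_eq_pow_of_modEq ?_ C.root.pow_eq_one
  rw [← ZMod.natCast_eq_natCast_iff]
  push_cast
  rw [ZMod.natCast_zmod_val, ZMod.natCast_zmod_val, mul_comm (f (C.c τ)), ← mul_assoc,
    mul_inv_cancel₀ hbz, one_mul]

/-- `f` has level at least `n`. -/
def Lev (C : TameMap p A π X) (e n : ℕ) (f : X →+ ZMod p) : Prop :=
  ∃ y, C.Kum f y ∧ Ge A p (y ^ p - 1) ((n : ℚ) / e)

/-- `f` has a generator of level `≥ n` with leading residue `l`. -/
def Lead (C : TameMap p A π X) (e n : ℕ) (f : X →+ ZMod p) (l : ResidueField A) : Prop :=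
  ∃ y, C.Kum f y ∧ Ge A p (y ^ p - 1) ((n : ℚ) / e) ∧ red A ((y ^ p - 1) / π ^ n) = l

/-- A level comes with a leading residue. -/
lemma Lev.exists_lead {n : ℕ} {f : X →+ ZMod p} (hf : C.Lev e n f) : ∃ l, C.Lead e n f l :=
  let ⟨y, hy, hy'⟩ := hf; ⟨_, y, hy, hy', rfl⟩

/-- A leading residue gives the level. -/
lemma Lead.lev {n : ℕ} {f : X →+ ZMod p} {l : ResidueField A} (hf : C.Lead e n f l) :
    C.Lev e n f := let ⟨y, hy, hy', _⟩ := hf; ⟨y, hy, hy'⟩

/-- The zero class has leading residue zero at every level. -/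
lemma lead_zero (n : ℕ) : C.Lead e n 0 0 := ⟨1, kum_one, Or.inl (by simp), by simp⟩

/-- Leading residues depend only on the values on `c`. -/
lemma Lead.congr {n : ℕ} {f g : X →+ ZMod p} {l : ResidueField A} (hf : C.Lead e n f l)
    (hfg : ∀ σ ∈ tame A π, f (C.c σ) = g (C.c σ)) : C.Lead e n g l :=
  let ⟨y, hy, hy', hl⟩ := hf; ⟨y, hy.congr hfg, hy', hl⟩

section place

variable (h : IsPlace A p) (he : ¬ p ∣ e) (hπ : π ^ e = (p : ℚbar))
include h he hπ

omit he in
/-- `x / π ^ n` is integral when `x` has order at least `n / e`. -/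
lemma ge_div_pi_pow {n : ℕ} {x : ℚbar} (he0 : e ≠ 0) (hx : Ge A p x ((n : ℚ) / e)) :
    Ge A p (x / π ^ n) 0 := by
  have := hx.div h ((is_pi h he0 hπ).pow h n)
  rwa [mul_one_div, sub_self] at this

/-- Leading residues add. -/
theorem Lead.add {n : ℕ} (hn : 0 < n) {f g : X →+ ZMod p} {l m : ResidueField A}
    (hf : C.Lead e n f l) (hg : C.Lead e n g m) : C.Lead e n (f + g) (l + m) := by
  obtain ⟨y, hy, hyn, rfl⟩ := hf
  obtain ⟨z, hz, hzn, rfl⟩ := hg
  have he0 : e ≠ 0 := fun e0 => he (by rw [e0]; exact dvd_zero p)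
  have hpos : (0 : ℚ) < (n : ℚ) / e :=
    div_pos (by exact_mod_cast hn) (by exact_mod_cast Nat.pos_of_ne_zero he0)
  set U := y ^ p - 1 with hU
  set V := z ^ p - 1 with hV
  have hsum : (y * z) ^ p - 1 = U + V + U * V := by rw [hU, hV, mul_pow]; ring
  have hUV : Gt A p (U * V) ((n : ℚ) / e) := (hyn.mul h hzn).gt (by linarith)
  refine ⟨y * z, hy.mul hz, hsum ▸ (hyn.add h hzn).add h hUV.ge, ?_⟩
  have hd := fun {w : ℚbar} (hw : Ge A p w ((n : ℚ) / e)) => ge_div_pi_pow h hπ he0 hw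
  have h0 : red A (U * V / π ^ n) = 0 := by
    rw [red_eq_zero_iff h (hd hUV.ge)]
    have := Gt.div h hUV ((is_pi h he0 hπ).pow h n)
    rwa [mul_one_div, sub_self] at this
  rw [hsum, add_div, add_div, red_add h ((hd hyn).add h (hd hzn)) (hd hUV.ge),
    red_add h (hd hyn) (hd hzn), h0, add_zero]

/-- Levels are closed under sums. -/
lemma Lev.add {n : ℕ} (hn : 0 < n) {f g : X →+ ZMod p} (hf : C.Lev e n f) (hg : C.Lev e n g) :
    C.Lev e n (f + g) := by
  obtain ⟨l, hl⟩ := hf.exists_lead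
  obtain ⟨m, hm⟩ := hg.exists_lead
  exact (Lead.add h he hπ hn hl hm).lev

/-- Leading residues commute with multiples. -/
lemma Lead.nsmul {n : ℕ} (hn : 0 < n) {f : X →+ ZMod p} {l : ResidueField A}
    (hf : C.Lead e n f l) : ∀ a : ℕ, C.Lead e n (a • f) ((a : ResidueField A) * l)
  | 0 => by simpa using lead_zero (C := C) (e := e) n
  | a + 1 => by
    have := Lead.add h he hπ hn (Lead.nsmul hn hf a) hf
    rw [succ_nsmul]
    convert this using 1
    push_cast; ring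

/-- **Leading residues are well defined.** Two leading residues of one functional at a small level
prime to `p` agree. -/
theorem Lead.unique {n : ℕ} (hn : ¬ p ∣ n) (hlt : (n : ℚ) / e * ((p : ℚ) - 1) < p)
    {f : X →+ ZMod p} {l m : ResidueField A} (hf : C.Lead e n f l) (hg : C.Lead e n f m) :
    l = m := by
  obtain ⟨y, hy, hyn, rfl⟩ := hf
  obtain ⟨z, hz, hzn, rfl⟩ := hg
  have he0 : e ≠ 0 := fun e0 => he (by rw [e0]; exact dvd_zero p)
  have hn0 : n ≠ 0 := fun e0 => hn (by rw [e0]; exact dvd_zero p)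
  have hpos : (0 : ℚ) < (n : ℚ) / e :=
    div_pos (by exact_mod_cast Nat.pos_of_ne_zero hn0) (by exact_mod_cast Nat.pos_of_ne_zero he0)
  set U := y ^ p - 1 with hU
  set V := z ^ p - 1 with hV
  rw [red_eq_iff h (ge_div_pi_pow h hπ he0 hyn) (ge_div_pi_pow h hπ he0 hzn)]
  have hπn := (is_pi h he0 hπ).pow h n
  by_contra hne
  have hd : Is A p (U - V) ((n : ℚ) / e) := (hyn.sub h hzn).is_of_not_gt fun hg => hne <| by
    have := Gt.div h hg hπn
    rwa [mul_one_div, sub_self, sub_div] at this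
  have h1z : Is A p (1 + V) 0 := (is_one h).add h (hzn.gt hpos)
  -- else `y / z` would be fixed of order `n / (e p)`, outside the lattice
  have hI : Is A p ((y / z) ^ p - 1) ((n : ℚ) / e) := by
    have := hd.div h h1z
    rw [sub_zero] at this
    convert this using 1
    rw [hU, hV, div_pow, add_sub_cancel, sub_sub_sub_cancel_right, sub_div,
      div_self (pow_ne_zero _ hz.1)]
  have h2 := is_root_sub_one h hI hpos hlt
  obtain ⟨m, hm⟩ := exists_int_ord_tame h he hπ h2.1 fun σ hσ => by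
    rw [map_sub, Kum.div_fixed hz hy σ hσ, _root_.map_one]
  rw [h2.2, div_div, div_eq_div_iff (mul_ne_zero (Nat.cast_ne_zero.mpr he0)
    (Nat.cast_ne_zero.mpr hp.out.ne_zero)) (Nat.cast_ne_zero.mpr he0)] at hm
  have h3 : (n : ℚ) = p * m := mul_right_cancel₀ (Nat.cast_ne_zero.mpr he0)
    (by linear_combination hm)
  exact hn (Int.natCast_dvd_natCast.mp ⟨m, by exact_mod_cast h3⟩)

/-- Vanishing leading residue raises the level. -/
theorem lev_succ_of_lead_zero {n : ℕ} {f : X →+ ZMod p} (hf : C.Lead e n f 0) :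
    C.Lev e (n + 1) f := by
  obtain ⟨y, hy, hyn, hl⟩ := hf
  have he0 : e ≠ 0 := fun e0 => he (by rw [e0]; exact dvd_zero p)
  refine ⟨y, hy, ?_⟩
  rw [red_eq_zero_iff h (ge_div_pi_pow h hπ he0 hyn)] at hl
  rcases eq_or_ne (y ^ p - 1) 0 with h0 | h0
  · exact Or.inl h0
  have hgt : (n : ℚ) / e < ord A p (y ^ p - 1) := by
    have := (hl.mul_ge h ((is_pi h he0 hπ).pow h n).ge).resolve_left
      (by rwa [div_mul_cancel₀ _ (pow_ne_zero _ (is_pi h he0 hπ).1)])
    rwa [div_mul_cancel₀ _ (pow_ne_zero _ (is_pi h he0 hπ).1), zero_add, mul_one_div] at this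
  obtain ⟨m, hm⟩ := exists_int_ord_tame h he hπ h0 fun σ hσ => by
    rw [map_sub, hy.pow_fixed σ hσ, _root_.map_one]
  refine Or.inr ?_
  have heq : (0 : ℚ) < e := by exact_mod_cast Nat.pos_of_ne_zero he0
  rw [hm, div_lt_div_iff_of_pos_right heq] at hgt
  rw [hm, div_le_div_iff_of_pos_right heq]
  have : (n : ℤ) + 1 ≤ m := by exact_mod_cast (show (n : ℤ) < m by exact_mod_cast hgt)
  exact_mod_cast this

/-- Levels divisible by `p` are removable. -/
theorem lev_succ_of_dvd {n : ℕ} (hn : 0 < n) (hpn : p ∣ n)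
    (hlt : (n : ℚ) / e * ((p : ℚ) - 1) < p) {f : X →+ ZMod p} (hf : C.Lev e n f) :
    C.Lev e (n + 1) f := by
  obtain ⟨y, hy, hyn⟩ := hf
  have he0 : e ≠ 0 := fun e0 => he (by rw [e0]; exact dvd_zero p)
  obtain ⟨k, rfl⟩ := hpn
  set U := y ^ p - 1 with hU
  have hπn := (is_pi h he0 hπ).pow h (p * k)
  by_cases hl : red A (U / π ^ (p * k)) = 0
  · exact lev_succ_of_lead_zero h he hπ ⟨y, hy, hyn, hl⟩
  have hI : Is A p (U / π ^ (p * k)) 0 := (ge_div_pi_pow h hπ he0 hyn).is_of_not_gt fun hg =>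
    hl ((red_eq_zero_iff h (ge_div_pi_pow h hπ he0 hyn)).mpr hg)
  -- cancel the leading term by the `p`-th power of `1 + ω π ^ k`
  obtain ⟨ω, hω, hωfix, hUω⟩ := exists_fixed_pow_near h hI
  set x := ω * π ^ k with hx
  have hxI : Is A p x ((k : ℚ) / e) := by
    have := hω.mul h ((is_pi h he0 hπ).pow h k)
    rwa [zero_add, mul_one_div] at this
  have hk : (0 : ℚ) < (k : ℚ) / e := div_pos
    (by exact_mod_cast Nat.pos_of_mul_pos_left hn) (by exact_mod_cast Nat.pos_of_ne_zero he0)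
  obtain ⟨q, hq, hbin⟩ := one_add_pow_prime h (hxI.gt hk).ge
  have hpk : ((p * k : ℕ) : ℚ) / e = p * ((k : ℚ) / e) := by push_cast; ring
  rw [hpk] at hlt hyn
  have hklt : (p : ℚ) * ((k : ℚ) / e) < 1 + (k : ℚ) / e := by
    nlinarith
  have hrest : Gt A p ((p : ℚbar) * x + (p : ℚbar) * x ^ 2 * q) ((p : ℚ) * ((k : ℚ) / e)) :=
    (((is_p h).mul h hxI).gt hklt).add h ((((is_p h).mul h (hxI.pow h 2)).ge.mul h hq).gt
      (show (p : ℚ) * ((k : ℚ) / e) < 1 + ((2 : ℕ) : ℚ) * ((k : ℚ) / e) + 0 by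
        push_cast; linarith))
  have hz : Is A p (1 + x) 0 := (is_one h).add h (hxI.gt hk)
  have hzfix : ∀ σ ∈ tame A π, σ (1 + x)⁻¹ = (1 + x)⁻¹ := fun σ hσ => by
    rw [map_inv₀, map_add, _root_.map_one, hx, _root_.map_mul, _root_.map_pow,
      hωfix σ (isInert_of_mem_tame hσ), (mem_tame.mp hσ).2]
  have hlead : Gt A p ((y * (1 + x)⁻¹) ^ p - 1) ((p : ℚ) * ((k : ℚ) / e)) := by
    have h1 := hUω.mul_ge h hπn.ge
    rw [zero_add, mul_one_div, hpk, sub_mul,
      div_mul_cancel₀ _ (pow_ne_zero _ (is_pi h he0 hπ).1)] at h1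
    have h2 := Gt.div h (h1.sub h hrest) (hz.pow h p)
    rw [mul_zero, sub_zero] at h2
    convert h2 using 1
    rw [mul_pow, inv_pow, ← div_eq_mul_inv, div_sub_one (pow_ne_zero _ hz.1)]
    congr 1
    rw [hbin, hU, hx, mul_pow, ← pow_mul, mul_comm k p]
    ring
  refine lev_succ_of_lead_zero h he hπ ⟨y * (1 + x)⁻¹, hy.mul_fixed (inv_ne_zero hz.1) hzfix,
    by rw [hpk]; exact hlead.ge, ?_⟩
  rw [red_eq_zero_iff h (ge_div_pi_pow h hπ he0 (by rw [hpk]; exact hlead.ge))]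
  have := Gt.div h hlead hπn
  rwa [mul_one_div, hpk, sub_self] at this

/-- Deep classes are trivial. -/
theorem eq_zero_of_deep (hpe : p - 1 ∣ e) {n : ℕ} (hn : (p : ℚ) / ((p : ℚ) - 1) ≤ (n : ℚ) / e)
    {f : X →+ ZMod p} (hf : C.Lev e n f) : ∀ σ ∈ tame A π, f (C.c σ) = 0 := by
  obtain ⟨y, hy, hyn⟩ := hf
  have he0 : e ≠ 0 := fun e0 => he (by rw [e0]; exact dvd_zero p)
  exact hy.eq_zero fun σ hσ =>
    apply_pth_root h he0 hπ hpe hσ (hy.pow_fixed σ hσ) (hyn.mono hn)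

/-! ### A tame move -/

/-- A move: `γ π = z π`, acting by `χ` on `μ_p` and by `S` on the values of `c`. -/
structure Move (C : TameMap p A π X) (γ : Γℚ) (z : ℚbar) (χ : ℕ) (S : X →+ X) : Prop where
  /-- `γ` is in inertia. -/
  mem : γ ∈ A.inertiaSubgroupIn ℚ
  /-- `γ` multiplies `π` by `z`. -/
  apply_pi : γ π = z * π
  /-- `γ` raises the root of unity to the power `χ`. -/
  apply_root : γ C.ξ = C.ξ ^ χ
  /-- `γ` normalises the tame group. -/
  conj_mem : ∀ σ ∈ tame A π, γ⁻¹ * σ * γ ∈ tame A π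
  /-- Conjugation by `γ` transforms the values of `c` by `S`. -/
  conj : ∀ σ ∈ tame A π, C.c (γ⁻¹ * σ * γ) = S (C.c σ)

variable {γ : Γℚ} {z : ℚbar} {χ : ℕ} {S : X →+ X}

omit h he hπ in
/-- A move sends a generator of `f` to one of `χ f ∘ S`. -/
lemma Move.kum (hm : C.Move γ z χ S) {f : X →+ ZMod p} {y : ℚbar} (hy : C.Kum f y) :
    C.Kum (χ • f.comp S) (γ y) := by
  refine ⟨(_root_.map_ne_zero _).mpr hy.1, fun σ hσ => ?_⟩
  have : NeZero p := ⟨hp.out.ne_zero⟩
  have e1 : σ (γ y) = γ ((γ⁻¹ * σ * γ) y) := by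
    rw [← AlgEquiv.mul_apply σ γ, ← AlgEquiv.mul_apply γ]
    congr 1
    group
  rw [e1, hy.2 _ (hm.conj_mem σ hσ), hm.conj σ hσ, _root_.map_mul, _root_.map_pow, hm.apply_root,
    ← pow_mul]
  congr 1
  refine pow_eq_pow_of_modEq ?_ C.root.pow_eq_one
  rw [← ZMod.natCast_eq_natCast_iff]
  simp

/-- The move multiplies leading residues by `z^n`. -/
theorem Move.lead (hm : C.Move γ z χ S) {n : ℕ} {f : X →+ ZMod p} {l : ResidueField A}
    (hf : C.Lead e n f l) : C.Lead e n (χ • f.comp S) (red A z ^ n * l) := by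
  obtain ⟨y, hy, hyn, rfl⟩ := hf
  have he0 : e ≠ 0 := fun e0 => he (by rw [e0]; exact dvd_zero p)
  have hγ := isInert_of_mem_inertia hm.mem
  have hπ1 := is_pi h he0 hπ
  have hz0 : Is A p z 0 := by
    have := (hγ.is_apply h hπ1).div h hπ1
    rwa [sub_self, hm.apply_pi, mul_div_cancel_right₀ _ hπ1.1] at this
  have hU := ge_div_pi_pow h hπ he0 hyn
  refine ⟨γ y, hm.kum hy, ?_, ?_⟩
  · have := hγ.ge_apply h hyn
    rwa [map_sub, _root_.map_pow, _root_.map_one] at this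
  · have e1 : ((γ y) ^ p - 1) / π ^ n = γ ((y ^ p - 1) / π ^ n) * z ^ n := by
      rw [map_div₀, map_sub, _root_.map_pow, _root_.map_pow, _root_.map_one, hm.apply_pi, mul_pow,
        div_mul_eq_div_div, mul_comm, mul_div_assoc', mul_div_cancel₀]
      exact pow_ne_zero _ hz0.1
    rw [e1, red_mul h (hγ.ge_apply h hU) (by simpa using hz0.ge.pow h n), red_apply h hγ hU,
      red_pow h hz0.ge, mul_comm]

/-- `f` is killed by `S² + a₁ S + a₀` on the values of `c`. -/
def Killed (C : TameMap p A π X) (S : X →+ X) (a₁ a₀ : ℕ) (f : X →+ ZMod p) : Prop :=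
  ∀ σ ∈ tame A π, f (S (S (C.c σ))) + a₁ * f (S (C.c σ)) + a₀ * f (C.c σ) = 0

/-- **Levels of killed functionals.** A functional killed by a quadratic in `S` rises from level `n`
to `n + 1` unless `p ∤ n` and the quadratic vanishes at `u ^ n / χ`, `u` the residue of `z`. -/
theorem Move.lev_succ (hm : C.Move γ z χ S) {a₁ a₀ : ℕ} {n : ℕ} (hn : 0 < n)
    (hlt : (n : ℚ) / e * ((p : ℚ) - 1) < p)
    (hroot : p ∣ n ∨ (red A z ^ n) ^ 2 + (χ : ResidueField A) * a₁ * red A z ^ n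
      + (χ : ResidueField A) ^ 2 * a₀ ≠ 0)
    {f : X →+ ZMod p} (hk : C.Killed S a₁ a₀ f) (hf : C.Lev e n f) : C.Lev e (n + 1) f := by
  by_cases hpn : p ∣ n
  · exact lev_succ_of_dvd h he hπ hn hpn hlt hf
  obtain ⟨l, hl⟩ := hf.exists_lead
  refine lev_succ_of_lead_zero h he hπ ?_
  have h1 := hm.lead h he hπ hl
  have h2 := hm.lead h he hπ h1
  -- apply the quadratic to the leading residue: it is multiplied by the nonzero value at `z ^ n`
  have hsum := Lead.add h he hπ hn (Lead.add h he hπ hn h2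
    (Lead.nsmul h he hπ hn h1 (χ * a₁))) (Lead.nsmul h he hπ hn hl (χ ^ 2 * a₀))
  have hzero : C.Lead e n (χ • (χ • f.comp S).comp S + (χ * a₁) • χ • f.comp S +
      (χ ^ 2 * a₀) • f) 0 :=
    (lead_zero n).congr fun σ hσ => by
      have := congrArg (fun w : ZMod p => (χ : ZMod p) ^ 2 * w) (hk σ hσ)
      simp only [mul_zero] at this
      simp only [AddMonoidHom.zero_apply, AddMonoidHom.add_apply, AddMonoidHom.smul_apply,
        AddMonoidHom.comp_apply, nsmul_eq_mul, Nat.cast_mul, Nat.cast_pow]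
      linear_combination -this
  have heq := Lead.unique h he hπ hpn hlt hsum hzero
  push_cast at heq
  have hl0 : ((red A z ^ n) ^ 2 + (χ : ResidueField A) * a₁ * red A z ^ n
      + (χ : ResidueField A) ^ 2 * a₀) * l = 0 := by linear_combination heq
  rw [(mul_eq_zero.mp hl0).resolve_left (hroot.resolve_left hpn)] at hl
  exact hl

/-- **Killed functionals have level `≥ 1`** if the quadratic does not vanish at `1 / χ`. -/
theorem Move.lev_one (hm : C.Move γ z χ S) {a₁ a₀ : ℕ}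
    (hone : (1 + (χ : ZMod p) * a₁ + (χ : ZMod p) ^ 2 * a₀) ≠ 0) {f : X →+ ZMod p}
    (hk : C.Killed S a₁ a₀ f) : C.Lev e 1 f := by
  have : NeZero p := ⟨hp.out.ne_zero⟩
  obtain ⟨y, hy⟩ := exists_kum C f
  have he0 : e ≠ 0 := fun e0 => he (by rw [e0]; exact dvd_zero p)
  have hp0 : (p : ℚ) ≠ 0 := Nat.cast_ne_zero.mpr hp.out.ne_zero
  have heq : (e : ℚ) ≠ 0 := Nat.cast_ne_zero.mpr he0
  have hord : ∀ {g : X →+ ZMod p} {w : ℚbar}, C.Kum g w → ∀ v : ℚbar, C.Kum g v →
      ∃ i : ℤ, ord A p w - ord A p v = (i : ℚ) / e := by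
    intro g w hw v hv
    obtain ⟨i, hi⟩ := exists_int_ord_tame h he hπ (div_ne_zero hw.1 hv.1) (Kum.div_fixed hv hw)
    exact ⟨i, by rw [← hi, div_eq_mul_inv w v, ord_mul h hw.1 (inv_ne_zero hv.1), ord_inv h]; ring⟩
  obtain ⟨m, hmy⟩ := exists_int_ord_tame h he hπ (pow_ne_zero p hy.1) hy.pow_fixed
  rw [ord_pow h] at hmy
  have hγ := isInert_of_mem_inertia hm.mem
  have h1 := hm.kum hy
  have h2 := hm.kum h1
  have hpowk : ∀ {g : X →+ ZMod p} {w : ℚbar}, C.Kum g w → ∀ a : ℕ, C.Kum (a • g) (w ^ a) := by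
    intro g w hw a
    induction a with
    | zero => simpa using kum_one (C := C)
    | succ a ih => rw [succ_nsmul, pow_succ]; exact ih.mul hw
  have hk3 := (h2.mul (hpowk h1 (χ * a₁))).mul (hpowk hy (χ ^ 2 * a₀))
  -- the quadratic makes `p` divide `e ⬝ ord (y ^ p)`
  obtain ⟨i, hi⟩ := hord (hk3.congr (g := 0) fun σ hσ => by
    have := congrArg (fun w : ZMod p => (χ : ZMod p) ^ 2 * w) (hk σ hσ)
    simp only [mul_zero] at this
    simp only [AddMonoidHom.zero_apply, AddMonoidHom.add_apply, AddMonoidHom.smul_apply,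
      AddMonoidHom.comp_apply, nsmul_eq_mul, Nat.cast_mul, Nat.cast_pow]
    linear_combination this) 1 kum_one
  have hIy := is_ord (A := A) (q := p) hy.1
  rw [(((hγ.is_apply h (hγ.is_apply h hIy)).mul h ((hγ.is_apply h hIy).pow h (χ * a₁))).mul h
    (hIy.pow h (χ ^ 2 * a₀))).2, ord_one h, sub_zero] at hi
  have hK : ((1 + χ * a₁ + χ ^ 2 * a₀ : ℕ) : ℤ) * m = p * i := by
    have e1 : ord A p y = (m : ℚ) / e / p := by rw [← hmy]; field_simp
    rw [e1] at hi
    push_cast at hi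
    field_simp at hi
    exact_mod_cast (show ((1 + χ * a₁ + χ ^ 2 * a₀ : ℕ) : ℚ) * m = p * i by
      push_cast; linear_combination hi)
  obtain ⟨m', rfl⟩ : (p : ℤ) ∣ m := (Int.Prime.dvd_mul' hp.out ⟨i, hK⟩).resolve_left fun hd =>
    hone (by
      have := (ZMod.natCast_eq_zero_iff _ _).mpr (Int.natCast_dvd_natCast.mp hd)
      push_cast at this
      exact this)
  have hπ1 := is_pi h he0 hπ
  -- scale to a unit, then move the `p`-th power next to `1`
  set y₁ := y * (π ^ m')⁻¹ with hy₁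
  have hy₁K : C.Kum f y₁ := hy.mul_fixed (inv_ne_zero (zpow_ne_zero _ hπ1.1)) fun σ hσ => by
    rw [map_inv₀, map_zpow₀, (mem_tame.mp hσ).2]
  have hI : Is A p (y₁ ^ p) 0 := by
    refine ⟨pow_ne_zero _ hy₁K.1, ?_⟩
    rw [ord_pow h, hy₁, ord_mul h hy.1 (inv_ne_zero (zpow_ne_zero _ hπ1.1)), ord_inv h,
      ord_zpow h, hπ1.2]
    push_cast at hmy
    field_simp at hmy ⊢
    linear_combination (p : ℚ) * hmy
  obtain ⟨ω, hω, hωfix, hyω⟩ := exists_fixed_pow_near h hI
  have hgt : Gt A p ((y₁ * ω⁻¹) ^ p - 1) 0 := by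
    have := Gt.div h hyω (hω.pow h p)
    rw [mul_zero, sub_zero] at this
    convert this using 1
    rw [mul_pow, inv_pow, ← div_eq_mul_inv, div_sub_one (pow_ne_zero _ hω.1)]
  have hk' : C.Kum f (y₁ * ω⁻¹) := hy₁K.mul_fixed (inv_ne_zero hω.1) fun σ hσ => by
    rw [map_inv₀, hωfix σ (isInert_of_mem_tame hσ)]
  refine lev_succ_of_lead_zero h he hπ (n := 0) ⟨_, hk', by simpa using hgt.ge, ?_⟩
  rw [pow_zero, div_one, red_eq_zero_iff h hgt.ge]
  exact hgt

end place

end TameMap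

end Fermat.FLAT
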