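import Fermat.Agent.FLAT.Fix
import Mathlib.LinearAlgebra.FreeModule.PID
import Mathlib.RingTheory.Noetherian.Basic
import Mathlib.RingTheory.Polynomial.Vieta
import Mathlib.Algebra.Polynomial.Lifts
import Mathlib.Algebra.Polynomial.Roots

/-!
# Models: finite flat group schemes seen as algebras of functions on their points

A `Model A H g` of a finite abelian group `M` with an action `g` of a group `H` containing inertia
at the place `A` is a finitely generated algebra over the fixed ring `Rfix A H` of `H`-equivariant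
functions `M → ℚbar` which separates points and is closed under comultiplication.

It replaces finite flat group schemes throughout. Models come from curves (`FLAT/Curve`,
`RED/Flat`) or from the prelude's flatness (`FromFlat`), give Hopf algebras (`ToHopf`), and carry
the ramification bounds behind the flat tangent bound (`Key`, `Conn`, `Simple`, `SS/*`, `ORD/*`).
-/

set_option autoImplicit false
set_option linter.unusedSectionVars false

noncomputable section

open Fermat.EC.Val

namespace Fermat.FLAT

local notation "ℚbar" => AlgebraicClosure ℚ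
local notation "Γℚ" => (AlgebraicClosure ℚ ≃ₐ[ℚ] AlgebraicClosure ℚ)

variable {p : ℕ} [Fact p.Prime] {A : ValuationSubring ℚbar} {H : Subgroup Γℚ}
  {M : Type*} [AddCommGroup M] [Finite M]

/-- A model over the fixed ring of `H` of the `H`-module `(M, g)`. -/
structure Model (A : ValuationSubring ℚbar) (H : Subgroup Γℚ) {M : Type*} [AddCommGroup M]
    (g : Γℚ → AddMonoid.End M) where
  /-- The algebra of functions on the points. -/
  O : Subalgebra (Rfix A H) (M → ℚbar)
  /-- It is finitely generated as a module over the fixed ring. -/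
  fg : (Subalgebra.toSubmodule O).FG
  /-- `H` contains inertia at `A`. -/
  inertia_le : A.inertiaSubgroupIn ℚ ≤ H
  /-- The identity acts trivially. -/
  act_one : g 1 = 1
  /-- `g` is multiplicative on `H`. -/
  act_mul : ∀ σ ∈ H, ∀ τ ∈ H, g (σ * τ) = g σ * g τ
  /-- The functions commute with the actions of `H` on points and on values. -/
  equivariant : ∀ f ∈ O, ∀ σ ∈ H, ∀ x : M, f (g σ x) = σ (f x)
  /-- The functions separate the points. -/
  separates : ∀ x y : M, (∀ f ∈ O, f x = f y) → x = y
  /-- Comultiplication: `f (x + y)` is a finite sum of products from the algebra. -/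
  comul : ∀ f ∈ O, ∃ (n : ℕ) (a b : Fin n → M → ℚbar), (∀ i, a i ∈ O ∧ b i ∈ O) ∧
    ∀ x y, f (x + y) = ∑ i, a i x * b i y

/-- The family `e` extended by the constant function `1`, at `none`. -/
def bb {n : ℕ} (e : Fin n → M → ℚbar) : Option (Fin n) → M → ℚbar := fun o => o.elim 1 e

/-- Pulling back functions. -/
def pull {A : ValuationSubring ℚbar} {H : Subgroup Γℚ} {N N' : Type*} (φ : N → N') :
    (N' → ℚbar) →ₐ[Rfix A H] (N → ℚbar) :=
  AlgHom.pi fun x => Pi.evalAlgHom (Rfix A H) (fun _ : N' => ℚbar) (φ x)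

/-- Pulling back is composition. -/
@[simp] lemma pull_apply {N N' : Type*} (φ : N → N') (f : N' → ℚbar) (x : N) :
    pull (A := A) (H := H) φ f x = f (φ x) := rfl

namespace Model

variable {g : Γℚ → AddMonoid.End M} (G : Model A H g)

include G in
/-- The identity acts trivially. -/
lemma one_act (x : M) : g 1 x = x := by rw [G.act_one]; rfl

include G in
/-- The action composes on `H`. -/
lemma act_act {σ τ : Γℚ} (hσ : σ ∈ H) (hτ : τ ∈ H) (x : M) : g σ (g τ x) = g (σ * τ) x := by
  rw [G.act_mul σ hσ τ hτ]; rfl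

include G in
/-- `σ⁻¹` undoes the action of `σ`. -/
lemma act_inv {σ : Γℚ} (hσ : σ ∈ H) (x : M) : g σ⁻¹ (g σ x) = x := by
  rw [G.act_act (inv_mem hσ) hσ, inv_mul_cancel, G.one_act]

include G in
/-- `σ` undoes the action of `σ⁻¹`. -/
lemma act_inv' {σ : Γℚ} (hσ : σ ∈ H) (x : M) : g σ (g σ⁻¹ x) = x := by
  rw [G.act_act hσ (inv_mem hσ), mul_inv_cancel, G.one_act]

include G in
/-- Elements of `H` act surjectively. -/
lemma act_surjective {σ : Γℚ} (hσ : σ ∈ H) : Function.Surjective (g σ) :=
  fun x => ⟨g σ⁻¹ x, G.act_inv' hσ x⟩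

include G in
/-- Elements of `H` act injectively. -/
lemma act_injective {σ : Γℚ} (hσ : σ ∈ H) : Function.Injective (g σ) := fun u v huv => by
  rw [← G.act_inv hσ u, huv, G.act_inv hσ v]

include G in
/-- Inertia is in `H`. -/
lemma inertia_mem {σ : Γℚ} (hσ : σ ∈ A.inertiaSubgroupIn ℚ) : σ ∈ H := G.inertia_le hσ

/-- The values of the functions of a model are integral over the fixed ring. -/
lemma isIntegral_apply {f : M → ℚbar} (hf : f ∈ G.O) (x : M) :
    IsIntegral (Rfix A H) (f x) := by
  have := (IsIntegral.of_mem_of_fg G.O G.fg f hf).map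
    (Pi.evalAlgHom (Rfix A H) (fun _ : M => ℚbar) x)
  exact this

/-- The values of the functions of a model are integral at the place. -/
lemma ge_zero (h : IsPlace A p) {f : M → ℚbar} (hf : f ∈ G.O) (x : M) :
    Ge A p (f x) 0 := (mem_iff_ge h _).mp (mem_of_isIntegral_Rfix (G.isIntegral_apply hf x))

/-- The value at the origin is in the fixed ring. -/
lemma exists_apply_zero {f : M → ℚbar} (hf : f ∈ G.O) :
    ∃ r : Rfix A H, algebraMap (Rfix A H) ℚbar r = f 0 :=
  exists_Rfix_of_fixed (G.isIntegral_apply hf 0) fun σ hσ => by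
    rw [← G.equivariant f hf σ hσ, map_zero]

/-- The augmentation ideal, as a module over the fixed ring. -/
def aug : Submodule (Rfix A H) (M → ℚbar) :=
  Subalgebra.toSubmodule G.O ⊓ LinearMap.ker
    (LinearMap.proj (R := Rfix A H) (φ := fun _ : M => ℚbar) 0)

/-- The augmentation ideal consists of the functions of the model vanishing at the origin. -/
lemma mem_aug {f : M → ℚbar} : f ∈ G.aug ↔ f ∈ G.O ∧ f 0 = 0 := Iff.rfl

/-- A function minus its value at the origin is in the augmentation ideal. -/
lemma sub_mem_aug {f : M → ℚbar} {r : Rfix A H} (hf : f ∈ G.O)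
    (hr : algebraMap (Rfix A H) ℚbar r = f 0) : f - algebraMap (Rfix A H) (M → ℚbar) r ∈ G.aug :=
  ⟨sub_mem hf (G.O.algebraMap_mem r), by
    change (f - algebraMap (Rfix A H) (M → ℚbar) r) 0 = 0
    rw [Pi.sub_apply, Pi.algebraMap_apply, hr, sub_self]⟩

/-- **Bases**: `1` together with a basis of the augmentation ideal, independent over `ℚbar`. -/
theorem exists_basis (h : IsPlace A p) :
    ∃ (n : ℕ) (e : Fin n → M → ℚbar), (∀ i, e i ∈ G.O ∧ e i 0 = 0) ∧
      LinearIndependent ℚbar (bb e) ∧
      ∀ f ∈ G.O, ∃ c : Option (Fin n) → Rfix A H, f = ∑ o, c o • bb e o := by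
  have := isPrincipalIdealRing_Rfix h G.inertia_le
  have : IsNoetherian (Rfix A H) (Subalgebra.toSubmodule G.O) :=
    isNoetherian_of_fg_of_noetherian _ G.fg
  have : IsNoetherian (Rfix A H) G.aug := isNoetherian_of_le inf_le_left
  have : Module.IsTorsionFree (Rfix A H) G.aug := Module.IsTorsionFree.of_smul_eq_zero fun r f h =>
    (smul_eq_zero.mp (congrArg Subtype.val h : r • (f : M → ℚbar) = 0)).imp id Subtype.ext
  have : Module.Free (Rfix A H) G.aug := Module.free_of_finite_type_torsion_free'
  let B := Module.finBasis (Rfix A H) G.aug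
  set e : Fin (Module.finrank (Rfix A H) G.aug) → M → ℚbar := fun i => (B i : M → ℚbar) with he
  refine ⟨_, e, fun i => G.mem_aug.mp (B i).2, ?_, fun f hf => ?_⟩
  -- independence over the fixed ring descends to `ℚbar` by equivariance
  · refine linearIndependent_qbar h (fun σ => g σ) (fun σ hσ => G.act_surjective hσ) _ ?_ ?_
    · rintro (_ | i) σ hσ x
      · exact (map_one σ).symm
      · exact G.equivariant _ (G.mem_aug.mp (B i).2).1 σ hσ x
    · rw [Fintype.linearIndependent_iff]
      intro c hc
      rw [Fintype.sum_option] at hc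
      have h0 : algebraMap (Rfix A H) ℚbar (c none) = 0 := by
        have := congrFun hc 0
        simpa [bb, Algebra.smul_def, he, fun i => (G.mem_aug.mp (B i).2).2] using this
      have hc0 : c none = 0 := Subtype.ext h0
      simp only [hc0, Algebra.smul_def, map_zero, zero_mul, zero_add] at hc
      have hsum : ∑ i, c (some i) • B i = 0 :=
        Subtype.ext (by simpa [bb, he, Algebra.smul_def] using hc)
      rintro (_ | i)
      · exact hc0
      · exact Fintype.linearIndependent_iff.mp B.linearIndependent _ hsum i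
  · obtain ⟨r, hr⟩ := G.exists_apply_zero hf
    refine ⟨fun o => o.elim r fun i => B.repr ⟨_, G.sub_mem_aug hf hr⟩ i, ?_⟩
    have hB := congrArg Subtype.val (B.sum_repr ⟨_, G.sub_mem_aug hf hr⟩)
    simp only [Submodule.coe_sum, Submodule.coe_smul] at hB
    rw [Fintype.sum_option]
    simp only [bb, Option.elim, he, hB]
    rw [← Algebra.algebraMap_eq_smul_one, add_sub_cancel]

section basis

variable {n : ℕ} {e : Fin n → M → ℚbar} (he : ∀ i, e i ∈ G.O ∧ e i 0 = 0)
  (hind : LinearIndependent ℚbar (bb e))
  (hspan : ∀ f ∈ G.O, ∃ c : Option (Fin n) → Rfix A H, f = ∑ o, c o • bb e o)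

include he in
/-- `1` and the basis of the augmentation ideal lie in the model. -/
lemma bb_mem : ∀ o, bb e o ∈ G.O
  | none => one_mem _
  | some i => (he i).1

include hspan in
/-- The comultiplication of a function of the model in the basis. -/
lemma exists_comul {f : M → ℚbar} (hf : f ∈ G.O) :
    ∃ C : Option (Fin n) → Option (Fin n) → Rfix A H, ∀ x y,
      f (x + y) = ∑ o, ∑ o', algebraMap (Rfix A H) ℚbar (C o o') * (bb e o x * bb e o' y) := by
  obtain ⟨m, a, b, hab, hf'⟩ := G.comul f hf
  choose ca hca using fun i => hspan _ (hab i).1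
  choose cb hcb using fun i => hspan _ (hab i).2
  refine ⟨fun o o' => ∑ i, ca i o * cb i o', fun x y => ?_⟩
  simp only [hf', hca, hcb, Finset.sum_apply, Algebra.smul_def, Pi.mul_apply, Pi.algebraMap_apply,
    map_sum, map_mul, Finset.sum_mul, Finset.mul_sum]
  conv_lhs => rw [Finset.sum_comm]
  conv_rhs => rw [Finset.sum_comm]
  refine Finset.sum_congr rfl fun o' _ => ?_
  rw [Finset.sum_comm]
  refine Finset.sum_congr rfl fun o _ => Finset.sum_congr rfl fun i _ => ?_
  ring

end basis

/-! ### Subgroups -/

variable {M' : Type*} [AddCommGroup M'] {g' : Γℚ → AddMonoid.End M'}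

/-- The model induced on a Galois stable subgroup. -/
def restrict (ι : M' →+ M) (hι : Function.Injective ι)
    (hg : ∀ σ ∈ H, ∀ x, ι (g' σ x) = g σ (ι x)) : Model A H g' where
  O := G.O.map (pull ι)
  inertia_le := G.inertia_le
  act_one := AddMonoidHom.ext fun x => hι (by
    change ι (g' 1 x) = ι x
    rw [hg 1 (one_mem H), G.one_act])
  act_mul σ hσ τ hτ := AddMonoidHom.ext fun x => hι (by
    change ι (g' (σ * τ) x) = ι (g' σ (g' τ x))
    rw [hg _ (mul_mem hσ hτ), hg σ hσ, hg τ hτ, G.act_act hσ hτ])
  fg := by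
    rw [Subalgebra.map_toSubmodule]
    exact G.fg.map _
  equivariant := by
    rintro _ ⟨f, hf, rfl⟩ σ hσ x
    change f (ι (g' σ x)) = σ (f (ι x))
    rw [hg σ hσ, G.equivariant f hf σ hσ]
  separates x y h := hι (G.separates _ _ fun f hf => h _ ⟨f, hf, rfl⟩)
  comul := by
    rintro _ ⟨f, hf, rfl⟩
    obtain ⟨n, a, b, hab, hf'⟩ := G.comul f hf
    refine ⟨n, fun i => pull (A := A) (H := H) ι (a i), fun i => pull (A := A) (H := H) ι (b i),
      fun i => ⟨⟨_, (hab i).1, rfl⟩, ⟨_, (hab i).2, rfl⟩⟩, fun x y => ?_⟩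
    change f (ι (x + y)) = ∑ i, a i (ι x) * b i (ι y)
    rw [map_add, hf']

/-! ### Translations: the span over the integral algebraic numbers -/

/-- The span of `G.O` over the algebraic numbers integral over the fixed ring. -/
def intSpan : Subalgebra (integralClosure (Rfix A H) ℚbar) (M → ℚbar) :=
  Algebra.adjoin (integralClosure (Rfix A H) ℚbar) (G.O : Set (M → ℚbar))

/-- Translates of functions of the model lie in `intSpan`. -/
lemma translate_mem {f : M → ℚbar} (hf : f ∈ G.O) (k : M) : (fun x => f (x + k)) ∈ G.intSpan := by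
  obtain ⟨n, a, b, hab, hf'⟩ := G.comul f hf
  have e : (fun x => f (x + k)) =
      ∑ i, (⟨b i k, G.isIntegral_apply (hab i).2 k⟩ : integralClosure (Rfix A H) ℚbar) • a i := by
    funext x
    simp only [hf', Finset.sum_apply, Pi.smul_apply, Subalgebra.smul_def, smul_eq_mul]
    exact Finset.sum_congr rfl fun i _ => mul_comm _ _
  rw [e]
  exact sum_mem fun i _ => Subalgebra.smul_mem _ (Algebra.subset_adjoin (hab i).1) _

/-- The equivariant functions in `intSpan` are those of the model. -/
lemma mem_of_equivariant (h : IsPlace A p) {c : M → ℚbar} (hc : c ∈ G.intSpan)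
    (heq : ∀ σ ∈ H, ∀ x : M, c (g σ x) = σ (c x)) : c ∈ G.O := by
  classical
  obtain ⟨n, e, he, hind, hspan⟩ := G.exists_basis h
  -- integral coefficients in the basis; equivariance and independence make them fixed
  have hc' : ∃ γ : Option (Fin n) → ℚbar,
      (∀ o, IsIntegral (Rfix A H) (γ o)) ∧ c = ∑ o, γ o • bb e o := by
    have hS : c ∈ Submodule.span (integralClosure (Rfix A H) ℚbar) (G.O : Set (M → ℚbar)) := by
      have e1 : Subalgebra.toSubmodule G.intSpan =
          Submodule.span (integralClosure (Rfix A H) ℚbar) (G.O : Set (M → ℚbar)) := by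
        rw [intSpan, Algebra.adjoin_eq_span]
        congr 1
        exact (Submonoid.closure_eq (G.O.toSubsemiring.toSubmonoid)).symm ▸ rfl
      rw [← e1]
      exact hc
    clear hc heq
    induction hS using Submodule.span_induction with
    | mem f hf =>
      obtain ⟨r, hr⟩ := hspan f hf
      exact ⟨fun o => algebraMap (Rfix A H) ℚbar (r o), fun o => isIntegral_algebraMap, by
        conv_lhs => rw [hr]
        simp only [algebraMap_smul]⟩
    | zero => exact ⟨0, fun _ => isIntegral_zero, by simp⟩
    | add f f' _ _ ih ih' =>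
      obtain ⟨γ, hγ, rfl⟩ := ih
      obtain ⟨γ', hγ', rfl⟩ := ih'
      exact ⟨γ + γ', fun o => (hγ o).add (hγ' o), by simp [add_smul, Finset.sum_add_distrib]⟩
    | smul r f _ ih =>
      obtain ⟨γ, hγ, rfl⟩ := ih
      exact ⟨fun o => (r : ℚbar) * γ o, fun o => r.2.mul (hγ o), by
        simp [Finset.smul_sum, Subalgebra.smul_def, smul_smul]⟩
  obtain ⟨γ, hγ, rfl⟩ := hc'
  have hfix : ∀ o, ∀ σ ∈ H, σ (γ o) = γ o := by
    intro o σ hσ
    have h0 : ∑ o, (σ (γ o) - γ o) • bb e o = 0 := by
      funext x
      obtain ⟨y, rfl⟩ := G.act_surjective hσ x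
      have := heq σ hσ y
      simp only [Finset.sum_apply, Pi.smul_apply, smul_eq_mul, sub_mul, Finset.sum_sub_distrib,
        Pi.zero_apply] at this ⊢
      rw [this, map_sum, ← Finset.sum_sub_distrib]
      refine Finset.sum_eq_zero fun o _ => ?_
      rw [map_mul, G.equivariant _ (G.bb_mem he o) σ hσ, sub_self]
    exact sub_eq_zero.mp (Fintype.linearIndependent_iff.mp hind _ h0 o)
  choose r hr using fun o => exists_Rfix_of_fixed (hγ o) (hfix o)
  simp only [← hr, algebraMap_smul]
  exact sum_mem fun o _ => Subalgebra.smul_mem _ (G.bb_mem he o) _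

/-- Some element of the model is injective. -/
lemma exists_injective (h : IsPlace A p) : ∃ f ∈ G.O, Function.Injective f := by
  classical
  have := Fintype.ofFinite M
  obtain ⟨n, e, he, hind, hspan⟩ := G.exists_basis h
  -- a general combination `∑ t ^ i e_i` separates the points
  set P : M → Polynomial ℚbar := fun x =>
    ∑ i : Fin n, Polynomial.C (e i x) * Polynomial.X ^ (i : ℕ) with hP
  have hne : ∀ z : M × M, z.1 ≠ z.2 → P z.1 - P z.2 ≠ 0 := by
    intro z hz e0
    refine hz (G.separates _ _ fun f hf => ?_)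
    obtain ⟨c, rfl⟩ := hspan f hf
    simp only [Finset.sum_apply, Pi.smul_apply]
    refine Finset.sum_congr rfl fun o _ => ?_
    rcases o with _ | i
    · rfl
    · have := congrArg (fun Q : Polynomial ℚbar => Q.coeff i) e0
      simp [hP, Polynomial.finsetSum_coeff, Fin.val_inj,
        sub_eq_zero] at this
      change c (some i) • e i z.1 = c (some i) • e i z.2
      rw [this]
  set bad : Finset ℚbar :=
    (Finset.univ.filter fun z : M × M => z.1 ≠ z.2).biUnion fun z => (P z.1 - P z.2).roots.toFinset
  obtain ⟨t, ht⟩ : ∃ t : ℕ, (t : ℚbar) ∉ bad :=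
    Infinite.exists_notMem_finset (bad.preimage _ Nat.cast_injective.injOn) |>.imp fun t h => by
      simpa using h
  refine ⟨∑ i : Fin n, ((t ^ (i : ℕ) : ℕ) : Rfix A H) • e i,
    sum_mem fun i _ => Subalgebra.smul_mem _ (he i).1 _, fun x y hxy => ?_⟩
  by_contra hne'
  refine ht (Finset.mem_biUnion.mpr ⟨(x, y), by simpa using hne', ?_⟩)
  rw [Multiset.mem_toFinset, Polynomial.mem_roots (hne (x, y) hne'), Polynomial.IsRoot,
    Polynomial.eval_sub, sub_eq_zero]
  simp only [hP, Polynomial.eval_finsetSum, Polynomial.eval_mul, Polynomial.eval_C,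
    Polynomial.eval_pow, Polynomial.eval_X]
  simp only [Finset.sum_apply, Algebra.smul_def, Pi.mul_apply, Pi.algebraMap_apply,
    Nat.cast_pow] at hxy
  simp only [map_pow, map_natCast] at hxy
  refine Eq.trans ?_ (hxy.trans ?_)
  · exact Finset.sum_congr rfl fun i _ => mul_comm _ _
  · exact Finset.sum_congr rfl fun i _ => mul_comm _ _

/-! ### Quotients -/

section quot

variable {π : M →+ M'} (hπ : Function.Surjective π) (hg : ∀ σ ∈ H, ∀ x, π (g σ x) = g' σ (π x))

include hπ in
/-- The algebra of a quotient is a noetherian module over the fixed ring. -/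
private lemma isNoetherian_comap_pull (h : IsPlace A p) :
    IsNoetherian (Rfix A H) (Subalgebra.toSubmodule (G.O.comap (pull (A := A) (H := H) π))) := by
  have := isPrincipalIdealRing_Rfix h G.inertia_le
  have : IsNoetherian (Rfix A H) (Subalgebra.toSubmodule G.O) :=
    isNoetherian_of_fg_of_noetherian _ G.fg
  let L : Subalgebra.toSubmodule (G.O.comap (pull (A := A) (H := H) π)) →ₗ[Rfix A H]
      Subalgebra.toSubmodule G.O :=
    ((pull (A := A) (H := H) π).toLinearMap.domRestrict _).codRestrict _ fun f => f.2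
  exact isNoetherian_of_injective L fun a b hab => Subtype.ext (funext fun x => by
    obtain ⟨y, rfl⟩ := hπ x
    exact congrFun (congrArg Subtype.val hab) y)

include hπ in
/-- A function of the model which is constant on the cosets of the kernel descends to the
quotient. -/
private lemma exists_descend {F : M → ℚbar} (hF : F ∈ G.O)
    (hinv : ∀ x k, π k = 0 → F (x + k) = F x) :
    ∃ F' ∈ G.O.comap (pull (A := A) (H := H) π), ∀ x, F' (π x) = F x := by
  have hs : ∀ x, F (Function.surjInv hπ (π x)) = F x := fun x => by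
    have := hinv x (Function.surjInv hπ (π x) - x)
      (by rw [map_sub, Function.surjInv_eq hπ, sub_self])
    rwa [add_sub_cancel] at this
  refine ⟨fun w => F (Function.surjInv hπ w), ?_, hs⟩
  change pull (A := A) (H := H) π (fun w => F (Function.surjInv hπ w)) ∈ G.O
  convert hF using 1
  funext x
  exact hs x

/-- The polynomial whose roots are the values of `f` on the coset of `z` by the kernel of `π`. -/
private def cosetPoly (π : M →+ M') (f : M → ℚbar) (z : M) : Polynomial ℚbar :=
  ∏ k ∈ (Set.toFinite {k : M | π k = 0}).toFinset, (Polynomial.X - Polynomial.C (f (z + k)))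

/-- The coset polynomial only depends on the coset. -/
private lemma cosetPoly_add (f : M → ℚbar) (z : M) {k : M} (hk : π k = 0) :
    cosetPoly π f (z + k) = cosetPoly π f z :=
  Finset.prod_equiv (Equiv.addLeft k) (fun k' => by simp [hk]) (fun k' _ => by simp [add_assoc])

include hg in
/-- The coset polynomial is equivariant. -/
private lemma cosetPoly_act {f : M → ℚbar} (hf : f ∈ G.O) {σ : Γℚ} (hσ : σ ∈ H) (z : M) :
    cosetPoly π f (g σ z) = (cosetPoly π f z).map (σ : ℚbar →+* ℚbar) := by
  simp only [cosetPoly]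
  rw [Polynomial.map_prod]
  refine (Finset.prod_bij (fun k _ => g σ k) (fun k hk => ?_) (fun a _ b _ e => ?_)
    (fun k hk => ?_) fun k _ => ?_).symm
  · simp only [Set.Finite.mem_toFinset, Set.mem_ofPred_eq] at hk ⊢
    rw [hg σ hσ, hk, map_zero]
  · exact G.act_injective hσ e
  · simp only [Set.Finite.mem_toFinset, Set.mem_ofPred_eq] at hk ⊢
    exact ⟨g σ⁻¹ k, by rw [hg _ (inv_mem hσ), hk, map_zero], G.act_inv' hσ k⟩
  · rw [Polynomial.map_sub, Polynomial.map_X, Polynomial.map_C, ← map_add, G.equivariant f hf σ hσ]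
    rfl

include hg in
/-- The coefficients of the coset polynomial are functions of the model. -/
private lemma coeff_cosetPoly_mem (h : IsPlace A p) {f : M → ℚbar} (hf : f ∈ G.O) (m : ℕ) :
    (fun z => (cosetPoly π f z).coeff m) ∈ G.O := by
  refine G.mem_of_equivariant h ?_ fun σ hσ z => by
    rw [G.cosetPoly_act hg hf hσ, Polynomial.coeff_map]; rfl
  let : Ring G.intSpan := inferInstance
  let Q : Polynomial G.intSpan := ∏ k ∈ (Set.toFinite {k : M | π k = 0}).toFinset,
    ((Polynomial.X : Polynomial G.intSpan) -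
      Polynomial.C (⟨_, G.translate_mem hf k⟩ : G.intSpan))
  have e : ∀ z, cosetPoly π f z =
      Q.map ((Pi.evalRingHom (fun _ : M => ℚbar) z).comp G.intSpan.val.toRingHom) := fun z => by
    simp [cosetPoly, Q, Polynomial.map_prod]
  rw [show (fun z => (cosetPoly π f z).coeff m) = ((Q.coeff m : G.intSpan) : M → ℚbar) from
    funext fun z => by rw [e z, Polynomial.coeff_map]; rfl]
  exact (Q.coeff m).2

include hπ hg in
/-- The algebra of a quotient separates its points. -/
private lemma quot_separates (h : IsPlace A p) (x y : M')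
    (hsep : ∀ f ∈ G.O.comap (pull (A := A) (H := H) π), f x = f y) : x = y := by
  obtain ⟨x, rfl⟩ := hπ x
  obtain ⟨y, rfl⟩ := hπ y
  obtain ⟨f, hf, hinj⟩ := G.exists_injective h
  -- functions of the quotient see the coset polynomial of an injective `f`
  have hxy : cosetPoly π f x = cosetPoly π f y := by
    ext m
    obtain ⟨F', hF', hFx⟩ := G.exists_descend hπ (G.coeff_cosetPoly_mem hg h hf m)
      fun z k hk => by rw [cosetPoly_add f z hk]
    exact (hFx x).symm.trans ((hsep F' hF').trans (hFx y))
  have h0 : (cosetPoly π f y).eval (f x) = 0 := by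
    rw [← hxy, cosetPoly, Polynomial.eval_prod]
    exact Finset.prod_eq_zero (i := 0) (by simp) (by simp)
  rw [cosetPoly, Polynomial.eval_prod, Finset.prod_eq_zero_iff] at h0
  obtain ⟨k, hk, hk0⟩ := h0
  rw [Polynomial.eval_sub, Polynomial.eval_X, Polynomial.eval_C, sub_eq_zero] at hk0
  simp only [Set.Finite.mem_toFinset, Set.mem_ofPred_eq] at hk
  rw [hinj hk0, map_add, hk, add_zero]

include hπ hg in
/-- The algebra of a quotient has a basis which is independent over `ℚbar`. -/
private lemma exists_quot_basis (h : IsPlace A p) :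
    ∃ (r : ℕ) (b : Fin r → M' → ℚbar), (∀ i, b i ∈ G.O.comap (pull (A := A) (H := H) π)) ∧
      LinearIndependent ℚbar b ∧
      ∀ f ∈ G.O.comap (pull (A := A) (H := H) π), ∃ c : Fin r → Rfix A H, f = ∑ i, c i • b i := by
  have := isPrincipalIdealRing_Rfix h G.inertia_le
  set S := Subalgebra.toSubmodule (G.O.comap (pull (A := A) (H := H) π))
  have : IsNoetherian (Rfix A H) S := G.isNoetherian_comap_pull hπ h
  have : Module.IsTorsionFree (Rfix A H) S := Module.IsTorsionFree.of_smul_eq_zero fun r a h =>
    (smul_eq_zero.mp (congrArg Subtype.val h : r • (a : M' → ℚbar) = 0)).imp id Subtype.ext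
  have : Module.Free (Rfix A H) S := Module.free_of_finite_type_torsion_free'
  let B := Module.finBasis (Rfix A H) S
  refine ⟨_, fun i => (B i : M' → ℚbar), fun i => (B i).2,
    linearIndependent_qbar h (fun σ => g' σ)
      (fun σ hσ x => by
        obtain ⟨y, rfl⟩ := hπ x
        exact ⟨π (g σ⁻¹ y), by
          show g' σ (π (g σ⁻¹ y)) = π y
          rw [← hg σ hσ, G.act_inv' hσ]⟩) _
      (fun i σ hσ x => by
        obtain ⟨y, rfl⟩ := hπ x
        rw [← hg σ hσ]
        exact G.equivariant _ (B i).2 σ hσ y)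
      (B.linearIndependent.map' S.subtype S.ker_subtype),
    fun f hf => ⟨fun i => B.repr ⟨f, hf⟩ i, ?_⟩⟩
  have := congrArg Subtype.val (B.sum_repr ⟨f, hf⟩)
  simp only [Submodule.coe_sum, Submodule.coe_smul] at this
  exact this.symm

include hπ in
/-- In a comultiplication of a pulled back function the right factors descend to the quotient. -/
private lemma exists_comul_right {n : ℕ} {e : Fin n → M → ℚbar}
    (he : ∀ i, e i ∈ G.O ∧ e i 0 = 0) (hind : LinearIndependent ℚbar (bb e))
    (hspan : ∀ f ∈ G.O, ∃ c : Option (Fin n) → Rfix A H, f = ∑ o, c o • bb e o)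
    {f : M' → ℚbar} (hf : f ∈ G.O.comap (pull (A := A) (H := H) π)) :
    ∃ B : Option (Fin n) → M' → ℚbar, (∀ o, B o ∈ G.O.comap (pull (A := A) (H := H) π)) ∧
      ∀ x w, f (π x + w) = ∑ o, bb e o x * B o w := by
  obtain ⟨C, hC⟩ := G.exists_comul hspan hf
  set B : Option (Fin n) → M → ℚbar := fun o =>
    ∑ o' : Option (Fin n), C o o' • bb e o' with hB
  have hfB : ∀ x y, f (π x + π y) = ∑ o, bb e o x * B o y := by
    intro x y
    rw [← map_add]
    refine (hC x y).trans (Finset.sum_congr rfl fun o _ => ?_)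
    simp only [hB, Finset.sum_apply, Algebra.smul_def, Pi.mul_apply, Pi.algebraMap_apply,
      Finset.mul_sum]
    exact Finset.sum_congr rfl fun o' _ => by ring
  choose B' hB' hBB using fun o => G.exists_descend hπ
    (sum_mem fun o' _ => Subalgebra.smul_mem _ (G.bb_mem he o') _ : B o ∈ G.O) fun y k hk => by
      refine sub_eq_zero.mp (Fintype.linearIndependent_iff.mp hind
        (fun o => B o (y + k) - B o y) (funext fun x => ?_) o)
      simp only [Finset.sum_apply, Pi.smul_apply, smul_eq_mul, sub_mul, Finset.sum_sub_distrib,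
        Pi.zero_apply]
      simp only [mul_comm _ (bb e _ x)]
      rw [← hfB, ← hfB, map_add π y k, hk, add_zero, sub_self]
  refine ⟨B', hB', fun x w => ?_⟩
  obtain ⟨y, rfl⟩ := hπ w
  simpa only [hBB] using hfB x y

include hπ hg in
/-- The algebra of a quotient is closed under comultiplication. -/
private lemma quot_comul (h : IsPlace A p) {f : M' → ℚbar}
    (hf : f ∈ G.O.comap (pull (A := A) (H := H) π)) :
    ∃ (r : ℕ) (a b : Fin r → M' → ℚbar),
      (∀ i, a i ∈ G.O.comap (pull (A := A) (H := H) π) ∧
        b i ∈ G.O.comap (pull (A := A) (H := H) π)) ∧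
      ∀ x y, f (x + y) = ∑ i, a i x * b i y := by
  obtain ⟨n, e, he, hind, hspan⟩ := G.exists_basis h
  obtain ⟨B, hB, hfB⟩ := G.exists_comul_right hπ he hind hspan hf
  obtain ⟨r, b, hb, hind', hspan'⟩ := G.exists_quot_basis hπ hg h
  choose c hc using fun o => hspan' _ (hB o)
  set a : Fin r → M → ℚbar := fun i => ∑ o, c o i • bb e o with ha
  have hfa : ∀ x w, f (π x + w) = ∑ i, a i x * b i w := by
    intro x w
    simp only [hfB, hc, ha, Finset.sum_apply, Algebra.smul_def, Pi.mul_apply,
      Pi.algebraMap_apply, Finset.mul_sum, Finset.sum_mul]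
    rw [Finset.sum_comm]
    exact Finset.sum_congr rfl fun o _ => Finset.sum_congr rfl fun i _ => by ring
  choose a' ha' haa using fun i => G.exists_descend hπ
    (sum_mem fun o _ => Subalgebra.smul_mem _ (G.bb_mem he o) _ : a i ∈ G.O) fun x k hk => by
      refine sub_eq_zero.mp (Fintype.linearIndependent_iff.mp hind'
        (fun i => a i (x + k) - a i x) (funext fun w => ?_) i)
      simp only [Finset.sum_apply, Pi.smul_apply, smul_eq_mul, sub_mul, Finset.sum_sub_distrib,
        Pi.zero_apply]
      rw [← hfa, ← hfa, map_add π x k, hk, add_zero, sub_self]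
  refine ⟨r, a', b, fun i => ⟨ha' i, hb i⟩, fun x y => ?_⟩
  obtain ⟨x, rfl⟩ := hπ x
  simpa only [haa] using hfa x y

end quot

/-- The model induced on a Galois equivariant quotient. -/
def quot (h : IsPlace A p) (π : M →+ M') (hπ : Function.Surjective π)
    (hg : ∀ σ ∈ H, ∀ x, π (g σ x) = g' σ (π x)) : Model A H g' where
  O := G.O.comap (pull π)
  inertia_le := G.inertia_le
  act_one := AddMonoidHom.ext fun x => by
    obtain ⟨y, rfl⟩ := hπ x
    change g' 1 (π y) = π y
    rw [← hg 1 (one_mem H), G.one_act]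
  act_mul σ hσ τ hτ := AddMonoidHom.ext fun x => by
    obtain ⟨y, rfl⟩ := hπ x
    change g' (σ * τ) (π y) = g' σ (g' τ (π y))
    rw [← hg _ (mul_mem hσ hτ), ← hg τ hτ, ← hg σ hσ, G.act_act hσ hτ]
  fg := by
    have := G.isNoetherian_comap_pull hπ h
    exact Module.Finite.iff_fg.mp inferInstance
  equivariant f hf σ hσ x := by
    obtain ⟨y, rfl⟩ := hπ x
    rw [← hg σ hσ]
    exact G.equivariant _ hf σ hσ y
  separates x y := G.quot_separates hπ hg h x y
  comul _ hf := G.quot_comul hπ hg h hf

end Model

end Fermat.FLAT
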