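import Fermat.Agent.FLAT.Mult
import Mathlib.LinearAlgebra.Dual.Lemmas
import Mathlib.RingTheory.Artinian.Ring
import Mathlib.LinearAlgebra.Matrix.ToLin

/-!
# Connected points under restriction, quotients and decomposition

The connected points are functorial and stable under decomposition.
-/

set_option autoImplicit false

noncomputable section

open Fermat.EC.Val
open scoped Pointwise

namespace Fermat.FLAT

local notation "ℚbar" => AlgebraicClosure ℚ
local notation "Γℚ" => (AlgebraicClosure ℚ ≃ₐ[ℚ] AlgebraicClosure ℚ)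

variable {p : ℕ} [hp : Fact p.Prime] {A : ValuationSubring ℚbar}
  {H : Subgroup Γℚ} {M : Type*} [AddCommGroup M] [Finite M] {g : Γℚ → AddMonoid.End M}

namespace Model

variable (G : Model A H g)

/-- A point whose image is connected is connected in the restricted model. -/
lemma conn_restrict {M' : Type*} [AddCommGroup M'] [Finite M'] {g' : Γℚ → AddMonoid.End M'}
    (ι : M' →+ M) (hι : Function.Injective ι) (hg : ∀ σ ∈ H, ∀ x, ι (g' σ x) = g σ (ι x))
    (h : IsPlace A p) {x : M'} (hx : ι x ∈ G.conn h) : x ∈ (G.restrict ι hι hg).conn h := by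
  rintro _ ⟨f, hf, rfl⟩ hf0
  refine hx f hf ?_
  simpa using hf0

/-- The image of a connected point is connected in the quotient model. -/
lemma conn_quot {M' : Type*} [AddCommGroup M'] [Finite M'] {g' : Γℚ → AddMonoid.End M'}
    (π : M →+ M') (hπ : Function.Surjective π) (hg : ∀ σ ∈ H, ∀ x, π (g σ x) = g' σ (π x))
    (h : IsPlace A p) {x : M} (hx : x ∈ G.conn h) : π x ∈ (G.quot h π hπ hg).conn h := by
  intro f hf hf0
  exact hx (pull (A := A) (H := H) π f) hf (by simpa using hf0)

/-- The connected points are stable under decomposition. -/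
lemma conn_stable_decomposition (h : IsPlace A p) {σ : Γℚ}
    (hσ : σ ∈ A.decompositionSubgroup ℚ) (hσH : σ ∈ H) {x : M} (hx : x ∈ G.conn h) :
    g σ x ∈ G.conn h := by
  intro f hf hf0
  have hxg := hx f hf hf0
  rw [← nonunit_iff_gt h] at hxg ⊢
  rw [G.equivariant f hf σ hσH]
  have hmem : ∀ y : ℚbar, σ y ∈ A ↔ y ∈ A := fun y => by
    have hA : σ • A = A := hσ
    have := ValuationSubring.smul_mem_pointwise_smul_iff (g := σ) (S := A) (x := y)
    rwa [hA] at this
  rcases eq_or_ne (f x) 0 with e | hne
  · rw [e, map_zero]; rwa [e] at hxg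
  have hiff : ∀ y : ℚbar, y ≠ 0 → (y ∈ A.nonunits ↔ y⁻¹ ∉ A) := fun y hy => by
    rw [A.mem_nonunits_iff, ← A.valuation_le_one_iff, map_inv₀, inv_le_one₀
      (zero_lt_iff.mpr (by simpa using hy)), not_le]
  rw [hiff _ hne] at hxg
  rw [hiff _ (by simpa using hne), ← map_inv₀, hmem]
  exact hxg

end Model

end Fermat.FLAT
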