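import Fermat.Agent.FLAT.ORD.Count
import Fermat.Agent.FLAT.SS.Count

/-!
# The flat tangent bound at `p`

`exists_flat_tangent_invariant`, the output of `FLAT/SS` and `FLAT/ORD`: for a residual
representation with cyclotomic determinant on inertia, flat adjoint cocycles fall into at most
`|H⁰(D, ad⁰)| |k|` classes modulo coboundaries, by `SS/Count` if it is irreducible on decomposition
and `ORD/Count` if not. `GR/RT/FlatProofBound` turns it into the bound on the flat condition.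
-/

set_option autoImplicit false
set_option linter.unusedSectionVars false

noncomputable section

open Fermat.EC.Val Matrix

namespace Fermat.FLAT

local notation "ℚbar" => AlgebraicClosure ℚ
local notation "Γℚ" => (AlgebraicClosure ℚ ≃ₐ[ℚ] AlgebraicClosure ℚ)

variable {p : ℕ} [hp : Fact p.Prime] {A : ValuationSubring ℚbar}
  {k : Type*} [Field k] [CharP k p] [Finite k]

/-- Conjugation of a representation. -/
def conjHom (r : Γℚ →* Matrix (Fin 2) (Fin 2) k) {P Q : Matrix (Fin 2) (Fin 2) k} (hPQ : P * Q = 1)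
    (hQP : Q * P = 1) : Γℚ →* Matrix (Fin 2) (Fin 2) k where
  toFun σ := Q * r σ * P
  map_one' := by rw [map_one, mul_one, hQP]
  map_mul' σ τ := by
    rw [map_mul]
    calc Q * (r σ * r τ) * P = Q * r σ * (P * Q) * r τ * P := by rw [hPQ]; simp [mul_assoc]
      _ = _ := by simp [mul_assoc]

/-- The values of `conjHom`. -/
lemma conjHom_apply (r : Γℚ →* Matrix (Fin 2) (Fin 2) k) {P Q : Matrix (Fin 2) (Fin 2) k}
    (hPQ : P * Q = 1) (hQP : Q * P = 1) (σ : Γℚ) : conjHom r hPQ hQP σ = Q * r σ * P := rfl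

/-- Conjugation keeps the trace. -/
lemma trace_QXP {P Q : Matrix (Fin 2) (Fin 2) k} (hPQ : P * Q = 1)
    (X : Matrix (Fin 2) (Fin 2) k) : (Q * X * P).trace = X.trace := by
  rw [Matrix.trace_mul_comm, ← mul_assoc, hPQ, one_mul]

/-- A change of basis does not enlarge the invariants. -/
lemma card_adInvariants_conjHom_le (r : Γℚ →* Matrix (Fin 2) (Fin 2) k)
    {P Q : Matrix (Fin 2) (Fin 2) k} (hPQ : P * Q = 1) (hQP : Q * P = 1) :
    Nat.card (adInvariants A (conjHom r hPQ hQP)) ≤ Nat.card (adInvariants A r) := by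
  refine Nat.card_le_card_of_injective
    (fun X => (⟨P * X.1 * Q, ⟨?_, fun σ hσ => ?_⟩⟩ : adInvariants A r)) fun X Y e => ?_
  · rw [trace_QXP hQP, X.2.1]
  · have h1 := congrArg (fun Z => P * Z * Q) (X.2.2 σ hσ)
    simp only [conjHom_apply] at h1
    calc r σ * (P * X.1 * Q) = P * (Q * r σ * P * X.1) * Q := by
          simp only [← mul_assoc, hPQ, one_mul]
      _ = P * (X.1 * (Q * r σ * P)) * Q := h1
      _ = P * X.1 * Q * r σ * (P * Q) := by simp [mul_assoc]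
      _ = P * X.1 * Q * r σ := by rw [hPQ, mul_one]
  · have h1 := congrArg (fun Z => Q * Z * P) (congrArg Subtype.val e)
    simp only [← mul_assoc, hQP, one_mul] at h1
    simp only [mul_assoc, hQP, mul_one] at h1
    exact Subtype.ext h1

/-- Flat cocycles in a new basis. -/
lemma IsFlatCocycle.conj {r : Γℚ →* Matrix (Fin 2) (Fin 2) k} {c : Γℚ → Matrix (Fin 2) (Fin 2) k}
    (hc : IsFlatCocycle A r c) {P Q : Matrix (Fin 2) (Fin 2) k} (hPQ : P * Q = 1)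
    (hQP : Q * P = 1) :
    IsFlatCocycle A (conjHom r hPQ hQP) (fun σ => Q * c σ * P) := by
  have hcancel : ∀ X Y : Matrix (Fin 2) (Fin 2) k, Q * X * P * (Q * Y * P) = Q * (X * Y) * P :=
    fun X Y => by
      calc Q * X * P * (Q * Y * P) = Q * X * (P * Q) * Y * P := by simp [mul_assoc]
        _ = _ := by rw [hPQ]; simp [mul_assoc]
  obtain ⟨hA, ⟨G⟩⟩ := hc
  refine ⟨⟨fun σ hσ => by rw [trace_QXP hPQ, hA.trace_eq σ hσ], fun σ hσ τ hτ => ?_, ?_⟩, ?_⟩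
  · rw [hA.map_mul σ hσ τ hτ, conjHom_apply, conjHom_apply, hcancel, hcancel, mul_add, add_mul]
  · obtain ⟨L, h₁, h₂, h₃⟩ := hA.level
    exact ⟨L, h₁, h₂, fun τ hτ hτL => by simp [h₃ τ hτ hτL]⟩
  let ι : (Fin 2 → k) × (Fin 2 → k) →+ (Fin 2 → k) × (Fin 2 → k) :=
    AddMonoidHom.mk' (fun x => (P *ᵥ x.1, P *ᵥ x.2)) fun x y => by
      simp only [Prod.fst_add, Prod.snd_add, Matrix.mulVec_add, Prod.mk_add_mk]
  have hinj : Function.Injective fun v : Fin 2 → k => P *ᵥ v := fun v w e => by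
    have := congrArg (Q *ᵥ ·) e
    simp only [Matrix.mulVec_mulVec, hQP, Matrix.one_mulVec] at this
    exact this
  refine ⟨G.restrict ι (fun a b hab => Prod.ext (hinj (congrArg Prod.fst hab :))
    (hinj (congrArg Prod.snd hab :))) fun σ _ x => ?_⟩
  obtain ⟨v, w⟩ := x
  have e : ∀ X : Matrix (Fin 2) (Fin 2) k, ∀ u, P *ᵥ ((Q * X * P) *ᵥ u) = X *ᵥ (P *ᵥ u) :=
    fun X u => by
      rw [Matrix.mulVec_mulVec, Matrix.mulVec_mulVec, ← mul_assoc, ← mul_assoc, hPQ, one_mul]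
  change (P *ᵥ (conjHom r hPQ hQP σ *ᵥ v + (Q * c σ * P) *ᵥ (conjHom r hPQ hQP σ *ᵥ w)),
      P *ᵥ (conjHom r hPQ hQP σ *ᵥ w)) = _
  simp only [conjHom_apply, Matrix.mulVec_add, e]
  rfl

/-- The entries of an upper triangular matrix conjugated by `!![1, t; 0, 1]`. -/
lemma unipotent_conj (M : Matrix (Fin 2) (Fin 2) k) (t : k) (hM : M 1 0 = 0) :
    (!![1, -t; 0, 1] * M * !![1, t; 0, 1]) 1 0 = 0 ∧
      (!![1, -t; 0, 1] * M * !![1, t; 0, 1]) 0 0 = M 0 0 ∧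
      (!![1, -t; 0, 1] * M * !![1, t; 0, 1]) 1 1 = M 1 1 ∧
      (!![1, -t; 0, 1] * M * !![1, t; 0, 1]) 0 1 = M 0 1 + t * (M 0 0 - M 1 1) := by
  simp only [Matrix.mul_apply, Fin.sum_univ_two, Matrix.of_apply, Matrix.cons_val',
    Matrix.cons_val_zero, Matrix.cons_val_one, hM]
  refine ⟨by ring, by ring, by ring, by ring⟩

/-- The cyclotomic character is not trivial at a move by a primitive root of unity of order
`p - 1`. -/
private lemma cycNat_move_ne_one (h : IsPlace A p) (hp2 : p ≠ 2) {π z : ℚbar}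
    (hπ : π ^ (p - 1) = (p : ℚbar)) (hz : IsPrimitiveRoot z (p - 1)) {γ : Γℚ}
    (hγ : γ ∈ A.inertiaSubgroupIn ℚ) (hγπ : γ π = z * π) : (cycNat p γ : k) ≠ 1 := by
  intro e
  have h1 : ((Fermat.CFT.cycChar p γ : (ZMod p)ˣ) : ZMod p) = 1 :=
    (ZMod.castHom (dvd_refl p) k).injective (by
      rw [map_one, ← e, cycNat, ← map_natCast (ZMod.castHom (dvd_refl p) k), ZMod.natCast_zmod_val])
  have h2 := cycChar_cast_eq_psi h hγ hπ
  have : Fact (1 < p) := ⟨hp.out.one_lt⟩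
  rw [h1, ZMod.val_one, Nat.cast_one, psi, hγπ,
    mul_div_cancel_right₀ _ (is_pi h sub_one_ne_zero' hπ).1] at h2
  have h3 := red_root_eq_one h not_dvd_sub_one hz.pow_eq_one h2.symm
  rw [h3] at hz
  have := hz.eq_orderOf
  rw [orderOf_one] at this
  have := hp.out.two_le
  omega

/-- A unipotent change keeps a basis a basis. -/
lemma unipotent_basis {P Q : Matrix (Fin 2) (Fin 2) k} (hPQ : P * Q = 1) (t : k) :
    P * !![1, t; 0, 1] * (!![1, -t; 0, 1] * Q) = 1 := by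
  have hTT : (!![1, t; 0, 1] : Matrix (Fin 2) (Fin 2) k) * !![1, -t; 0, 1] = 1 := by
    ext i j
    fin_cases i <;> fin_cases j <;> simp [Matrix.mul_apply, Fin.sum_univ_two]
  rw [mul_assoc, ← mul_assoc !![1, t; 0, 1], hTT, one_mul, hPQ]

/-- **A basis for the data**: a unipotent change of a triangular basis makes the move `γ`
diagonal. -/
theorem exists_ordData (r : Γℚ →* Matrix (Fin 2) (Fin 2) k) (h : IsPlace A p) (hp2 : p ≠ 2)
    (P₁ Q₁ : Matrix (Fin 2) (Fin 2) k)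
    (hlow : ∀ σ ∈ A.decompositionSubgroup ℚ, (Q₁ * r σ * P₁) 1 0 = 0)
    (hin : ∀ σ ∈ A.inertiaSubgroupIn ℚ,
      (Q₁ * r σ * P₁) 1 1 = 1 ∧ (Q₁ * r σ * P₁) 0 0 = (cycNat p σ : k)) :
    ∃ t : k, ∀ (hPQ : P₁ * !![1, t; 0, 1] * (!![1, -t; 0, 1] * Q₁) = 1)
      (hQP : !![1, -t; 0, 1] * Q₁ * (P₁ * !![1, t; 0, 1]) = 1),
      Nonempty (OrdData p A (conjHom r hPQ hQP)) := by
  have hp0 : p - 1 ≠ 0 := sub_one_ne_zero'
  obtain ⟨π, hπ⟩ := exists_pi p (p - 1) hp0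
  have : NeZero ((p - 1 : ℕ) : ℚbar) := ⟨Nat.cast_ne_zero.mpr hp0⟩
  have : NeZero (p - 1) := ⟨hp0⟩
  obtain ⟨z, hz⟩ := HasEnoughRootsOfUnity.exists_primitiveRoot ℚbar (p - 1)
  obtain ⟨ξ, hξ⟩ := Fermat.EC.Cyclo.exists_zeta hp.out
  obtain ⟨γ, hγ, hγπ⟩ := exists_move h not_dvd_sub_one hπ hz.pow_eq_one
  obtain ⟨φ, hφ, hφπ⟩ := exists_frob_fixing h not_dvd_sub_one hπ
  have hI := inertia_le_decomposition A
  set χ : k := (cycNat p γ : k)
  have hχ1 : χ - 1 ≠ 0 := sub_ne_zero.mpr (cycNat_move_ne_one h hp2 hπ hz hγ hγπ)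
  refine ⟨-((Q₁ * r γ * P₁) 0 1 / (χ - 1)), fun hPQ hQP => ?_⟩
  set t : k := -((Q₁ * r γ * P₁) 0 1 / (χ - 1)) with ht
  have hr'e : ∀ σ, conjHom r hPQ hQP σ = !![1, -t; 0, 1] * (Q₁ * r σ * P₁) * !![1, t; 0, 1] :=
    fun σ => by simp [conjHom_apply, mul_assoc]
  refine ⟨⟨π, z, ξ, γ, φ, h, hp2, hπ, hz, hξ, hγ, hγπ, hφ, hφπ,
    fun σ hσ => ?_, fun σ hσ => ?_, fun σ hσ => ?_, ?_⟩⟩
  · rw [hr'e]
    exact (unipotent_conj _ t (hlow σ hσ)).1
  · rw [hr'e]
    exact (unipotent_conj _ t (hlow σ (hI hσ))).2.2.1.trans (hin σ hσ).1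
  · rw [hr'e]
    exact (unipotent_conj _ t (hlow σ (hI hσ))).2.1.trans (hin σ hσ).2
  · rw [hr'e]
    refine (unipotent_conj _ t (hlow γ (hI hγ))).2.2.2.trans ?_
    rw [(hin γ hγ).1, show (Q₁ * r γ * P₁) 0 0 = χ from (hin γ hγ).2, ht, neg_mul,
      div_mul_cancel₀ _ hχ1, add_neg_cancel]

/-- A coboundary in a new basis is a coboundary. -/
private lemma isAdCoboundary_of_conj {r : Γℚ →* Matrix (Fin 2) (Fin 2) k}
    {P Q : Matrix (Fin 2) (Fin 2) k} (hPQ : P * Q = 1) (hQP : Q * P = 1)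
    {c c' : Γℚ → Matrix (Fin 2) (Fin 2) k}
    (hcob : IsAdCoboundary A (conjHom r hPQ hQP)
      ((fun σ => Q * c σ * P) - fun σ => Q * c' σ * P)) :
    IsAdCoboundary A r (c - c') := by
  obtain ⟨X, hX, hXe⟩ := hcob
  have hback : ∀ X : Matrix (Fin 2) (Fin 2) k, P * (Q * X * P) * Q = X := fun X => by
    calc P * (Q * X * P) * Q = P * Q * X * (P * Q) := by simp [mul_assoc]
      _ = X := by rw [hPQ, one_mul, mul_one]
  refine ⟨P * X * Q, by rw [trace_QXP hQP, hX], fun σ hσ => ?_⟩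
  have h1 := congrArg (fun Z => P * Z * Q) (hXe σ hσ)
  have h2 : P * ((fun σ => Q * c σ * P) - fun σ => Q * c' σ * P) σ * Q = (c - c') σ := by
    change P * (Q * c σ * P - Q * c' σ * P) * Q = c σ - c' σ
    rw [mul_sub, sub_mul, hback, hback]
  rw [← h2]
  refine h1.trans ?_
  show P * (conjHom r hPQ hQP σ * X * conjHom r hPQ hQP σ⁻¹ - X) * Q
    = r σ * (P * X * Q) * r σ⁻¹ - P * X * Q
  rw [conjHom_apply, conjHom_apply, mul_sub, sub_mul]
  congr 1
  calc P * (Q * r σ * P * X * (Q * r σ⁻¹ * P)) * Q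
      = P * Q * r σ * (P * X * Q) * r σ⁻¹ * (P * Q) := by simp [mul_assoc]
    _ = r σ * (P * X * Q) * r σ⁻¹ := by rw [hPQ, one_mul, mul_one]

/-- **The flat tangent bound**: flat cocycles fall into at most `|H⁰(D, ad⁰)| |k|` classes modulo
coboundaries. -/
theorem exists_flat_tangent_invariant (r : Γℚ →* Matrix (Fin 2) (Fin 2) k)
    (L : IntermediateField ℚ ℚbar) [FiniteDimensional ℚ L] [Normal ℚ L]
    (hL : ∀ σ ∈ L.fixingSubgroup, r σ = 1) (h : IsPlace A p) (hp2 : p ≠ 2)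
    (hdet : ∀ σ ∈ A.inertiaSubgroupIn ℚ,
      (r σ).det = (((Fermat.CFT.cycChar p σ : (ZMod p)ˣ) : ZMod p).val : k)) :
    ∃ n : ℕ, n ≤ Nat.card (adInvariants A r) * Nat.card k ∧
      ∃ Θ : (Γℚ → Matrix (Fin 2) (Fin 2) k) → Fin n, ∀ c c', IsFlatCocycle A r c →
        IsFlatCocycle A r c' → Θ c = Θ c' → IsAdCoboundary A r (c - c') := by
  classical
  have : NeZero p := ⟨hp.out.ne_zero⟩
  have hinv : 0 < Nat.card (adInvariants A r) := by
    have : Nonempty (adInvariants A r) := ⟨⟨0, by simp [adInvariants]⟩⟩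
    exact Nat.card_pos
  by_cases hirr : DecompIrred A r
  · obtain ⟨R, hfin, Θ, hR, hΘ⟩ := exists_flat_invariant r L hL h hp2 hirr hdet
    exact ⟨Nat.card R, hR.trans (Nat.le_mul_of_pos_left _ hinv), fun c => Finite.equivFin R (Θ c),
      fun c c' hc hc' e => hΘ c c' hc hc' ((Finite.equivFin R).injective e)⟩
  by_cases hex : ∃ c, IsFlatCocycle A r c
  swap
  · exact ⟨1, Nat.one_le_iff_ne_zero.mpr (Nat.mul_pos hinv Nat.card_pos).ne', fun _ => 0,
      fun c c' hc => absurd ⟨c, hc⟩ hex⟩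
  obtain ⟨c₀, hc₀⟩ := hex
  obtain ⟨G⟩ := hc₀.2
  have G₀ : Model A (A.decompositionSubgroup ℚ) (resAct r) :=
    G.restrict (AddMonoidHom.inl (Fin 2 → k) (Fin 2 → k)) (fun a b hab => congrArg Prod.fst hab)
      fun σ _ x => by simp
  obtain ⟨P₁, Q₁, hPQ₁, hQP₁, hlow, hin⟩ := exists_ordinary_basis r L hL h hp2 hdet G₀ hirr
  obtain ⟨t, ht⟩ := exists_ordData r h hp2 P₁ Q₁ hlow hin
  set P := P₁ * !![1, t; 0, 1]
  set Q := !![1, -t; 0, 1] * Q₁
  have hPQ : P * Q = 1 := unipotent_basis hPQ₁ t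
  have hQP : Q * P = 1 := mul_eq_one_comm.mp hPQ
  obtain ⟨D⟩ := ht hPQ hQP
  have hL' : ∀ σ ∈ L.fixingSubgroup, conjHom r hPQ hQP σ = 1 := fun σ hσ => by
    rw [conjHom_apply, hL σ hσ, mul_one, hQP]
  obtain ⟨n, hn, Θ, hΘ⟩ := D.exists_invariant L hL' (hc₀.conj hPQ hQP)
  exact ⟨n, hn.trans (Nat.mul_le_mul_right _ (card_adInvariants_conjHom_le r hPQ hQP)),
    fun c => Θ fun σ => Q * c σ * P, fun c c' hc hc' e =>
      isAdCoboundary_of_conj hPQ hQP (hΘ _ _ (hc.conj hPQ hQP) (hc'.conj hPQ hQP) e)⟩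

end Fermat.FLAT
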