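import Fermat.Agent.FLAT.Gens
import Fermat.Agent.FLAT.SS.Data
import Mathlib.RingTheory.RootsOfUnity.PrimitiveRoots

/-!
# Unramified twists of models

A model twisted by an unramified action of finite order is a model: the twisted functions are
spanned over the place by averages weighted by powers of the roots of unity of order `p ^ m - 1`.
-/

set_option autoImplicit false

noncomputable section

open Fermat.EC.Val IsLocalRing

namespace Fermat.FLAT

local notation "ℚbar" => AlgebraicClosure ℚ
local notation "Γℚ" => (AlgebraicClosure ℚ ≃ₐ[ℚ] AlgebraicClosure ℚ)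

variable {p : ℕ} [hp : Fact p.Prime] {A : ValuationSubring ℚbar} {H : Subgroup Γℚ}

/-- Elements of the place with distinct residues interpolate the indicator of one of them. -/
lemma exists_interpolation {m : ℕ} (w : Fin m → A)
    (hw : Function.Injective fun i => residue A (w i)) (i₀ : Fin m) :
    ∃ l : Fin m → A, ∀ i, ∑ j, l j * w i ^ (j : ℕ) = if i = i₀ then 1 else 0 := by
  classical
  set u : A := ∏ k ∈ Finset.univ.erase i₀, (w i₀ - w k) with hu
  have hunit : IsUnit u := by
    rw [← residue_ne_zero_iff_isUnit, hu, map_prod, Finset.prod_ne_zero_iff]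
    intro k hk
    rw [map_sub, sub_ne_zero]
    exact fun e => (Finset.mem_erase.mp hk).1 (hw e).symm
  set P : Polynomial A := ∏ k ∈ Finset.univ.erase i₀, (Polynomial.X - Polynomial.C (w k))
  have hdeg : P.natDegree < m := by
    refine lt_of_le_of_lt (Polynomial.natDegree_prod_le _ _) ?_
    simp only [Polynomial.natDegree_X_sub_C, Finset.sum_const, smul_eq_mul, mul_one,
      Finset.card_erase_of_mem (Finset.mem_univ i₀), Finset.card_univ, Fintype.card_fin]
    have := i₀.isLt
    omega
  refine ⟨fun j => ((hunit.unit⁻¹ : Aˣ) : A) * P.coeff j, fun i => ?_⟩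
  have h1 : ∑ j : Fin m, P.coeff j * w i ^ (j : ℕ) = P.eval (w i) := by
    rw [Polynomial.eval_eq_sum_range' hdeg,
      Fin.sum_univ_eq_sum_range (fun j => P.coeff j * w i ^ j)]
  simp only [mul_assoc, ← Finset.mul_sum, h1, P, Polynomial.eval_prod, Polynomial.eval_sub,
    Polynomial.eval_X, Polynomial.eval_C]
  split_ifs with hi
  · subst hi
    exact IsUnit.val_inv_mul hunit
  · rw [Finset.prod_eq_zero (Finset.mem_erase.mpr ⟨hi, Finset.mem_univ i⟩) (sub_self _), mul_zero]

/-- The span over the place of an algebra over the fixed ring contains the algebra over the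
place. -/
lemma adjoin_le_span {N : Type*} {s : Set (N → ℚbar)} {F : N → ℚbar}
    (hF : F ∈ Algebra.adjoin A s) :
    F ∈ Submodule.span A (Algebra.adjoin (Rfix A H) s : Set (N → ℚbar)) := by
  have h1 : F ∈ Submodule.span A (Submonoid.closure s : Set (N → ℚbar)) := by
    rw [← Algebra.adjoin_eq_span]; exact hF
  refine Submodule.span_mono ?_ h1
  have : Submonoid.closure s ≤ (Algebra.adjoin (Rfix A H) s).toSubsemiring.toSubmonoid :=
    Submonoid.closure_le.mpr Algebra.subset_adjoin
  exact this

/-- Conjugate roots of unity depend only on the exponent modulo `m`. -/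
private lemma pow_pow_val_natCast {ζ : ℚbar} {m : ℕ} [NeZero m]
    (hζ : IsPrimitiveRoot ζ (p ^ m - 1)) (b : ℕ) :
    ζ ^ p ^ b = ζ ^ p ^ (b : ZMod m).val := by
  have hper : ∀ c : ℕ, ζ ^ p ^ (c + m) = ζ ^ p ^ c := fun c => by
    rw [pow_add, mul_comm, pow_mul]
    congr 1
    have := Nat.one_le_pow m p hp.out.pos
    conv_lhs => rw [show p ^ m = (p ^ m - 1) + 1 by omega, pow_succ, hζ.pow_eq_one, one_mul]
  rw [ZMod.val_natCast]
  exact (Function.Periodic.map_mod_nat (f := fun c => ζ ^ p ^ c) hper b).symm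

/-- The conjugate roots of unity have distinct residues. -/
private lemma red_conj_root_injective (h : IsPlace A p) (hp2 : p ≠ 2) {ζ : ℚbar} {m : ℕ}
    [NeZero m] (hζ : IsPrimitiveRoot ζ (p ^ m - 1)) :
    Function.Injective fun a : ZMod m => red A (ζ ^ p ^ a.val) := by
  intro a b hab
  have hm : m ≠ 0 := NeZero.ne m
  have hpm : 1 < p ^ m := Nat.one_lt_pow hm hp.out.one_lt
  have hN0 : p ^ m - 1 ≠ 0 := by omega
  have hNd : ¬ p ∣ p ^ m - 1 := fun hd => by
    have h3 := Nat.dvd_sub (dvd_pow_self p hm) hd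
    rw [Nat.sub_sub_self hpm.le] at h3
    exact hp.out.not_dvd_one h3
  have hroot : ∀ c : ℕ, (ζ ^ c) ^ (p ^ m - 1) = 1 := fun c => by
    rw [← pow_mul, mul_comm, pow_mul, hζ.pow_eq_one, one_pow]
  have hb := is_root_unity h hN0 (hroot (p ^ b.val))
  have hq : (ζ ^ p ^ a.val / ζ ^ p ^ b.val) ^ (p ^ m - 1) = 1 := by
    rw [div_pow, hroot, hroot, div_one]
  have h2 : red A (ζ ^ p ^ a.val / ζ ^ p ^ b.val) = 1 := by
    have h3 := red_mul h (is_root_unity h hN0 hq).ge hb.ge
    rw [div_mul_cancel₀ _ hb.1, show red A _ = _ from hab] at h3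
    have h0 : red A (ζ ^ p ^ b.val) ≠ 0 := fun e0 =>
      hb.not_gt ((red_eq_zero_iff h hb.ge).mp e0)
    exact mul_right_cancel₀ h0 (h3.symm.trans (one_mul _).symm)
  have h4 := red_root_eq_one h hNd hq h2
  rw [div_eq_one_iff_eq hb.1] at h4
  have hlt : ∀ c : ZMod m, p ^ c.val < p ^ m - 1 := fun c => by
    have h5 : p ^ c.val ≤ p ^ (m - 1) :=
      Nat.pow_le_pow_right hp.out.pos (by have := c.val_lt; omega)
    have h6 : p ^ m = p ^ (m - 1) * p := by
      rw [← pow_succ]; congr 1; omega
    have h8 : p ^ (m - 1) * 3 ≤ p ^ (m - 1) * p :=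
      Nat.mul_le_mul_left _ (by have := hp.out.two_le; omega)
    have h9 : 1 ≤ p ^ (m - 1) := Nat.one_le_pow _ _ hp.out.pos
    omega
  exact ZMod.val_injective m
    (Nat.pow_right_injective hp.out.two_le (hζ.pow_inj (hlt a) (hlt b) h4))

/-- An additive map commuting with `a` has powers commuting with `a`. -/
private lemma pow_apply_comm {N : Type*} [AddCommGroup N] {u a : AddMonoid.End N}
    (hc : ∀ x, u (a x) = a (u x)) (k : ℕ) (x : N) : (u ^ k) (a x) = a ((u ^ k) x) := by
  induction k generalizing x with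
  | zero => rfl
  | succ k ih =>
    rw [pow_succ]
    change (u ^ k) (u (a x)) = a ((u ^ k) (u x))
    rw [hc, ih]

/-- Powers of a map of finite order add their exponents modulo the order. -/
private lemma pow_val_pow_apply {N : Type*} [AddCommGroup N] {u : AddMonoid.End N} {m : ℕ}
    [NeZero m] (hu : u ^ m = 1) (i : ZMod m) (n : ℕ) (x : N) :
    (u ^ i.val) ((u ^ n) x) = (u ^ (i + n).val) x := by
  change (u ^ i.val * u ^ n) x = _
  rw [← pow_add, pow_eq_pow_mod (i.val + n) hu, ZMod.val_add, ZMod.val_natCast, Nat.add_mod_mod]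

/-- The sums of the translates of functions weighted by powers of elements of the place. -/
private def twistGens {N : Type*} {m : ℕ} [NeZero m] (w : ZMod m → A) (U : ZMod m → N → N)
    (S : Finset (N → ℚbar)) : Set (N → ℚbar) :=
  ⋃ j : Fin m, (fun f x => ∑ i, (w i : ℚbar) ^ (j : ℕ) * f (U i x)) '' (S : Set (N → ℚbar))

/-- Each translate is a combination of the weighted sums. -/
private lemma exists_twist_coeff {N : Type*} {m : ℕ} [NeZero m] (w : ZMod m → A)
    (hw : Function.Injective fun i => residue A (w i)) (U : ZMod m → N → N) (i₀ : ZMod m) :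
    ∃ l : Fin m → A, ∀ (f : N → ℚbar) (x : N),
      f (U i₀ x) = ∑ j : Fin m, (l j : ℚbar) * ∑ i, (w i : ℚbar) ^ (j : ℕ) * f (U i x) := by
  set ν : Fin m ≃ ZMod m := (Fintype.equivFinOfCardEq (ZMod.card m)).symm
  obtain ⟨l, hl⟩ := exists_interpolation (fun k => w (ν k)) (hw.comp ν.injective) (ν.symm i₀)
  have hl' : ∀ i, ∑ j : Fin m, (l j : ℚbar) * (w i : ℚbar) ^ (j : ℕ) =
      if i = i₀ then 1 else 0 := fun i => by
    have h2 := congrArg (fun a : A => (a : ℚbar)) (hl (ν.symm i))
    simp only [ν.apply_symm_apply, ν.symm.injective.eq_iff] at h2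
    push_cast at h2
    rw [h2]
    split_ifs <;> rfl
  refine ⟨l, fun f x => ?_⟩
  simp only [Finset.mul_sum, ← mul_assoc]
  rw [Finset.sum_comm]
  simp only [← Finset.sum_mul, hl', ite_mul, one_mul, zero_mul, Finset.sum_ite_eq',
    Finset.mem_univ, if_true]

/-- Translates of functions spanned by `S` lie in the algebra generated by the weighted sums. -/
private lemma comp_mem_adjoin_twistGens {N : Type*} {m : ℕ} [NeZero m] (w : ZMod m → A)
    (hw : Function.Injective fun i => residue A (w i)) (U : ZMod m → N → N)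
    {S : Finset (N → ℚbar)} (i₀ : ZMod m) {f : N → ℚbar}
    (hf : f ∈ Submodule.span (Rfix A H) (S : Set (N → ℚbar))) :
    (fun x => f (U i₀ x)) ∈ Algebra.adjoin A (twistGens w U S) := by
  induction hf using Submodule.span_induction with
  | mem f hf =>
    obtain ⟨l, hl⟩ := exists_twist_coeff w hw U i₀
    have : (fun x => f (U i₀ x)) =
        ∑ j : Fin m, l j • fun x => ∑ i, (w i : ℚbar) ^ (j : ℕ) * f (U i x) := by
      funext x
      rw [hl f x, Finset.sum_apply]
      rfl
    rw [this]
    exact sum_mem fun j _ => Subalgebra.smul_mem _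
      (Algebra.subset_adjoin (s := twistGens w U S) (Set.mem_iUnion.mpr ⟨j, f, hf, rfl⟩)) _
  | zero => exact zero_mem _
  | add a b _ _ ha hb => exact add_mem ha hb
  | smul c a _ ha =>
    exact (Algebra.adjoin A _).smul_mem ha (show A from ⟨algebraMap (Rfix A H) ℚbar c, c.2.1⟩)

/-- Pulling the algebra back along a projection. -/
private lemma comp_proj_mem_adjoin {N : Type*} {s : Set (N → ℚbar)} (π : N × N → N)
    (hπ : (fun a : N → ℚbar => fun z => a (π z)) '' s ⊆ pairGens s) {a : N → ℚbar}
    (ha : a ∈ Algebra.adjoin A s) :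
    (fun z : N × N => a (π z)) ∈ Algebra.adjoin A (pairGens s) := by
  induction ha using Algebra.adjoin_induction with
  | mem a ha => exact Algebra.subset_adjoin (hπ ⟨a, ha, rfl⟩)
  | algebraMap c => exact Subalgebra.algebraMap_mem _ c
  | add a b _ _ ia ib => exact add_mem ia ib
  | mul a b _ _ ia ib => exact mul_mem ia ib

/-- Functions in the algebra agree on points which the generators do not separate. -/
private lemma apply_eq_of_mem_adjoin {N : Type*} {s : Set (N → ℚbar)} {x y : N}
    (hxy : ∀ f ∈ s, f x = f y) {a : N → ℚbar} (ha : a ∈ Algebra.adjoin A s) : a x = a y := by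
  induction ha using Algebra.adjoin_induction with
  | mem a ha => exact hxy a ha
  | algebraMap c => rfl
  | add a b _ _ ia ib => rw [Pi.add_apply, Pi.add_apply, ia, ib]
  | mul a b _ _ ia ib => rw [Pi.mul_apply, Pi.mul_apply, ia, ib]

variable {M : Type*} [AddCommGroup M] [Finite M] {g g' : Γℚ → AddMonoid.End M}

namespace Model

omit [Finite M] in
/-- The translated weighted sums decompose over the place. -/
private lemma twist_comul (G : Model A H g) {m : ℕ} [NeZero m] (w : ZMod m → A)
    (hw : Function.Injective fun i => residue A (w i)) (U : ZMod m → AddMonoid.End M)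
    {S : Finset (M → ℚbar)} (hS : Submodule.span (Rfix A H) (S : Set (M → ℚbar)) =
      Subalgebra.toSubmodule G.O) {F : M → ℚbar} (hF : F ∈ twistGens w (fun i => U i) S) :
    (fun z : M × M => F (z.1 + z.2)) ∈ Submodule.span A
      (Algebra.adjoin (Rfix A H) (pairGens (twistGens w (fun i => U i) S)) :
        Set (M × M → ℚbar)) := by
  obtain ⟨j, f, hf, rfl⟩ := Set.mem_iUnion.mp hF
  refine adjoin_le_span ?_
  obtain ⟨n, a, b, hab, hc⟩ := G.comul f (hS.le (Submodule.subset_span hf))
  have hd : (fun z : M × M => ∑ i, (w i : ℚbar) ^ (j : ℕ) * f (U i (z.1 + z.2))) =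
      ∑ i, (w i ^ (j : ℕ)) • ∑ t, (fun z : M × M => a t (U i z.1)) *
        (fun z : M × M => b t (U i z.2)) := by
    funext z
    simp only [map_add, hc, Finset.sum_apply, Pi.smul_apply, Pi.mul_apply]
    exact Finset.sum_congr rfl fun i _ => rfl
  change (fun z : M × M => ∑ i, (w i : ℚbar) ^ (j : ℕ) * f (U i (z.1 + z.2))) ∈ _
  rw [hd]
  refine sum_mem fun i _ => Subalgebra.smul_mem _ (sum_mem fun t _ => mul_mem ?_ ?_) _
  · exact comp_proj_mem_adjoin Prod.fst Set.subset_union_left
      (comp_mem_adjoin_twistGens w hw _ i (hS.ge (hab t).1))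
  · exact comp_proj_mem_adjoin Prod.snd Set.subset_union_right
      (comp_mem_adjoin_twistGens w hw _ i (hS.ge (hab t).2))

/-- **Unramified twists** of a model by an endomorphism of finite order commuting with the action
have models. -/
theorem nonempty_twist (G : Model A H g) (h : IsPlace A p) (hp2 : p ≠ 2) (u : AddMonoid.End M)
    {m : ℕ} (hm : m ≠ 0) (hu : u ^ m = 1) (hug : ∀ σ ∈ H, ∀ x, u (g σ x) = g σ (u x))
    (h1 : g' 1 = 1) (hmul : ∀ σ ∈ H, ∀ τ ∈ H, g' (σ * τ) = g' σ * g' τ)
    {ζ : ℚbar} (hζ : IsPrimitiveRoot ζ (p ^ m - 1))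
    (hσ : ∀ σ ∈ H, ∃ n : ℕ, (∀ x, g' σ x = g σ ((u ^ n) x)) ∧ σ ζ = ζ ^ p ^ n) :
    Nonempty (Model A H g') := by
  have : NeZero m := ⟨hm⟩
  have hN0 : p ^ m - 1 ≠ 0 := by
    have := Nat.one_lt_pow hm hp.out.one_lt
    omega
  have heA : ∀ a : ZMod m, ζ ^ p ^ a.val ∈ A := fun a =>
    (mem_iff_ge h _).mpr (is_root_unity h hN0
      (by rw [← pow_mul, mul_comm, pow_mul, hζ.pow_eq_one, one_pow])).ge
  -- The conjugates of `ζ` have distinct residues, so their twisted sums can be generators.
  set w : ZMod m → A := fun i => ⟨ζ ^ p ^ (-i).val, heA _⟩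
  have hw : Function.Injective fun i => residue A (w i) := fun a b hab => by
    refine neg_injective (red_conj_root_injective h hp2 hζ ?_)
    change red A _ = red A _
    rw [red_of_mem (heA _), red_of_mem (heA _)]
    exact hab
  set U : ZMod m → AddMonoid.End M := fun i => u ^ i.val
  obtain ⟨S, hS⟩ := G.fg
  have hSO : ∀ f ∈ S, f ∈ G.O := fun f hf => hS.le (Submodule.subset_span hf)
  refine nonempty_of_gens h G.inertia_le h1 hmul (s := twistGens w (fun i => U i) S)
    (Set.finite_iUnion fun j => S.finite_toSet.image _) ?_ ?_ ?_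
    fun F hF => twist_comul G w hw U hS hF
  -- The generators are integral.
  · intro F hF x
    obtain ⟨j, f, hf, rfl⟩ := Set.mem_iUnion.mp hF
    exact sum_mem fun i _ => mul_mem (pow_mem (w i).2 _)
      ((mem_iff_ge h _).mpr (G.ge_zero h (hSO f hf) _))
  -- They are equivariant for the twisted action: `σ` shifts the index by `n`.
  · intro F hF σ hσ' x
    obtain ⟨j, f, hf, rfl⟩ := Set.mem_iUnion.mp hF
    obtain ⟨n, hn, hζn⟩ := hσ σ hσ'
    change ∑ i, (ζ ^ p ^ (-i).val) ^ (j : ℕ) * f (U i (g' σ x)) =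
      σ (∑ i, (ζ ^ p ^ (-i).val) ^ (j : ℕ) * f (U i x))
    rw [map_sum, ← Equiv.sum_comp (Equiv.addRight ((n : ℕ) : ZMod m))
      (fun i => σ ((ζ ^ p ^ (-i).val) ^ (j : ℕ) * f (U i x)))]
    refine Finset.sum_congr rfl fun i _ => ?_
    rw [Equiv.coe_addRight, map_mul, map_pow, map_pow σ ζ, hζn, ← pow_mul ζ (p ^ n),
      ← pow_add, pow_pow_val_natCast (m := m) hζ (n + _), hn, pow_apply_comm (hug σ hσ'),
      pow_val_pow_apply hu, G.equivariant f (hSO f hf) σ hσ', Nat.cast_add,
      ZMod.natCast_zmod_val]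
    congr 5
    ring
  -- They separate points.
  · intro x y hxy
    refine G.separates x y fun f hf => ?_
    have h2 := apply_eq_of_mem_adjoin hxy
      (comp_mem_adjoin_twistGens w hw (fun i => U i) 0 (hS.ge hf))
    simpa [U] using h2

end Model

end Fermat.FLAT
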